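import Mathlib

set_option autoImplicit false

/-!
# S14, work package B3 (part 1): a second-order "logarithmic" invariant

`eta_R p = 𝔽_p[ε₁, ε₂]/(ε₁², ε₂²)` (iterated dual numbers).  For `x = a + b ε₁ + c ε₂ + d ε₁ε₂`
with `a ≠ 0` the quantity `eta_M x = (a d - b c) / a²` is additive in `x` (it is the mixed second
logarithmic derivative).  We evaluate it on `∑_{i<n} y^i`, `y = 1 + ε₁ + ε₂`.
-/

namespace Fermat.Agent.S14

open Finset

variable (p : ℕ)

/-- `𝔽_p[ε₁, ε₂]/(ε₁², ε₂²)`. -/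
abbrev eta_R : Type := DualNumber (DualNumber (ZMod p))

variable {p}

/-- constant coefficient -/
def eta_A (x : eta_R p) : ZMod p := x.fst.fst

/-- `a d - b c` -/
def eta_N (x : eta_R p) : ZMod p := x.fst.fst * x.snd.snd - x.fst.snd * x.snd.fst

theorem eta_A_one : eta_A (1 : eta_R p) = 1 := by
  simp [eta_A]

theorem eta_N_one : eta_N (1 : eta_R p) = 0 := by
  simp [eta_N]

theorem eta_A_mul (x y : eta_R p) : eta_A (x * y) = eta_A x * eta_A y := by
  simp [eta_A]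

theorem eta_N_mul (x y : eta_R p) :
    eta_N (x * y) = eta_A x ^ 2 * eta_N y + eta_A y ^ 2 * eta_N x := by
  simp only [eta_A, eta_N, TrivSqZeroExt.fst_mul, TrivSqZeroExt.snd_mul, smul_eq_mul,
    MulOpposite.smul_eq_mul_unop, MulOpposite.unop_op, TrivSqZeroExt.fst_add,
    TrivSqZeroExt.snd_add]
  ring

theorem eta_A_pow (x : eta_R p) (n : ℕ) : eta_A (x ^ n) = eta_A x ^ n := by
  induction n with
  | zero => simp [eta_A_one]
  | succ n ih => rw [pow_succ, eta_A_mul, ih, pow_succ]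

theorem eta_A_prod {ι : Type*} (s : Finset ι) (f : ι → eta_R p) :
    eta_A (∏ i ∈ s, f i) = ∏ i ∈ s, eta_A (f i) := by
  classical
  induction s using Finset.induction_on with
  | empty => simp [eta_A_one]
  | insert a s ha ih => rw [Finset.prod_insert ha, Finset.prod_insert ha, eta_A_mul, ih]

theorem eta_A_natCast (n : ℕ) : eta_A ((n : eta_R p)) = n := by
  simp [eta_A]

theorem eta_N_natCast (n : ℕ) : eta_N ((n : eta_R p)) = 0 := by
  simp [eta_N]

theorem eta_A_intCast (n : ℤ) : eta_A ((n : eta_R p)) = n := by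
  simp [eta_A]

theorem eta_N_intCast (n : ℤ) : eta_N ((n : eta_R p)) = 0 := by
  simp [eta_N]

variable [Fact p.Prime]

/-- the additive invariant `(a d - b c)/a²` -/
noncomputable def eta_M (x : eta_R p) : ZMod p := eta_N x / eta_A x ^ 2

theorem eta_M_one : eta_M (1 : eta_R p) = 0 := by
  simp [eta_M, eta_N_one]

theorem eta_M_mul {x y : eta_R p} (hx : eta_A x ≠ 0) (hy : eta_A y ≠ 0) :
    eta_M (x * y) = eta_M x + eta_M y := by
  unfold eta_M
  rw [eta_N_mul, eta_A_mul]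
  field_simp
  ring

theorem eta_M_pow {x : eta_R p} (hx : eta_A x ≠ 0) (n : ℕ) :
    eta_M (x ^ n) = n * eta_M x := by
  induction n with
  | zero => simp [eta_M_one]
  | succ n ih =>
    rw [pow_succ, eta_M_mul (by rw [eta_A_pow]; exact pow_ne_zero _ hx) hx, ih]
    push_cast; ring

theorem eta_M_prod {ι : Type*} (s : Finset ι) (f : ι → eta_R p)
    (hf : ∀ i ∈ s, eta_A (f i) ≠ 0) :
    eta_M (∏ i ∈ s, f i) = ∑ i ∈ s, eta_M (f i) := by
  classical
  induction s using Finset.induction_on with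
  | empty => simp [eta_M_one]
  | insert a s ha ih =>
    rw [Finset.prod_insert ha, Finset.sum_insert ha,
      eta_M_mul (hf a (Finset.mem_insert_self a s)) ?_,
      ih (fun i hi => hf i (Finset.mem_insert_of_mem hi))]
    rw [eta_A_prod]
    exact Finset.prod_ne_zero_iff.mpr (fun i hi => hf i (Finset.mem_insert_of_mem hi))

theorem eta_M_pow_p {x : eta_R p} (hx : eta_A x ≠ 0) : eta_M (x ^ p) = 0 := by
  rw [eta_M_pow hx, ZMod.natCast_self, zero_mul]

theorem eta_M_of_const {x : eta_R p} (m : ℤ) (hx : x = (m : eta_R p)) : eta_M x = 0 := by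
  rw [eta_M, hx, eta_N_intCast, zero_div]

/-! ### The element `y = 1 + ε₁ + ε₂` -/

variable (p) in
/-- `y = 1 + ε₁ + ε₂` -/
def eta_y : eta_R p :=
  TrivSqZeroExt.inl (TrivSqZeroExt.inl 1 + TrivSqZeroExt.inr 1) +
    TrivSqZeroExt.inr (TrivSqZeroExt.inl 1)

theorem eta_y_comp :
    (eta_y p).fst.fst = 1 ∧ (eta_y p).fst.snd = 1 ∧ (eta_y p).snd.fst = 1 ∧
      (eta_y p).snd.snd = 0 := by
  simp [eta_y]

theorem eta_y_pow_comp (i : ℕ) :
    (eta_y p ^ i).fst.fst = 1 ∧ (eta_y p ^ i).fst.snd = i ∧ (eta_y p ^ i).snd.fst = i ∧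
      (eta_y p ^ i).snd.snd = (i : ZMod p) * (i - 1) := by
  induction i with
  | zero => simp
  | succ i ih =>
    obtain ⟨h1, h2, h3, h4⟩ := ih
    obtain ⟨y1, y2, y3, y4⟩ := eta_y_comp (p := p)
    rw [pow_succ]
    simp only [TrivSqZeroExt.fst_mul, TrivSqZeroExt.snd_mul, smul_eq_mul,
      MulOpposite.smul_eq_mul_unop, MulOpposite.unop_op, TrivSqZeroExt.fst_add,
      TrivSqZeroExt.snd_add, h1, h2, h3, h4, y1, y2, y3, y4]
    push_cast
    refine ⟨by ring, by ring, by ring, by ring⟩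

/-- `∑_{i<n} i` in `ZMod p` -/
def eta_S1 (n : ℕ) : ZMod p := ∑ i ∈ range n, (i : ZMod p)

/-- `∑_{i<n} i (i - 1)` in `ZMod p` -/
def eta_S2 (n : ℕ) : ZMod p := ∑ i ∈ range n, (i : ZMod p) * (i - 1)

theorem eta_two_mul_S1 (n : ℕ) : 2 * eta_S1 (p := p) n = n * (n - 1) := by
  induction n with
  | zero => simp [eta_S1]
  | succ n ih =>
    have : eta_S1 (p := p) (n + 1) = eta_S1 (p := p) n + (n : ZMod p) := by
      simp [eta_S1, Finset.sum_range_succ]
    rw [this, mul_add, ih]; push_cast; ring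

theorem eta_three_mul_S2 (n : ℕ) : 3 * eta_S2 (p := p) n = n * (n - 1) * (n - 2) := by
  induction n with
  | zero => simp [eta_S2]
  | succ n ih =>
    have : eta_S2 (p := p) (n + 1) = eta_S2 (p := p) n + (n : ZMod p) * (n - 1) := by
      simp [eta_S2, Finset.sum_range_succ]
    rw [this, mul_add, ih]; push_cast; ring

theorem eta_geom_comp (n : ℕ) :
    (∑ i ∈ range n, eta_y p ^ i).fst.fst = n ∧
      (∑ i ∈ range n, eta_y p ^ i).fst.snd = eta_S1 n ∧
      (∑ i ∈ range n, eta_y p ^ i).snd.fst = eta_S1 n ∧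
      (∑ i ∈ range n, eta_y p ^ i).snd.snd = eta_S2 n := by
  induction n with
  | zero => simp [eta_S1, eta_S2]
  | succ n ih =>
    obtain ⟨h1, h2, h3, h4⟩ := ih
    obtain ⟨g1, g2, g3, g4⟩ := eta_y_pow_comp (p := p) n
    rw [Finset.sum_range_succ]
    simp only [TrivSqZeroExt.fst_add, TrivSqZeroExt.snd_add, h1, h2, h3, h4, g1, g2, g3, g4]
    refine ⟨by push_cast; ring, ?_, ?_, ?_⟩
    · simp [eta_S1, Finset.sum_range_succ]
    · simp [eta_S1, Finset.sum_range_succ]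
    · simp [eta_S2, Finset.sum_range_succ]

theorem eta_A_geom (n : ℕ) : eta_A (∑ i ∈ range n, eta_y p ^ i) = n :=
  (eta_geom_comp n).1

theorem eta_twelve_N_geom (n : ℕ) :
    12 * eta_N (∑ i ∈ range n, eta_y p ^ i) = (n : ZMod p) ^ 2 * (n - 1) * (n - 5) := by
  obtain ⟨h1, h2, h3, h4⟩ := eta_geom_comp (p := p) n
  rw [eta_N, h1, h2, h3, h4]
  have e1 := eta_two_mul_S1 (p := p) n
  have e2 := eta_three_mul_S2 (p := p) n
  linear_combination (4 * (n : ZMod p)) * e2 - 3 * (2 * eta_S1 n + n * (n - 1)) * e1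


/-! ### Power sums in `ZMod p` -/

theorem eta_natCast_ne_zero {n : ℕ} (h0 : 0 < n) (hn : n < p) : (n : ZMod p) ≠ 0 := by
  intro h
  rw [ZMod.natCast_eq_zero_iff] at h
  exact absurd (Nat.le_of_dvd h0 h) (by omega)

theorem eta_sum_range_eq_univ (f : ZMod p → ZMod p) :
    ∑ b ∈ range p, f (b : ZMod p) = ∑ x : ZMod p, f x := by
  refine Finset.sum_nbij' (fun b => (b : ZMod p)) (fun x => x.val) ?_ ?_ ?_ ?_ ?_
  · intro a _; exact Finset.mem_univ _
  · intro x _; exact Finset.mem_range.mpr (ZMod.val_lt x)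
  · intro a ha; exact ZMod.val_natCast_of_lt (Finset.mem_range.mp ha)
  · intro x _; exact ZMod.natCast_zmod_val x
  · intro a _; rfl

theorem eta_sum_pow {j : ℕ} (hj0 : 0 < j) (hj : j < p - 1) :
    ∑ b ∈ Ico 1 p, (b : ZMod p) ^ j = 0 := by
  have hp : p.Prime := Fact.out
  have h1 : ∑ b ∈ range p, (b : ZMod p) ^ j = 0 := by
    rw [eta_sum_range_eq_univ (fun x => x ^ j)]
    apply FiniteField.sum_pow_lt_card_sub_one
    rw [ZMod.card]; exact hj
  rw [Finset.range_eq_Ico, Finset.sum_eq_sum_Ico_succ_bot hp.pos] at h1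
  simpa [zero_pow hj0.ne'] using h1

theorem eta_sum_pow_card_sub_one : ∑ b ∈ Ico 1 p, (b : ZMod p) ^ (p - 1) = -1 := by
  have hp : p.Prime := Fact.out
  have h1 : ∀ b ∈ Ico 1 p, (b : ZMod p) ^ (p - 1) = 1 := by
    intro b hb
    rw [Finset.mem_Ico] at hb
    exact ZMod.pow_card_sub_one_eq_one (eta_natCast_ne_zero (by omega) hb.2)
  rw [Finset.sum_congr rfl h1]
  simp only [Finset.sum_const, Nat.card_Ico, nsmul_eq_mul, mul_one]
  rw [Nat.cast_sub hp.one_le, ZMod.natCast_self]; simp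

theorem eta_main_sum (hp5 : 5 ≤ p) :
    ∑ b ∈ Ico 1 p, ((b ^ (p - 3) % p : ℕ) : ZMod p) * (((b : ZMod p) - 1) * ((b : ZMod p) - 5))
      = -1 := by
  have e : ∀ b ∈ Ico 1 p,
      ((b ^ (p - 3) % p : ℕ) : ZMod p) * (((b : ZMod p) - 1) * ((b : ZMod p) - 5)) =
        (b : ZMod p) ^ (p - 1) - 6 * (b : ZMod p) ^ (p - 2) + 5 * (b : ZMod p) ^ (p - 3) := by
    intro b _
    rw [ZMod.natCast_mod, Nat.cast_pow]
    have e1 : p - 1 = (p - 3) + 2 := by omega
    have e2 : p - 2 = (p - 3) + 1 := by omega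
    rw [e1, e2, pow_add, pow_add]; ring
  rw [Finset.sum_congr rfl e, Finset.sum_add_distrib, Finset.sum_sub_distrib, ← Finset.mul_sum,
    ← Finset.mul_sum, eta_sum_pow (j := p - 2) (by omega) (by omega),
    eta_sum_pow (j := p - 3) (by omega) (by omega), eta_sum_pow_card_sub_one]
  ring

theorem eta_sum_mexp (hp5 : 5 ≤ p) : p ∣ ∑ b ∈ Ico 1 p, b ^ (p - 3) % p := by
  rw [← ZMod.natCast_eq_zero_iff]
  push_cast
  have e : ∀ b ∈ Ico 1 p, ((b ^ (p - 3) % p : ℕ) : ZMod p) = (b : ZMod p) ^ (p - 3) := by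
    intro b _; rw [ZMod.natCast_mod, Nat.cast_pow]
  rw [Finset.sum_congr rfl e]
  exact eta_sum_pow (by omega) (by omega)

end Fermat.Agent.S14
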