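import Fermat.Agent.S14.Defs
import Fermat.Agent.S14.EtaDual

set_option autoImplicit false

/-!
# S14, work package B3: `η` is not a `p`-th power, locally at `λ`

`Φ : 𝓞 K → 𝔽_p[ε₁, ε₂]/(ε₁², ε₂²)`, `ζ ↦ 1 + ε₁ + ε₂`, kills `λ³`; the additive invariant
`eta_M ∘ Φ` vanishes on `p`-th powers and on units congruent to a rational integer mod `λ³`,
and takes the value `-1/12` on the unit part `η₂` of `η`.
-/

namespace Fermat.Agent.S14

open NumberField Polynomial Finset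

variable (p : ℕ) [Fact p.Prime]

theorem eta_geom_p_eq_zero (hp5 : 5 ≤ p) : ∑ i ∈ range p, eta_y p ^ i = 0 := by
  obtain ⟨h1, h2, h3, h4⟩ := eta_geom_comp (p := p) p
  have h2ne : (2 : ZMod p) ≠ 0 := by
    exact_mod_cast eta_natCast_ne_zero (p := p) (n := 2) (by norm_num) (by omega)
  have h3ne : (3 : ZMod p) ≠ 0 := by
    exact_mod_cast eta_natCast_ne_zero (p := p) (n := 3) (by norm_num) (by omega)
  have hS1 : eta_S1 (p := p) p = 0 := by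
    have := eta_two_mul_S1 (p := p) p
    rw [ZMod.natCast_self, zero_mul] at this
    exact (mul_eq_zero.mp this).resolve_left h2ne
  have hS2 : eta_S2 (p := p) p = 0 := by
    have := eta_three_mul_S2 (p := p) p
    rw [ZMod.natCast_self, zero_mul, zero_mul] at this
    exact (mul_eq_zero.mp this).resolve_left h3ne
  apply TrivSqZeroExt.ext
  · apply TrivSqZeroExt.ext
    · rw [h1]; simp
    · rw [h2, hS1]; simp
  · apply TrivSqZeroExt.ext
    · rw [h3, hS1]; simp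
    · rw [h4, hS2]; simp

theorem eta_minpoly : minpoly ℤ (zetaO p) = cyclotomic p ℤ := by
  rw [cyclotomic_eq_minpoly (zeta_spec p) (Fact.out : p.Prime).pos,
    ← RingOfIntegers.minpoly_coe]
  rfl

/-- The ring homomorphism `𝓞 K → 𝔽_p[ε₁,ε₂]/(ε₁²,ε₂²)`, `ζ ↦ 1 + ε₁ + ε₂`. -/
noncomputable def eta_Phi (hp5 : 5 ≤ p) : 𝓞 (K p) →ₐ[ℤ] eta_R p :=
  (zeta_spec p).integralPowerBasis.lift (eta_y p) (by
    rw [IsPrimitiveRoot.integralPowerBasis_gen]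
    show aeval (eta_y p) (minpoly ℤ (zetaO p)) = 0
    rw [eta_minpoly, cyclotomic_prime, map_sum]
    simp only [map_pow, aeval_X]
    exact eta_geom_p_eq_zero p hp5)

theorem eta_Phi_zeta (hp5 : 5 ≤ p) : eta_Phi p hp5 (zetaO p) = eta_y p := by
  have e : zetaO p = (zeta_spec p).integralPowerBasis.gen :=
    (IsPrimitiveRoot.integralPowerBasis_gen _).symm
  rw [e]
  exact PowerBasis.lift_gen _ _ _

set_option linter.unusedSimpArgs false in
theorem eta_one_sub_y_cube : (1 - eta_y p) ^ 3 = 0 := by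
  obtain ⟨y1, y2, y3, y4⟩ := eta_y_comp (p := p)
  apply TrivSqZeroExt.ext
  · apply TrivSqZeroExt.ext <;>
    simp [pow_succ, y1, y2, y3, y4]
  · apply TrivSqZeroExt.ext <;>
    simp [pow_succ, y1, y2, y3, y4]

/-- the cyclotomic unit `u_b = 1 + ζ + ⋯ + ζ^{b-1} = (1 - ζ^b)/(1 - ζ)` -/
noncomputable def eta_u (b : ℕ) : 𝓞 (K p) := ∑ i ∈ range b, zetaO p ^ i

/-- the unit part `η₂ = ∏_b u_b^{mexp b}` of `η` -/
noncomputable def eta_two : 𝓞 (K p) := ∏ b ∈ Ico 1 p, eta_u p b ^ mexp p b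

theorem eta_eq_mul : eta p = (1 - zetaO p) ^ (∑ b ∈ Ico 1 p, mexp p b) * eta_two p := by
  unfold eta eta_two
  rw [← Finset.prod_pow_eq_pow_sum, ← Finset.prod_mul_distrib]
  refine Finset.prod_congr rfl (fun b _ => ?_)
  rw [← mul_pow, eta_u, mul_neg_geom_sum]

theorem eta_u_isUnit {b : ℕ} (hb : b ∈ Ico 1 p) : IsUnit (eta_u p b) := by
  have hp : p.Prime := Fact.out
  rw [Finset.mem_Ico] at hb
  have hprim : IsPrimitiveRoot (zetaO p) p := (zeta_spec p).toInteger_isPrimitiveRoot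
  exact hprim.geom_sum_isUnit hp.two_le
    (Nat.Coprime.symm ((Nat.Prime.coprime_iff_not_dvd hp).mpr
      (Nat.not_dvd_of_pos_of_lt (by omega) hb.2)))

theorem eta_two_isUnit : IsUnit (eta_two p) := by
  unfold eta_two
  rw [IsUnit.prod_iff]
  exact fun b hb => (eta_u_isUnit p hb).pow _

theorem eta_Phi_u (hp5 : 5 ≤ p) (b : ℕ) :
    eta_Phi p hp5 (eta_u p b) = ∑ i ∈ range b, eta_y p ^ i := by
  simp [eta_u, map_sum, map_pow, eta_Phi_zeta]

theorem eta_A_Phi_u (hp5 : 5 ≤ p) {b : ℕ} (hb : b ∈ Ico 1 p) :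
    eta_A (eta_Phi p hp5 (eta_u p b)) ≠ 0 := by
  rw [eta_Phi_u, eta_A_geom]
  rw [Finset.mem_Ico] at hb
  exact eta_natCast_ne_zero (by omega) hb.2

theorem eta_twelve_M_Phi_u (hp5 : 5 ≤ p) {b : ℕ} (hb : b ∈ Ico 1 p) :
    12 * eta_M (eta_Phi p hp5 (eta_u p b)) = ((b : ZMod p) - 1) * ((b : ZMod p) - 5) := by
  have hA := eta_A_Phi_u p hp5 hb
  have hb0 : (b : ZMod p) ≠ 0 := by
    rw [Finset.mem_Ico] at hb
    exact eta_natCast_ne_zero (by omega) hb.2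
  have h12 := eta_twelve_N_geom (p := p) b
  rw [eta_M, eta_Phi_u, eta_A_geom, ← mul_div_assoc, h12]
  field_simp

theorem eta_A_Phi_two (hp5 : 5 ≤ p) : eta_A (eta_Phi p hp5 (eta_two p)) ≠ 0 := by
  unfold eta_two
  rw [map_prod, eta_A_prod]
  refine Finset.prod_ne_zero_iff.mpr (fun b hb => ?_)
  rw [map_pow, eta_A_pow]
  exact pow_ne_zero _ (eta_A_Phi_u p hp5 hb)

theorem eta_twelve_M_Phi_two (hp5 : 5 ≤ p) : 12 * eta_M (eta_Phi p hp5 (eta_two p)) = -1 := by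
  unfold eta_two
  rw [map_prod, eta_M_prod]
  · rw [Finset.mul_sum, ← eta_main_sum hp5]
    refine Finset.sum_congr rfl (fun b hb => ?_)
    rw [map_pow, eta_M_pow (eta_A_Phi_u p hp5 hb), mul_left_comm, eta_twelve_M_Phi_u p hp5 hb]
    rfl
  · intro b hb
    rw [map_pow, eta_A_pow]
    exact pow_ne_zero _ (eta_A_Phi_u p hp5 hb)

theorem eta_M_Phi_two_ne_zero (hp5 : 5 ≤ p) : eta_M (eta_Phi p hp5 (eta_two p)) ≠ 0 := by
  intro h
  have := eta_twelve_M_Phi_two p hp5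
  rw [h, mul_zero] at this
  exact one_ne_zero (neg_eq_zero.mp this.symm)

/-- an element of `K` whose `p`-th power is an algebraic integer is an algebraic integer -/
theorem eta_exists_int_of_pow (v : K p) (x : 𝓞 (K p))
    (h : v ^ p = algebraMap (𝓞 (K p)) (K p) x) : ∃ v' : 𝓞 (K p), v' ^ p = x := by
  have hp : p.Prime := Fact.out
  have hv : IsIntegral ℤ v := by
    apply IsIntegral.of_pow hp.pos
    rw [h]; exact RingOfIntegers.isIntegral_coe x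
  refine ⟨IsIntegralClosure.mk' (𝓞 (K p)) v hv, ?_⟩
  apply RingOfIntegers.coe_injective
  rw [map_pow, IsIntegralClosure.algebraMap_mk', h]

theorem eta_one_sub_zeta_ne_zero : (1 : K p) - zeta p ≠ 0 :=
  sub_ne_zero.mpr (Ne.symm ((zeta_spec p).ne_one (Fact.out : p.Prime).one_lt))

theorem eta_coe_eta (k₀ : ℕ) (hS : ∑ b ∈ Ico 1 p, mexp p b = p * k₀) :
    algebraMap (𝓞 (K p)) (K p) (eta p) =
      ((1 - zeta p) ^ k₀) ^ p * algebraMap (𝓞 (K p)) (K p) (eta_two p) := by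
  rw [eta_eq_mul, hS, map_mul, map_pow, map_sub, map_one, pow_mul']
  rfl

theorem eta_not_pow (hp5 : 5 ≤ p) : ¬ ∃ x : K p, x ^ p = ((eta p : 𝓞 (K p)) : K p) := by
  rintro ⟨x, hx⟩
  obtain ⟨k₀, hk₀⟩ := eta_sum_mexp (p := p) hp5
  have hS : ∑ b ∈ Ico 1 p, mexp p b = p * k₀ := hk₀
  have hlam := eta_one_sub_zeta_ne_zero p
  have hx' : x ^ p = algebraMap (𝓞 (K p)) (K p) (eta p) := hx
  rw [eta_coe_eta p k₀ hS] at hx'
  have hy : (x / (1 - zeta p) ^ k₀) ^ p = algebraMap (𝓞 (K p)) (K p) (eta_two p) := by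
    rw [div_pow, hx', mul_div_cancel_left₀ _ (pow_ne_zero _ (pow_ne_zero _ hlam))]
  obtain ⟨y', hy'⟩ := eta_exists_int_of_pow p _ _ hy
  have hΦ : eta_Phi p hp5 (eta_two p) = eta_Phi p hp5 y' ^ p := by rw [← hy', map_pow]
  have hA : eta_A (eta_Phi p hp5 y') ≠ 0 := by
    intro h0
    apply eta_A_Phi_two p hp5
    rw [hΦ, eta_A_pow, h0, zero_pow (Fact.out : p.Prime).ne_zero]
  apply eta_M_Phi_two_ne_zero p hp5
  rw [hΦ, eta_M_pow_p hA]

theorem dvd_of_eta_pow_congr (hp5 : 5 ≤ p) (u : (𝓞 (K p))ˣ) (k : ℕ) (w : K p)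
    (h : ((u : 𝓞 (K p)) : K p) = ((eta p : 𝓞 (K p)) : K p) ^ k * w ^ p) (m : ℤ)
    (hm : ((u : 𝓞 (K p)) - (m : 𝓞 (K p))) ∈ Ideal.span {(1 - zetaO p) ^ 3}) : p ∣ k := by
  obtain ⟨k₀, hk₀⟩ := eta_sum_mexp (p := p) hp5
  have hS : ∑ b ∈ Ico 1 p, mexp p b = p * k₀ := hk₀
  have hlam := eta_one_sub_zeta_ne_zero p
  obtain ⟨E2, hE2⟩ := eta_two_isUnit p
  have h' : algebraMap (𝓞 (K p)) (K p) (u : 𝓞 (K p)) =
      (algebraMap (𝓞 (K p)) (K p) (eta p)) ^ k * w ^ p := h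
  rw [eta_coe_eta p k₀ hS] at h'
  -- `u = η₂^k v^p` with `v = λ^(k₀ k) w`
  have hab : algebraMap (𝓞 (K p)) (K p) (eta_two p) *
      algebraMap (𝓞 (K p)) (K p) ((E2⁻¹ : (𝓞 (K p))ˣ) : 𝓞 (K p)) = 1 := by
    rw [← map_mul, ← hE2, Units.mul_inv, map_one]
  have hv : ((1 - zeta p) ^ (k₀ * k) * w) ^ p =
      algebraMap (𝓞 (K p)) (K p) ((u : 𝓞 (K p)) * ((E2⁻¹ : (𝓞 (K p))ˣ) : 𝓞 (K p)) ^ k) := by
    rw [map_mul, map_pow, h']
    have e1 : (((1 - zeta p) ^ k₀) ^ p * algebraMap (𝓞 (K p)) (K p) (eta_two p)) ^ k * w ^ p *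
        algebraMap (𝓞 (K p)) (K p) ((E2⁻¹ : (𝓞 (K p))ˣ) : 𝓞 (K p)) ^ k =
        ((1 - zeta p) ^ (k₀ * k) * w) ^ p *
          (algebraMap (𝓞 (K p)) (K p) (eta_two p) *
            algebraMap (𝓞 (K p)) (K p) ((E2⁻¹ : (𝓞 (K p))ˣ) : 𝓞 (K p))) ^ k := by
      ring
    rw [e1, hab, one_pow, mul_one]
  obtain ⟨v', hv'⟩ := eta_exists_int_of_pow p _ _ hv
  have hu : (u : 𝓞 (K p)) = eta_two p ^ k * v' ^ p := by
    rw [hv', ← hE2, mul_left_comm, ← mul_pow, Units.mul_inv, one_pow, mul_one]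
  -- apply Φ
  have hΦu : eta_Phi p hp5 (u : 𝓞 (K p)) =
      eta_Phi p hp5 (eta_two p) ^ k * eta_Phi p hp5 v' ^ p := by
    rw [hu, map_mul, map_pow, map_pow]
  have hAu : eta_A (eta_Phi p hp5 (u : 𝓞 (K p))) ≠ 0 := by
    intro h0
    have h1 : eta_Phi p hp5 (u : 𝓞 (K p)) * eta_Phi p hp5 ((u⁻¹ : (𝓞 (K p))ˣ) : 𝓞 (K p)) = 1 := by
      rw [← map_mul, Units.mul_inv, map_one]
    have h2 := congrArg eta_A h1
    rw [eta_A_mul, h0, zero_mul, eta_A_one] at h2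
    exact zero_ne_one h2
  have hAv : eta_A (eta_Phi p hp5 v') ≠ 0 := by
    intro h0
    apply hAu
    rw [hΦu, eta_A_mul, eta_A_pow, eta_A_pow, h0, zero_pow (Fact.out : p.Prime).ne_zero, mul_zero]
  have hA2 := eta_A_Phi_two p hp5
  have hM : eta_M (eta_Phi p hp5 (u : 𝓞 (K p))) = k * eta_M (eta_Phi p hp5 (eta_two p)) := by
    rw [hΦu, eta_M_mul (by rw [eta_A_pow]; exact pow_ne_zero _ hA2)
      (by rw [eta_A_pow]; exact pow_ne_zero _ hAv), eta_M_pow hA2, eta_M_pow_p hAv, add_zero]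
  -- `Φ u` is a constant
  obtain ⟨z, hz⟩ := Ideal.mem_span_singleton'.mp hm
  have hconst : eta_Phi p hp5 (u : 𝓞 (K p)) = ((m : ℤ) : eta_R p) := by
    have e : (u : 𝓞 (K p)) = (m : 𝓞 (K p)) + z * (1 - zetaO p) ^ 3 := by rw [hz]; ring
    rw [e, map_add, map_mul, map_pow, map_sub, map_one, eta_Phi_zeta, eta_one_sub_y_cube,
      mul_zero, add_zero, map_intCast]
  have hM0 : eta_M (eta_Phi p hp5 (u : 𝓞 (K p))) = 0 := eta_M_of_const m hconst
  rw [hM0] at hM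
  have hk : (k : ZMod p) = 0 :=
    (mul_eq_zero.mp hM.symm).resolve_right (eta_M_Phi_two_ne_zero p hp5)
  exact (ZMod.natCast_eq_zero_iff k p).mp hk


/-! ### Extra exports (for the unit package B4) -/

/-- If `η₂^k` is a `p`-th power in `K` then `p ∣ k`. -/
theorem eta_two_pow_not_pow (hp5 : 5 ≤ p) (k : ℕ) (x : K p)
    (hx : x ^ p = (algebraMap (𝓞 (K p)) (K p) (eta_two p)) ^ k) : p ∣ k := by
  have hx' : x ^ p = algebraMap (𝓞 (K p)) (K p) (eta_two p ^ k) := by rw [hx, map_pow]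
  obtain ⟨x', hx''⟩ := eta_exists_int_of_pow p _ _ hx'
  have hA2 := eta_A_Phi_two p hp5
  have hΦ : eta_Phi p hp5 (eta_two p) ^ k = eta_Phi p hp5 x' ^ p := by
    rw [← map_pow, ← map_pow, hx'']
  have hA : eta_A (eta_Phi p hp5 x') ≠ 0 := by
    intro h0
    have := congrArg eta_A hΦ
    rw [eta_A_pow, eta_A_pow, h0, zero_pow (Fact.out : p.Prime).ne_zero] at this
    exact pow_ne_zero _ hA2 this
  have hM := congrArg eta_M hΦ
  rw [eta_M_pow hA2, eta_M_pow_p hA] at hM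
  have hk : (k : ZMod p) = 0 :=
    (mul_eq_zero.mp hM).resolve_right (eta_M_Phi_two_ne_zero p hp5)
  exact (ZMod.natCast_eq_zero_iff k p).mp hk

/-- `η₂` is not a `p`-th power in `K`. -/
theorem eta_two_not_pow (hp5 : 5 ≤ p) :
    ¬ ∃ x : K p, x ^ p = algebraMap (𝓞 (K p)) (K p) (eta_two p) := by
  rintro ⟨x, hx⟩
  have h1 := eta_two_pow_not_pow p hp5 1 x (by rw [hx, pow_one])
  have hp : p.Prime := Fact.out
  exact absurd (Nat.le_of_dvd one_pos h1) (by have := hp.two_le; omega)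

/-- `η = (λ^{k₀})^p · η₂` in `K`, for some `k₀`. -/
theorem eta_exists_coe_eta (hp5 : 5 ≤ p) : ∃ k₀ : ℕ,
    algebraMap (𝓞 (K p)) (K p) (eta p) =
      ((1 - zeta p) ^ k₀) ^ p * algebraMap (𝓞 (K p)) (K p) (eta_two p) := by
  obtain ⟨k₀, hk₀⟩ := eta_sum_mexp (p := p) hp5
  exact ⟨k₀, eta_coe_eta p k₀ hk₀⟩

end Fermat.Agent.S14
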