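import Fermat.Agent.S14.KfSplit

set_option autoImplicit false

/-!
# S14, work package B2: splitting of primes in `K(η^{1/p})`

`exists_kummer_field`: if `η` is not a `p`-th power in `K = ℚ(ζ_p)`, then `K' = K[X]/(X^p - η)` is
a number field in which every prime `𝔩` of `K` of prime norm `ℓ ≠ p` modulo which `η` is a `p`-th
power has `p` distinct primes of norm `ℓ` above it.
-/

namespace Fermat.Agent.S14

open NumberField Polynomial

variable (p : ℕ) [Fact p.Prime]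

/-- The primitive root `ζ` as an element of `𝓞 K`. -/
theorem kf_zetaO_isPrimitiveRoot : IsPrimitiveRoot (zetaO p) p :=
  (zeta_spec p).toInteger_isPrimitiveRoot

/-- `η` lies in no prime of prime norm `ℓ ≠ p`. -/
theorem kf_eta_not_mem (𝔩 : Ideal (𝓞 (K p))) (h𝔩 : 𝔩.IsPrime) (ℓ : ℕ) (hℓ : ℓ.Prime)
    (hℓp : ℓ ≠ p) (hN : Ideal.absNorm 𝔩 = ℓ) : eta p ∉ 𝔩 := by
  intro hmem
  have hp : p.Prime := Fact.out
  unfold eta at hmem
  obtain ⟨b, hb, hbmem⟩ := (Ideal.IsPrime.prod_mem_iff).1 hmem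
  rw [Finset.mem_Ico] at hb
  have h1 := h𝔩.mem_of_pow_mem _ hbmem
  exact kf_one_sub_pow_not_mem hp (kf_zetaO_isPrimitiveRoot p) 𝔩 h𝔩 ℓ hℓ hℓp hN b
    (by omega) hb.2 h1

set_option linter.unusedVariables false in
theorem exists_kummer_field (hp5 : 5 ≤ p)
    (hη : ¬ ∃ x : K p, x ^ p = ((eta p : 𝓞 (K p)) : K p)) :
    ∃ (K' : Type) (_ : Field K') (_ : NumberField K') (_ : Algebra (K p) K'),
      ∀ (𝔩 : Ideal (𝓞 (K p))), 𝔩.IsPrime → ∀ ℓ : ℕ, ℓ.Prime → ℓ ≠ p → Ideal.absNorm 𝔩 = ℓ →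
        (∃ y : 𝓞 (K p), y ^ p - eta p ∈ 𝔩) →
        ∃ S : Finset (Ideal (𝓞 K')), S.card = p ∧ ∀ 𝔏 ∈ S, 𝔏.IsPrime ∧
          𝔏.comap (algebraMap (𝓞 (K p)) (𝓞 K')) = 𝔩 ∧ Ideal.absNorm 𝔏 = ℓ := by
  have hp : p.Prime := Fact.out
  set η : K p := ((eta p : 𝓞 (K p)) : K p) with hηdef
  set f : (K p)[X] := X ^ p - C η with hf
  have hirr : Irreducible f :=
    (X_pow_sub_C_irreducible_iff_of_prime hp).2 fun b hb => hη ⟨b, hb⟩
  have : Fact (Irreducible f) := ⟨hirr⟩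
  have hf0 : f ≠ 0 := X_pow_sub_C_ne_zero hp.pos η
  have : Module.Finite (K p) (AdjoinRoot f) := (AdjoinRoot.powerBasis hf0).finite
  have : NumberField (AdjoinRoot f) := NumberField.of_module_finite (K p) (AdjoinRoot f)
  refine ⟨AdjoinRoot f, inferInstance, inferInstance, inferInstance, ?_⟩
  intro 𝔩 h𝔩 ℓ hℓ hℓp hN ⟨y, hy⟩
  -- degree
  have hdeg : Module.finrank (K p) (AdjoinRoot f) = p := by
    rw [(AdjoinRoot.powerBasis hf0).finrank, AdjoinRoot.powerBasis_dim, hf,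
      natDegree_X_pow_sub_C]
  -- the root
  have hroot : AdjoinRoot.root f ^ p = algebraMap (K p) (AdjoinRoot f) η := by
    have h := AdjoinRoot.eval₂_root f
    rw [hf, eval₂_sub, eval₂_pow, eval₂_X, eval₂_C, sub_eq_zero] at h
    rw [AdjoinRoot.algebraMap_eq]
    exact h
  have hint : IsIntegral ℤ (AdjoinRoot.root f) := by
    refine IsIntegral.of_pow hp.pos ?_
    rw [hroot]
    exact (RingOfIntegers.isIntegral_coe (eta p)).algebraMap
  set θ : 𝓞 (AdjoinRoot f) := ⟨AdjoinRoot.root f, hint⟩ with hθdef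
  have hθ : θ ^ p = algebraMap (𝓞 (K p)) (𝓞 (AdjoinRoot f)) (eta p) := by
    apply RingOfIntegers.ext
    change (AdjoinRoot.root f) ^ p = algebraMap (K p) (AdjoinRoot f) η
    exact hroot
  -- the automorphism
  have hζp : (zeta p) ^ p = 1 := (zeta_spec p).pow_eq_one
  have hτeval : eval₂ ((Algebra.ofId (K p) (AdjoinRoot f) : K p →ₐ[K p] AdjoinRoot f) : K p →+* AdjoinRoot f)
      (algebraMap (K p) (AdjoinRoot f) (zeta p) * AdjoinRoot.root f) f = 0 := by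
    show eval₂ ((Algebra.ofId (K p) (AdjoinRoot f) : K p →ₐ[K p] AdjoinRoot f) : K p →+* AdjoinRoot f)
      (algebraMap (K p) (AdjoinRoot f) (zeta p) * AdjoinRoot.root f) (X ^ p - C η) = 0
    rw [eval₂_sub, eval₂_pow, eval₂_X, eval₂_C, mul_pow, hroot, ← map_pow, hζp, map_one,
      one_mul, sub_eq_zero]
    rfl
  set τ₀ : AdjoinRoot f →ₐ[K p] AdjoinRoot f :=
    AdjoinRoot.liftAlgHom f (Algebra.ofId (K p) (AdjoinRoot f))
      (algebraMap (K p) (AdjoinRoot f) (zeta p) * AdjoinRoot.root f) hτeval with hτ₀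
  have hτ₀root : τ₀ (AdjoinRoot.root f) = algebraMap (K p) (AdjoinRoot f) (zeta p) * AdjoinRoot.root f :=
    AdjoinRoot.liftAlgHom_root f _ _ hτeval
  set τ : 𝓞 (AdjoinRoot f) →ₐ[𝓞 (K p)] 𝓞 (AdjoinRoot f) := RingOfIntegers.mapAlgHom τ₀ with hτdef
  have hτ : τ θ = algebraMap (𝓞 (K p)) (𝓞 (AdjoinRoot f)) (zetaO p) * θ := by
    apply RingOfIntegers.ext
    change τ₀ (AdjoinRoot.root f) = algebraMap (K p) (AdjoinRoot f) (zeta p) * AdjoinRoot.root f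
    exact hτ₀root
  exact kf_split p hp hdeg (zetaO p) (kf_zetaO_isPrimitiveRoot p) (eta p) θ hθ τ hτ 𝔩 h𝔩 ℓ hℓ hℓp hN
    (kf_eta_not_mem p 𝔩 h𝔩 ℓ hℓ hℓp hN) y hy

end Fermat.Agent.S14
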