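import Mathlib

set_option autoImplicit false

/-!
# S14 / AN: interface statements for the final assembly of `no_cross_character`

Each `an_if_*` below is a `Prop`; the work packages prove them (for all number fields), and
`AnMain.lean` derives `no_cross_character` from them and `an_fin_false`.
-/

namespace Fermat.Agent.S14

open NumberField

/-- The nonzero prime ideals of `𝓞 K`. -/
abbrev an_Pr (K : Type*) [Field K] [NumberField K] : Type _ :=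
  {P : Ideal (𝓞 K) // P.IsPrime ∧ P ≠ ⊥}

/-- The Dedekind zeta function at real `s`, as a sum over nonzero ideals. -/
noncomputable def an_Z (K : Type*) [Field K] [NumberField K] (s : ℝ) : ℝ :=
  ∑' I : nonZeroDivisors (Ideal (𝓞 K)), (Ideal.absNorm (I : Ideal (𝓞 K)) : ℝ) ^ (-s)

/-- The `L`-series of the character `e(j f / q)` at real `s`. -/
noncomputable def an_L {K : Type*} [Field K] [NumberField K] (q : ℕ) [NeZero q]
    (f : Ideal (𝓞 K) → ZMod q) (j : ZMod q) (s : ℝ) : ℂ :=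
  ∑' I : nonZeroDivisors (Ideal (𝓞 K)),
    (ZMod.stdAddChar (j * f (I : Ideal (𝓞 K))) : ℂ) *
      (((Ideal.absNorm (I : Ideal (𝓞 K)) : ℝ) ^ (-s) : ℝ) : ℂ)

/-- (ZB) `c / (s - 1) ≤ ζ_K(s) ≤ C / (s - 1)` on `(1, 2]`, with summability. -/
def an_if_ZB (K : Type*) [Field K] [NumberField K] : Prop :=
  ∃ c C : ℝ, 0 < c ∧ 0 < C ∧ ∀ s : ℝ, 1 < s → s ≤ 2 →
    Summable (fun I : nonZeroDivisors (Ideal (𝓞 K)) =>
      (Ideal.absNorm (I : Ideal (𝓞 K)) : ℝ) ^ (-s)) ∧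
    c / (s - 1) ≤ an_Z K s ∧ an_Z K s ≤ C / (s - 1)

/-- (S1) sieve, lower bound: `∑_{P ∈ S} N P ^ (-s) ≤ log ζ_K(s)` for finite sets of primes. -/
def an_if_S1 (K : Type*) [Field K] [NumberField K] : Prop :=
  ∀ s : ℝ, 1 < s → s ≤ 2 → ∀ S : Finset (an_Pr K),
    ∑ P ∈ S, (Ideal.absNorm P.1 : ℝ) ^ (-s) ≤ Real.log (an_Z K s)

/-- (S2) sieve, upper bound: `log ζ_K(s) ≤ ∑_P N P ^ (-s) + C₁`. -/
def an_if_S2 (K : Type*) [Field K] [NumberField K] : Prop :=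
  ∃ C₁ : ℝ, ∀ s : ℝ, 1 < s → s ≤ 2 →
    Summable (fun P : an_Pr K => (Ideal.absNorm P.1 : ℝ) ^ (-s)) ∧
    Real.log (an_Z K s) ≤ ∑' P : an_Pr K, (Ideal.absNorm P.1 : ℝ) ^ (-s) + C₁

/-- (S3) sieve for characters: `∑_P Re χ_j(P) N P ^ (-s) ≤ log ‖L(s, χ_j)‖ + C`. -/
def an_if_S3 {K : Type*} [Field K] [NumberField K] (q : ℕ) [NeZero q]
    (f : Ideal (𝓞 K) → ZMod q) : Prop :=
  ∃ C : ℝ, ∀ (j : ZMod q) (s : ℝ), 1 < s → s ≤ 2 →
    ∑' P : an_Pr K, (ZMod.stdAddChar (j * f P.1)).re * (Ideal.absNorm P.1 : ℝ) ^ (-s) ≤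
      Real.log ‖an_L q f j s‖ + C

/-- (LB) the `L`-series of the nontrivial characters are bounded on `(1, 2]`. -/
def an_if_LB {K : Type*} [Field K] [NumberField K] (q : ℕ) [NeZero q]
    (f : Ideal (𝓞 K) → ZMod q) : Prop :=
  ∃ B : ℝ, ∀ (j : ZMod q), j ≠ 0 → ∀ s : ℝ, 1 < s → s ≤ 2 → ‖an_L q f j s‖ ≤ B

/-- (DG) the primes whose norm is not a prime number contribute `O(1)`. -/
def an_if_DG (K : Type*) [Field K] [NumberField K] : Prop :=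
  ∃ C₄ : ℝ, ∀ s : ℝ, 1 < s → ∀ S : Finset (an_Pr K),
    (∀ P ∈ S, ¬ (Ideal.absNorm P.1).Prime) → ∑ P ∈ S, (Ideal.absNorm P.1 : ℝ) ^ (-s) ≤ C₄

/-- (CZ) the differences of the partial zeta functions of two ideal classes are bounded on
`(1, 2]` (helper7's interface `an_rz_classZeta_diff_bounded`). -/
def an_if_CZ (K : Type*) [Field K] [NumberField K] : Prop :=
  ∃ B : ℝ, ∀ (C C' : ClassGroup (𝓞 K)) (s : ℝ), 1 < s → s ≤ 2 →
    Summable (fun I : {I : nonZeroDivisors (Ideal (𝓞 K)) // ClassGroup.mk0 I = C} =>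
      ((Ideal.absNorm (I.1 : Ideal (𝓞 K)) : ℝ)) ^ (-s)) ∧
    |(∑' I : {I : nonZeroDivisors (Ideal (𝓞 K)) // ClassGroup.mk0 I = C},
        ((Ideal.absNorm (I.1 : Ideal (𝓞 K)) : ℝ)) ^ (-s)) -
      ∑' I : {I : nonZeroDivisors (Ideal (𝓞 K)) // ClassGroup.mk0 I = C'},
        ((Ideal.absNorm (I.1 : Ideal (𝓞 K)) : ℝ)) ^ (-s)| ≤ B

/-- (SP) the splitting hypothesis turns `q` times a finite sum over primes of `K₀` into a finite
sum over (distinct) primes of `K'`. -/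
def an_if_SP (K₀ K' : Type*) [Field K₀] [NumberField K₀] [Field K'] [NumberField K']
    [Algebra K₀ K'] (q : ℕ) : Prop :=
  ∀ S : Finset (an_Pr K₀),
    (∀ P ∈ S, ∃ S₀ : Finset (Ideal (𝓞 K')), S₀.card = q ∧ ∀ 𝔏 ∈ S₀, 𝔏.IsPrime ∧
      𝔏.comap (algebraMap (𝓞 K₀) (𝓞 K')) = P.1 ∧ Ideal.absNorm 𝔏 = Ideal.absNorm P.1) →
    ∃ S' : Finset (an_Pr K'), ∀ s : ℝ,
      (q : ℝ) * ∑ P ∈ S, (Ideal.absNorm P.1 : ℝ) ^ (-s) =
        ∑ Q ∈ S', (Ideal.absNorm Q.1 : ℝ) ^ (-s)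

end Fermat.Agent.S14
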