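import Mathlib

set_option autoImplicit false

/-!
# S14, package AN: from Riesz means to Dirichlet series (the "Mellin step")

Abstract real analysis, no number fields.  For a countable family of "norms" `N i ≥ 1` with
finitely many below each bound, the Riesz sum of order `r`
`R(X) = ∑_{N i < X} log(X / N i) ^ r` determines the Dirichlet series through the Laplace
transform in `u = log X`:
`∫ R(e^u) e^{-su} du = (r! / s^(r+1)) * ∑ N i ^ (-s)`.
Consequently two families whose Riesz sums agree up to `O(X^(1-δ))` have Dirichlet series whose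
difference is bounded on `(1, 2]` (`an_ml_diff_bounded`).
-/

namespace Fermat.Agent.S14

open MeasureTheory Set

noncomputable section

/-- The kernel `v ↦ v ^ r * exp (- s v)` on `(0, ∞)`, extended by zero. -/
def an_ml_psi (r : ℕ) (s : ℝ) (v : ℝ) : ℝ :=
  (Ioi (0 : ℝ)).indicator (fun v => v ^ r * Real.exp (-(s * v))) v

theorem an_ml_psi_nonneg (r : ℕ) (s : ℝ) (v : ℝ) : 0 ≤ an_ml_psi r s v := by
  unfold an_ml_psi
  apply Set.indicator_nonneg
  intro v hv
  exact mul_nonneg (pow_nonneg (le_of_lt hv) r) (Real.exp_pos _).le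

theorem an_ml_integrableOn (r : ℕ) {s : ℝ} (hs : 0 < s) :
    IntegrableOn (fun v : ℝ => v ^ r * Real.exp (-(s * v))) (Ioi 0) := by
  have h := integrableOn_rpow_mul_exp_neg_mul_rpow (p := 1) (s := (r : ℝ)) (b := s)
    (by have : (0 : ℝ) ≤ r := Nat.cast_nonneg r; linarith) one_pos hs
  refine h.congr_fun (fun x _ => ?_) measurableSet_Ioi
  simp only [Real.rpow_natCast, Real.rpow_one, neg_mul]

theorem an_ml_psi_integrable (r : ℕ) {s : ℝ} (hs : 0 < s) : Integrable (an_ml_psi r s) := by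
  unfold an_ml_psi
  rw [integrable_indicator_iff measurableSet_Ioi]
  exact an_ml_integrableOn r hs

theorem an_ml_integral_psi (r : ℕ) {s : ℝ} (hs : 0 < s) :
    ∫ v, an_ml_psi r s v = r.factorial / s ^ (r + 1) := by
  unfold an_ml_psi
  rw [integral_indicator measurableSet_Ioi]
  have h := Real.integral_rpow_mul_exp_neg_mul_Ioi (a := (r : ℝ) + 1) (r := s) (by positivity) hs
  have h2 : ∫ v in Ioi (0 : ℝ), v ^ r * Real.exp (-(s * v))
      = ∫ t in Ioi (0 : ℝ), t ^ ((r : ℝ) + 1 - 1) * Real.exp (-(s * t)) := by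
    refine setIntegral_congr_fun measurableSet_Ioi (fun t _ => ?_)
    simp only [add_sub_cancel_right, Real.rpow_natCast]
  rw [h2, h, Real.Gamma_nat_eq_factorial,
    show ((r : ℝ) + 1) = ((r + 1 : ℕ) : ℝ) by push_cast; ring, Real.rpow_natCast]
  rw [one_div, inv_pow]
  field_simp

variable {ι : Type*}

/-- The `i`-th summand of the Laplace transform of the Riesz sum. -/
def an_ml_phi (N : ι → ℝ) (r : ℕ) (s : ℝ) (i : ι) (u : ℝ) : ℝ :=
  an_ml_psi r s (u - Real.log (N i)) * Real.exp (-(s * Real.log (N i)))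

theorem an_ml_phi_eq (N : ι → ℝ) (r : ℕ) (s : ℝ) (i : ι) (u : ℝ) :
    an_ml_phi N r s i u =
      if Real.log (N i) < u then (u - Real.log (N i)) ^ r * Real.exp (-(s * u)) else 0 := by
  unfold an_ml_phi an_ml_psi
  by_cases h : Real.log (N i) < u
  · rw [if_pos h, Set.indicator_of_mem (by simpa using h), mul_assoc, ← Real.exp_add]
    congr 2
    ring
  · rw [if_neg h, Set.indicator_of_notMem (by simpa using h), zero_mul]

theorem an_ml_phi_nonneg (N : ι → ℝ) (r : ℕ) (s : ℝ) (i : ι) (u : ℝ) :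
    0 ≤ an_ml_phi N r s i u :=
  mul_nonneg (an_ml_psi_nonneg _ _ _) (Real.exp_pos _).le

theorem an_ml_phi_integrable (N : ι → ℝ) (r : ℕ) {s : ℝ} (hs : 0 < s) (i : ι) :
    Integrable (an_ml_phi N r s i) :=
  ((an_ml_psi_integrable r hs).comp_sub_right (Real.log (N i))).mul_const _

theorem an_ml_integral_phi (N : ι → ℝ) (r : ℕ) {s : ℝ} (hs : 0 < s) (i : ι) (hN : 0 < N i) :
    ∫ u, an_ml_phi N r s i u = N i ^ (-s) * (r.factorial / s ^ (r + 1)) := by
  unfold an_ml_phi
  rw [integral_mul_const, integral_sub_right_eq_self (an_ml_psi r s), an_ml_integral_psi r hs,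
    mul_comm]
  congr 1
  rw [Real.rpow_def_of_pos hN]
  congr 1
  ring

/-- The Riesz sum of order `r`. -/
def an_ml_R (N : ι → ℝ) (hfin : ∀ X : ℝ, {i | N i < X}.Finite) (r : ℕ) (X : ℝ) : ℝ :=
  ∑ i ∈ (hfin X).toFinset, Real.log (X / N i) ^ r

theorem an_ml_R_of_le_one (N : ι → ℝ) (hN : ∀ i, 1 ≤ N i)
    (hfin : ∀ X : ℝ, {i | N i < X}.Finite) (r : ℕ) {X : ℝ} (hX : X ≤ 1) :
    an_ml_R N hfin r X = 0 := by
  unfold an_ml_R
  apply Finset.sum_eq_zero
  intro i hi
  rw [Set.Finite.mem_toFinset, Set.mem_ofPred_eq] at hi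
  linarith [hN i]

theorem an_ml_R_mono (N : ι → ℝ) (hN : ∀ i, 1 ≤ N i)
    (hfin : ∀ X : ℝ, {i | N i < X}.Finite) (r : ℕ) : Monotone (an_ml_R N hfin r) := by
  intro X Y hXY
  unfold an_ml_R
  have hsub : (hfin X).toFinset ⊆ (hfin Y).toFinset := by
    intro i hi
    rw [Set.Finite.mem_toFinset, Set.mem_ofPred_eq] at hi ⊢
    exact lt_of_lt_of_le hi hXY
  have hnn : ∀ i ∈ (hfin Y).toFinset, 0 ≤ Real.log (Y / N i) := by
    intro i hi
    rw [Set.Finite.mem_toFinset, Set.mem_ofPred_eq] at hi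
    have hpos : 0 < N i := by linarith [hN i]
    exact Real.log_nonneg ((one_le_div hpos).2 hi.le)
  calc ∑ i ∈ (hfin X).toFinset, Real.log (X / N i) ^ r
      ≤ ∑ i ∈ (hfin X).toFinset, Real.log (Y / N i) ^ r := by
        apply Finset.sum_le_sum
        intro i hi
        rw [Set.Finite.mem_toFinset, Set.mem_ofPred_eq] at hi
        have hpos : 0 < N i := by linarith [hN i]
        have h1 : 0 ≤ Real.log (X / N i) := Real.log_nonneg ((one_le_div hpos).2 hi.le)
        have h2 : Real.log (X / N i) ≤ Real.log (Y / N i) :=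
          Real.log_le_log (div_pos (by linarith [hN i]) hpos)
            (div_le_div_of_nonneg_right hXY hpos.le)
        exact pow_le_pow_left₀ h1 h2 r
    _ ≤ ∑ i ∈ (hfin Y).toFinset, Real.log (Y / N i) ^ r :=
        Finset.sum_le_sum_of_subset_of_nonneg hsub (fun i hi _ => pow_nonneg (hnn i hi) r)

theorem an_ml_R_nonneg (N : ι → ℝ) (hN : ∀ i, 1 ≤ N i)
    (hfin : ∀ X : ℝ, {i | N i < X}.Finite) (r : ℕ) (X : ℝ) : 0 ≤ an_ml_R N hfin r X := by
  unfold an_ml_R
  apply Finset.sum_nonneg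
  intro i hi
  rw [Set.Finite.mem_toFinset, Set.mem_ofPred_eq] at hi
  have hpos : 0 < N i := by linarith [hN i]
  exact pow_nonneg (Real.log_nonneg ((one_le_div hpos).2 hi.le)) r

theorem an_ml_hasSum_phi (N : ι → ℝ) (hN : ∀ i, 1 ≤ N i)
    (hfin : ∀ X : ℝ, {i | N i < X}.Finite) (r : ℕ) (s : ℝ) (u : ℝ) :
    HasSum (fun i => an_ml_phi N r s i u)
      (an_ml_R N hfin r (Real.exp u) * Real.exp (-(s * u))) := by
  have hsupp : ∀ i ∉ (hfin (Real.exp u)).toFinset, an_ml_phi N r s i u = 0 := by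
    intro i hi
    rw [Set.Finite.mem_toFinset, Set.mem_ofPred_eq, not_lt] at hi
    rw [an_ml_phi_eq, if_neg]
    rw [not_lt]
    exact (Real.le_log_iff_exp_le (by linarith [hN i])).2 hi
  have h : HasSum (fun i => an_ml_phi N r s i u)
      (∑ i ∈ (hfin (Real.exp u)).toFinset, an_ml_phi N r s i u) :=
    hasSum_sum_of_ne_finset_zero hsupp
  convert h using 1
  unfold an_ml_R
  rw [Finset.sum_mul]
  refine Finset.sum_congr rfl (fun i hi => ?_)
  rw [Set.Finite.mem_toFinset, Set.mem_ofPred_eq] at hi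
  have hpos : 0 < N i := by linarith [hN i]
  rw [an_ml_phi_eq, if_pos ((Real.log_lt_iff_lt_exp hpos).2 hi),
    Real.log_div (Real.exp_pos u).ne' hpos.ne', Real.log_exp]

/-- The dominating function `1_{u ≥ 0} B e^{-c u}`. -/
def an_ml_G (B c : ℝ) (u : ℝ) : ℝ :=
  (Ici (0 : ℝ)).indicator (fun u => B * Real.exp (-c * u)) u

theorem an_ml_G_integrable (B : ℝ) {c : ℝ} (hc : 0 < c) : Integrable (an_ml_G B c) := by
  unfold an_ml_G
  rw [integrable_indicator_iff measurableSet_Ici, integrableOn_Ici_iff_integrableOn_Ioi]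
  exact (integrableOn_exp_mul_Ioi (a := -c) (by linarith) 0).const_mul B

theorem an_ml_integral_G (B : ℝ) {c : ℝ} (hc : 0 < c) : ∫ u, an_ml_G B c u = B / c := by
  unfold an_ml_G
  rw [integral_indicator measurableSet_Ici, integral_Ici_eq_integral_Ioi, integral_const_mul,
    integral_exp_mul_Ioi (a := -c) (by linarith) 0]
  simp only [mul_zero, Real.exp_zero]
  field_simp

/-- The Laplace transform integrand `R(e^u) e^{-su}` is dominated. -/
theorem an_ml_le_G (N : ι → ℝ) (hN : ∀ i, 1 ≤ N i)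
    (hfin : ∀ X : ℝ, {i | N i < X}.Finite) (r : ℕ) (s B : ℝ)
    (hB : ∀ X : ℝ, 1 ≤ X → an_ml_R N hfin r X ≤ B * X) (u : ℝ) :
    an_ml_R N hfin r (Real.exp u) * Real.exp (-(s * u)) ≤ an_ml_G B (s - 1) u := by
  unfold an_ml_G
  by_cases hu : 0 ≤ u
  · rw [Set.indicator_of_mem (by simpa using hu)]
    have h1 := hB (Real.exp u) (Real.one_le_exp hu)
    calc an_ml_R N hfin r (Real.exp u) * Real.exp (-(s * u))
        ≤ B * Real.exp u * Real.exp (-(s * u)) :=
          mul_le_mul_of_nonneg_right h1 (Real.exp_pos _).le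
      _ = B * Real.exp (-(s - 1) * u) := by
          rw [mul_assoc, ← Real.exp_add]
          congr 2
          ring
  · rw [Set.indicator_of_notMem (by simpa using hu),
      an_ml_R_of_le_one N hN hfin r (by rw [Real.exp_le_one_iff]; linarith), zero_mul]

variable [Countable ι]

omit [Countable ι] in
theorem an_ml_summable_integral (N : ι → ℝ) (hN : ∀ i, 1 ≤ N i)
    (hfin : ∀ X : ℝ, {i | N i < X}.Finite) (r : ℕ) {s : ℝ} (hs : 1 < s) (B : ℝ)
    (hB : ∀ X : ℝ, 1 ≤ X → an_ml_R N hfin r X ≤ B * X) :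
    Summable (fun i => ∫ u, an_ml_phi N r s i u) := by
  have hs0 : 0 < s := by linarith
  refine summable_of_sum_le (c := B / (s - 1))
    (fun i => integral_nonneg (an_ml_phi_nonneg N r s i)) ?_
  intro T
  rw [← integral_finsetSum T (fun i _ => an_ml_phi_integrable N r hs0 i),
    ← an_ml_integral_G B (c := s - 1) (by linarith)]
  refine integral_mono (integrable_finsetSum T (fun i _ => an_ml_phi_integrable N r hs0 i))
    (an_ml_G_integrable B (by linarith)) ?_
  intro u
  exact (sum_le_hasSum T (fun i _ => an_ml_phi_nonneg N r s i u)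
    (an_ml_hasSum_phi N hN hfin r s u)).trans (an_ml_le_G N hN hfin r s B hB u)

omit [Countable ι] in
theorem an_ml_summable (N : ι → ℝ) (hN : ∀ i, 1 ≤ N i)
    (hfin : ∀ X : ℝ, {i | N i < X}.Finite) (r : ℕ) {s : ℝ} (hs : 1 < s) (B : ℝ)
    (hB : ∀ X : ℝ, 1 ≤ X → an_ml_R N hfin r X ≤ B * X) :
    Summable (fun i => N i ^ (-s)) := by
  have hs0 : 0 < s := by linarith
  have h := an_ml_summable_integral N hN hfin r hs B hB
  have hc : (r.factorial : ℝ) / s ^ (r + 1) ≠ 0 := by positivity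
  have h2 : (fun i => ∫ u, an_ml_phi N r s i u)
      = fun i => N i ^ (-s) * ((r.factorial : ℝ) / s ^ (r + 1)) := by
    funext i
    exact an_ml_integral_phi N r hs0 i (by linarith [hN i])
  rw [h2] at h
  exact (summable_mul_right_iff hc).1 h

omit [Countable ι] in
theorem an_ml_integrable_R (N : ι → ℝ) (hN : ∀ i, 1 ≤ N i)
    (hfin : ∀ X : ℝ, {i | N i < X}.Finite) (r : ℕ) {s : ℝ} (hs : 1 < s) (B : ℝ)
    (hB : ∀ X : ℝ, 1 ≤ X → an_ml_R N hfin r X ≤ B * X) :
    Integrable (fun u => an_ml_R N hfin r (Real.exp u) * Real.exp (-(s * u))) := by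
  have hmeas : Measurable (fun u => an_ml_R N hfin r (Real.exp u) * Real.exp (-(s * u))) := by
    apply Measurable.mul
    · exact ((an_ml_R_mono N hN hfin r).comp Real.exp_monotone).measurable
    · fun_prop
  refine Integrable.mono' (an_ml_G_integrable B (c := s - 1) (by linarith))
    hmeas.aestronglyMeasurable (Filter.Eventually.of_forall fun u => ?_)
  rw [Real.norm_of_nonneg (mul_nonneg (an_ml_R_nonneg N hN hfin r _) (Real.exp_pos _).le)]
  exact an_ml_le_G N hN hfin r s B hB u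

/-- The Laplace transform of the Riesz sum is the Dirichlet series, up to `r! / s^(r+1)`. -/
theorem an_ml_integral_R (N : ι → ℝ) (hN : ∀ i, 1 ≤ N i)
    (hfin : ∀ X : ℝ, {i | N i < X}.Finite) (r : ℕ) {s : ℝ} (hs : 1 < s) (B : ℝ)
    (hB : ∀ X : ℝ, 1 ≤ X → an_ml_R N hfin r X ≤ B * X) :
    ∫ u, an_ml_R N hfin r (Real.exp u) * Real.exp (-(s * u))
      = (∑' i, N i ^ (-s)) * ((r.factorial : ℝ) / s ^ (r + 1)) := by
  have hs0 : 0 < s := by linarith
  have hsum : Summable (fun i => ∫ u, ‖an_ml_phi N r s i u‖) := by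
    have h := an_ml_summable_integral N hN hfin r hs B hB
    refine h.congr (fun i => ?_)
    refine integral_congr_ae (Filter.Eventually.of_forall fun u => ?_)
    exact (Real.norm_of_nonneg (an_ml_phi_nonneg N r s i u)).symm
  have h := hasSum_integral_of_summable_integral_norm
    (fun i => an_ml_phi_integrable N r hs0 i) hsum
  have h1 : (fun u => ∑' i, an_ml_phi N r s i u)
      = fun u => an_ml_R N hfin r (Real.exp u) * Real.exp (-(s * u)) := by
    funext u
    exact (an_ml_hasSum_phi N hN hfin r s u).tsum_eq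
  rw [h1] at h
  rw [← h.tsum_eq, ← tsum_mul_right]
  refine tsum_congr (fun i => ?_)
  exact an_ml_integral_phi N r hs0 i (by linarith [hN i])

end

/-- **Mellin step.**  Two families of norms whose Riesz sums of order `r` are both
`A X + O(X^(1-δ))` have Dirichlet series that converge for `s > 1` and whose difference is bounded
on `(1, 2]`. -/
theorem an_ml_diff_bounded {ι ι' : Type*} [Countable ι] [Countable ι']
    (N : ι → ℝ) (N' : ι' → ℝ) (hN : ∀ i, 1 ≤ N i) (hN' : ∀ i, 1 ≤ N' i)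
    (hfin : ∀ X : ℝ, {i | N i < X}.Finite) (hfin' : ∀ X : ℝ, {i | N' i < X}.Finite)
    (r : ℕ) (A M δ : ℝ) (hδ : 0 < δ)
    (hR : ∀ X : ℝ, 1 ≤ X →
      |∑ i ∈ (hfin X).toFinset, Real.log (X / N i) ^ r - A * X| ≤ M * X ^ (1 - δ))
    (hR' : ∀ X : ℝ, 1 ≤ X →
      |∑ i ∈ (hfin' X).toFinset, Real.log (X / N' i) ^ r - A * X| ≤ M * X ^ (1 - δ))
    (s : ℝ) (hs : 1 < s) (hs2 : s ≤ 2) :
    Summable (fun i => N i ^ (-s)) ∧ Summable (fun i => N' i ^ (-s)) ∧
      |∑' i, N i ^ (-s) - ∑' i, N' i ^ (-s)| ≤ 2 ^ (r + 2) * M / (r.factorial * δ) := by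
  have hs0 : 0 < s := by linarith
  -- `M ≥ 0`
  have hM : 0 ≤ M := by
    have h := hR 1 le_rfl
    simp only [Real.one_rpow, mul_one] at h
    exact (abs_nonneg _).trans h
  -- linear upper bounds
  have hpow : ∀ X : ℝ, 1 ≤ X → X ^ (1 - δ) ≤ X := by
    intro X hX
    calc X ^ (1 - δ) ≤ X ^ (1 : ℝ) := Real.rpow_le_rpow_of_exponent_le hX (by linarith)
      _ = X := Real.rpow_one X
  have hB : ∀ X : ℝ, 1 ≤ X → an_ml_R N hfin r X ≤ (|A| + M) * X := by
    intro X hX
    have h := (abs_le.1 (hR X hX)).2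
    have h1 : A * X ≤ |A| * X := mul_le_mul_of_nonneg_right (le_abs_self A) (by linarith)
    have h2 : M * X ^ (1 - δ) ≤ M * X := mul_le_mul_of_nonneg_left (hpow X hX) hM
    unfold an_ml_R
    linarith
  have hB' : ∀ X : ℝ, 1 ≤ X → an_ml_R N' hfin' r X ≤ (|A| + M) * X := by
    intro X hX
    have h := (abs_le.1 (hR' X hX)).2
    have h1 : A * X ≤ |A| * X := mul_le_mul_of_nonneg_right (le_abs_self A) (by linarith)
    have h2 : M * X ^ (1 - δ) ≤ M * X := mul_le_mul_of_nonneg_left (hpow X hX) hM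
    unfold an_ml_R
    linarith
  refine ⟨an_ml_summable N hN hfin r hs _ hB, an_ml_summable N' hN' hfin' r hs _ hB', ?_⟩
  -- the two Laplace transforms
  have hI := an_ml_integral_R N hN hfin r hs _ hB
  have hI' := an_ml_integral_R N' hN' hfin' r hs _ hB'
  have hint := an_ml_integrable_R N hN hfin r hs _ hB
  have hint' := an_ml_integrable_R N' hN' hfin' r hs _ hB'
  set c : ℝ := (r.factorial : ℝ) / s ^ (r + 1) with hc
  have hcpos : 0 < c := by positivity
  -- pointwise bound of the difference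
  have hpt : ∀ u : ℝ,
      ‖an_ml_R N hfin r (Real.exp u) * Real.exp (-(s * u))
        - an_ml_R N' hfin' r (Real.exp u) * Real.exp (-(s * u))‖
        ≤ an_ml_G (2 * M) (s + δ - 1) u := by
    intro u
    unfold an_ml_G
    by_cases hu : 0 ≤ u
    · rw [Set.indicator_of_mem (by simpa using hu), ← sub_mul, norm_mul, Real.norm_eq_abs,
        Real.norm_of_nonneg (Real.exp_pos _).le]
      have hX : 1 ≤ Real.exp u := Real.one_le_exp hu
      have h1 := hR (Real.exp u) hX
      have h2 := hR' (Real.exp u) hX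
      have h3 : |an_ml_R N hfin r (Real.exp u) - an_ml_R N' hfin' r (Real.exp u)|
          ≤ 2 * M * Real.exp u ^ (1 - δ) := by
        unfold an_ml_R
        have := abs_sub_le (∑ i ∈ (hfin (Real.exp u)).toFinset, Real.log (Real.exp u / N i) ^ r)
          (A * Real.exp u) (∑ i ∈ (hfin' (Real.exp u)).toFinset, Real.log (Real.exp u / N' i) ^ r)
        rw [abs_sub_comm (A * Real.exp u)] at this
        linarith
      calc |an_ml_R N hfin r (Real.exp u) - an_ml_R N' hfin' r (Real.exp u)| * Real.exp (-(s * u))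
          ≤ 2 * M * Real.exp u ^ (1 - δ) * Real.exp (-(s * u)) :=
            mul_le_mul_of_nonneg_right h3 (Real.exp_pos _).le
        _ = 2 * M * Real.exp (-(s + δ - 1) * u) := by
            rw [← Real.exp_mul, mul_assoc, ← Real.exp_add]
            congr 2
            ring
    · have hlt : Real.exp u ≤ 1 := by rw [Real.exp_le_one_iff]; linarith
      rw [Set.indicator_of_notMem (by simpa using hu), an_ml_R_of_le_one N hN hfin r hlt,
        an_ml_R_of_le_one N' hN' hfin' r hlt]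
      simp
  have hdiff : |(∑' i, N i ^ (-s)) * c - (∑' i, N' i ^ (-s)) * c| ≤ 2 * M / (s + δ - 1) := by
    rw [← hI, ← hI', ← integral_sub hint hint', ← Real.norm_eq_abs,
      ← an_ml_integral_G (2 * M) (c := s + δ - 1) (by linarith)]
    exact norm_integral_le_of_norm_le (an_ml_G_integrable (2 * M) (by linarith))
      (Filter.Eventually.of_forall hpt)
  have hdiff2 : |∑' i, N i ^ (-s) - ∑' i, N' i ^ (-s)| * c ≤ 2 * M / δ := by
    have he : |∑' i, N i ^ (-s) - ∑' i, N' i ^ (-s)| * c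
        = |(∑' i, N i ^ (-s)) * c - (∑' i, N' i ^ (-s)) * c| := by
      rw [← sub_mul, abs_mul, abs_of_pos hcpos]
    rw [he]
    refine hdiff.trans ?_
    apply div_le_div_of_nonneg_left (by positivity) hδ (by linarith)
  -- divide by `c`
  have hcinv : 1 / c ≤ 2 ^ (r + 1) / (r.factorial : ℝ) := by
    rw [hc, one_div, inv_div]
    apply div_le_div_of_nonneg_right _ (by positivity)
    exact pow_le_pow_left₀ hs0.le hs2 (r + 1)
  calc |∑' i, N i ^ (-s) - ∑' i, N' i ^ (-s)|
      = |∑' i, N i ^ (-s) - ∑' i, N' i ^ (-s)| * c * (1 / c) := by field_simp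
    _ ≤ 2 * M / δ * (2 ^ (r + 1) / (r.factorial : ℝ)) :=
        mul_le_mul hdiff2 hcinv (by positivity) (by positivity)
    _ = 2 ^ (r + 2) * M / (r.factorial * δ) := by
        rw [pow_succ 2 (r + 1)]
        field_simp

end Fermat.Agent.S14
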