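import Fermat.Agent.S14.AnRieszIface
import Fermat.Agent.S14.AnMellin
import Fermat.Agent.S14.AnIface

set_option autoImplicit false

/-!
# S14 / AN: glue between the geometric Riesz count and the class zeta functions

`an_rz_RieszBounds K` (the uniform Riesz asymptotic `R_C(u) = A e^u + O(e^{(1-1/n)u})` for the
simplex-weighted count of the ideals of a class) implies, through the Mellin step
`an_ml_diff_bounded`, that the partial zeta functions of any two ideal classes converge for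
`s > 1` and differ by a bounded amount on `(1, 2]` (`an_gl_classZeta`, which is `an_if_CZ K`).
-/

namespace Fermat.Agent.S14

open NumberField InfinitePlace mixedEmbedding Units dirichletUnitTheorem MeasureTheory Module
open scoped nonZeroDivisors ENNReal NNReal Classical Pointwise

variable (K : Type*) [Field K] [NumberField K]

/-- The dimension of the log space. -/
noncomputable def an_gl_r : ℕ := Fintype.card {w : InfinitePlace K // w ≠ w₀}

theorem an_gl_W_nonpos {Y : ℝ} (hY : Y ≤ 0) : an_rz_W K Y = 0 := by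
  have h : an_rz_simplex K Y = ∅ := by
    ext s
    simp only [an_rz_simplex, Set.mem_ofPred_eq, Set.mem_empty_iff_false, iff_false, not_and,
      not_lt]
    intro h1
    exact hY.trans (Finset.sum_nonneg fun w _ => (h1 w).le)
  rw [an_rz_W, h, measure_empty]

theorem an_gl_simplex_eq_smul {Y : ℝ} (hY : 0 < Y) :
    an_rz_simplex K Y = Y • an_rz_simplex K 1 := by
  ext s
  rw [Set.mem_smul_set_iff_inv_smul_mem₀ hY.ne']
  simp only [an_rz_simplex, Set.mem_ofPred_eq, Pi.smul_apply, _root_.smul_eq_mul]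
  have hinv : 0 < Y⁻¹ := inv_pos.2 hY
  constructor
  · rintro ⟨h1, h2⟩
    refine ⟨fun w => mul_pos hinv (h1 w), ?_⟩
    rw [← Finset.mul_sum]
    calc Y⁻¹ * ∑ w, s w < Y⁻¹ * Y := mul_lt_mul_of_pos_left h2 hinv
      _ = 1 := inv_mul_cancel₀ hY.ne'
  · rintro ⟨h1, h2⟩
    refine ⟨fun w => ?_, ?_⟩
    · exact (mul_pos_iff_of_pos_left hinv).1 (h1 w)
    · rw [← Finset.mul_sum] at h2
      have h3 : Y * (Y⁻¹ * ∑ w, s w) < Y * 1 := mul_lt_mul_of_pos_left h2 hY
      rw [← mul_assoc, mul_inv_cancel₀ hY.ne', one_mul, mul_one] at h3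
      exact h3

theorem an_gl_W_pos {Y : ℝ} (hY : 0 < Y) :
    an_rz_W K Y = ENNReal.ofReal (Y ^ an_gl_r K) * an_rz_W K 1 := by
  rw [an_rz_W, an_gl_simplex_eq_smul K hY, Measure.addHaar_smul, an_rz_W,
    Module.finrank_fintype_fun_eq_card, abs_of_nonneg (pow_nonneg hY.le _)]
  rfl

theorem an_gl_W_one_pos : 0 < an_rz_W K 1 := by
  have hopen : IsOpen (an_rz_simplex K 1) := by
    have h : an_rz_simplex K 1 = (⋂ w, {s : logSpace K | 0 < s w}) ∩ {s | ∑ w, s w < 1} := by
      ext s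
      simp [an_rz_simplex]
    rw [h]
    refine IsOpen.inter (isOpen_iInter_of_finite fun w => ?_) ?_
    · exact isOpen_lt continuous_const (continuous_apply w)
    · exact isOpen_lt (continuous_finsetSum _ fun w _ => continuous_apply w) continuous_const
  have hne : (an_rz_simplex K 1).Nonempty := by
    refine ⟨fun _ => 1 / ((an_gl_r K : ℝ) + 1), fun w => by positivity, ?_⟩
    rw [Finset.sum_const, Finset.card_univ, nsmul_eq_mul]
    have hc : ((Fintype.card {w : InfinitePlace K // w ≠ w₀} : ℕ) : ℝ) = (an_gl_r K : ℝ) := rfl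
    rw [hc, mul_one_div, div_lt_one (by positivity)]
    linarith
  exact hopen.measure_pos volume hne

theorem an_gl_W_one_lt_top : an_rz_W K 1 < ⊤ := by
  apply Bornology.IsBounded.measure_lt_top
  rw [isBounded_iff_forall_norm_le]
  refine ⟨1, fun s hs => ?_⟩
  rw [pi_norm_le_iff_of_nonneg zero_le_one]
  intro w
  obtain ⟨h1, h2⟩ := hs
  rw [Real.norm_eq_abs, abs_of_pos (h1 w)]
  have h3 : s w ≤ ∑ w', s w' :=
    Finset.single_le_sum (f := fun w' => s w') (fun w' _ => (h1 w').le) (Finset.mem_univ w)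
  linarith

/-- The norm of an ideal of the class `C`, as a real number. -/
noncomputable def an_gl_N (C : ClassGroup (𝓞 K)) (I : an_rz_Cls K C) : ℝ :=
  (Ideal.absNorm (I.1 : Ideal (𝓞 K)) : ℝ)

theorem an_gl_one_le_N (C : ClassGroup (𝓞 K)) (I : an_rz_Cls K C) : 1 ≤ an_gl_N K C I := by
  have h := Ideal.absNorm_pos_of_nonZeroDivisors I.1
  unfold an_gl_N
  exact_mod_cast h

theorem an_gl_countable (C : ClassGroup (𝓞 K)) : Countable (an_rz_Cls K C) := by
  have h : (Set.univ : Set (Ideal (𝓞 K))⁰) =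
      ⋃ n : ℕ, {I : (Ideal (𝓞 K))⁰ | Ideal.absNorm (I : Ideal (𝓞 K)) ≤ n} := by
    ext I
    simp only [Set.mem_univ, Set.mem_iUnion, Set.mem_ofPred_eq, true_iff]
    exact ⟨_, le_rfl⟩
  have hc : (Set.univ : Set (Ideal (𝓞 K))⁰).Countable := by
    rw [h]
    exact Set.countable_iUnion fun n => (Ideal.finite_setOfPred_absNorm_le₀ n).countable
  have : Countable (Ideal (𝓞 K))⁰ := Set.countable_univ_iff.1 hc
  exact Subtype.countable

theorem an_gl_finite (C : ClassGroup (𝓞 K)) (X : ℝ) :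
    {I : an_rz_Cls K C | an_gl_N K C I < X}.Finite := by
  have h := (Ideal.finite_setOfPred_absNorm_le₀ (S := 𝓞 K) ⌈X⌉₊).preimage
    (f := (Subtype.val : an_rz_Cls K C → (Ideal (𝓞 K))⁰)) Subtype.val_injective.injOn
  refine h.subset ?_
  intro I hI
  simp only [Set.mem_preimage, Set.mem_ofPred_eq] at hI ⊢
  have h2 : (Ideal.absNorm (I.1 : Ideal (𝓞 K)) : ℝ) ≤ ⌈X⌉₊ := hI.le.trans (Nat.le_ceil X)
  exact_mod_cast h2

/-- The extended Riesz sum of a class is the real Riesz sum of order `r` times the volume of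
the unit simplex. -/
theorem an_gl_R_eq (C : ClassGroup (𝓞 K)) (u : ℝ) :
    an_rz_R K C u =
      ENNReal.ofReal (an_ml_R (an_gl_N K C) (an_gl_finite K C) (an_gl_r K) (Real.exp u)) *
        an_rz_W K 1 := by
  have hterm : ∀ I : an_rz_Cls K C,
      an_rz_W K (u - Real.log (Ideal.absNorm (I.1 : Ideal (𝓞 K)))) =
        ENNReal.ofReal (if an_gl_N K C I < Real.exp u then
          Real.log (Real.exp u / an_gl_N K C I) ^ an_gl_r K else 0) * an_rz_W K 1 := by
    intro I
    have hpos : 0 < an_gl_N K C I := lt_of_lt_of_le one_pos (an_gl_one_le_N K C I)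
    by_cases h : an_gl_N K C I < Real.exp u
    · rw [if_pos h, Real.log_div (Real.exp_pos u).ne' hpos.ne', Real.log_exp]
      exact an_gl_W_pos K (sub_pos.2 ((Real.log_lt_iff_lt_exp hpos).2 h))
    · rw [if_neg h, ENNReal.ofReal_zero, zero_mul]
      apply an_gl_W_nonpos
      rw [sub_nonpos]
      exact (Real.le_log_iff_exp_le hpos).2 (not_lt.1 h)
  rw [an_rz_R, tsum_congr hterm, ENNReal.tsum_mul_right]
  congr 1
  rw [tsum_eq_sum (s := (an_gl_finite K C (Real.exp u)).toFinset)]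
  · unfold an_ml_R
    rw [ENNReal.ofReal_sum_of_nonneg]
    · refine Finset.sum_congr rfl fun I hI => ?_
      rw [Set.Finite.mem_toFinset, Set.mem_ofPred_eq] at hI
      rw [if_pos hI]
    · intro I hI
      rw [Set.Finite.mem_toFinset, Set.mem_ofPred_eq] at hI
      have hpos : 0 < an_gl_N K C I := lt_of_lt_of_le one_pos (an_gl_one_le_N K C I)
      exact pow_nonneg (Real.log_nonneg ((one_le_div hpos).2 hI.le)) _
  · intro I hI
    rw [Set.Finite.mem_toFinset, Set.mem_ofPred_eq] at hI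
    rw [if_neg hI, ENNReal.ofReal_zero]

/-- The Riesz bounds in real form: `|R_C(X) - (A / w) X| ≤ (B / w) X^(1 - 1/n)` for `X ≥ 1`. -/
theorem an_gl_riesz_real (A B : ℝ) (hA : 0 ≤ A) (hB : 0 ≤ B)
    (h : ∀ (C : ClassGroup (𝓞 K)) (u : ℝ), 0 ≤ u →
      an_rz_R K C u ≤
        ENNReal.ofReal (A * Real.exp u + B * Real.exp ((1 - 1 / (finrank ℚ K : ℝ)) * u)) ∧
      ENNReal.ofReal (A * Real.exp u) ≤
        an_rz_R K C u + ENNReal.ofReal (B * Real.exp ((1 - 1 / (finrank ℚ K : ℝ)) * u)))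
    (C : ClassGroup (𝓞 K)) (X : ℝ) (hX : 1 ≤ X) :
    |an_ml_R (an_gl_N K C) (an_gl_finite K C) (an_gl_r K) X - A / (an_rz_W K 1).toReal * X|
      ≤ B / (an_rz_W K 1).toReal * X ^ (1 - 1 / (finrank ℚ K : ℝ)) := by
  set w1 := (an_rz_W K 1).toReal with hw1
  have hw1pos : 0 < w1 := ENNReal.toReal_pos (an_gl_W_one_pos K).ne' (an_gl_W_one_lt_top K).ne
  have hW : an_rz_W K 1 = ENNReal.ofReal w1 :=
    (ENNReal.ofReal_toReal (an_gl_W_one_lt_top K).ne).symm
  have hXpos : 0 < X := by linarith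
  have hu0 : 0 ≤ Real.log X := Real.log_nonneg hX
  have hexp : Real.exp (Real.log X) = X := Real.exp_log hXpos
  have hexp2 : Real.exp ((1 - 1 / (finrank ℚ K : ℝ)) * Real.log X) =
      X ^ (1 - 1 / (finrank ℚ K : ℝ)) := by
    rw [mul_comm, Real.exp_mul, hexp]
  obtain ⟨h1, h2⟩ := h C (Real.log X) hu0
  rw [an_gl_R_eq, hexp, hexp2, hW] at h1 h2
  set R := an_ml_R (an_gl_N K C) (an_gl_finite K C) (an_gl_r K) X with hR
  set E := X ^ (1 - 1 / (finrank ℚ K : ℝ)) with hE
  have hR0 : 0 ≤ R := an_ml_R_nonneg _ (an_gl_one_le_N K C) _ _ _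
  have hE0 : 0 ≤ B * E := mul_nonneg hB (Real.rpow_nonneg hXpos.le _)
  have hRw : 0 ≤ R * w1 := mul_nonneg hR0 hw1pos.le
  rw [← ENNReal.ofReal_mul hR0] at h1 h2
  rw [← ENNReal.ofReal_add hRw hE0] at h2
  have h1' : R * w1 ≤ A * X + B * E :=
    (ENNReal.ofReal_le_ofReal_iff (add_nonneg (mul_nonneg hA hXpos.le) hE0)).1 h1
  have h2' : A * X ≤ R * w1 + B * E :=
    (ENNReal.ofReal_le_ofReal_iff (add_nonneg hRw hE0)).1 h2
  rw [abs_le]
  constructor
  · have h3 : (A * X - B * E) / w1 ≤ R := by rw [div_le_iff₀ hw1pos]; linarith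
    have e : (A * X - B * E) / w1 = A / w1 * X - B / w1 * E := by ring
    linarith
  · have h3 : R ≤ (A * X + B * E) / w1 := by rw [le_div_iff₀ hw1pos]; linarith
    have e : (A * X + B * E) / w1 = A / w1 * X + B / w1 * E := by ring
    linarith

/-- **Class zeta functions.**  The Riesz bounds imply that the partial zeta functions of the
ideal classes converge for `s > 1` and have bounded pairwise differences on `(1, 2]`. -/
theorem an_gl_classZeta (h : an_rz_RieszBounds K) :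
    ∃ B : ℝ, ∀ (C C' : ClassGroup (𝓞 K)) (s : ℝ), 1 < s → s ≤ 2 →
      Summable (fun I : {I : (Ideal (𝓞 K))⁰ // ClassGroup.mk0 I = C} =>
        ((Ideal.absNorm (I.1 : Ideal (𝓞 K)) : ℝ)) ^ (-s)) ∧
      |(∑' I : {I : (Ideal (𝓞 K))⁰ // ClassGroup.mk0 I = C},
          ((Ideal.absNorm (I.1 : Ideal (𝓞 K)) : ℝ)) ^ (-s)) -
        ∑' I : {I : (Ideal (𝓞 K))⁰ // ClassGroup.mk0 I = C'},
          ((Ideal.absNorm (I.1 : Ideal (𝓞 K)) : ℝ)) ^ (-s)| ≤ B := by
  obtain ⟨A, B, hA, hB, hAB⟩ := h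
  refine ⟨2 ^ (an_gl_r K + 2) * (B / (an_rz_W K 1).toReal) /
    ((an_gl_r K).factorial * (1 / (finrank ℚ K : ℝ))), ?_⟩
  intro C C' s hs hs2
  have := an_gl_countable K C
  have := an_gl_countable K C'
  have hδ : 0 < 1 / (finrank ℚ K : ℝ) := by
    have h0 : 0 < finrank ℚ K := finrank_pos
    positivity
  obtain ⟨h1, -, h3⟩ := an_ml_diff_bounded (an_gl_N K C) (an_gl_N K C') (an_gl_one_le_N K C)
    (an_gl_one_le_N K C') (an_gl_finite K C) (an_gl_finite K C') (an_gl_r K)
    (A / (an_rz_W K 1).toReal) (B / (an_rz_W K 1).toReal) (1 / (finrank ℚ K : ℝ)) hδ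
    (fun X hX => an_gl_riesz_real K A B hA.le hB hAB C X hX)
    (fun X hX => an_gl_riesz_real K A B hA.le hB hAB C' X hX) s hs hs2
  exact ⟨h1, h3⟩

/-- The interface form: the Riesz bounds imply `an_if_CZ K`. -/
theorem an_gl_CZ (h : an_rz_RieszBounds K) : an_if_CZ K :=
  an_gl_classZeta K h

end Fermat.Agent.S14
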