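import Mathlib

set_option autoImplicit false

/-!
# S14 / AN: the product bound (pure real analysis)

If `∏ ρ_i ^ m_i = e^v` and all `ρ_i ≥ c₁ e^{v/n}` (`n = ∑ m_i`), then enlarging or shrinking every
`ρ_i` by a fixed `d` changes the product by at most `B e^{(1 - 1/n) v}`.
-/

namespace Fermat.Agent.S14

open scoped NNReal

theorem an_pr_one_add_pow_le (x : ℝ) (hx : 0 ≤ x) (n : ℕ) :
    (1 + x) ^ n ≤ 1 + n * x * (1 + x) ^ n := by
  induction n with
  | zero => simp
  | succ k ih =>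
    have h1 : (1 : ℝ) ≤ (1 + x) ^ (k + 1) := one_le_pow₀ (by linarith)
    have h2 : 0 ≤ (1 + x) ^ k := by positivity
    calc (1 + x) ^ (k + 1) = (1 + x) ^ k * (1 + x) := pow_succ _ _
      _ ≤ (1 + k * x * (1 + x) ^ k) * (1 + x) := by gcongr
      _ = 1 + x + k * x * (1 + x) ^ (k + 1) := by ring
      _ ≤ 1 + x * (1 + x) ^ (k + 1) + k * x * (1 + x) ^ (k + 1) := by nlinarith
      _ = 1 + ((k + 1 : ℕ) : ℝ) * x * (1 + x) ^ (k + 1) := by push_cast; ring

/-- **Product bound.** -/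
theorem an_pr_prod_bound {ι : Type*} [Fintype ι] (m : ι → ℕ) (hm : ∀ i, 1 ≤ m i) (d c₁ : ℝ≥0)
    (hc₁ : 0 < c₁) :
    ∃ B : ℝ, 0 ≤ B ∧ ∀ (v : ℝ) (ρ : ι → ℝ≥0), 0 ≤ v →
      (∀ i, (c₁ : ℝ) * Real.exp (v / ((∑ i, m i : ℕ) : ℝ)) ≤ (ρ i : ℝ)) →
      ∏ i, (ρ i : ℝ) ^ m i = Real.exp v →
      ((∏ i, (ρ i + d) ^ m i : ℝ≥0) : ℝ) ≤
          Real.exp v + B * Real.exp ((1 - 1 / ((∑ i, m i : ℕ) : ℝ)) * v) ∧
        Real.exp v - B * Real.exp ((1 - 1 / ((∑ i, m i : ℕ) : ℝ)) * v) ≤
          ((∏ i, (ρ i - d) ^ m i : ℝ≥0) : ℝ) := by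
  set n : ℕ := ∑ i, m i with hn
  set x₀ : ℝ := (d : ℝ) / c₁ with hx₀
  have hc₁' : (0 : ℝ) < c₁ := by exact_mod_cast hc₁
  have hd0 : (0 : ℝ) ≤ d := NNReal.coe_nonneg d
  have hx₀0 : 0 ≤ x₀ := by positivity
  have hB1 : (0 : ℝ) ≤ n * x₀ * (1 + x₀) ^ n := by positivity
  have hB2 : (0 : ℝ) ≤ n * x₀ := by positivity
  refine ⟨n * x₀ * (1 + x₀) ^ n + n * x₀ + x₀, by positivity, ?_⟩
  intro v ρ hv hρ hprod
  have hepos : 0 < Real.exp ((1 - 1 / (n : ℝ)) * v) := Real.exp_pos _
  rcases isEmpty_or_nonempty ι with hι | hι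
  · simp only [Finset.univ_eq_empty, Finset.prod_empty] at hprod ⊢
    rw [← hprod]
    simp only [NNReal.coe_one]
    constructor
    · nlinarith
    · nlinarith
  · have hn1 : 1 ≤ n := by
      obtain ⟨i₀⟩ := hι
      calc 1 ≤ m i₀ := hm i₀
        _ ≤ ∑ i, m i := Finset.single_le_sum (fun _ _ => Nat.zero_le _) (Finset.mem_univ i₀)
    have hn0 : (n : ℝ) ≠ 0 := by
      have : (1 : ℝ) ≤ n := by exact_mod_cast hn1
      linarith
    set E : ℝ := Real.exp (v / n) with hE
    have hE1 : 1 ≤ E := Real.one_le_exp (div_nonneg hv (Nat.cast_nonneg n))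
    have hEpos : 0 < E := Real.exp_pos _
    have hsplit : Real.exp v = Real.exp ((1 - 1 / (n : ℝ)) * v) * E := by
      rw [hE, ← Real.exp_add]
      congr 1
      field_simp
      ring
    set x : ℝ := d / (c₁ * E) with hx
    have hx0 : 0 ≤ x := by positivity
    have hxE : x * E = x₀ := by
      rw [hx, hx₀]
      field_simp
    have hxx₀ : x ≤ x₀ := by
      rw [← hxE]
      nlinarith
    have hdρ : ∀ i, (d : ℝ) ≤ ρ i * x := by
      intro i
      rw [hx, mul_div_assoc', le_div_iff₀ (by positivity)]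
      nlinarith [hρ i]
    have hprod' : ∀ y : ℝ, ∏ i, ((ρ i : ℝ) * y) ^ m i = Real.exp v * y ^ n := by
      intro y
      simp_rw [mul_pow]
      rw [Finset.prod_mul_distrib, hprod, Finset.prod_pow_eq_pow_sum]
    constructor
    · have h2 : ((∏ i, (ρ i + d) ^ m i : ℝ≥0) : ℝ) ≤ ∏ i, ((ρ i : ℝ) * (1 + x)) ^ m i := by
        push_cast
        apply Finset.prod_le_prod
        · intro i _
          positivity
        · intro i _
          apply pow_le_pow_left₀ (by positivity)
          linarith [hdρ i]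
      have h4 := an_pr_one_add_pow_le x hx0 n
      have h5 : (1 + x) ^ n ≤ (1 + x₀) ^ n := pow_le_pow_left₀ (by linarith) (by linarith) n
      calc ((∏ i, (ρ i + d) ^ m i : ℝ≥0) : ℝ) ≤ Real.exp v * (1 + x) ^ n := h2.trans (hprod' _).le
        _ ≤ Real.exp v * (1 + n * x * (1 + x₀) ^ n) := by
            apply mul_le_mul_of_nonneg_left _ (Real.exp_pos v).le
            calc (1 + x) ^ n ≤ 1 + n * x * (1 + x) ^ n := h4
              _ ≤ 1 + n * x * (1 + x₀) ^ n := by gcongr
        _ = Real.exp v + (n * x₀ * (1 + x₀) ^ n) * Real.exp ((1 - 1 / (n : ℝ)) * v) := by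
            rw [hsplit, ← hxE]
            ring
        _ ≤ _ := by nlinarith
    · by_cases hcase : (c₁ : ℝ) * E < d
      · have hEB : E ≤ x₀ := by
          rw [hx₀, le_div_iff₀ hc₁']
          linarith
        have h0 : Real.exp v - (n * x₀ * (1 + x₀) ^ n + n * x₀ + x₀) *
            Real.exp ((1 - 1 / (n : ℝ)) * v) ≤ 0 := by
          rw [hsplit]
          nlinarith
        exact h0.trans (NNReal.coe_nonneg _)
      · push Not at hcase
        have hx1 : x ≤ 1 := by
          rw [hx, div_le_one (by positivity)]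
          exact hcase
        have hρd : ∀ i, d ≤ ρ i := fun i => by
          have : (d : ℝ) ≤ ρ i := hcase.trans (hρ i)
          exact_mod_cast this
        have h2 : ∏ i, ((ρ i : ℝ) * (1 - x)) ^ m i ≤ ((∏ i, (ρ i - d) ^ m i : ℝ≥0) : ℝ) := by
          push_cast
          apply Finset.prod_le_prod
          · intro i _
            exact pow_nonneg (mul_nonneg (NNReal.coe_nonneg _) (by linarith)) _
          · intro i _
            apply pow_le_pow_left₀ (mul_nonneg (NNReal.coe_nonneg _) (by linarith))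
            rw [NNReal.coe_sub (hρd i)]
            linarith [hdρ i]
        have h4 : 1 - n * x ≤ (1 - x) ^ n := by
          have := one_add_mul_le_pow (show (-2 : ℝ) ≤ -x by linarith) n
          simpa [sub_eq_add_neg] using this
        calc Real.exp v - (n * x₀ * (1 + x₀) ^ n + n * x₀ + x₀) *
              Real.exp ((1 - 1 / (n : ℝ)) * v)
            ≤ Real.exp v - n * x₀ * Real.exp ((1 - 1 / (n : ℝ)) * v) := by nlinarith
          _ = Real.exp v * (1 - n * x) := by
              rw [hsplit, ← hxE]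
              ring
          _ ≤ Real.exp v * (1 - x) ^ n := by
              apply mul_le_mul_of_nonneg_left h4 (Real.exp_pos v).le
          _ ≤ _ := (hprod' _).symm.le.trans h2

end Fermat.Agent.S14
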