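import Fermat.Agent.S14.AnRiesz2
import Fermat.Agent.S14.AnProd

set_option autoImplicit false

/-!
# S14 / AN (A2), part 4: the Riesz asymptotic for every ideal class
-/

namespace Fermat.Agent.S14

open NumberField InfinitePlace mixedEmbedding Units dirichletUnitTheorem MeasureTheory Module
open scoped nonZeroDivisors ENNReal NNReal Classical Pointwise

section Core

/-- Real arithmetic core: from the two-sided bound for `(φ + w r) μ` to the bounds for `r`. -/
theorem an_rz_core_real (φ μ c w r e e' B : ℝ) (hφ : 0 < φ) (hμ : 0 < μ) (hc : 0 < c)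
    (hw : 0 < w) (he : 0 ≤ e) (he' : 1 ≤ e') (hB : 0 ≤ B)
    (hU : (φ + w * r) * μ ≤ c * (e + B * e') * φ)
    (hL : c * e * φ ≤ (φ + w * r) * μ + c * (B * e') * φ) :
    r ≤ c * φ / (w * μ) * e + (φ / w + c * φ / (w * μ) * B) * e' ∧
    c * φ / (w * μ) * e ≤ r + (φ / w + c * φ / (w * μ) * B) * e' := by
  have hwμ : 0 < w * μ := mul_pos hw hμ
  set A : ℝ := c * φ / (w * μ) with hA
  have hA0 : 0 < A := div_pos (mul_pos hc hφ) hwμ
  have hAeq : A * (w * μ) = c * φ := by rw [hA]; field_simp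
  have hφw : φ / w * (w * μ) = φ * μ := by field_simp
  have hφw0 : 0 < φ / w := div_pos hφ hw
  constructor
  · refine le_of_mul_le_mul_right ?_ hwμ
    have h1 : (A * e + (φ / w + A * B) * e') * (w * μ) =
        c * φ * e + (φ * μ + c * φ * B) * e' := by
      calc (A * e + (φ / w + A * B) * e') * (w * μ)
          = (A * (w * μ)) * e + (φ / w * (w * μ) + (A * (w * μ)) * B) * e' := by ring
        _ = _ := by rw [hAeq, hφw]
    rw [h1]
    have h2 : 0 ≤ φ * μ * e' := by positivity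
    nlinarith [mul_pos hφ hμ]
  · refine le_of_mul_le_mul_right ?_ hwμ
    have h1 : (r + (φ / w + A * B) * e') * (w * μ) =
        r * (w * μ) + (φ * μ + c * φ * B) * e' := by
      calc (r + (φ / w + A * B) * e') * (w * μ)
          = r * (w * μ) + (φ / w * (w * μ) + (A * (w * μ)) * B) * e' := by ring
        _ = _ := by rw [hAeq, hφw]
    have h0 : A * e * (w * μ) = c * φ * e := by
      calc A * e * (w * μ) = (A * (w * μ)) * e := by ring
        _ = _ := by rw [hAeq]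
    rw [h1, h0]
    have h2 : φ * μ ≤ φ * μ * e' := by
      have := mul_pos hφ hμ
      nlinarith
    nlinarith

/-- The same in `ℝ≥0∞`. -/
theorem an_rz_core (φ μ c w R : ℝ≥0∞) (hφ0 : φ ≠ 0) (hφ : φ ≠ ∞) (hμ0 : μ ≠ 0) (hμ : μ ≠ ∞)
    (hc0 : c ≠ 0) (hc : c ≠ ∞) (hw0 : w ≠ 0) (hw : w ≠ ∞)
    (e e' B : ℝ) (he : 0 ≤ e) (he' : 1 ≤ e') (hB : 0 ≤ B)
    (hU : (φ + w * R) * μ ≤ c * ENNReal.ofReal (e + B * e') * φ)
    (hL : c * ENNReal.ofReal e * φ ≤ (φ + w * R) * μ + c * ENNReal.ofReal (B * e') * φ) :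
    R ≤ ENNReal.ofReal (c.toReal * φ.toReal / (w.toReal * μ.toReal) * e +
      (φ.toReal / w.toReal + c.toReal * φ.toReal / (w.toReal * μ.toReal) * B) * e') ∧
    ENNReal.ofReal (c.toReal * φ.toReal / (w.toReal * μ.toReal) * e) ≤
      R + ENNReal.ofReal ((φ.toReal / w.toReal +
        c.toReal * φ.toReal / (w.toReal * μ.toReal) * B) * e') := by
  have he'0 : 0 ≤ e' := zero_le_one.trans he'
  have hRHS : c * ENNReal.ofReal (e + B * e') * φ ≠ ∞ :=
    ENNReal.mul_ne_top (ENNReal.mul_ne_top hc ENNReal.ofReal_ne_top) hφ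
  have hR : R ≠ ∞ := by
    rintro rfl
    rw [ENNReal.mul_top hw0, add_top, ENNReal.top_mul hμ0, top_le_iff] at hU
    exact hRHS hU
  have hφp := ENNReal.toReal_pos hφ0 hφ
  have hμp := ENNReal.toReal_pos hμ0 hμ
  have hcp := ENNReal.toReal_pos hc0 hc
  have hwp := ENNReal.toReal_pos hw0 hw
  have hwR : w * R ≠ ∞ := ENNReal.mul_ne_top hw hR
  have hU' : (φ.toReal + w.toReal * R.toReal) * μ.toReal ≤
      c.toReal * (e + B * e') * φ.toReal := by
    have h := ENNReal.toReal_mono hRHS hU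
    rwa [ENNReal.toReal_mul, ENNReal.toReal_add hφ hwR, ENNReal.toReal_mul, ENNReal.toReal_mul,
      ENNReal.toReal_mul, ENNReal.toReal_ofReal (by positivity)] at h
  have hL' : c.toReal * e * φ.toReal ≤
      (φ.toReal + w.toReal * R.toReal) * μ.toReal + c.toReal * (B * e') * φ.toReal := by
    have h1 : (φ + w * R) * μ ≠ ∞ := ENNReal.mul_ne_top (ENNReal.add_ne_top.mpr ⟨hφ, hwR⟩) hμ
    have h2 : c * ENNReal.ofReal (B * e') * φ ≠ ∞ :=
      ENNReal.mul_ne_top (ENNReal.mul_ne_top hc ENNReal.ofReal_ne_top) hφ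
    have h := ENNReal.toReal_mono (ENNReal.add_ne_top.mpr ⟨h1, h2⟩) hL
    rwa [ENNReal.toReal_add h1 h2, ENNReal.toReal_mul, ENNReal.toReal_mul, ENNReal.toReal_mul,
      ENNReal.toReal_add hφ hwR, ENNReal.toReal_mul, ENNReal.toReal_mul, ENNReal.toReal_mul,
      ENNReal.toReal_ofReal he, ENNReal.toReal_ofReal (by positivity)] at h
  obtain ⟨h1, h2⟩ := an_rz_core_real φ.toReal μ.toReal c.toReal w.toReal R.toReal e e' B
    hφp hμp hcp hwp he he' hB hU' hL'
  constructor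
  · rw [← ENNReal.ofReal_toReal hR]
    exact ENNReal.ofReal_le_ofReal h1
  · have h3 : R + ENNReal.ofReal ((φ.toReal / w.toReal +
        c.toReal * φ.toReal / (w.toReal * μ.toReal) * B) * e') =
        ENNReal.ofReal (R.toReal + (φ.toReal / w.toReal +
        c.toReal * φ.toReal / (w.toReal * μ.toReal) * B) * e') := by
      rw [ENNReal.ofReal_add ENNReal.toReal_nonneg (by positivity), ENNReal.ofReal_toReal hR]
    rw [h3]
    exact ENNReal.ofReal_le_ofReal h2

end Core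

variable (K : Type*) [Field K] [NumberField K]

/-- The extended coordinates are bounded on the fundamental domain. -/
theorem an_rz_tau_bounded :
    ∃ R : ℝ, 0 ≤ R ∧ ∀ t ∈ an_rz_F K, ∀ w, |an_rz_tau K t w| ≤ R := by
  obtain ⟨R₀, hR₀⟩ := isBounded_iff_forall_norm_le.mp (ZSpan.fundamentalDomain_isBounded
    ((basisUnitLattice K).ofZLatticeBasis ℝ (unitLattice K)))
  have hm : 0 ≤ max R₀ 0 := le_max_right _ _
  refine ⟨max R₀ 0 * (Fintype.card {w : InfinitePlace K // w ≠ w₀} + 1), by positivity,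
    fun t ht w => ?_⟩
  have h1 : ∀ w' : {w : InfinitePlace K // w ≠ w₀}, |t w'| ≤ max R₀ 0 := fun w' =>
    ((norm_le_pi_norm t w').trans (hR₀ t ht)).trans (le_max_left _ _)
  have hcard : (0 : ℝ) ≤ Fintype.card {w : InfinitePlace K // w ≠ w₀} := Nat.cast_nonneg _
  by_cases hw : w = w₀
  · subst hw
    rw [an_rz_tau_w0, abs_neg]
    calc |∑ w', t w'| ≤ ∑ w', |t w'| := Finset.abs_sum_le_sum_abs _ _
      _ ≤ ∑ _w' : {w : InfinitePlace K // w ≠ w₀}, max R₀ 0 :=
          Finset.sum_le_sum fun w' _ => h1 w'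
      _ = max R₀ 0 * Fintype.card {w : InfinitePlace K // w ≠ w₀} := by
          rw [Finset.sum_const, Finset.card_univ, nsmul_eq_mul, mul_comm]
      _ ≤ _ := by nlinarith
  · rw [an_rz_tau_ne K t w hw]
    calc |t ⟨w, hw⟩| ≤ max R₀ 0 := h1 _
      _ ≤ _ := by nlinarith

/-- Pointwise two-sided bound for the box count, for shapes in the fundamental domain. -/
theorem an_rz_cnt_sandwich (J : (Ideal (𝓞 K))⁰) :
    ∃ B : ℝ, 0 ≤ B ∧ ∀ v : ℝ, 0 ≤ v → ∀ t ∈ an_rz_F K,
      an_bx_cnt K J (an_rz_rad K v t) * volume (ZSpan.fundamentalDomain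
          (fractionalIdealLatticeBasis K (FractionalIdeal.mk0 K J))) ≤
        (convexBodyLTFactor K : ℝ≥0∞) * ENNReal.ofReal
          (Real.exp v + B * Real.exp ((1 - 1 / (finrank ℚ K : ℝ)) * v)) ∧
      (convexBodyLTFactor K : ℝ≥0∞) * ENNReal.ofReal (Real.exp v) ≤
        an_bx_cnt K J (an_rz_rad K v t) * volume (ZSpan.fundamentalDomain
          (fractionalIdealLatticeBasis K (FractionalIdeal.mk0 K J))) +
        (convexBodyLTFactor K : ℝ≥0∞) * ENNReal.ofReal
          (B * Real.exp ((1 - 1 / (finrank ℚ K : ℝ)) * v)) := by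
  obtain ⟨d, hd⟩ := an_bx_cnt_bounds K J
  obtain ⟨R, hR0, hR⟩ := an_rz_tau_bounded K
  obtain ⟨B, hB0, hB⟩ := an_pr_prod_bound (ι := InfinitePlace K) (fun w => mult w)
    (fun w => mult_pos) d ⟨Real.exp (-R), (Real.exp_pos _).le⟩ (Real.exp_pos _)
  rw [sum_mult_eq] at hB
  refine ⟨B, hB0, fun v hv t ht => ?_⟩
  have h1 : ∀ w : InfinitePlace K, Real.exp (-R) * Real.exp (v / (finrank ℚ K : ℝ)) ≤
      ((an_rz_rad K v t w : ℝ≥0) : ℝ) := by
    intro w
    rw [an_rz_coe_rad, ← Real.exp_add, Real.exp_le_exp]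
    have h2 := hR t ht w
    have hm : (1 : ℝ) ≤ mult w := by exact_mod_cast mult_pos
    have h3 : |an_rz_tau K t w / mult w| ≤ R := by
      rw [abs_div, abs_of_pos (by linarith : (0 : ℝ) < mult w)]
      exact (div_le_self (abs_nonneg _) hm).trans h2
    have h4 := (abs_le.mp h3).1
    linarith
  obtain ⟨hU, hL⟩ := hB v (an_rz_rad K v t) hv h1 (an_rz_prod_rad K v t)
  obtain ⟨hd1, hd2⟩ := hd (an_rz_rad K v t)
  constructor
  · refine hd2.trans ?_
    gcongr
    rw [← ENNReal.ofReal_coe_nnreal]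
    exact ENNReal.ofReal_le_ofReal hU
  · have h5 : ENNReal.ofReal (Real.exp v) ≤
        ((∏ w, (an_rz_rad K v t w - d) ^ mult w : ℝ≥0) : ℝ≥0∞) +
          ENNReal.ofReal (B * Real.exp ((1 - 1 / (finrank ℚ K : ℝ)) * v)) := by
      rw [← ENNReal.ofReal_coe_nnreal]
      refine le_trans ?_ ENNReal.ofReal_add_le
      exact ENNReal.ofReal_le_ofReal (by linarith)
    calc (convexBodyLTFactor K : ℝ≥0∞) * ENNReal.ofReal (Real.exp v)
        ≤ (convexBodyLTFactor K : ℝ≥0∞) * (((∏ w, (an_rz_rad K v t w - d) ^ mult w : ℝ≥0) : ℝ≥0∞) +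
          ENNReal.ofReal (B * Real.exp ((1 - 1 / (finrank ℚ K : ℝ)) * v))) := by gcongr
      _ = (convexBodyLTFactor K : ℝ≥0∞) * ((∏ w, (an_rz_rad K v t w - d) ^ mult w : ℝ≥0) : ℝ≥0∞) +
          (convexBodyLTFactor K : ℝ≥0∞) *
            ENNReal.ofReal (B * Real.exp ((1 - 1 / (finrank ℚ K : ℝ)) * v)) := mul_add _ _ _
      _ ≤ _ := by gcongr

theorem an_rz_measurableSet_F : MeasurableSet (an_rz_F K) :=
  ZSpan.fundamentalDomain_measurableSet _

theorem an_rz_volume_F_ne_zero : volume (an_rz_F K) ≠ 0 :=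
  ZSpan.measure_fundamentalDomain_ne_zero _

theorem an_rz_volume_F_ne_top : volume (an_rz_F K) ≠ ∞ :=
  (ZSpan.fundamentalDomain_isBounded _).measure_lt_top.ne

/-- The integrated two-sided bound. -/
theorem an_rz_int_sandwich (J : (Ideal (𝓞 K))⁰) (C : ClassGroup (𝓞 K))
    (hJ : ClassGroup.mk0 J = C⁻¹) :
    ∃ B : ℝ, 0 ≤ B ∧ ∀ v : ℝ, 0 ≤ v →
      (volume (an_rz_F K) + (torsionOrder K : ℝ≥0∞) *
        ∑' I : an_rz_Cls K C, an_rz_W K (v - Real.log
          ((Ideal.absNorm (J : Ideal (𝓞 K)) * Ideal.absNorm (I.1 : Ideal (𝓞 K)) : ℕ) : ℝ))) *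
        volume (ZSpan.fundamentalDomain
          (fractionalIdealLatticeBasis K (FractionalIdeal.mk0 K J))) ≤
        (convexBodyLTFactor K : ℝ≥0∞) * ENNReal.ofReal
          (Real.exp v + B * Real.exp ((1 - 1 / (finrank ℚ K : ℝ)) * v)) * volume (an_rz_F K) ∧
      (convexBodyLTFactor K : ℝ≥0∞) * ENNReal.ofReal (Real.exp v) * volume (an_rz_F K) ≤
        (volume (an_rz_F K) + (torsionOrder K : ℝ≥0∞) *
        ∑' I : an_rz_Cls K C, an_rz_W K (v - Real.log
          ((Ideal.absNorm (J : Ideal (𝓞 K)) * Ideal.absNorm (I.1 : Ideal (𝓞 K)) : ℕ) : ℝ))) *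
        volume (ZSpan.fundamentalDomain
          (fractionalIdealLatticeBasis K (FractionalIdeal.mk0 K J))) +
        (convexBodyLTFactor K : ℝ≥0∞) * ENNReal.ofReal
          (B * Real.exp ((1 - 1 / (finrank ℚ K : ℝ)) * v)) * volume (an_rz_F K) := by
  obtain ⟨B, hB0, hB⟩ := an_rz_cnt_sandwich K J
  refine ⟨B, hB0, fun v hv => ?_⟩
  have hP : volume (ZSpan.fundamentalDomain
      (fractionalIdealLatticeBasis K (FractionalIdeal.mk0 K J))) ≠ ∞ :=
    (ZSpan.fundamentalDomain_isBounded _).measure_lt_top.ne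
  rw [← an_rz_unfold J C hJ v, ← lintegral_mul_const' _ _ hP]
  constructor
  · rw [← setLIntegral_const]
    exact setLIntegral_mono' (an_rz_measurableSet_F K) fun t ht => (hB v hv t ht).1
  · rw [← setLIntegral_const, ← setLIntegral_const, ← lintegral_add_right _ measurable_const]
    exact setLIntegral_mono' (an_rz_measurableSet_F K) fun t ht => (hB v hv t ht).2

/-- The leading constant of the Riesz asymptotic. -/
noncomputable def an_rz_A : ℝ :=
  (convexBodyLTFactor K : ℝ≥0∞).toReal * (volume (an_rz_F K)).toReal /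
    ((torsionOrder K : ℝ≥0∞).toReal * (volume (ZSpan.fundamentalDomain (latticeBasis K))).toReal)

theorem an_rz_A_pos : 0 < an_rz_A K := by
  have hφp := ENNReal.toReal_pos (an_rz_volume_F_ne_zero K) (an_rz_volume_F_ne_top K)
  have hμp := ENNReal.toReal_pos (ZSpan.measure_fundamentalDomain_ne_zero (latticeBasis K)
    (μ := volume)) (ZSpan.fundamentalDomain_isBounded (latticeBasis K)).measure_lt_top.ne
  have hcp := ENNReal.toReal_pos (ENNReal.coe_ne_zero.mpr (convexBodyLTFactor_ne_zero K))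
    ENNReal.coe_ne_top
  have hw0 : (torsionOrder K : ℝ≥0∞) ≠ 0 := by
    exact_mod_cast (torsionOrder_pos K).ne'
  have hwp := ENNReal.toReal_pos hw0 (ENNReal.natCast_ne_top _)
  rw [an_rz_A]
  positivity

/-- The Riesz asymptotic for one ideal class. -/
theorem an_rz_class_bounds (C : ClassGroup (𝓞 K)) :
    ∃ B : ℝ, 0 ≤ B ∧ ∀ u : ℝ, 0 ≤ u →
      an_rz_R K C u ≤ ENNReal.ofReal (an_rz_A K * Real.exp u +
        B * Real.exp ((1 - 1 / (finrank ℚ K : ℝ)) * u)) ∧
      ENNReal.ofReal (an_rz_A K * Real.exp u) ≤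
        an_rz_R K C u + ENNReal.ofReal (B * Real.exp ((1 - 1 / (finrank ℚ K : ℝ)) * u)) := by
  obtain ⟨J, hJ⟩ := ClassGroup.mk0_surjective C⁻¹
  obtain ⟨B, hB0, hB⟩ := an_rz_int_sandwich K J C hJ
  have hφ0 := an_rz_volume_F_ne_zero K
  have hφt := an_rz_volume_F_ne_top K
  have hμ0 : volume (ZSpan.fundamentalDomain (latticeBasis K)) ≠ 0 :=
    ZSpan.measure_fundamentalDomain_ne_zero (latticeBasis K)
  have hμt : volume (ZSpan.fundamentalDomain (latticeBasis K)) ≠ ∞ :=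
    (ZSpan.fundamentalDomain_isBounded (latticeBasis K)).measure_lt_top.ne
  have hc0 : (convexBodyLTFactor K : ℝ≥0∞) ≠ 0 :=
    ENNReal.coe_ne_zero.mpr (convexBodyLTFactor_ne_zero K)
  have hct : (convexBodyLTFactor K : ℝ≥0∞) ≠ ∞ := ENNReal.coe_ne_top
  have hw0 : (torsionOrder K : ℝ≥0∞) ≠ 0 := by
    exact_mod_cast (torsionOrder_pos K).ne'
  have hwt : (torsionOrder K : ℝ≥0∞) ≠ ∞ := ENNReal.natCast_ne_top _
  have hφp := ENNReal.toReal_pos hφ0 hφt
  have hwp := ENNReal.toReal_pos hw0 hwt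
  have hJ0 : Ideal.absNorm (J : Ideal (𝓞 K)) ≠ 0 := by
    rw [Ne, Ideal.absNorm_eq_zero_iff]
    have := nonZeroDivisors.ne_zero J.2
    rwa [Ne, Ideal.zero_eq_bot] at this
  set NJ : ℝ := ((Ideal.absNorm (J : Ideal (𝓞 K)) : ℕ) : ℝ) with hNJdef
  have hNJ : 1 ≤ NJ := by
    rw [hNJdef]
    exact_mod_cast Nat.pos_of_ne_zero hJ0
  have hNJpos : 0 < NJ := by linarith
  have hn : (1 : ℝ) ≤ finrank ℚ K := by exact_mod_cast (finrank_pos : 0 < finrank ℚ K)
  have hn1 : 1 / (finrank ℚ K : ℝ) ≤ 1 := (div_le_one (by linarith)).mpr hn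
  have hn0 : 0 ≤ 1 / (finrank ℚ K : ℝ) := by positivity
  refine ⟨(volume (an_rz_F K)).toReal / (torsionOrder K : ℝ≥0∞).toReal + an_rz_A K * B,
    by have := an_rz_A_pos K; positivity, fun u hu => ?_⟩
  have hv : 0 ≤ u + Real.log NJ := add_nonneg hu (Real.log_nonneg hNJ)
  obtain ⟨h1, h2⟩ := hB (u + Real.log NJ) hv
  have hsum : ∑' I : an_rz_Cls K C, an_rz_W K (u + Real.log NJ - Real.log
      ((Ideal.absNorm (J : Ideal (𝓞 K)) * Ideal.absNorm (I.1 : Ideal (𝓞 K)) : ℕ) : ℝ)) =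
      an_rz_R K C u := by
    rw [an_rz_R]
    refine tsum_congr fun I => ?_
    have hI0 : Ideal.absNorm (I.1 : Ideal (𝓞 K)) ≠ 0 := by
      rw [Ne, Ideal.absNorm_eq_zero_iff]
      have := nonZeroDivisors.ne_zero I.1.2
      rwa [Ne, Ideal.zero_eq_bot] at this
    have hI0' : ((Ideal.absNorm (I.1 : Ideal (𝓞 K)) : ℕ) : ℝ) ≠ 0 := Nat.cast_ne_zero.mpr hI0
    congr 1
    rw [Nat.cast_mul, Real.log_mul hNJpos.ne' hI0']
    ring
  rw [hsum] at h1 h2
  have hP : volume (ZSpan.fundamentalDomain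
      (fractionalIdealLatticeBasis K (FractionalIdeal.mk0 K J))) =
      ENNReal.ofReal NJ * volume (ZSpan.fundamentalDomain (latticeBasis K)) := by
    rw [volume_fundamentalDomain_fractionalIdealLatticeBasis, FractionalIdeal.coe_mk0,
      FractionalIdeal.coeIdeal_absNorm, Rat.cast_natCast]
  rw [hP] at h1 h2
  have hexp : Real.exp (u + Real.log NJ) = Real.exp u * NJ := by
    rw [Real.exp_add, Real.exp_log hNJpos]
  have hexp' : Real.exp ((1 - 1 / (finrank ℚ K : ℝ)) * (u + Real.log NJ)) ≤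
      Real.exp ((1 - 1 / (finrank ℚ K : ℝ)) * u) * NJ := by
    rw [mul_add, Real.exp_add]
    have h3 : Real.exp ((1 - 1 / (finrank ℚ K : ℝ)) * Real.log NJ) ≤ NJ := by
      calc Real.exp ((1 - 1 / (finrank ℚ K : ℝ)) * Real.log NJ)
          ≤ Real.exp (Real.log NJ) := by
            rw [Real.exp_le_exp]
            nlinarith [Real.log_nonneg hNJ]
        _ = NJ := Real.exp_log hNJpos
    exact mul_le_mul_of_nonneg_left h3 (Real.exp_pos _).le
  have hNJ0 : ENNReal.ofReal NJ ≠ 0 := ENNReal.ofReal_ne_zero_iff.mpr hNJpos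
  have hNJt : ENNReal.ofReal NJ ≠ ∞ := ENNReal.ofReal_ne_top
  have hE0 : 0 ≤ Real.exp ((1 - 1 / (finrank ℚ K : ℝ)) * u) := (Real.exp_pos _).le
  have hE1 : 1 ≤ Real.exp ((1 - 1 / (finrank ℚ K : ℝ)) * u) :=
    Real.one_le_exp (mul_nonneg (by linarith) hu)
  have hU : (volume (an_rz_F K) + (torsionOrder K : ℝ≥0∞) * an_rz_R K C u) *
      volume (ZSpan.fundamentalDomain (latticeBasis K)) ≤
      (convexBodyLTFactor K : ℝ≥0∞) * ENNReal.ofReal (Real.exp u +
        B * Real.exp ((1 - 1 / (finrank ℚ K : ℝ)) * u)) * volume (an_rz_F K) := by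
    rw [← ENNReal.mul_le_mul_iff_left hNJ0 hNJt]
    calc (volume (an_rz_F K) + (torsionOrder K : ℝ≥0∞) * an_rz_R K C u) *
          volume (ZSpan.fundamentalDomain (latticeBasis K)) * ENNReal.ofReal NJ
        = (volume (an_rz_F K) + (torsionOrder K : ℝ≥0∞) * an_rz_R K C u) *
          (ENNReal.ofReal NJ * volume (ZSpan.fundamentalDomain (latticeBasis K))) := by ring
      _ ≤ _ := h1
      _ ≤ (convexBodyLTFactor K : ℝ≥0∞) * ENNReal.ofReal ((Real.exp u +
          B * Real.exp ((1 - 1 / (finrank ℚ K : ℝ)) * u)) * NJ) * volume (an_rz_F K) := by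
          have hX : ENNReal.ofReal (Real.exp (u + Real.log NJ) +
              B * Real.exp ((1 - 1 / (finrank ℚ K : ℝ)) * (u + Real.log NJ))) ≤
              ENNReal.ofReal ((Real.exp u +
                B * Real.exp ((1 - 1 / (finrank ℚ K : ℝ)) * u)) * NJ) := by
            refine ENNReal.ofReal_le_ofReal ?_
            rw [hexp]
            nlinarith [mul_le_mul_of_nonneg_left hexp' hB0]
          exact mul_le_mul' (mul_le_mul' le_rfl hX) le_rfl
      _ = _ := by
          rw [ENNReal.ofReal_mul (by positivity)]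
          ring
  have hL : (convexBodyLTFactor K : ℝ≥0∞) * ENNReal.ofReal (Real.exp u) * volume (an_rz_F K) ≤
      (volume (an_rz_F K) + (torsionOrder K : ℝ≥0∞) * an_rz_R K C u) *
        volume (ZSpan.fundamentalDomain (latticeBasis K)) +
      (convexBodyLTFactor K : ℝ≥0∞) * ENNReal.ofReal
        (B * Real.exp ((1 - 1 / (finrank ℚ K : ℝ)) * u)) * volume (an_rz_F K) := by
    rw [← ENNReal.mul_le_mul_iff_left hNJ0 hNJt]
    calc (convexBodyLTFactor K : ℝ≥0∞) * ENNReal.ofReal (Real.exp u) * volume (an_rz_F K) *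
          ENNReal.ofReal NJ
        = (convexBodyLTFactor K : ℝ≥0∞) * ENNReal.ofReal (Real.exp (u + Real.log NJ)) *
          volume (an_rz_F K) := by
          rw [hexp, ENNReal.ofReal_mul (Real.exp_pos _).le]
          ring
      _ ≤ _ := h2
      _ ≤ (volume (an_rz_F K) + (torsionOrder K : ℝ≥0∞) * an_rz_R K C u) *
          (ENNReal.ofReal NJ * volume (ZSpan.fundamentalDomain (latticeBasis K))) +
          (convexBodyLTFactor K : ℝ≥0∞) * ENNReal.ofReal
            (B * Real.exp ((1 - 1 / (finrank ℚ K : ℝ)) * u) * NJ) * volume (an_rz_F K) := by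
          have hX : ENNReal.ofReal
              (B * Real.exp ((1 - 1 / (finrank ℚ K : ℝ)) * (u + Real.log NJ))) ≤
              ENNReal.ofReal (B * Real.exp ((1 - 1 / (finrank ℚ K : ℝ)) * u) * NJ) := by
            refine ENNReal.ofReal_le_ofReal ?_
            nlinarith [mul_le_mul_of_nonneg_left hexp' hB0]
          exact add_le_add le_rfl (mul_le_mul' (mul_le_mul' le_rfl hX) le_rfl)
      _ = _ := by
          rw [ENNReal.ofReal_mul (by positivity)]
          ring
  exact an_rz_core _ _ _ _ _ hφ0 hφt hμ0 hμt hc0 hct hw0 hwt _ _ B (Real.exp_pos u).le hE1 hB0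
    hU hL

/-- The Riesz asymptotic, uniformly in the ideal class. -/
theorem an_rz_rieszBounds : an_rz_RieszBounds K := by
  choose Bf hBf0 hBf using an_rz_class_bounds K
  refine ⟨an_rz_A K, ∑ C, Bf C, an_rz_A_pos K, Finset.sum_nonneg fun C _ => hBf0 C,
    fun C u hu => ?_⟩
  have hle : Bf C ≤ ∑ C, Bf C :=
    Finset.single_le_sum (fun C _ => hBf0 C) (Finset.mem_univ C)
  have hE0 : 0 ≤ Real.exp ((1 - 1 / (finrank ℚ K : ℝ)) * u) := (Real.exp_pos _).le
  obtain ⟨h1, h2⟩ := hBf C u hu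
  refine ⟨h1.trans (ENNReal.ofReal_le_ofReal ?_), h2.trans ?_⟩
  · have := mul_le_mul_of_nonneg_right hle hE0
    linarith
  · gcongr

end Fermat.Agent.S14
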