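import Fermat.Agent.S14.AnSvMain
import Fermat.Agent.S14.AnGlue
import Fermat.Agent.S14.AnRiesz3

set_option autoImplicit false

/-!
# S14 / AN: a class character cannot be supported on split primes

`no_cross_character` = the sieve / Euler product argument (`an_sv_no_cross_of_CZ`) fed with the
boundedness of the differences of partial zeta functions of ideal classes
(`an_gl_classZeta` applied to the Riesz asymptotics `an_rz_rieszBounds`).
-/

namespace Fermat.Agent.S14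

open NumberField

theorem no_cross_character {K₀ : Type} [Field K₀] [NumberField K₀] (q : ℕ) [Fact q.Prime]
    (hq : 3 ≤ q) (f : Ideal (𝓞 K₀) → ZMod q)
    (hmul : ∀ I J : Ideal (𝓞 K₀), I ≠ ⊥ → J ≠ ⊥ → f (I * J) = f I + f J)
    (hspan : ∀ x : 𝓞 K₀, x ≠ 0 → f (Ideal.span {x}) = 0)
    (hne : ∃ I : Ideal (𝓞 K₀), I ≠ ⊥ ∧ f I ≠ 0)
    (K' : Type) [Field K'] [NumberField K'] [Algebra K₀ K']
    (T : Set (Ideal (𝓞 K₀))) (hT : T.Finite)
    (hsplit : ∀ 𝔩 : Ideal (𝓞 K₀), 𝔩.IsPrime → (Ideal.absNorm 𝔩).Prime → 𝔩 ∉ T → f 𝔩 ≠ 0 →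
      ∃ S : Finset (Ideal (𝓞 K')), S.card = q ∧ ∀ 𝔏 ∈ S, 𝔏.IsPrime ∧
        𝔏.comap (algebraMap (𝓞 K₀) (𝓞 K')) = 𝔩 ∧ Ideal.absNorm 𝔏 = Ideal.absNorm 𝔩) :
    False :=
  an_sv_no_cross_of_CZ q hq f hmul hspan hne K' T hT hsplit
    (an_gl_classZeta K₀ (an_rz_rieszBounds K₀))

end Fermat.Agent.S14
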