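import Fermat.Agent.S14.TBRam

set_option autoImplicit false
set_option linter.unusedSectionVars false

/-!
# S14 / T1, second half, part D: the local condition at `λ = (1 - ζ)`

If a unit `u` of `𝓞 (K p)` becomes a `p`-th power in the everywhere unramified extension `L`,
then `u` is congruent to a rational integer modulo `λ ^ p`, in particular modulo `λ ^ 3`.
-/

namespace Fermat.Agent.S14

open NumberField IsDedekindDomain

variable {p : ℕ} [Fact p.Prime]

theorem tb_exists_int_sub_mem (x : 𝓞 (K p)) :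
    ∃ m : ℤ, x - (m : 𝓞 (K p)) ∈ Ideal.span {1 - zetaO p} := by
  obtain ⟨f, hf⟩ := (zeta_spec p).integralPowerBasis.exists_eq_aeval' x
  have hgen : (zeta_spec p).integralPowerBasis.gen = zetaO p :=
    (zeta_spec p).integralPowerBasis_gen
  refine ⟨f.eval 1, ?_⟩
  rw [Ideal.mem_span_singleton, hf, hgen]
  have h := Polynomial.sub_dvd_eval_sub (1 : 𝓞 (K p)) (zetaO p)
    (f.map (algebraMap ℤ (𝓞 (K p))))
  rw [Polynomial.eval_one_map, Polynomial.eval_map_algebraMap] at h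
  rw [dvd_sub_comm]
  simpa using h

theorem tb_one_sub_zeta_prime : Prime (1 - zetaO p) := by
  have h := (zeta_spec p).zeta_sub_one_prime'
  have h2 : (1 - zetaO p) = -((zeta_spec p).toInteger - 1) := by
    rw [neg_sub]
    rfl
  rw [h2]
  exact h.neg

theorem tb_p_mem : (p : 𝓞 (K p)) ∈ Ideal.span {(1 - zetaO p) ^ (p - 1)} := by
  have h := IsCyclotomicExtension.Rat.associated_zeta_sub_one_pow_prime p (zeta_spec p)
  rw [Ideal.mem_span_singleton]
  have h2 : (1 - zetaO p) ^ (p - 1) ∣ ((zeta_spec p).toInteger - 1) ^ (p - 1) := by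
    have h3 : (zeta_spec p).toInteger - 1 = -(1 - zetaO p) := by
      rw [neg_sub]
      rfl
    rw [h3, neg_pow]
    exact Dvd.intro_left _ rfl
  exact h2.trans h.dvd

section

variable (L : IntermediateField ℚ (AlgebraicClosure ℚ)) [NumberField L] [Algebra (K p) L]
  [IsScalarTower ℚ (K p) L] [IsGalois (K p) L]

theorem tb_local_pow (h3 : 3 ≤ p) (hL : tb_LData p L) {β : L} {α : K p}
    (hβ : β ^ p = algebraMap (K p) L α) (u : (𝓞 (K p))ˣ) (j : ℕ) (γ : K p)
    (hu : ((u : 𝓞 (K p)) : K p) = α ^ j * γ ^ p) :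
    ∃ m : ℤ, ((u : 𝓞 (K p)) - (m : 𝓞 (K p))) ∈ Ideal.span {(1 - zetaO p) ^ 3} := by
  have hp : p.Prime := Fact.out
  set π : 𝓞 (K p) := 1 - zetaO p with hπ
  have hπprime : Prime π := tb_one_sub_zeta_prime
  let lam : Ideal (𝓞 (K p)) := Ideal.span {π}
  have hlamP : lam.IsPrime := (Ideal.span_singleton_prime hπprime.ne_zero).2 hπprime
  have hlam0 : lam ≠ ⊥ := by
    rw [Ne, Ideal.span_singleton_eq_bot]
    exact hπprime.ne_zero
  obtain ⟨⟨P, hPprime, hPlies⟩⟩ := (inferInstance : Nonempty (Ideal.primesOver lam (𝓞 L)))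
  have hP0 : P ≠ ⊥ := Ideal.ne_bot_of_liesOver_of_ne_bot hlam0 P
  have hmapP : ∀ x : 𝓞 (K p), x ∈ lam → algebraMap (𝓞 (K p)) (𝓞 L) x ∈ P := by
    intro x hx
    have h1 := hPlies.over
    rw [h1] at hx
    exact hx
  have hπP : algebraMap (𝓞 (K p)) (𝓞 L) π ∈ P := hmapP π (Ideal.mem_span_singleton_self π)
  have hpP1 : (p : 𝓞 L) ∈ P ^ (p - 1) := by
    obtain ⟨c, hc⟩ := Ideal.mem_span_singleton.1 (tb_p_mem (p := p))
    have h1 : (p : 𝓞 L) = algebraMap (𝓞 (K p)) (𝓞 L) π ^ (p - 1) *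
        algebraMap (𝓞 (K p)) (𝓞 L) c := by
      rw [← map_pow, ← map_mul, ← hc, map_natCast]
    rw [h1]
    exact Ideal.mul_mem_right _ _ (Ideal.pow_mem_pow hπP _)
  have hpP : (p : 𝓞 L) ∈ P :=
    Ideal.pow_le_self (Nat.sub_ne_zero_of_lt hp.one_lt) hpP1
  -- the `p`-th root of `u` in `𝓞 L`
  set y : L := β ^ j * algebraMap (K p) L γ with hydef
  have hy : y ^ p = algebraMap (K p) L ((u : 𝓞 (K p)) : K p) := by
    rw [hu, map_mul, map_pow, map_pow, hydef, mul_pow, ← pow_mul, mul_comm j p, pow_mul, hβ]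
  have hcoe : algebraMap (K p) L ((u : 𝓞 (K p)) : K p) =
      algebraMap (𝓞 L) L (algebraMap (𝓞 (K p)) (𝓞 L) (u : 𝓞 (K p))) :=
    ((IsScalarTower.algebraMap_apply (𝓞 (K p)) (𝓞 L) L _).symm.trans
      (IsScalarTower.algebraMap_apply (𝓞 (K p)) (K p) L _)).symm
  have hyint : IsIntegral ℤ y := by
    refine IsIntegral.of_pow hp.pos ?_
    rw [hy, hcoe]
    exact RingOfIntegers.isIntegral_coe _
  let Y : 𝓞 L := ⟨y, hyint⟩
  have hY : Y ^ p = algebraMap (𝓞 (K p)) (𝓞 L) (u : 𝓞 (K p)) := by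
    apply RingOfIntegers.coe_injective
    have h1 : algebraMap (𝓞 L) L (Y ^ p) = y ^ p := by
      rw [map_pow]
      rfl
    exact h1.trans (hy.trans hcoe)
  -- `Y` is congruent to a rational integer modulo `P`
  obtain ⟨m, hm⟩ := tb_exists_int_sub_mem (p := p) (u : 𝓞 (K p))
  have hum : algebraMap (𝓞 (K p)) (𝓞 L) (u : 𝓞 (K p)) - (m : 𝓞 L) ∈ P := by
    have h1 := hmapP _ hm
    rwa [map_sub, map_intCast] at h1
  have hYm : Y - (m : 𝓞 L) ∈ P := by
    have hchar : CharP (𝓞 L ⧸ P) p := (CharP.charP_iff_prime_eq_zero hp).2 (by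
      rw [← map_natCast (Ideal.Quotient.mk P)]
      exact Ideal.Quotient.eq_zero_iff_mem.2 hpP)
    have hmp : ((m : ℤ) : 𝓞 L ⧸ P) ^ p = m := by
      have h1 := congrArg (ZMod.castHom (dvd_refl p) (𝓞 L ⧸ P)) (ZMod.pow_card (m : ZMod p))
      rw [map_pow, map_intCast] at h1
      exact h1
    have hfrob : (Ideal.Quotient.mk P Y - Ideal.Quotient.mk P (m : 𝓞 L)) ^ p = 0 := by
      rw [sub_pow_char, ← map_pow, hY, map_intCast, hmp, ← map_intCast (Ideal.Quotient.mk P),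
        ← map_sub]
      exact Ideal.Quotient.eq_zero_iff_mem.2 hum
    have h2 := (pow_eq_zero_iff hp.ne_zero).1 hfrob
    rw [← map_sub] at h2
    exact Ideal.Quotient.eq_zero_iff_mem.1 h2
  -- binomial expansion
  set z : 𝓞 L := Y - (m : 𝓞 L) with hz
  have hYz : Y = (m : 𝓞 L) + z := by
    rw [hz]
    ring
  have hbin : Y ^ p - (m : 𝓞 L) ^ p ∈ P ^ p := by
    rw [hYz, add_pow, Finset.sum_range_succ]
    simp only [Nat.sub_self, pow_zero, Nat.choose_self, Nat.cast_one, mul_one]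
    rw [add_sub_cancel_right]
    refine Ideal.sum_mem _ fun k hk => ?_
    rw [Finset.mem_range] at hk
    rcases Nat.eq_zero_or_pos k with rfl | hk0
    · simp only [pow_zero, one_mul, Nat.sub_zero, Nat.choose_zero_right, Nat.cast_one, mul_one]
      exact Ideal.pow_mem_pow hYm p
    · obtain ⟨c, hc⟩ := hp.dvd_choose_self hk0.ne' hk
      have h1 : z ^ (p - k) ∈ P := Ideal.pow_mem_of_mem P hYm (p - k) (Nat.sub_pos_of_lt hk)
      have h2 : z ^ (p - k) * (p : 𝓞 L) ∈ P ^ p := by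
        have h4 := Ideal.mul_mem_mul h1 hpP1
        rwa [← pow_succ', Nat.sub_add_cancel hp.one_le] at h4
      rw [hc, Nat.cast_mul]
      have h5 : (m : 𝓞 L) ^ k * z ^ (p - k) * ((p : 𝓞 L) * (c : 𝓞 L)) =
          (z ^ (p - k) * (p : 𝓞 L)) * ((m : 𝓞 L) ^ k * c) := by ring
      rw [h5]
      exact Ideal.mul_mem_right _ _ h2
  -- descend to `𝓞 (K p)` using that `P` is unramified over `λ`
  set x : 𝓞 (K p) := (u : 𝓞 (K p)) - (m : 𝓞 (K p)) ^ p with hx
  have hxP : algebraMap (𝓞 (K p)) (𝓞 L) x ∈ P ^ p := by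
    rw [hx, map_sub, map_pow, map_intCast, ← hY]
    exact hbin
  let v : HeightOneSpectrum (𝓞 (K p)) := ⟨lam, hlamP, hlam0⟩
  let w : HeightOneSpectrum (𝓞 L) := ⟨P, hPprime, hP0⟩
  have hlies : w.asIdeal.LiesOver v.asIdeal := hPlies
  have hv := HeightOneSpectrum.intValuation_liesOver v w x
  have he : v.asIdeal.ramificationIdx' w.asIdeal = 1 :=
    tb_ramificationIdx_eq_one L hL lam hlam0 P
  rw [he, pow_one] at hv
  have hxlam : x ∈ lam ^ p := by
    have h1 : x ∈ v.asIdeal ^ p := by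
      rw [← v.intValuation_le_pow_iff_mem, hv, w.intValuation_le_pow_iff_mem]
      exact hxP
    exact h1
  refine ⟨m ^ p, ?_⟩
  rw [Int.cast_pow]
  have hle : lam ^ p ≤ Ideal.span {π ^ 3} := by
    show Ideal.span {π} ^ p ≤ Ideal.span {π ^ 3}
    rw [Ideal.span_singleton_pow]
    exact Ideal.span_singleton_le_span_singleton.2 (pow_dvd_pow π h3)
  exact hle hxlam

end

end Fermat.Agent.S14
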