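import Fermat.Agent.S14.TBIdeal
import Fermat.Agent.S14.TBLocal

set_option autoImplicit false

/-!
# S14 / T1, second half: from the field `L` to a Kummer datum

`tb_kummerDatum_of_LData`: if `L ⊆ ℚ̄` satisfies the interface `tb_LData p L`, then there is
`α ∈ K p = ℚ(ζ_p)` with `KummerDatum p α` (a Kummer generator of `L` over `ℚ(ζ_p)`).
-/

namespace Fermat.Agent.S14

open NumberField Polynomial

variable (p : ℕ) [Fact p.Prime]

theorem tb_kummerDatum_aux (h3 : 3 ≤ p) (L : IntermediateField ℚ (AlgebraicClosure ℚ))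
    [NumberField L] [Algebra (K p) L] [IsScalarTower ℚ (K p) L] [IsGalois (K p) L] [Normal ℚ L]
    (hL : tb_LData p L) : ∃ α : K p, KummerDatum p α := by
  have hfr := tb_finrank_L L hL.finrank_eq
  obtain ⟨β, α, hβ, hβr⟩ := tb_exists_beta L hfr
  have hβ0 : β ≠ 0 := fun h => hβr ⟨0, by rw [h, map_zero]⟩
  have hα0 := tb_alpha_ne_zero L hβ hβr
  refine ⟨α, ⟨hα0, tb_not_pow L hβ hβr, ?_, tb_ideal_pow L hL hβ hα0, ?_⟩⟩
  · intro σ a hσ
    exact tb_eigen L hL.conj hβ hβ0 σ a hσ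
  · intro u j γ _ hu
    exact tb_local_pow L h3 hL hβ u j γ hu

/-- **T1, second half.** -/
theorem tb_kummerDatum_of_LData (h3 : 3 ≤ p) (L : IntermediateField ℚ (AlgebraicClosure ℚ))
    (hL : tb_LData p L) : ∃ α : K p, KummerDatum p α := by
  have hp : p.Prime := Fact.out
  have hfin := hL.finite
  have hnor := hL.normal
  have hnf : NumberField L := ⟨⟩
  obtain ⟨ζL, hζL⟩ := hL.exists_zeta
  let pb := IsPrimitiveRoot.powerBasis ℚ (zeta_spec p)
  have hgen : pb.gen = zeta p := IsPrimitiveRoot.powerBasis_gen ℚ (zeta_spec p)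
  have hmin : minpoly ℚ pb.gen = cyclotomic p ℚ := by
    rw [hgen]
    exact (cyclotomic_eq_minpoly_rat (zeta_spec p) hp.pos).symm
  have hroot : aeval ζL (minpoly ℚ pb.gen) = 0 := by
    rw [hmin, aeval_def, eval₂_eq_eval_map, map_cyclotomic]
    exact hζL.isRoot_cyclotomic hp.pos
  let φ : K p →ₐ[ℚ] L := pb.lift ζL hroot
  letI : Algebra (K p) L := φ.toRingHom.toAlgebra
  have hst : IsScalarTower ℚ (K p) L :=
    IsScalarTower.of_algebraMap_eq (fun x => (φ.commutes x).symm)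
  have hgQ : IsGalois ℚ L := ⟨⟩
  have hgK : IsGalois (K p) L := IsGalois.tower_top_of_isGalois ℚ (K p) L
  exact tb_kummerDatum_aux p h3 L hL

end Fermat.Agent.S14
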