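import Fermat.Agent.S14.TARam
import Fermat.Agent.S14.TBMain

set_option autoImplicit false

/-!
# S14 / T1: from a non-split admissible extension to a Kummer datum
-/

namespace Fermat.Agent.S14

open NumberField ExtCitation

theorem exists_kummerDatum (p : ℕ) [Fact p.Prime] (h3 : 3 ≤ p)
    (V : Type) [AddCommGroup V] [Module (ZMod p) V]
    [DistribMulAction (AlgebraicClosure ℚ ≃ₐ[ℚ] AlgebraicClosure ℚ) V]
    [SMulCommClass (AlgebraicClosure ℚ ≃ₐ[ℚ] AlgebraicClosure ℚ) (ZMod p) V]
    (C : Submodule (ZMod p) V) (hadm : IsAdmissibleExtensionCts p V C)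
    (hns : ¬ SplitsGlobally C) :
    ∃ α : K p, KummerDatum p α := by
  obtain ⟨L, hL⟩ := ta_exists_LData h3 hadm hns
  exact tb_kummerDatum_of_LData p h3 L hL

end Fermat.Agent.S14
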