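import Fermat.Agent.S14.Th3Base

set_option autoImplicit false

/-!
# S14 / B1 (Thaine), part P3b: Thaine's relation from the element `γ`

Given `γ` with `p ∣ v_q(γ)` for `q ∤ ℓ` and `g^{v_q(γ)} ≡ 1 - ζ (mod q)` for the primes `q ∣ ℓ`
of norm `ℓ`, a class character `f` in the `ω²`-eigenspace with `f(𝔩) ≠ 0` forces `η` to be a
`p`-th power modulo `𝔩`.
-/

namespace Fermat.Agent.S14

open NumberField Polynomial Finset UniqueFactorizationMonoid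

variable {p : ℕ} [Fact p.Prime]

section prime

variable (𝔩 : Ideal (𝓞 (K p))) (h𝔩 : 𝔩.IsPrime) (ℓ : ℕ) (hℓ : ℓ.Prime) (hℓp : ℓ ≠ p)
  (hN : Ideal.absNorm 𝔩 = ℓ)

include h𝔩 hℓ hℓp hN

omit hℓ hℓp hN in
theorem th3_zetaO_pow_not_mem (a : ℕ) : zetaO p ^ a ∉ 𝔩 := by
  intro h
  have h1 : zetaO p ∈ 𝔩 := h𝔩.mem_of_pow_mem _ h
  have h2 : zetaO p ^ p ∈ 𝔩 := 𝔩.pow_mem_of_mem h1 p (Fact.out : p.Prime).pos
  rw [((th3_zetaO_prim p)).pow_eq_one] at h2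
  exact h𝔩.ne_top ((Ideal.eq_top_iff_one 𝔩).mpr h2)

theorem th3_q_injOn : Set.InjOn (th3_q 𝔩) (Ico 1 p : Set ℕ) := by
  have hp : p.Prime := Fact.out
  have key : ∀ a ∈ Ico 1 p, ∀ b ∈ Ico 1 p, a < b → th3_q 𝔩 a ≠ th3_q 𝔩 b := by
    intro a ha b hb hab heq
    have hcard : Nat.card (𝓞 (K p) ⧸ th3_q 𝔩 a) = ℓ := by
      rw [th3_card_quot, th3_absNorm_q, hN]
    obtain ⟨n, hn⟩ := th3_exists_int (th3_q 𝔩 a) hℓ hcard (zetaO p)
    have h1 : zetaO p ^ a - (n : 𝓞 (K p)) ∈ 𝔩 := by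
      have := (th3_mem_q 𝔩 a _).mp hn
      rwa [map_sub, map_intCast, th3_sigO_zetaO p _ a (th3_tau_zeta p ha)] at this
    have h2 : zetaO p ^ b - (n : 𝓞 (K p)) ∈ 𝔩 := by
      have := (th3_mem_q 𝔩 b _).mp (heq ▸ hn)
      rwa [map_sub, map_intCast, th3_sigO_zetaO p _ b (th3_tau_zeta p hb)] at this
    have h3 : zetaO p ^ a * (1 - zetaO p ^ (b - a)) ∈ 𝔩 := by
      have e : zetaO p ^ a * (1 - zetaO p ^ (b - a)) =
          (zetaO p ^ a - (n : 𝓞 (K p))) - (zetaO p ^ b - (n : 𝓞 (K p))) := by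
        have : zetaO p ^ b = zetaO p ^ a * zetaO p ^ (b - a) := by
          rw [← pow_add]; congr 1; omega
        rw [this]; ring
      rw [e]; exact 𝔩.sub_mem h1 h2
    rcases h𝔩.mem_or_mem h3 with h4 | h4
    · exact th3_zetaO_pow_not_mem 𝔩 h𝔩 a h4
    · rw [Finset.mem_Ico] at ha hb
      exact kf_one_sub_pow_not_mem hp ((th3_zetaO_prim p)) 𝔩 h𝔩 ℓ hℓ hℓp hN (b - a)
        (by omega) (by omega) h4
  intro a ha b hb heq
  rcases Nat.lt_trichotomy a b with h | h | h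
  · exact absurd heq (key a ha b hb h)
  · exact h
  · exact absurd heq.symm (key b hb a ha h)

omit h𝔩 hℓ hℓp in
theorem th3_natCast_mem : (ℓ : 𝓞 (K p)) ∈ 𝔩 := by
  have := Ideal.absNorm_mem 𝔩
  rwa [hN] at this

omit h𝔩 hℓp hN in
theorem th3_liesOver (q : Ideal (𝓞 (K p))) (hq : q.IsPrime) (hℓq : (ℓ : 𝓞 (K p)) ∈ q) :
    q ∈ Ideal.primesOver (Ideal.span {(ℓ : ℤ)}) (𝓞 (K p)) := by
  refine ⟨hq, ⟨?_⟩⟩
  have hmax : (Ideal.span {(ℓ : ℤ)}).IsMaximal :=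
    PrincipalIdealRing.isMaximal_of_irreducible
      (Int.prime_iff_natAbs_prime.mpr (by simpa using hℓ)).irreducible
  have hne : q.under ℤ ≠ ⊤ := (Ideal.IsPrime.under ℤ q).ne_top
  refine hmax.eq_of_le hne ?_
  rw [Ideal.span_singleton_le_iff_mem, Ideal.under_def, Ideal.mem_comap]
  simpa using hℓq

omit hℓp in
theorem th3_exists_q (q : Ideal (𝓞 (K p))) (hq : q.IsPrime) (hℓq : (ℓ : 𝓞 (K p)) ∈ q) :
    ∃ b ∈ Ico 1 p, q = th3_q 𝔩 b := by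
  have h1 := th3_liesOver ℓ hℓ 𝔩 h𝔩 (th3_natCast_mem 𝔩 ℓ hN)
  have h2 := th3_liesOver ℓ hℓ q hq hℓq
  have : IsGalois ℚ (K p) := IsCyclotomicExtension.isGalois {p} ℚ (K p)
  obtain ⟨σ, hσ⟩ := Ideal.exists_comap_galRestrict_eq ℤ ℚ (K p) (𝓞 (K p)) h1 h2
  obtain ⟨b, hb, hσb⟩ := th3_exists_exp p σ
  refine ⟨b, hb, ?_⟩
  rw [← hσ, th3_eq_tau p σ hb hσb]
  rfl

theorem th3_dvd_sub_one : p ∣ ℓ - 1 := by
  have hp : p.Prime := Fact.out
  have hbot : 𝔩 ≠ ⊥ := by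
    rintro rfl
    rw [Ideal.absNorm_bot] at hN
    exact hℓ.ne_zero hN.symm
  have : 𝔩.IsMaximal := h𝔩.isMaximal hbot
  let _ := Ideal.Quotient.field 𝔩
  have hcard : Nat.card (𝓞 (K p) ⧸ 𝔩) = ℓ := by rw [th3_card_quot, hN]
  have : Finite (𝓞 (K p) ⧸ 𝔩) := Nat.finite_of_card_ne_zero (hcard ▸ hℓ.ne_zero)
  let _ := Fintype.ofFinite (𝓞 (K p) ⧸ 𝔩)
  set x : 𝓞 (K p) ⧸ 𝔩 := Ideal.Quotient.mk 𝔩 (zetaO p) with hx
  have hxp : x ^ p = 1 := by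
    rw [hx, ← map_pow, ((th3_zetaO_prim p)).pow_eq_one, map_one]
  have hx1 : x ≠ 1 := by
    intro h
    have h' : Ideal.Quotient.mk 𝔩 (1 - zetaO p ^ 1) = 0 := by
      rw [pow_one, map_sub, map_one, ← hx, h, sub_self]
    exact kf_one_sub_pow_not_mem hp ((th3_zetaO_prim p)) 𝔩 h𝔩 ℓ hℓ hℓp hN 1
      one_pos hp.one_lt (Ideal.Quotient.eq_zero_iff_mem.mp h')
  have hx0 : x ≠ 0 := by
    intro h
    rw [h, zero_pow hp.ne_zero] at hxp
    exact zero_ne_one hxp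
  have hord : orderOf x = p := orderOf_eq_prime hxp hx1
  have hpow : x ^ (Fintype.card (𝓞 (K p) ⧸ 𝔩) - 1) = 1 := FiniteField.pow_card_sub_one_eq_one x hx0
  rw [← Nat.card_eq_fintype_card, hcard] at hpow
  rw [← hord]
  exact orderOf_dvd_of_pow_eq_one hpow

end prime

theorem th3_f_prod (χ : EigenChar p) (s : Multiset (Ideal (𝓞 (K p)))) (hs : ∀ q ∈ s, q ≠ ⊥) :
    χ.f s.prod = (s.map χ.f).sum := by
  induction s using Multiset.induction_on with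
  | empty =>
    have h := χ.map_span 1 one_ne_zero
    rw [Ideal.span_singleton_one] at h
    simpa [Ideal.one_eq_top] using h
  | cons a s ih =>
    have ha : a ≠ ⊥ := hs a (Multiset.mem_cons_self a s)
    have hs' : ∀ q ∈ s, q ≠ ⊥ := fun q hq => hs q (Multiset.mem_cons_of_mem hq)
    have hprod : s.prod ≠ ⊥ := by
      rw [← Ideal.zero_eq_bot]
      apply Multiset.prod_ne_zero
      intro h0
      exact hs' 0 h0 rfl
    rw [Multiset.prod_cons, Multiset.map_cons, Multiset.sum_cons, χ.map_mul a s.prod ha hprod,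
      ih hs']


theorem th3_f_q (hp5 : 5 ≤ p) (χ : EigenChar p) (𝔩 : Ideal (𝓞 (K p))) (ℓ : ℕ) (hℓ : ℓ.Prime)
    (hN : Ideal.absNorm 𝔩 = ℓ) {b : ℕ} (hb : b ∈ Ico 1 p) :
    χ.f (th3_q 𝔩 b) = (mexp p b : ZMod p) * χ.f 𝔩 := by
  have hp : p.Prime := Fact.out
  have hbot : th3_q 𝔩 b ≠ ⊥ := by
    intro h
    have := th3_absNorm_q 𝔩 b
    rw [h, Ideal.absNorm_bot, hN] at this
    exact hℓ.ne_zero this.symm
  have h1 := χ.eigen (th3_tau p b) b (th3_tau_zeta p hb) (th3_q 𝔩 b) hbot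
  rw [th3_map_q] at h1
  have hb0 : (b : ZMod p) ≠ 0 := by
    rw [Finset.mem_Ico] at hb
    intro h
    rw [ZMod.natCast_eq_zero_iff] at h
    exact absurd (Nat.le_of_dvd (by omega) h) (by omega)
  have hpow : (b : ZMod p) ^ (p - 3) * (b : ZMod p) ^ 2 = 1 := by
    rw [← pow_add, show p - 3 + 2 = p - 1 by omega]
    exact ZMod.pow_card_sub_one_eq_one hb0
  rw [h1, mexp, ZMod.natCast_mod, Nat.cast_pow, ← mul_assoc, hpow, one_mul]

open Classical in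
/-- **Thaine's relation**, assuming the existence of the element `γ` (work package P2). -/
theorem th3_thaine_of_gamma (hp5 : 5 ≤ p)
    (hγ : ∀ ℓ : ℕ, ℓ.Prime → ℓ ≠ p → p ∣ ℓ - 1 → ∃ (g : ℕ) (γ : 𝓞 (K p)), γ ≠ 0 ∧
      (∀ q : Ideal (𝓞 (K p)), q.IsPrime → q ≠ ⊥ → (ℓ : 𝓞 (K p)) ∉ q →
        p ∣ Multiset.count q (normalizedFactors (Ideal.span {γ}))) ∧
      (∀ q : Ideal (𝓞 (K p)), q.IsPrime → (ℓ : 𝓞 (K p)) ∈ q → Ideal.absNorm q = ℓ →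
        (g : 𝓞 (K p)) ^ Multiset.count q (normalizedFactors (Ideal.span {γ})) -
          (1 - zetaO p) ∈ q))
    (χ : EigenChar p) (𝔩 : Ideal (𝓞 (K p))) (h𝔩 : 𝔩.IsPrime)
    (ℓ : ℕ) (hℓ : ℓ.Prime) (hℓp : ℓ ≠ p) (hN : Ideal.absNorm 𝔩 = ℓ) (hχ : χ.f 𝔩 ≠ 0) :
    ∃ y : 𝓞 (K p), y ^ p - eta p ∈ 𝔩 := by
  have hp : p.Prime := Fact.out
  have hpl := th3_dvd_sub_one 𝔩 h𝔩 ℓ hℓ hℓp hN
  obtain ⟨g, γ, hγ0, h1, h2⟩ := hγ ℓ hℓ hℓp hpl
  set s := normalizedFactors (Ideal.span {γ}) with hs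
  have hspan : Ideal.span {γ} ≠ ⊥ := by
    rwa [Ne, Ideal.span_singleton_eq_bot]
  have hsprime : ∀ q ∈ s, q.IsPrime ∧ q ≠ ⊥ := by
    intro q hq
    have hq' := prime_of_normalized_factor q hq
    exact ⟨Ideal.isPrime_of_prime hq', hq'.ne_zero⟩
  -- the ℓ-primes
  have hℓ𝔩 := th3_natCast_mem 𝔩 ℓ hN
  have hinj := th3_q_injOn 𝔩 h𝔩 ℓ hℓ hℓp hN
  -- f((γ)) = 0 expanded
  have hf0 : ∑ q ∈ s.toFinset, s.count q • χ.f q = 0 := by
    rw [← Finset.sum_multiset_map_count, ← th3_f_prod χ s (fun q hq => (hsprime q hq).2), hs,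
      Ideal.prod_normalizedFactors_eq_self hspan]
    exact χ.map_span γ hγ0
  -- reindex over `b`
  have hre : ∑ q ∈ s.toFinset, s.count q • χ.f q =
      ∑ b ∈ Ico 1 p, s.count (th3_q 𝔩 b) • χ.f (th3_q 𝔩 b) := by
    rw [← Finset.sum_image (f := fun q => s.count q • χ.f q) hinj]
    have e1 : ∑ q ∈ s.toFinset, s.count q • χ.f q =
        ∑ q ∈ s.toFinset ∪ (Ico 1 p).image (th3_q 𝔩), s.count q • χ.f q := by
      apply Finset.sum_subset Finset.subset_union_left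
      intro q _ hq
      rw [Multiset.mem_toFinset] at hq
      rw [Multiset.count_eq_zero_of_notMem hq, zero_smul]
    have e2 : ∑ q ∈ (Ico 1 p).image (th3_q 𝔩), s.count q • χ.f q =
        ∑ q ∈ s.toFinset ∪ (Ico 1 p).image (th3_q 𝔩), s.count q • χ.f q := by
      apply Finset.sum_subset Finset.subset_union_right
      intro q hq hq'
      have hqs : q ∈ s := by
        rcases Finset.mem_union.mp hq with h | h
        · exact Multiset.mem_toFinset.mp h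
        · exact absurd h hq'
      obtain ⟨hqp, hqb⟩ := hsprime q hqs
      have hℓq : (ℓ : 𝓞 (K p)) ∉ q := by
        intro hmem
        obtain ⟨b, hb, rfl⟩ := th3_exists_q 𝔩 h𝔩 ℓ hℓ hN q hqp hmem
        exact hq' (Finset.mem_image_of_mem _ hb)
      obtain ⟨k, hk⟩ := h1 q hqp hqb hℓq
      rw [hk, mul_smul, ← Nat.cast_smul_eq_nsmul (ZMod p) p, ZMod.natCast_self, zero_smul]
    rw [e1, e2]
  rw [hre] at hf0
  -- the exponent
  have hE : p ∣ ∑ b ∈ Ico 1 p, s.count (th3_q 𝔩 b) * mexp p b := by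
    rw [← ZMod.natCast_eq_zero_iff]
    have h3 : (((∑ b ∈ Ico 1 p, s.count (th3_q 𝔩 b) * mexp p b : ℕ) : ZMod p)) * χ.f 𝔩 = 0 := by
      rw [← hf0]
      push_cast
      rw [Finset.sum_mul]
      refine Finset.sum_congr rfl (fun b hb => ?_)
      rw [th3_f_q hp5 χ 𝔩 ℓ hℓ hN hb, nsmul_eq_mul, mul_assoc]
    exact (mul_eq_zero.mp h3).resolve_right hχ
  obtain ⟨E', hE'⟩ := hE
  -- the congruences
  have hcong : ∀ b ∈ Ico 1 p, Ideal.Quotient.mk 𝔩 (1 - zetaO p ^ b) =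
      Ideal.Quotient.mk 𝔩 (g : 𝓞 (K p)) ^ s.count (th3_q 𝔩 b) := by
    intro b hb
    have h4 := h2 (th3_q 𝔩 b) (th3_q_isPrime 𝔩 h𝔩 b) (th3_natCast_mem_q 𝔩 b hℓ𝔩)
      (by rw [th3_absNorm_q, hN])
    rw [th3_mem_q, map_sub, map_pow, map_natCast, map_sub, map_one,
      th3_sigO_zetaO p _ b (th3_tau_zeta p hb)] at h4
    rw [← map_pow]
    exact ((Ideal.Quotient.eq).mpr h4).symm
  refine ⟨(g : 𝓞 (K p)) ^ E', ?_⟩
  rw [← Ideal.Quotient.eq, map_pow, map_pow, ← pow_mul, mul_comm E' p, ← hE', eta, map_prod,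
    ← Finset.prod_pow_eq_pow_sum]
  refine Finset.prod_congr rfl (fun b hb => ?_)
  rw [map_pow, hcong b hb, ← pow_mul]

end Fermat.Agent.S14
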