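import Fermat.Agent.S14.Th2
import Fermat.Agent.S14.Th3Main

set_option autoImplicit false

/-!
# S14 / B1: Thaine's relation (final glue of P1 + P2 + P3)
-/

namespace Fermat.Agent.S14

open NumberField UniqueFactorizationMonoid

variable (p : ℕ) [Fact p.Prime]

/-- **Thaine's relation** (work package B1). -/
theorem thaine (hp5 : 5 ≤ p) (χ : EigenChar p) (𝔩 : Ideal (𝓞 (K p))) (h𝔩 : 𝔩.IsPrime)
    (ℓ : ℕ) (hℓ : ℓ.Prime) (hℓp : ℓ ≠ p) (hN : Ideal.absNorm 𝔩 = ℓ) (hχ : χ.f 𝔩 ≠ 0) :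
    ∃ y : 𝓞 (K p), y ^ p - eta p ∈ 𝔩 := by
  refine th3_thaine_of_gamma hp5 (fun ℓ' h1 h2 h3 => ?_) χ 𝔩 h𝔩 ℓ hℓ hℓp hN hχ
  obtain ⟨g, γ, h0, ha, hb⟩ := th_exists_gamma p hp5 ℓ' h1 h2 h3
  exact ⟨g, γ, h0, fun q hq hq0 hl => by convert ha q hq hq0 hl,
    fun q hq hl hn => by convert hb q hq hl hn⟩

end Fermat.Agent.S14
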