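import Fermat.Agent.S14.UnC
import Fermat.Agent.S14.Eta

set_option autoImplicit false
set_option maxSynthPendingDepth 3
set_option linter.unusedSectionVars false

/-!
# S14, work package B4 (`unit_eigen`), part D: the `ω²`-eigenspace of units mod `p`-th powers
-/

namespace Fermat.Agent.S14

open NumberField NumberField.Units Finset

variable {p : ℕ} [Fact p.Prime]

/-- the `ω²`-eigen-property modulo `p`-th powers, for the automorphism `τ = σ_g` -/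
def un_eig (τ : K p ≃ₐ[ℚ] K p) (g : ℕ) (x : K p) : Prop :=
  ∃ γ : K p, τ x = x ^ (g ^ 2) * γ ^ p

theorem un_eig_mul {τ : K p ≃ₐ[ℚ] K p} {g : ℕ} {x y : K p} (hx : un_eig τ g x)
    (hy : un_eig τ g y) : un_eig τ g (x * y) := by
  obtain ⟨a, ha⟩ := hx
  obtain ⟨b, hb⟩ := hy
  exact ⟨a * b, by rw [map_mul, ha, hb]; ring⟩

theorem un_eig_inv {τ : K p ≃ₐ[ℚ] K p} {g : ℕ} {x : K p} (hx : un_eig τ g x) :
    un_eig τ g x⁻¹ := by
  obtain ⟨a, ha⟩ := hx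
  exact ⟨a⁻¹, by rw [map_inv₀, ha, mul_inv, inv_pow, inv_pow]⟩

theorem un_eig_pow {τ : K p ≃ₐ[ℚ] K p} {g : ℕ} {x : K p} (hx : un_eig τ g x) (n : ℕ) :
    un_eig τ g (x ^ n) := by
  obtain ⟨a, ha⟩ := hx
  exact ⟨a ^ n, by rw [map_pow, ha]; ring⟩

theorem un_eig_ppow (τ : K p ≃ₐ[ℚ] K p) (g : ℕ) (w : K p) : un_eig τ g (w ^ p) := by
  by_cases hw : w = 0
  · subst hw
    exact ⟨0, by simp [(Fact.out : p.Prime).ne_zero]⟩
  · refine ⟨τ w / w ^ (g ^ 2), ?_⟩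
    have h : w ^ (p * g ^ 2) ≠ 0 := pow_ne_zero _ hw
    rw [map_pow, div_pow, ← pow_mul, ← pow_mul, mul_comm (g ^ 2) p, mul_div_cancel₀ _ h]

variable (p) in
theorem un_coe_eta : algebraMap (𝓞 (K p)) (K p) (eta p) =
    ∏ b ∈ Ico 1 p, (1 - zeta p ^ b) ^ mexp p b := by
  unfold eta
  rw [map_prod]
  refine Finset.prod_congr rfl fun b _ => ?_
  rw [map_pow, map_sub, map_one, map_pow]
  rfl

theorem un_zeta_pow_mod (n : ℕ) : zeta p ^ (n % p) = zeta p ^ n := by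
  rw [un_zeta_pow_eq_iff, ZMod.natCast_mod]

theorem un_mul_mod_mem {g : ℕ} (hgp : g.Coprime p) {b : ℕ} (hb : b ∈ Ico 1 p) :
    (g * b) % p ∈ Ico 1 p := by
  have hp : p.Prime := Fact.out
  rw [Finset.mem_Ico] at hb ⊢
  refine ⟨?_, Nat.mod_lt _ hp.pos⟩
  rw [Nat.one_le_iff_ne_zero]
  intro h0
  have hd : p ∣ g * b := Nat.dvd_of_mod_eq_zero h0
  rcases hp.dvd_mul.mp hd with h | h
  · exact hp.one_lt.ne' (hgp.symm.eq_one_of_dvd h)
  · exact absurd (Nat.le_of_dvd (by omega) h) (by omega)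

theorem un_prod_reindex {g : ℕ} (hgp : g.Coprime p) {M : Type*} [CommMonoid M] (F : ℕ → M) :
    ∏ b ∈ Ico 1 p, F ((g * b) % p) = ∏ c ∈ Ico 1 p, F c := by
  have hinj : Set.InjOn (fun b => (g * b) % p) (Ico 1 p : Finset ℕ) := by
    intro b₁ hb₁ b₂ hb₂ h
    have h1 : g * b₁ ≡ g * b₂ [MOD p] := h
    have h2 := Nat.ModEq.cancel_left_of_coprime (by rw [Nat.gcd_comm]; exact hgp) h1
    rw [Finset.mem_coe, Finset.mem_Ico] at hb₁ hb₂
    exact Nat.ModEq.eq_of_lt_of_lt h2 hb₁.2 hb₂.2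
  exact Finset.prod_nbij (fun b => (g * b) % p) (fun b hb => un_mul_mod_mem hgp hb) hinj
    (Finset.surjOn_of_injOn_of_card_le _ (fun b hb => un_mul_mod_mem hgp hb) hinj le_rfl)
    (fun _ _ => rfl)

theorem un_mexp_congr (hp5 : 5 ≤ p) {g : ℕ} (hgp : g.Coprime p) (b : ℕ) :
    ((mexp p b : ℕ) : ZMod p) = ((g ^ 2 * mexp p ((g * b) % p) : ℕ) : ZMod p) := by
  have hg0 : (g : ZMod p) ≠ 0 := by
    intro h0
    rw [ZMod.natCast_eq_zero_iff] at h0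
    exact (Fact.out : p.Prime).one_lt.ne' (hgp.symm.eq_one_of_dvd h0)
  unfold mexp
  simp only [Nat.cast_mul, Nat.cast_pow, ZMod.natCast_mod]
  rw [mul_pow, ← mul_assoc, ← pow_add, show 2 + (p - 3) = p - 1 by omega,
    ZMod.pow_card_sub_one_eq_one hg0, one_mul]

theorem un_eig_eta (hp5 : 5 ≤ p) {g : ℕ} {τ : K p ≃ₐ[ℚ] K p} (hτ : τ (zeta p) = zeta p ^ g)
    (hgp : g.Coprime p) : un_eig τ g (algebraMap (𝓞 (K p)) (K p) (eta p)) := by
  have hp : p.Prime := Fact.out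
  have key : ∀ b : ℕ, ∃ t : ℤ, ((mexp p b : ℕ) : ℤ) =
      ((g ^ 2 * mexp p ((g * b) % p) : ℕ) : ℤ) + p * t := by
    intro b
    have h := un_mexp_congr hp5 hgp b
    have h' : (((mexp p b : ℕ) : ℤ) : ZMod p) =
        (((g ^ 2 * mexp p ((g * b) % p) : ℕ) : ℤ) : ZMod p) := by
      rw [Int.cast_natCast, Int.cast_natCast]
      exact h
    obtain ⟨t, ht⟩ := (ZMod.intCast_eq_intCast_iff_dvd_sub _ _ _).mp h'
    exact ⟨-t, by linarith⟩
  choose t ht using key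
  have hne : ∀ b ∈ Ico 1 p, (1 : K p) - zeta p ^ ((g * b) % p) ≠ 0 := by
    intro b hb
    have hm := un_mul_mod_mem hgp hb
    rw [Finset.mem_Ico] at hm
    exact sub_ne_zero.mpr (Ne.symm ((zeta_spec p).pow_ne_one_of_pos_of_lt (by omega) hm.2))
  refine ⟨∏ b ∈ Ico 1 p, (1 - zeta p ^ ((g * b) % p)) ^ (t b), ?_⟩
  have h1 : τ (algebraMap (𝓞 (K p)) (K p) (eta p)) =
      ∏ b ∈ Ico 1 p, (1 - zeta p ^ ((g * b) % p)) ^ mexp p b := by
    rw [un_coe_eta, map_prod]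
    refine Finset.prod_congr rfl fun b _ => ?_
    rw [map_pow, map_sub, map_one, map_pow, hτ, ← pow_mul, un_zeta_pow_mod]
  have h2 : (algebraMap (𝓞 (K p)) (K p) (eta p)) ^ (g ^ 2) =
      ∏ b ∈ Ico 1 p, (1 - zeta p ^ ((g * b) % p)) ^ (g ^ 2 * mexp p ((g * b) % p)) := by
    rw [un_coe_eta, ← Finset.prod_pow]
    refine (un_prod_reindex hgp (fun c => ((1 - zeta p ^ c) ^ mexp p c) ^ (g ^ 2))).symm.trans ?_
    refine Finset.prod_congr rfl fun b _ => ?_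
    rw [← pow_mul, mul_comm (mexp p ((g * b) % p)) (g ^ 2)]
  rw [h1, h2, ← Finset.prod_pow, ← Finset.prod_mul_distrib]
  refine Finset.prod_congr rfl fun b hb => ?_
  have hx := hne b hb
  rw [← zpow_natCast (1 - zeta p ^ ((g * b) % p)) (mexp p b), ht b, zpow_add₀ hx, zpow_natCast,
    mul_comm (p : ℤ) (t b), zpow_mul, zpow_natCast]

theorem un_eig_eta_two (hp5 : 5 ≤ p) {g : ℕ} {τ : K p ≃ₐ[ℚ] K p}
    (hτ : τ (zeta p) = zeta p ^ g) (hgp : g.Coprime p) :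
    un_eig τ g (algebraMap (𝓞 (K p)) (K p) (eta_two p)) := by
  obtain ⟨k₀, hk₀⟩ := eta_exists_coe_eta p hp5
  have hl : ((1 - zeta p) ^ k₀) ^ p ≠ 0 :=
    pow_ne_zero _ (pow_ne_zero _ (eta_one_sub_zeta_ne_zero p))
  have h : algebraMap (𝓞 (K p)) (K p) (eta_two p) =
      algebraMap (𝓞 (K p)) (K p) (eta p) * (((1 - zeta p) ^ k₀) ^ p)⁻¹ := by
    rw [hk₀, mul_comm _ (algebraMap (𝓞 (K p)) (K p) (eta_two p)), mul_assoc,
      mul_inv_cancel₀ hl, mul_one]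
  rw [h]
  exact un_eig_mul (un_eig_eta hp5 hτ hgp) (un_eig_inv (un_eig_ppow τ g _))

theorem un_eig_unit {g : ℕ} {τ : K p ≃ₐ[ℚ] K p} (x : (𝓞 (K p))ˣ)
    (hx : un_eig τ g (algebraMap (𝓞 (K p)) (K p) (x : 𝓞 (K p)))) :
    ∃ v : (𝓞 (K p))ˣ, un_unitMap (K p) τ x = x ^ (g ^ 2) * v ^ p := by
  have hp : p.Prime := Fact.out
  obtain ⟨γ, hγ⟩ := hx
  have h2 : algebraMap (𝓞 (K p)) (K p) (x : 𝓞 (K p)) ^ (g ^ 2) *
      algebraMap (𝓞 (K p)) (K p) (((x ^ (g ^ 2))⁻¹ : (𝓞 (K p))ˣ) : 𝓞 (K p)) = 1 := by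
    rw [← map_pow, ← Units.val_pow_eq_pow_val, ← map_mul, ← Units.val_mul, mul_inv_cancel,
      Units.val_one, map_one]
  have h1 : γ ^ p = algebraMap (𝓞 (K p)) (K p)
      ((un_unitMap (K p) τ x * (x ^ (g ^ 2))⁻¹ : (𝓞 (K p))ˣ) : 𝓞 (K p)) := by
    rw [Units.val_mul, map_mul, un_coe_unitMap, hγ,
      mul_comm (algebraMap (𝓞 (K p)) (K p) (x : 𝓞 (K p)) ^ (g ^ 2)) (γ ^ p), mul_assoc, h2,
      mul_one]
  obtain ⟨v', hv'⟩ := eta_exists_int_of_pow p γ _ h1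
  have hu : IsUnit v' := by
    have : IsUnit (v' ^ p) := by
      rw [hv']
      exact Units.isUnit _
    exact (isUnit_pow_iff hp.ne_zero).mp this
  refine ⟨hu.unit, ?_⟩
  have h3 : hu.unit ^ p = un_unitMap (K p) τ x * (x ^ (g ^ 2))⁻¹ :=
    Units.ext (by rw [Units.val_pow_eq_pow_val, IsUnit.unit_spec, hv'])
  rw [h3, mul_comm (un_unitMap (K p) τ x), ← mul_assoc, mul_inv_cancel, one_mul]

/-- the exponent vector modulo `p` -/
noncomputable def un_phi (p : ℕ) [Fact p.Prime] (x : (𝓞 (K p))ˣ) :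
    Fin (Units.rank (K p)) → ZMod p :=
  fun i => ((un_expv (K p) x i : ℤ) : ZMod p)

theorem un_phi_eig {g : ℕ} {τ : K p ≃ₐ[ℚ] K p} (x : (𝓞 (K p))ˣ)
    (hx : un_eig τ g (algebraMap (𝓞 (K p)) (K p) (x : 𝓞 (K p)))) :
    Matrix.mulVec ((Int.castRingHom (ZMod p)).mapMatrix (un_mat (K p) τ)) (un_phi p x) =
      ((g : ZMod p) ^ 2) • un_phi p x := by
  obtain ⟨v, hv⟩ := un_eig_unit x hx
  have h1 := congrArg (un_expv (K p)) hv
  rw [un_expv_unitMap, un_expv_mul, un_expv_pow, un_expv_pow] at h1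
  ext i
  have h2 := congrFun h1 i
  rw [Pi.add_apply, Pi.smul_apply, Pi.smul_apply] at h2
  have h3 := congrArg (Int.cast : ℤ → ZMod p) h2
  simp only [Matrix.mulVec, dotProduct, nsmul_eq_mul, Int.cast_add,
    Int.cast_mul, Int.cast_natCast, Int.cast_sum, ZMod.natCast_self, zero_mul, add_zero,
    Nat.cast_pow, Int.cast_pow] at h3
  simp only [Matrix.mulVec, dotProduct, RingHom.mapMatrix_apply, Matrix.map_apply, un_phi,
    Pi.smul_apply, smul_eq_mul, Int.coe_castRingHom]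
  exact h3

theorem un_torsion_eig (hp5 : 5 ≤ p) {g : ℕ} {τ : K p ≃ₐ[ℚ] K p}
    (hτ : τ (zeta p) = zeta p ^ g) (hg : orderOf (g : ZMod p) = p - 1) (ξ : K p)
    (hξ : IsOfFinOrder ξ) (he : un_eig τ g ξ) : ∃ w : K p, ξ = w ^ p := by
  have hp : p.Prime := Fact.out
  have hodd : Odd p := hp.odd_of_ne_two (by omega)
  obtain ⟨r, hr, hξr⟩ := (zeta_spec p).exists_pow_or_neg_mul_pow_of_isOfFinOrder hodd hξ
  have hsq : ξ ^ 2 = zeta p ^ (2 * r) := by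
    rcases hξr with h | h <;> rw [h] <;> ring
  obtain ⟨γ, hγ⟩ := un_eig_pow he 2
  rw [hsq, map_pow, hτ, ← pow_mul, ← pow_mul] at hγ
  have hz : ∀ n : ℕ, (zeta p ^ n) ^ p = 1 := fun n => by
    rw [← pow_mul, mul_comm, pow_mul, (zeta_spec p).pow_eq_one, one_pow]
  have hγfin : IsOfFinOrder γ := by
    rw [isOfFinOrder_iff_pow_eq_one]
    refine ⟨p * p, Nat.mul_pos hp.pos hp.pos, ?_⟩
    have h1 := congrArg (· ^ p) hγ
    simp only [mul_pow, hz, one_mul] at h1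
    rw [pow_mul]
    exact h1.symm
  obtain ⟨s, -, hγs⟩ := (zeta_spec p).exists_pow_or_neg_mul_pow_of_isOfFinOrder hodd hγfin
  have hγp : (γ ^ p) ^ 2 = 1 := by
    rcases hγs with h | h
    · rw [h, hz, one_pow]
    · rw [h, neg_pow, hz, mul_one, hodd.neg_one_pow]
      norm_num
  have h4 : zeta p ^ (g * (2 * r) * 2) = zeta p ^ (2 * r * g ^ 2 * 2) := by
    rw [pow_mul, hγ, mul_pow, hγp, mul_one, ← pow_mul]
  rw [un_zeta_pow_eq_iff] at h4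
  have hg1 : (g : ZMod p) ≠ 1 := by
    intro h
    rw [h, orderOf_one] at hg
    omega
  have hg0 : (g : ZMod p) ≠ 0 := by
    intro h
    have h1 := pow_orderOf_eq_one (g : ZMod p)
    rw [hg, h, zero_pow (by omega)] at h1
    exact zero_ne_one h1
  have h40 : (4 : ZMod p) ≠ 0 := by
    intro h
    have h1 : ((4 : ℕ) : ZMod p) = 0 := by exact_mod_cast h
    rw [ZMod.natCast_eq_zero_iff] at h1
    have := Nat.le_of_dvd (by norm_num) h1
    omega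
  have hr0 : (r : ZMod p) = 0 := by
    push_cast at h4
    have h5 : (r : ZMod p) * ((g : ZMod p) * (1 - g) * 4) = 0 := by linear_combination h4
    rcases mul_eq_zero.mp h5 with h | h
    · exact h
    · exfalso
      rcases mul_eq_zero.mp h with h | h
      · rcases mul_eq_zero.mp h with h | h
        · exact hg0 h
        · exact hg1 (sub_eq_zero.mp h).symm
      · exact h40 h
  have hr' : r = 0 := by
    rw [ZMod.natCast_eq_zero_iff] at hr0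
    exact Nat.eq_zero_of_dvd_of_lt hr0 hr
  subst hr'
  rcases hξr with h | h
  · exact ⟨1, by rw [h]; simp⟩
  · exact ⟨-1, by rw [h, hodd.neg_one_pow]; simp⟩

theorem un_pow_of_dvd (hp5 : 5 ≤ p) {g : ℕ} {τ : K p ≃ₐ[ℚ] K p}
    (hτ : τ (zeta p) = zeta p ^ g) (hg : orderOf (g : ZMod p) = p - 1) (x : (𝓞 (K p))ˣ)
    (hd : ∀ i, (p : ℤ) ∣ un_expv (K p) x i)
    (he : un_eig τ g (algebraMap (𝓞 (K p)) (K p) (x : 𝓞 (K p)))) :
    ∃ w : K p, algebraMap (𝓞 (K p)) (K p) (x : 𝓞 (K p)) = w ^ p := by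
  obtain ⟨ξ, hξ, hx⟩ := un_exists_decomp (K p) x
  choose q hq using hd
  obtain ⟨v, hv⟩ : ∃ v : (𝓞 (K p))ˣ, v = ∏ i, fundSystem (K p) i ^ (q i) := ⟨_, rfl⟩
  have hx' : x = ξ * v ^ p := by
    rw [hv, ← Finset.prod_pow]
    refine hx.trans ?_
    congr 1
    refine Finset.prod_congr rfl fun i _ => ?_
    rw [hq i, mul_comm, zpow_mul, zpow_natCast]
  have hξfin : IsOfFinOrder (algebraMap (𝓞 (K p)) (K p) (ξ : 𝓞 (K p))) := by
    have h1 : IsOfFinOrder ξ := (CommGroup.mem_torsion _).mp hξ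
    rw [isOfFinOrder_iff_pow_eq_one] at h1 ⊢
    obtain ⟨n, hn, h⟩ := h1
    exact ⟨n, hn, by rw [← map_pow, ← Units.val_pow_eq_pow_val, h, Units.val_one, map_one]⟩
  have hv0 : algebraMap (𝓞 (K p)) (K p) (v : 𝓞 (K p)) ≠ 0 :=
    (map_ne_zero_iff _ RingOfIntegers.coe_injective).mpr v.ne_zero
  have hxc : algebraMap (𝓞 (K p)) (K p) (x : 𝓞 (K p)) =
      algebraMap (𝓞 (K p)) (K p) (ξ : 𝓞 (K p)) * algebraMap (𝓞 (K p)) (K p) (v : 𝓞 (K p)) ^ p := by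
    rw [hx', Units.val_mul, map_mul, Units.val_pow_eq_pow_val, map_pow]
  have hξe : un_eig τ g (algebraMap (𝓞 (K p)) (K p) (ξ : 𝓞 (K p))) := by
    have h2 : algebraMap (𝓞 (K p)) (K p) (ξ : 𝓞 (K p)) =
        algebraMap (𝓞 (K p)) (K p) (x : 𝓞 (K p)) *
          ((algebraMap (𝓞 (K p)) (K p) (v : 𝓞 (K p))) ^ p)⁻¹ := by
      rw [hxc, mul_assoc, mul_inv_cancel₀ (pow_ne_zero _ hv0), mul_one]
    rw [h2]
    exact un_eig_mul he (un_eig_inv (un_eig_ppow τ g _))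
  obtain ⟨w, hw⟩ := un_torsion_eig hp5 hτ hg _ hξfin hξe
  exact ⟨w * algebraMap (𝓞 (K p)) (K p) (v : 𝓞 (K p)), by rw [mul_pow, ← hw, hxc]⟩

variable (p) in
/-- **Work package B4.** The `ω²`-eigenspace of the units of `ℚ(ζ_p)` modulo `p`-th powers is
spanned by `η`. -/
theorem unit_eigen (hp5 : 5 ≤ p) (u : (𝓞 (K p))ˣ)
    (h : ∀ (σ : K p ≃ₐ[ℚ] K p) (a : ℕ), σ (zeta p) = zeta p ^ a →
      ∃ γ : K p, σ ((u : 𝓞 (K p)) : K p) = ((u : 𝓞 (K p)) : K p) ^ (a ^ 2) * γ ^ p) :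
    ∃ (k : ℕ) (w : K p), ((u : 𝓞 (K p)) : K p) = ((eta p : 𝓞 (K p)) : K p) ^ k * w ^ p := by
  have hp : p.Prime := Fact.out
  have hodd : p % 2 = 1 := by
    rcases hp.eq_two_or_odd with h | h
    · omega
    · exact h
  obtain ⟨g, hg, hgp⟩ := un_exists_primroot p
  obtain ⟨τ, hτ⟩ := un_exists_tau p g hgp
  have hu : un_eig τ g (algebraMap (𝓞 (K p)) (K p) (u : 𝓞 (K p))) := h τ g hτ
  obtain ⟨e2, he2c⟩ : ∃ e2 : (𝓞 (K p))ˣ, ((e2 : (𝓞 (K p))ˣ) : 𝓞 (K p)) = eta_two p :=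
    ⟨(eta_two_isUnit p).unit, IsUnit.unit_spec _⟩
  have he : un_eig τ g (algebraMap (𝓞 (K p)) (K p) (e2 : 𝓞 (K p))) := by
    rw [he2c]
    exact un_eig_eta_two hp5 hτ hgp
  obtain ⟨hAm, hAtr⟩ := un_mat_facts p hp5 hτ hg
  have hm : (p - 1) / 2 = Units.rank (K p) + 1 := by
    rw [← un_card_places hp5, un_card_places_rank]
  have hBm : ((Int.castRingHom (ZMod p)).mapMatrix (un_mat (K p) τ)) ^ ((p - 1) / 2) = 1 := by
    rw [← map_pow, hAm, map_one]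
  have hBtr : ∀ i, 0 < i → i < (p - 1) / 2 →
      (((Int.castRingHom (ZMod p)).mapMatrix (un_mat (K p) τ)) ^ i).trace = -1 := by
    intro i hi0 hi
    rw [← map_pow]
    have h1 := hAtr i hi0 hi
    have h2 : ((Int.castRingHom (ZMod p)).mapMatrix (un_mat (K p) τ ^ i)).trace =
        (((un_mat (K p) τ ^ i).trace : ℤ) : ZMod p) := by
      simp [Matrix.trace, Matrix.diag]
    rw [h2, h1]
    simp
  have hc : ((g : ZMod p) ^ 2) ^ ((p - 1) / 2) = 1 := by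
    rw [← pow_mul, show 2 * ((p - 1) / 2) = p - 1 by omega, ← hg, pow_orderOf_eq_one]
  have hc1 : (g : ZMod p) ^ 2 ≠ 1 := by
    intro h1
    have h2 := orderOf_dvd_of_pow_eq_one h1
    rw [hg] at h2
    have := Nat.le_of_dvd (by norm_num) h2
    omega
  have hy0 : un_phi p e2 ≠ 0 := by
    intro h0
    have hd : ∀ i, (p : ℤ) ∣ un_expv (K p) e2 i := fun i =>
      (ZMod.intCast_zmod_eq_zero_iff_dvd _ _).mp (congrFun h0 i)
    obtain ⟨w, hw⟩ := un_pow_of_dvd hp5 hτ hg e2 hd he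
    rw [he2c] at hw
    exact eta_two_not_pow p hp5 ⟨w, hw.symm⟩
  obtain ⟨k, hk⟩ := un_eigen_line hm (by omega) _ hBm hBtr _ hc hc1 _ _
    (un_phi_eig u hu) (un_phi_eig e2 he) hy0
  obtain ⟨x, hx⟩ : ∃ x : (𝓞 (K p))ˣ, x * e2 ^ k.val = u :=
    ⟨u * (e2 ^ k.val)⁻¹, by rw [mul_assoc, inv_mul_cancel, mul_one]⟩
  have hxc : algebraMap (𝓞 (K p)) (K p) (x : 𝓞 (K p)) *
      algebraMap (𝓞 (K p)) (K p) (e2 : 𝓞 (K p)) ^ k.val =
      algebraMap (𝓞 (K p)) (K p) (u : 𝓞 (K p)) := by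
    rw [← hx, Units.val_mul, map_mul, Units.val_pow_eq_pow_val, map_pow]
  have he20 : algebraMap (𝓞 (K p)) (K p) (e2 : 𝓞 (K p)) ≠ 0 :=
    (map_ne_zero_iff _ RingOfIntegers.coe_injective).mpr e2.ne_zero
  have hxd : ∀ i, (p : ℤ) ∣ un_expv (K p) x i := by
    intro i
    rw [← ZMod.intCast_zmod_eq_zero_iff_dvd]
    have h1 := congrArg (un_expv (K p)) hx
    rw [un_expv_mul, un_expv_pow] at h1
    have h2 := congrFun h1 i
    rw [Pi.add_apply, Pi.smul_apply] at h2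
    have h3 := congrArg (Int.cast : ℤ → ZMod p) h2
    have h4 := congrFun hk i
    simp only [un_phi, Pi.smul_apply, smul_eq_mul] at h4
    simp only [nsmul_eq_mul, Int.cast_add, Int.cast_mul, Int.cast_natCast,
      ZMod.natCast_zmod_val] at h3
    rw [h4] at h3
    exact add_eq_right.mp h3
  have hxe : un_eig τ g (algebraMap (𝓞 (K p)) (K p) (x : 𝓞 (K p))) := by
    have h2 : algebraMap (𝓞 (K p)) (K p) (x : 𝓞 (K p)) =
        algebraMap (𝓞 (K p)) (K p) (u : 𝓞 (K p)) *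
          ((algebraMap (𝓞 (K p)) (K p) (e2 : 𝓞 (K p))) ^ k.val)⁻¹ := by
      rw [← hxc, mul_assoc, mul_inv_cancel₀ (pow_ne_zero _ he20), mul_one]
    rw [h2]
    exact un_eig_mul hu (un_eig_inv (un_eig_pow he _))
  obtain ⟨w, hw⟩ := un_pow_of_dvd hp5 hτ hg x hxd hxe
  obtain ⟨k₀, hk₀⟩ := eta_exists_coe_eta p hp5
  have hl : (1 : K p) - zeta p ≠ 0 := eta_one_sub_zeta_ne_zero p
  refine ⟨k.val, w / ((1 - zeta p) ^ k₀) ^ k.val, ?_⟩
  show algebraMap (𝓞 (K p)) (K p) (u : 𝓞 (K p)) =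
    (algebraMap (𝓞 (K p)) (K p) (eta p)) ^ k.val * (w / ((1 - zeta p) ^ k₀) ^ k.val) ^ p
  rw [← hxc, hw, he2c, hk₀, div_pow, mul_pow]
  have hl' : (((1 - zeta p) ^ k₀) ^ k.val) ^ p ≠ 0 := pow_ne_zero _ (pow_ne_zero _ (pow_ne_zero _ hl))
  field_simp
  ring

end Fermat.Agent.S14
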