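import Fermat.Agent.S14.Eig
import Fermat.Agent.S14.T1
import Fermat.Agent.S14.Eta
import Fermat.Agent.S14.UnD
import Fermat.Agent.S14.Thaine
import Fermat.Agent.S14.KfMain
import Fermat.Agent.S14.NoCross

set_option autoImplicit false

/-!
# S14: a Kummer datum cannot exist (assembly of the work packages)
-/

namespace Fermat.Agent.S14

open NumberField

variable (p : ℕ) [Fact p.Prime]

/-- If the ideal `𝔞` of a Kummer datum is principal, `α` is a unit times a `p`-th power, and the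
unit inherits the eigen-property. -/
theorem main_unit (α : K p) (h : KummerDatum p α) (a : K p)
    (ha : FractionalIdeal.spanSingleton (nonZeroDivisors (𝓞 (K p))) α =
      FractionalIdeal.spanSingleton (nonZeroDivisors (𝓞 (K p))) a ^ p) :
    ∃ u : (𝓞 (K p))ˣ, a ≠ 0 ∧ ((u : 𝓞 (K p)) : K p) = α ^ 1 * (a⁻¹) ^ p ∧
      ∀ (σ : K p ≃ₐ[ℚ] K p) (b : ℕ), σ (zeta p) = zeta p ^ b →
        ∃ γ : K p, σ ((u : 𝓞 (K p)) : K p) = ((u : 𝓞 (K p)) : K p) ^ (b ^ 2) * γ ^ p := by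
  have hp0 : p ≠ 0 := (Fact.out : p.Prime).ne_zero
  rw [FractionalIdeal.spanSingleton_pow, FractionalIdeal.spanSingleton_eq_spanSingleton] at ha
  obtain ⟨z, hz⟩ := ha
  have hz' : ((z : 𝓞 (K p)) : K p) * α = a ^ p := by
    rw [← hz]
    rfl
  have hzK : ((z : 𝓞 (K p)) : K p) ≠ 0 := by
    have : (algebraMap (𝓞 (K p)) (K p) (z : 𝓞 (K p))) ≠ 0 := by simp
    exact this
  have ha0 : a ≠ 0 := by
    rintro rfl
    rw [zero_pow hp0] at hz'
    exact (mul_ne_zero hzK h.ne_zero) hz'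
  have hu : (((z⁻¹ : (𝓞 (K p))ˣ) : 𝓞 (K p)) : K p) = α ^ 1 * (a⁻¹) ^ p := by
    have h1 : (((z⁻¹ : (𝓞 (K p))ˣ) : 𝓞 (K p)) : K p) * ((z : 𝓞 (K p)) : K p) = 1 := by
      have : ((z⁻¹ : (𝓞 (K p))ˣ) : 𝓞 (K p)) * (z : 𝓞 (K p)) = 1 := by simp
      have h2 := congrArg (algebraMap (𝓞 (K p)) (K p)) this
      rw [map_mul, map_one] at h2
      exact h2
    rw [pow_one, inv_pow, ← hz', mul_inv, mul_comm (((z : 𝓞 (K p)) : K p))⁻¹, ← mul_assoc,
      mul_inv_cancel₀ h.ne_zero, one_mul]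
    exact eq_inv_of_mul_eq_one_left h1
  refine ⟨z⁻¹, ha0, hu, ?_⟩
  intro σ b hσ
  obtain ⟨γ₀, hγ₀⟩ := h.eigen σ b hσ
  refine ⟨γ₀ * (σ a)⁻¹ * a ^ (b ^ 2), ?_⟩
  rw [hu, pow_one, map_mul, map_pow, map_inv₀, hγ₀]
  have hσa : σ a ≠ 0 := by simpa using ha0
  have h1 : ((a⁻¹) ^ p) ^ (b ^ 2) * (a ^ (b ^ 2)) ^ p = 1 := by
    rw [← pow_mul, ← pow_mul, mul_comm (b ^ 2) p, ← mul_pow, inv_mul_cancel₀ ha0, one_pow]
  calc α ^ b ^ 2 * γ₀ ^ p * (σ a)⁻¹ ^ p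
      = (α ^ b ^ 2 * γ₀ ^ p * (σ a)⁻¹ ^ p) * (((a⁻¹) ^ p) ^ (b ^ 2) * (a ^ (b ^ 2)) ^ p) := by
        rw [h1, mul_one]
    _ = _ := by ring

/-- The case `p ≥ 5`. -/
theorem no_kummerDatum_five (hp5 : 5 ≤ p) (α : K p) (h : KummerDatum p α) : False := by
  have hp : p.Prime := Fact.out
  have hη := eta_not_pow p hp5
  obtain ⟨𝔞, h𝔞⟩ := h.ideal_pow
  by_cases hprin : ∃ a : K p, 𝔞 = FractionalIdeal.spanSingleton (nonZeroDivisors (𝓞 (K p))) a
  · -- Case A: the unit case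
    obtain ⟨a, rfl⟩ := hprin
    obtain ⟨u, ha0, hu, hueig⟩ := main_unit p α h a h𝔞
    obtain ⟨k, w, hkw⟩ := unit_eigen p hp5 u hueig
    obtain ⟨m, hm⟩ := h.local_pow u 1 a⁻¹ (by simpa using hp.one_lt.ne') hu
    obtain ⟨k', rfl⟩ := dvd_of_eta_pow_congr p hp5 u k w hkw m hm
    apply h.not_pow
    refine ⟨((eta p : 𝓞 (K p)) : K p) ^ k' * w * a, ?_⟩
    have h1 : α = ((u : 𝓞 (K p)) : K p) * a ^ p := by
      rw [hu, pow_one, inv_pow, mul_assoc, inv_mul_cancel₀ (pow_ne_zero p ha0), mul_one]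
    rw [h1, hkw]
    ring
  · -- Case B: the class group case
    obtain ⟨χ, I, hI, hχI⟩ := exists_eigenChar p α h.ne_zero h.eigen 𝔞 h𝔞 hprin
    obtain ⟨K', _, _, _, hK'⟩ := exists_kummer_field p hp5 hη
    refine no_cross_character (K₀ := K p) p (by omega) χ.f χ.map_mul χ.map_span ⟨I, hI, hχI⟩ K'
      {J : Ideal (𝓞 (K p)) | Ideal.absNorm J = p} (Ideal.finite_setOfPred_absNorm_eq p) ?_
    intro 𝔩 h𝔩 hℓ hT hχ
    have hℓp : Ideal.absNorm 𝔩 ≠ p := hT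
    obtain ⟨y, hy⟩ := thaine p hp5 χ 𝔩 h𝔩 (Ideal.absNorm 𝔩) hℓ hℓp rfl hχ
    exact hK' 𝔩 h𝔩 (Ideal.absNorm 𝔩) hℓ hℓp rfl ⟨y, hy⟩

/-- Every unit of `𝓞 ℚ(ζ₃)` is a sixth root of unity. -/
theorem main_three_unit_pow (u : (𝓞 (K 3))ˣ) : u ^ 6 = 1 := by
  have hmem := IsCyclotomicExtension.Rat.Three.Units.mem (zeta_spec 3) u
  have hη : ((IsPrimitiveRoot.isUnit ((zeta_spec 3).toInteger_isPrimitiveRoot)
      (by decide)).unit : (𝓞 (K 3))ˣ) ^ 3 = 1 := by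
    apply Units.ext
    rw [Units.val_pow_eq_pow_val, Units.val_one]
    exact (zeta_spec 3).toInteger_isPrimitiveRoot.pow_eq_one
  generalize (IsPrimitiveRoot.isUnit ((zeta_spec 3).toInteger_isPrimitiveRoot)
    (by decide)).unit = e at hmem hη
  simp only [List.mem_cons, List.not_mem_nil, or_false] at hmem
  have h6 : e ^ 6 = 1 := by rw [show (6 : ℕ) = 3 * 2 from rfl, pow_mul, hη, one_pow]
  have h12 : (e ^ 2) ^ 6 = 1 := by rw [← pow_mul, mul_comm, pow_mul, h6, one_pow]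
  have hneg : ∀ w : (𝓞 (K 3))ˣ, (-w) ^ 6 = w ^ 6 := fun w => Even.neg_pow (by decide) w
  rcases hmem with h | h | h | h | h | h <;> rw [h]
  · simp
  · rw [hneg]
    simp
  · exact h6
  · rw [hneg]
    exact h6
  · exact h12
  · rw [hneg]
    exact h12

/-- The case `p = 3`. -/
theorem no_kummerDatum_three (α : K 3) (h : KummerDatum 3 α) : False := by
  obtain ⟨𝔞, h𝔞⟩ := h.ideal_pow
  have hpid : IsPrincipalIdealRing (𝓞 (K 3)) := IsCyclotomicExtension.Rat.three_pid (K := K 3)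
  have hprin := FractionalIdeal.eq_spanSingleton_of_principal 𝔞
  rw [hprin] at h𝔞
  obtain ⟨u, ha0, hu, hueig⟩ := main_unit 3 α h _ h𝔞
  set a : K 3 := Submodule.IsPrincipal.generator (𝔞 : Submodule (𝓞 (K 3)) (K 3)) with ha
  -- an automorphism with `σ ζ = ζ ^ 2`
  have hμ : IsPrimitiveRoot (zeta 3 ^ 2) 3 := (zeta_spec 3).pow_of_coprime 2 (by decide)
  let σ : K 3 ≃ₐ[ℚ] K 3 := IsCyclotomicExtension.fromZetaAut hμ
    (Polynomial.cyclotomic.irreducible_rat (by decide))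
  have hσ : σ (zeta 3) = zeta 3 ^ 2 :=
    IsCyclotomicExtension.fromZetaAut_spec hμ (Polynomial.cyclotomic.irreducible_rat (by decide))
  obtain ⟨γ, hγ⟩ := hueig σ 2 hσ
  -- `v = u` in `K`, with `v ^ 6 = 1`
  set v : K 3 := ((u : 𝓞 (K 3)) : K 3) with hv
  have hv6 : v ^ 6 = 1 := by
    have h1 := main_three_unit_pow u
    have h2 : (u : 𝓞 (K 3)) ^ 6 = 1 := by
      rw [← Units.val_pow_eq_pow_val, h1, Units.val_one]
    have h3 := congrArg (algebraMap (𝓞 (K 3)) (K 3)) h2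
    rw [map_pow, map_one] at h3
    exact h3
  have hv0 : v ≠ 0 := by
    intro h0
    rw [h0] at hv6
    norm_num at hv6
  -- `ξ = v ^ 4` is a cube root of unity, hence a power of `ζ`
  have hξ3 : (v ^ 4) ^ 3 = 1 := by
    rw [← pow_mul, show (4 * 3 : ℕ) = 6 * 2 from rfl, pow_mul, hv6, one_pow]
  obtain ⟨j, -, hj⟩ := (zeta_spec 3).eq_pow_of_pow_eq_one hξ3
  have hσξ : σ (v ^ 4) = (v ^ 4) ^ 2 := by
    rw [← hj, map_pow, hσ, ← pow_mul, ← pow_mul, mul_comm]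
  have hσξ' : σ (v ^ 4) = v ^ 4 * γ ^ 12 := by
    rw [map_pow, hγ, mul_pow, ← pow_mul, ← pow_mul,
      show (2 ^ 2 * 4 : ℕ) = 6 * 2 + 4 from rfl, pow_add, pow_mul, hv6, one_pow, one_mul]
  have hξ : v ^ 4 = γ ^ 12 := by
    have h1 : v ^ 4 * v ^ 4 = v ^ 4 * γ ^ 12 := by rw [← hσξ', hσξ, sq]
    exact mul_left_cancel₀ (pow_ne_zero 4 hv0) h1
  -- hence `v` is a cube, and so is `α`
  apply h.not_pow
  refine ⟨γ ^ 4 * v⁻¹ * a, ?_⟩
  have h1 : α = v * a ^ 3 := by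
    rw [hu, pow_one, inv_pow, mul_assoc, inv_mul_cancel₀ (pow_ne_zero 3 ha0), mul_one]
  have h2 : v = γ ^ 12 * (v⁻¹) ^ 3 := by
    rw [← hξ, inv_pow, show (4 : ℕ) = 1 + 3 from rfl, pow_add, pow_one, mul_assoc,
      mul_inv_cancel₀ (pow_ne_zero 3 hv0), mul_one]
  rw [h1]
  nth_rewrite 1 [h2]
  ring

/-- **No Kummer datum exists** for a prime `p ≥ 3`. -/
theorem no_kummerDatum (h3 : 3 ≤ p) (α : K p) (h : KummerDatum p α) : False := by
  have hp : p.Prime := Fact.out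
  rcases Nat.lt_or_ge p 5 with h5 | h5
  · have hp3 : p = 3 := by
      interval_cases p
      · rfl
      · exact absurd hp (by decide)
    subst hp3
    exact no_kummerDatum_three α h
  · exact no_kummerDatum_five p h5 α h

end Fermat.Agent.S14
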