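import Mathlib

set_option autoImplicit false

/-!
# S14 / AN (A2), part 1: lattice points in boxes

Generic counting of the points of a lattice `span ℤ (range b)` in a set `S` by comparing the union of
the translated fundamental cells with an inner and an outer set; then the special case of an ideal
lattice in the mixed space and the boxes `convexBodyLT K f`.
-/

namespace Fermat.Agent.S14

open MeasureTheory
open scoped ENNReal NNReal Pointwise

section Count

variable {E ι : Type*} [NormedAddCommGroup E] [NormedSpace ℝ E] [MeasurableSpace E] [BorelSpace E]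
  [Fintype ι] (b : Module.Basis ι ℝ E) (μ : Measure E) [μ.IsAddHaarMeasure]

omit [MeasurableSpace E] [BorelSpace E] in
theorem an_bx_floor_vadd (g p : E) (hg : g ∈ Submodule.span ℤ (Set.range b))
    (hp : p ∈ ZSpan.fundamentalDomain b) :
    ((ZSpan.floor b (g + p) : Submodule.span ℤ (Set.range b)) : E) = g := by
  have h1 : ZSpan.fract b (g + p) = p := by
    rw [ZSpan.fract_zSpan_add b p hg]
    exact ZSpan.fract_eq_self.mpr hp
  have h2 := ZSpan.fract_apply b (g + p)
  rw [h1, eq_sub_iff_add_eq] at h2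
  exact add_left_cancel (a := p) (by rw [h2, add_comm])

/-- The union of the cells `g + P` over the lattice points `g ∈ S` has measure `#(L ∩ S) · μ P`. -/
theorem an_bx_cells (S : Set E) :
    μ {x : E | ((ZSpan.floor b x : Submodule.span ℤ (Set.range b)) : E) ∈ S} =
      ∑' g : (Submodule.span ℤ (Set.range b)).toAddSubgroup,
        S.indicator (fun _ => μ (ZSpan.fundamentalDomain b)) (g : E) := by
  have h := ZSpan.isAddFundamentalDomain' b μ
  have : FiniteDimensional ℝ E := Module.Basis.finiteDimensional_of_finite b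
  have : Countable (Submodule.span ℤ (Set.range b)).toAddSubgroup :=
    inferInstanceAs (Countable (Submodule.span ℤ (Set.range b)))
  rw [h.measure_eq_tsum']
  refine tsum_congr fun g => ?_
  by_cases hg : (g : E) ∈ S
  · rw [Set.indicator_of_mem hg]
    have hsub : (g +ᵥ ZSpan.fundamentalDomain b) ⊆
        {x : E | ((ZSpan.floor b x : Submodule.span ℤ (Set.range b)) : E) ∈ S} := by
      rintro x ⟨p, hp, rfl⟩
      show ((ZSpan.floor b ((g : E) + p) : Submodule.span ℤ (Set.range b)) : E) ∈ S
      rw [an_bx_floor_vadd b g p g.2 hp]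
      exact hg
    rw [Set.inter_eq_right.mpr hsub, measure_vadd]
  · rw [Set.indicator_of_notMem hg]
    have hemp : {x : E | ((ZSpan.floor b x : Submodule.span ℤ (Set.range b)) : E) ∈ S} ∩
        (g +ᵥ ZSpan.fundamentalDomain b) = ∅ := by
      ext x
      simp only [Set.mem_inter_iff, Set.mem_ofPred_eq, Set.mem_empty_iff_false, iff_false, not_and]
      rintro hx ⟨p, hp, rfl⟩
      have hx' : ((ZSpan.floor b ((g : E) + p) : Submodule.span ℤ (Set.range b)) : E) ∈ S := hx
      rw [an_bx_floor_vadd b g p g.2 hp] at hx'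
      exact hg hx'
    rw [hemp, measure_empty]

theorem an_bx_count_le (S Sout : Set E)
    (hout : ∀ x ∈ S, ∀ p ∈ ZSpan.fundamentalDomain b, x + p ∈ Sout) :
    ∑' g : (Submodule.span ℤ (Set.range b)).toAddSubgroup,
        S.indicator (fun _ => μ (ZSpan.fundamentalDomain b)) (g : E) ≤ μ Sout := by
  rw [← an_bx_cells]
  refine measure_mono fun x hx => ?_
  have h := hout _ hx (ZSpan.fract b x) (ZSpan.fract_mem_fundamentalDomain b x)
  rwa [ZSpan.fract_apply, add_sub_cancel] at h

theorem an_bx_count_ge (S Sin : Set E)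
    (hin : ∀ x ∈ Sin, ∀ p ∈ ZSpan.fundamentalDomain b, x - p ∈ S) :
    μ Sin ≤ ∑' g : (Submodule.span ℤ (Set.range b)).toAddSubgroup,
        S.indicator (fun _ => μ (ZSpan.fundamentalDomain b)) (g : E) := by
  rw [← an_bx_cells]
  refine measure_mono fun x hx => ?_
  have h := hin _ hx (ZSpan.fract b x) (ZSpan.fract_mem_fundamentalDomain b x)
  rwa [ZSpan.fract_apply, sub_sub_cancel] at h

end Count

section Mixed

open NumberField InfinitePlace mixedEmbedding
open scoped nonZeroDivisors Classical

variable (K : Type*) [Field K] [NumberField K]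

omit [NumberField K] in
theorem an_bx_mem_convexBodyLT_iff (f : InfinitePlace K → ℝ≥0) (x : mixedSpace K) :
    x ∈ convexBodyLT K f ↔ ∀ w, normAtPlace w x < f w := by
  simp only [Set.mem_prod, Set.mem_univ_pi, mem_ball_zero_iff]
  constructor
  · rintro ⟨h1, h2⟩ w
    obtain hw | hw := isReal_or_isComplex w
    · rw [normAtPlace_apply_of_isReal hw]; exact h1 ⟨w, hw⟩
    · rw [normAtPlace_apply_of_isComplex hw]; exact h2 ⟨w, hw⟩
  · intro h
    refine ⟨fun w => ?_, fun w => ?_⟩
    · have := h w.1; rwa [normAtPlace_apply_of_isReal w.2] at this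
    · have := h w.1; rwa [normAtPlace_apply_of_isComplex w.2] at this

theorem an_bx_normAtPlace_le_norm (w : InfinitePlace K) (x : mixedSpace K) :
    normAtPlace w x ≤ ‖x‖ := by
  rw [norm_eq_sup'_normAtPlace]
  exact Finset.le_sup' (fun w => normAtPlace w x) (Finset.mem_univ w)

/-- The number (in `ℝ≥0∞`) of elements of the ideal `J` whose image lies in the box
`convexBodyLT K f`. -/
noncomputable def an_bx_cnt (J : Ideal (𝓞 K)) (f : InfinitePlace K → ℝ≥0) : ℝ≥0∞ :=
  ∑' a : J, (convexBodyLT K f).indicator (fun _ => (1 : ℝ≥0∞)) (mixedEmbedding K ((a : 𝓞 K) : K))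

theorem an_bx_tsum_lattice (J : (Ideal (𝓞 K))⁰) (F : mixedSpace K → ℝ≥0∞) :
    ∑' g : (Submodule.span ℤ (Set.range
        (fractionalIdealLatticeBasis K (FractionalIdeal.mk0 K J)))).toAddSubgroup, F (g : mixedSpace K)
      = ∑' a : (J : Ideal (𝓞 K)), F (mixedEmbedding K ((a : 𝓞 K) : K)) := by
  set emb : 𝓞 K → mixedSpace K := fun a => mixedEmbedding K (a : K) with hemb
  have hinj : Function.Injective emb := fun a b h =>
    RingOfIntegers.coe_injective (mixedEmbedding_injective K h)
  have hset : ∀ x : mixedSpace K, x ∈ (Submodule.span ℤ (Set.range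
      (fractionalIdealLatticeBasis K (FractionalIdeal.mk0 K J)))).toAddSubgroup ↔
        x ∈ emb '' ((J : Ideal (𝓞 K)) : Set (𝓞 K)) := by
    intro x
    rw [Submodule.mem_toAddSubgroup, mem_span_fractionalIdealLatticeBasis]
    constructor
    · rintro ⟨y, hy, rfl⟩
      have hy' : y ∈ (FractionalIdeal.mk0 K J : FractionalIdeal (𝓞 K)⁰ K) := hy
      rw [FractionalIdeal.coe_mk0, FractionalIdeal.mem_coeIdeal] at hy'
      obtain ⟨a, ha, rfl⟩ := hy'
      exact ⟨a, ha, rfl⟩
    · rintro ⟨a, ha, rfl⟩
      refine ⟨(a : K), ?_, rfl⟩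
      show (a : K) ∈ (FractionalIdeal.mk0 K J : FractionalIdeal (𝓞 K)⁰ K)
      rw [FractionalIdeal.coe_mk0, FractionalIdeal.mem_coeIdeal]
      exact ⟨a, ha, rfl⟩
  have h1 : ∑' g : (Submodule.span ℤ (Set.range
        (fractionalIdealLatticeBasis K (FractionalIdeal.mk0 K J)))).toAddSubgroup, F (g : mixedSpace K)
      = ∑' x : ↥(emb '' ((J : Ideal (𝓞 K)) : Set (𝓞 K))), F (x : mixedSpace K) :=
    (Equiv.subtypeEquivRight hset).tsum_eq
      (fun x : ↥(emb '' ((J : Ideal (𝓞 K)) : Set (𝓞 K))) => F (x : mixedSpace K))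
  rw [h1]
  exact tsum_image (fun x => F x) hinj.injOn

theorem an_bx_cnt_bounds (J : (Ideal (𝓞 K))⁰) :
    ∃ d : ℝ≥0, ∀ f : InfinitePlace K → ℝ≥0,
      (convexBodyLTFactor K : ℝ≥0∞) * ↑(∏ w, (f w - d) ^ mult w) ≤
        an_bx_cnt K J f * volume (ZSpan.fundamentalDomain
          (fractionalIdealLatticeBasis K (FractionalIdeal.mk0 K J))) ∧
      an_bx_cnt K J f * volume (ZSpan.fundamentalDomain
          (fractionalIdealLatticeBasis K (FractionalIdeal.mk0 K J))) ≤
        (convexBodyLTFactor K : ℝ≥0∞) * ↑(∏ w, (f w + d) ^ mult w) := by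
  classical
  set b := fractionalIdealLatticeBasis K (FractionalIdeal.mk0 K J) with hb
  obtain ⟨d0, hd0⟩ := isBounded_iff_forall_norm_le.mp (ZSpan.fundamentalDomain_isBounded b)
  set d : ℝ≥0 := ⟨max d0 0, le_max_right _ _⟩ with hd
  have hP : ∀ p ∈ ZSpan.fundamentalDomain b, ∀ w, normAtPlace w p ≤ d := fun p hp w =>
    (an_bx_normAtPlace_le_norm K w p).trans ((hd0 p hp).trans (le_max_left _ _))
  refine ⟨d, fun f => ?_⟩
  have hcnt : an_bx_cnt K J f * volume (ZSpan.fundamentalDomain b) =
      ∑' g : (Submodule.span ℤ (Set.range b)).toAddSubgroup,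
        (convexBodyLT K f).indicator (fun _ => volume (ZSpan.fundamentalDomain b))
          (g : mixedSpace K) := by
    rw [an_bx_tsum_lattice K J, an_bx_cnt, ← ENNReal.tsum_mul_right]
    refine tsum_congr fun a => ?_
    by_cases h : mixedEmbedding K ((a : 𝓞 K) : K) ∈ convexBodyLT K f
    · rw [Set.indicator_of_mem h, Set.indicator_of_mem h, one_mul]
    · rw [Set.indicator_of_notMem h, Set.indicator_of_notMem h, zero_mul]
  rw [hcnt]
  constructor
  · rw [← convexBodyLT_volume]
    refine an_bx_count_ge b volume _ _ fun x hx p hp => ?_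
    rw [an_bx_mem_convexBodyLT_iff] at hx ⊢
    intro w
    have h1 := hx w
    have h2 := hP p hp w
    have h3 : normAtPlace w (x - p) ≤ normAtPlace w x + normAtPlace w p := by
      have := normAtPlace_add_le w x (-p)
      rwa [normAtPlace_neg, ← sub_eq_add_neg] at this
    by_cases hfd : f w ≤ d
    · rw [tsub_eq_zero_of_le hfd] at h1
      exact absurd h1 (not_lt.mpr (normAtPlace_nonneg w x))
    · rw [NNReal.coe_sub (not_le.mp hfd).le] at h1
      linarith
  · rw [← convexBodyLT_volume]
    refine an_bx_count_le b volume _ _ fun x hx p hp => ?_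
    rw [an_bx_mem_convexBodyLT_iff] at hx ⊢
    intro w
    have h1 := hx w
    have h2 := hP p hp w
    have h3 := normAtPlace_add_le w x p
    rw [NNReal.coe_add]
    linarith

end Mixed

end Fermat.Agent.S14
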