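import Fermat.Agent.S14.AnBox

set_option autoImplicit false

/-!
# S14 / AN (A2), part 2: boxes indexed by the log space, the unit action, and the simplex weight
-/

namespace Fermat.Agent.S14

open NumberField InfinitePlace mixedEmbedding Units dirichletUnitTheorem MeasureTheory Module
open scoped nonZeroDivisors ENNReal NNReal Classical Pointwise

variable (K : Type*) [Field K] [NumberField K]

/-- Extension of `t` to all places, with total sum zero. -/
noncomputable def an_rz_tau (t : logSpace K) (w : InfinitePlace K) : ℝ :=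
  if h : w = w₀ then - ∑ w', t w' else t ⟨w, h⟩

theorem an_rz_tau_w0 (t : logSpace K) : an_rz_tau K t w₀ = - ∑ w', t w' := by
  rw [an_rz_tau, dif_pos rfl]

theorem an_rz_tau_ne (t : logSpace K) (w : InfinitePlace K) (hw : w ≠ w₀) :
    an_rz_tau K t w = t ⟨w, hw⟩ := by
  rw [an_rz_tau, dif_neg hw]

theorem an_rz_sum_tau (t : logSpace K) : ∑ w, an_rz_tau K t w = 0 := by
  rw [Fintype.sum_eq_add_sum_subtype_ne _ (w₀ : InfinitePlace K), an_rz_tau_w0]
  have : ∀ w : {w : InfinitePlace K // w ≠ w₀}, an_rz_tau K t w.1 = t w :=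
    fun w => an_rz_tau_ne K t w.1 w.2
  simp only [this]
  ring

theorem an_rz_measurable_tau (w : InfinitePlace K) :
    Measurable (fun t : logSpace K => an_rz_tau K t w) := by
  by_cases h : w = w₀
  · simp only [an_rz_tau, dif_pos h]
    exact (Finset.measurable_sum _ fun i _ => measurable_pi_apply i).neg
  · simp only [an_rz_tau, dif_neg h]
    exact measurable_pi_apply _

/-- Radius function of the box with log-volume `v` and shape `t`. -/
noncomputable def an_rz_rad (v : ℝ) (t : logSpace K) (w : InfinitePlace K) : ℝ≥0 :=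
  ⟨Real.exp (v / (finrank ℚ K : ℝ) + an_rz_tau K t w / mult w), (Real.exp_pos _).le⟩

theorem an_rz_coe_rad (v : ℝ) (t : logSpace K) (w : InfinitePlace K) :
    ((an_rz_rad K v t w : ℝ≥0) : ℝ) =
      Real.exp (v / (finrank ℚ K : ℝ) + an_rz_tau K t w / mult w) := rfl

theorem an_rz_prod_rad (v : ℝ) (t : logSpace K) :
    ∏ w, ((an_rz_rad K v t w : ℝ≥0) : ℝ) ^ mult w = Real.exp v := by
  simp only [an_rz_coe_rad, ← Real.exp_nat_mul]
  rw [← Real.exp_sum]
  congr 1
  have h1 : ∀ w : InfinitePlace K,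
      (mult w : ℝ) * (v / (finrank ℚ K : ℝ) + an_rz_tau K t w / mult w)
      = (mult w : ℝ) * (v / finrank ℚ K) + an_rz_tau K t w := by
    intro w
    have : (mult w : ℝ) ≠ 0 := Nat.cast_ne_zero.mpr mult_ne_zero
    field_simp
  simp only [h1, Finset.sum_add_distrib, an_rz_sum_tau, add_zero, ← Finset.sum_mul]
  rw [← Nat.cast_sum, sum_mult_eq]
  have : (finrank ℚ K : ℝ) ≠ 0 := Nat.cast_ne_zero.mpr finrank_pos.ne'
  field_simp

/-- The coordinates of `a` relative to the box of log-volume `v`. -/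
noncomputable def an_rz_y (v : ℝ) (a : 𝓞 K) (w : InfinitePlace K) : ℝ :=
  mult w * Real.log (w (a : K)) - mult w * v / (finrank ℚ K : ℝ)

theorem an_rz_sum_y (v : ℝ) (a : 𝓞 K) (ha : a ≠ 0) :
    ∑ w, an_rz_y K v a w = Real.log (Ideal.absNorm (Ideal.span {a})) - v := by
  have ha' : (a : K) ≠ 0 := RingOfIntegers.coe_ne_zero_iff.mpr ha
  simp only [an_rz_y, Finset.sum_sub_distrib]
  congr 1
  · rw [Ideal.absNorm_span_singleton, Nat.cast_natAbs, ← Rat.cast_intCast, Int.cast_abs,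
      Algebra.coe_norm_int, ← prod_eq_abs_norm, Real.log_prod]
    · simp only [Real.log_pow]
    · intro w _
      exact pow_ne_zero _ ((map_ne_zero w).mpr ha')
  · simp only [← Finset.sum_div, ← Finset.sum_mul]
    rw [← Nat.cast_sum, sum_mult_eq]
    have : (finrank ℚ K : ℝ) ≠ 0 := Nat.cast_ne_zero.mpr finrank_pos.ne'
    field_simp

theorem an_rz_mem_box_iff (v : ℝ) (t : logSpace K) (a : 𝓞 K) (ha : a ≠ 0) :
    mixedEmbedding K (a : K) ∈ convexBodyLT K (an_rz_rad K v t) ↔
      ∀ w, an_rz_y K v a w < an_rz_tau K t w := by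
  have ha' : (a : K) ≠ 0 := RingOfIntegers.coe_ne_zero_iff.mpr ha
  rw [convexBodyLT_mem]
  refine forall_congr' fun w => ?_
  have hpos : 0 < w (a : K) := w.pos_iff.mpr ha'
  have hm : (0 : ℝ) < mult w := by exact_mod_cast mult_pos
  rw [an_rz_coe_rad, ← Real.log_lt_iff_lt_exp hpos, an_rz_y, ← sub_lt_iff_lt_add', lt_div_iff₀ hm]
  have e : (Real.log (w (a : K)) - v / (finrank ℚ K : ℝ)) * (mult w : ℝ) =
      mult w * Real.log (w (a : K)) - mult w * v / (finrank ℚ K : ℝ) := by ring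
  rw [e]

/-- The set of shapes `t` such that the box of log-volume `v` and shape `t` contains `a`. -/
def an_rz_T (v : ℝ) (a : 𝓞 K) : Set (logSpace K) :=
  {t | ∀ w, an_rz_y K v a w < an_rz_tau K t w}

/-- The open simplex of size `Y` in the log space. -/
def an_rz_simplex (Y : ℝ) : Set (logSpace K) := {s | (∀ w, 0 < s w) ∧ ∑ w, s w < Y}

/-- The weight: volume of the simplex of size `Y`. -/
noncomputable def an_rz_W (Y : ℝ) : ℝ≥0∞ := volume (an_rz_simplex K Y)

theorem an_rz_measurableSet_T (v : ℝ) (a : 𝓞 K) : MeasurableSet (an_rz_T K v a) := by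
  have : an_rz_T K v a = ⋂ w, {t | an_rz_y K v a w < an_rz_tau K t w} := by
    ext; simp [an_rz_T]
  rw [this]
  exact MeasurableSet.iInter fun w => measurableSet_lt measurable_const (an_rz_measurable_tau K w)

theorem an_rz_T_eq (v : ℝ) (a : 𝓞 K) :
    an_rz_T K v a = (fun t : logSpace K => t - (fun w => an_rz_y K v a w.1)) ⁻¹'
      (an_rz_simplex K (-(∑ w, an_rz_y K v a w))) := by
  ext t
  simp only [an_rz_T, an_rz_simplex, Set.mem_ofPred_eq, Set.mem_preimage, Pi.sub_apply, sub_pos]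
  rw [Fintype.sum_eq_add_sum_subtype_ne _ (w₀ : InfinitePlace K), Finset.sum_sub_distrib]
  constructor
  · intro h
    refine ⟨fun w => ?_, ?_⟩
    · have := h w.1; rwa [an_rz_tau_ne K t w.1 w.2] at this
    · have := h w₀; rw [an_rz_tau_w0] at this; linarith
  · rintro ⟨h1, h2⟩ w
    by_cases hw : w = w₀
    · subst hw; rw [an_rz_tau_w0]; linarith
    · have := h1 ⟨w, hw⟩; rwa [← an_rz_tau_ne K t w hw] at this

theorem an_rz_volume_T (v : ℝ) (a : 𝓞 K) (ha : a ≠ 0) :
    volume (an_rz_T K v a) = an_rz_W K (v - Real.log (Ideal.absNorm (Ideal.span {a}))) := by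
  rw [an_rz_T_eq, an_rz_sum_y K v a ha, neg_sub, an_rz_W]
  simp only [sub_eq_add_neg]
  exact measure_preimage_add_right volume _ _

theorem an_rz_tau_shift (u : (𝓞 K)ˣ) (t : logSpace K) (w : InfinitePlace K) :
    an_rz_tau K (-(logEmbedding K (Additive.ofMul u)) + t) w =
      an_rz_tau K t w - mult w * Real.log (w ((u : 𝓞 K) : K)) := by
  by_cases hw : w = w₀
  · subst hw
    rw [an_rz_tau_w0, an_rz_tau_w0]
    simp only [Pi.add_apply, Pi.neg_apply, Finset.sum_add_distrib, Finset.sum_neg_distrib]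
    rw [sum_logEmbedding_component]
    ring
  · rw [an_rz_tau_ne K _ w hw, an_rz_tau_ne K _ w hw, Pi.add_apply, Pi.neg_apply,
      logEmbedding_component]
    ring

theorem an_rz_y_unit (v : ℝ) (a : 𝓞 K) (ha : a ≠ 0) (u : (𝓞 K)ˣ) (w : InfinitePlace K) :
    an_rz_y K v ((u : 𝓞 K) * a) w = an_rz_y K v a w + mult w * Real.log (w ((u : 𝓞 K) : K)) := by
  have ha' : (a : K) ≠ 0 := RingOfIntegers.coe_ne_zero_iff.mpr ha
  have hu' : ((u : 𝓞 K) : K) ≠ 0 := RingOfIntegers.coe_ne_zero_iff.mpr u.ne_zero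
  have hpos : w (a : K) ≠ 0 := (map_ne_zero w).mpr ha'
  have hu : w ((u : 𝓞 K) : K) ≠ 0 := (map_ne_zero w).mpr hu'
  simp only [an_rz_y, map_mul]
  rw [Real.log_mul hu hpos]
  ring

theorem an_rz_T_unit (v : ℝ) (a : 𝓞 K) (ha : a ≠ 0) (u : (𝓞 K)ˣ) :
    an_rz_T K v ((u : 𝓞 K) * a) = (logEmbedding K (Additive.ofMul u)) +ᵥ an_rz_T K v a := by
  ext t
  rw [Set.mem_vadd_set_iff_neg_vadd_mem, vadd_eq_add]
  simp only [an_rz_T, Set.mem_ofPred_eq, an_rz_tau_shift, an_rz_y_unit K v a ha]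
  exact forall_congr' fun w => by constructor <;> intro h <;> linarith

/-- The fundamental domain of the unit lattice in the log space. -/
noncomputable def an_rz_F : Set (logSpace K) :=
  ZSpan.fundamentalDomain ((basisUnitLattice K).ofZLatticeBasis ℝ (unitLattice K))

theorem an_rz_isFund :
    IsAddFundamentalDomain (unitLattice K).toAddSubgroup (an_rz_F K) volume :=
  ZLattice.isAddFundamentalDomain (basisUnitLattice K) volume

theorem an_rz_orbit_sum (v : ℝ) (a : 𝓞 K) (ha : a ≠ 0) :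
    ∑' u : (𝓞 K)ˣ, volume (an_rz_T K v ((u : 𝓞 K) * a) ∩ an_rz_F K) =
      (torsionOrder K : ℝ≥0∞) * volume (an_rz_T K v a) := by
  set G : logSpace K → ℝ≥0∞ := fun x => volume ((x +ᵥ an_rz_T K v a) ∩ an_rz_F K) with hG
  have h1 : ∀ u : (𝓞 K)ˣ, volume (an_rz_T K v ((u : 𝓞 K) * a) ∩ an_rz_F K) =
      G (logEmbedding K (Additive.ofMul u)) := fun u => by rw [an_rz_T_unit K v a ha u]
  simp_rw [h1]
  let e : (𝓞 K)ˣ ≃ ((𝓞 K)ˣ ⧸ torsion K) × torsion K :=
    Subgroup.groupEquivQuotientProdSubgroup (s := torsion K)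
  have he : ∀ u : (𝓞 K)ˣ, (e u).1 = QuotientGroup.mk u := fun u => rfl
  rw [← e.symm.tsum_eq]
  have h2 : ∀ p : ((𝓞 K)ˣ ⧸ torsion K) × torsion K,
      logEmbedding K (Additive.ofMul (e.symm p)) =
        (logEmbeddingEquiv K (Additive.ofMul p.1) : logSpace K) := by
    intro p
    have h3 : (QuotientGroup.mk (e.symm p) : (𝓞 K)ˣ ⧸ torsion K) = p.1 := by
      rw [← he, Equiv.apply_symm_apply]
    rw [← h3, logEmbeddingEquiv_apply]
  simp_rw [h2]
  rw [ENNReal.tsum_prod
    (f := fun (q : (𝓞 K)ˣ ⧸ torsion K) (_ : torsion K) =>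
      G (logEmbeddingEquiv K (Additive.ofMul q) : logSpace K))]
  letI : Fintype (torsion K) := Fintype.ofFinite (torsion K)
  have h4 : ∀ q : (𝓞 K)ˣ ⧸ torsion K,
      ∑' _ : torsion K, G (logEmbeddingEquiv K (Additive.ofMul q) : logSpace K) =
        (torsionOrder K : ℝ≥0∞) * G (logEmbeddingEquiv K (Additive.ofMul q) : logSpace K) := by
    intro q
    rw [tsum_fintype, Finset.sum_const, nsmul_eq_mul, Finset.card_univ, torsionOrder,
      Nat.card_eq_fintype_card]
  simp_rw [h4]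
  rw [ENNReal.tsum_mul_left]
  congr 1
  have hcount : Countable (unitLattice K).toAddSubgroup :=
    inferInstanceAs (Countable (unitLattice K))
  rw [(an_rz_isFund K).measure_eq_tsum (an_rz_T K v a)]
  let e2 : ((𝓞 K)ˣ ⧸ torsion K) ≃ (unitLattice K).toAddSubgroup :=
    Additive.ofMul.trans (logEmbeddingEquiv K).toEquiv
  exact e2.tsum_eq (fun g : (unitLattice K).toAddSubgroup =>
    volume ((g +ᵥ an_rz_T K v a) ∩ an_rz_F K))

end Fermat.Agent.S14
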