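import Fermat.Agent.S14.AnRieszIface

set_option autoImplicit false

/-!
# S14 / AN (A2), part 3: unfolding the box count over the unit lattice
-/

namespace Fermat.Agent.S14

open NumberField InfinitePlace mixedEmbedding Units dirichletUnitTheorem MeasureTheory Module
open scoped nonZeroDivisors ENNReal NNReal Classical Pointwise

variable {K : Type*} [Field K] [NumberField K]

section Gen

variable (J : (Ideal (𝓞 K))⁰) (C : ClassGroup (𝓞 K)) (hJ : ClassGroup.mk0 J = C⁻¹)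

include hJ in
theorem an_rz_exists_gen (I : an_rz_Cls K C) :
    ∃ g : 𝓞 K, Ideal.span {g} = (J : Ideal (𝓞 K)) * (I.1 : Ideal (𝓞 K)) := by
  have h : ClassGroup.mk0 (J * I.1) = 1 := by rw [map_mul, hJ, I.2, inv_mul_cancel]
  have h2 := (ClassGroup.mk0_eq_one_iff (J * I.1).2).mp h
  obtain ⟨g, hg⟩ := h2.principal
  refine ⟨g, ?_⟩
  rw [Submonoid.coe_mul] at hg
  exact hg.symm

/-- A chosen generator of the principal ideal `J * I`. -/
noncomputable def an_rz_gen (I : an_rz_Cls K C) : 𝓞 K := (an_rz_exists_gen J C hJ I).choose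

theorem an_rz_span_gen (I : an_rz_Cls K C) :
    Ideal.span {an_rz_gen J C hJ I} = (J : Ideal (𝓞 K)) * (I.1 : Ideal (𝓞 K)) :=
  (an_rz_exists_gen J C hJ I).choose_spec

theorem an_rz_gen_ne_zero (I : an_rz_Cls K C) : an_rz_gen J C hJ I ≠ 0 := by
  intro h
  have h1 := an_rz_span_gen J C hJ I
  have hb : Ideal.span {an_rz_gen J C hJ I} = ⊥ := Ideal.span_singleton_eq_bot.mpr h
  rw [hb] at h1
  have hJ0 : (J : Ideal (𝓞 K)) ≠ ⊥ := by
    have := nonZeroDivisors.ne_zero J.2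
    rwa [Ne, Ideal.zero_eq_bot] at this
  have hI0 : (I.1 : Ideal (𝓞 K)) ≠ ⊥ := by
    have := nonZeroDivisors.ne_zero I.1.2
    rwa [Ne, Ideal.zero_eq_bot] at this
  rcases Ideal.mul_eq_bot.mp h1.symm with h2 | h2
  · exact hJ0 h2
  · exact hI0 h2

theorem an_rz_gen_mem (I : an_rz_Cls K C) : an_rz_gen J C hJ I ∈ (J : Ideal (𝓞 K)) := by
  have h1 : an_rz_gen J C hJ I ∈ Ideal.span {an_rz_gen J C hJ I} := Ideal.mem_span_singleton_self _
  have h2 : Ideal.span {an_rz_gen J C hJ I} ≤ (J : Ideal (𝓞 K)) := by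
    rw [an_rz_span_gen J C hJ I]
    exact Ideal.mul_le_left
  exact h2 h1

theorem an_rz_absNorm_gen (I : an_rz_Cls K C) :
    Ideal.absNorm (Ideal.span {an_rz_gen J C hJ I}) =
      Ideal.absNorm (J : Ideal (𝓞 K)) * Ideal.absNorm (I.1 : Ideal (𝓞 K)) := by
  rw [an_rz_span_gen, map_mul]

theorem an_rz_tsum_ideal (Φ : 𝓞 K → ℝ≥0∞) :
    ∑' a : (J : Ideal (𝓞 K)), Φ a =
      Φ 0 + ∑' I : an_rz_Cls K C, ∑' u : (𝓞 K)ˣ, Φ ((u : 𝓞 K) * an_rz_gen J C hJ I) := by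
  rw [ENNReal.tsum_eq_add_tsum_ite (⟨0, (J : Ideal (𝓞 K)).zero_mem⟩ : (J : Ideal (𝓞 K)))]
  congr 1
  rw [← ENNReal.tsum_prod
    (f := fun (I : an_rz_Cls K C) (u : (𝓞 K)ˣ) => Φ ((u : 𝓞 K) * an_rz_gen J C hJ I))]
  let g : an_rz_Cls K C × (𝓞 K)ˣ → (J : Ideal (𝓞 K)) := fun p =>
    ⟨(p.2 : 𝓞 K) * an_rz_gen J C hJ p.1, Ideal.mul_mem_left _ _ (an_rz_gen_mem J C hJ p.1)⟩
  have hg : Function.Injective g := by
    rintro ⟨I, u⟩ ⟨I', u'⟩ h
    have h0 : (u : 𝓞 K) * an_rz_gen J C hJ I = (u' : 𝓞 K) * an_rz_gen J C hJ I' :=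
      congrArg Subtype.val h
    have hass : Associated (an_rz_gen J C hJ I) (an_rz_gen J C hJ I') := by
      refine ⟨u * u'⁻¹, ?_⟩
      have : an_rz_gen J C hJ I * ((u * u'⁻¹ : (𝓞 K)ˣ) : 𝓞 K) =
          ((u'⁻¹ : (𝓞 K)ˣ) : 𝓞 K) * ((u : 𝓞 K) * an_rz_gen J C hJ I) := by
        rw [Units.val_mul]; ring
      rw [this, h0, ← mul_assoc, Units.inv_mul, one_mul]
    have hspan := Ideal.span_singleton_eq_span_singleton.mpr hass
    rw [an_rz_span_gen, an_rz_span_gen] at hspan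
    have hI : (I.1 : Ideal (𝓞 K)) = (I'.1 : Ideal (𝓞 K)) :=
      mul_left_cancel₀ (nonZeroDivisors.coe_ne_zero J) hspan
    have hI' : I = I' := Subtype.ext (Subtype.ext hI)
    subst hI'
    have hu : (u : 𝓞 K) = (u' : 𝓞 K) := mul_right_cancel₀ (an_rz_gen_ne_zero J C hJ I) h0
    rw [Units.ext hu]
  refine ((hg.tsum_eq ?_).symm).trans ?_
  · intro a ha
    have ha0 : a ≠ ⟨0, (J : Ideal (𝓞 K)).zero_mem⟩ := by
      intro h
      exact ha (if_pos h)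
    have ha1 : (a : 𝓞 K) ≠ 0 := fun h => ha0 (Subtype.ext h)
    have hle : Ideal.span {(a : 𝓞 K)} ≤ (J : Ideal (𝓞 K)) :=
      (Ideal.span_singleton_le_iff_mem _).mpr a.2
    obtain ⟨I₀, hI₀⟩ := Ideal.dvd_iff_le.mpr hle
    have hI₀ne : I₀ ≠ ⊥ := by
      rintro rfl
      rw [Ideal.mul_bot, Ideal.span_singleton_eq_bot] at hI₀
      exact ha1 hI₀
    let I₁ : (Ideal (𝓞 K))⁰ := ⟨I₀, mem_nonZeroDivisors_of_ne_zero hI₀ne⟩
    have hsp : Ideal.span {(a : 𝓞 K)} ∈ (Ideal (𝓞 K))⁰ :=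
      mem_nonZeroDivisors_of_ne_zero
        (by rw [Ne, Ideal.zero_eq_bot, Ideal.span_singleton_eq_bot]; exact ha1)
    have hcl : ClassGroup.mk0 I₁ = C := by
      have h1 : ClassGroup.mk0 (⟨Ideal.span {(a : 𝓞 K)}, hsp⟩ : (Ideal (𝓞 K))⁰) = 1 :=
        (ClassGroup.mk0_eq_one_iff hsp).mpr ⟨⟨(a : 𝓞 K), rfl⟩⟩
      have h2 : (⟨Ideal.span {(a : 𝓞 K)}, hsp⟩ : (Ideal (𝓞 K))⁰) = J * I₁ :=
        Subtype.ext hI₀
      rw [h2, map_mul, hJ] at h1
      exact (inv_mul_eq_one.mp h1).symm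
    have hspan : Ideal.span {an_rz_gen J C hJ ⟨I₁, hcl⟩} = Ideal.span {(a : 𝓞 K)} := by
      rw [an_rz_span_gen, hI₀]
    obtain ⟨u, hu⟩ := Ideal.span_singleton_eq_span_singleton.mp hspan
    refine ⟨(⟨I₁, hcl⟩, u), Subtype.ext ?_⟩
    show (u : 𝓞 K) * an_rz_gen J C hJ ⟨I₁, hcl⟩ = a
    rw [mul_comm]; exact hu
  refine tsum_congr fun p => ?_
  have hne : g p ≠ ⟨0, (J : Ideal (𝓞 K)).zero_mem⟩ := by
    intro h
    have h0 : (p.2 : 𝓞 K) * an_rz_gen J C hJ p.1 = 0 := congrArg Subtype.val h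
    exact mul_ne_zero p.2.ne_zero (an_rz_gen_ne_zero J C hJ p.1) h0
  rw [if_neg hne]

end Gen

theorem an_rz_cnt_eq (J : (Ideal (𝓞 K))⁰) (v : ℝ) (t : logSpace K) :
    an_bx_cnt K J (an_rz_rad K v t) =
      ∑' a : (J : Ideal (𝓞 K)), (if (a : 𝓞 K) = 0 then (1 : ℝ≥0∞)
        else (an_rz_T K v (a : 𝓞 K)).indicator (fun _ => (1 : ℝ≥0∞)) t) := by
  rw [an_bx_cnt]
  refine tsum_congr fun a => ?_
  by_cases ha : (a : 𝓞 K) = 0
  · rw [if_pos ha, ha, Set.indicator_of_mem]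
    rw [convexBodyLT_mem]
    intro w
    simp only [map_zero]
    rw [an_rz_coe_rad]
    exact Real.exp_pos _
  · rw [if_neg ha]
    by_cases h : mixedEmbedding K ((a : 𝓞 K) : K) ∈ convexBodyLT K (an_rz_rad K v t)
    · rw [Set.indicator_of_mem h, Set.indicator_of_mem]
      exact (an_rz_mem_box_iff K v t a ha).mp h
    · rw [Set.indicator_of_notMem h, Set.indicator_of_notMem]
      exact fun h' => h ((an_rz_mem_box_iff K v t a ha).mpr h')

theorem an_rz_unfold (J : (Ideal (𝓞 K))⁰) (C : ClassGroup (𝓞 K)) (hJ : ClassGroup.mk0 J = C⁻¹)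
    (v : ℝ) :
    ∫⁻ t in an_rz_F K, an_bx_cnt K J (an_rz_rad K v t) =
      volume (an_rz_F K) + (torsionOrder K : ℝ≥0∞) *
        ∑' I : an_rz_Cls K C, an_rz_W K (v - Real.log
          ((Ideal.absNorm (J : Ideal (𝓞 K)) * Ideal.absNorm (I.1 : Ideal (𝓞 K)) : ℕ) : ℝ)) := by
  simp_rw [an_rz_cnt_eq]
  have : Countable (𝓞 K) := Finsupp.Countable.of_moduleFinite (R := ℤ)
  rw [lintegral_tsum]
  swap
  · intro a
    by_cases ha : (a : 𝓞 K) = 0
    · simp only [if_pos ha]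
      exact aemeasurable_const
    · simp only [if_neg ha]
      exact (measurable_const.indicator (an_rz_measurableSet_T K v a)).aemeasurable
  have key := an_rz_tsum_ideal J C hJ (fun a : 𝓞 K => ∫⁻ t in an_rz_F K,
    (if a = 0 then (1 : ℝ≥0∞) else (an_rz_T K v a).indicator (fun _ => (1 : ℝ≥0∞)) t))
  rw [key]
  congr 1
  · simp
  · rw [← ENNReal.tsum_mul_left]
    refine tsum_congr fun I => ?_
    have hne : ∀ u : (𝓞 K)ˣ, (u : 𝓞 K) * an_rz_gen J C hJ I ≠ 0 := fun u =>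
      mul_ne_zero u.ne_zero (an_rz_gen_ne_zero J C hJ I)
    have h1 : ∀ u : (𝓞 K)ˣ, (∫⁻ t in an_rz_F K,
        (if (u : 𝓞 K) * an_rz_gen J C hJ I = 0 then (1 : ℝ≥0∞)
          else (an_rz_T K v ((u : 𝓞 K) * an_rz_gen J C hJ I)).indicator
            (fun _ => (1 : ℝ≥0∞)) t)) =
        volume (an_rz_T K v ((u : 𝓞 K) * an_rz_gen J C hJ I) ∩ an_rz_F K) := by
      intro u
      simp only [if_neg (hne u)]
      rw [lintegral_indicator (an_rz_measurableSet_T K v _), lintegral_one,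
        Measure.restrict_apply MeasurableSet.univ, Set.univ_inter,
        Measure.restrict_apply (an_rz_measurableSet_T K v _)]
    simp_rw [h1]
    rw [an_rz_orbit_sum K v _ (an_rz_gen_ne_zero J C hJ I), an_rz_volume_T K v _
      (an_rz_gen_ne_zero J C hJ I), an_rz_absNorm_gen]

end Fermat.Agent.S14
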