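import Fermat.Agent.S14.AnRiesz1

set_option autoImplicit false

/-!
# S14 / AN (A2): the interface between the geometric count and the Mellin step
-/

namespace Fermat.Agent.S14

open NumberField InfinitePlace mixedEmbedding Units dirichletUnitTheorem MeasureTheory Module
open scoped nonZeroDivisors ENNReal NNReal

/-- The nonzero integral ideals in the class `C`. -/
abbrev an_rz_Cls (K : Type*) [Field K] [NumberField K] (C : ClassGroup (𝓞 K)) : Type _ :=
  {I : (Ideal (𝓞 K))⁰ // ClassGroup.mk0 I = C}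

/-- The (extended real valued) Riesz sum of the ideal class `C`, as a function of `u = log X`. -/
noncomputable def an_rz_R (K : Type*) [Field K] [NumberField K] (C : ClassGroup (𝓞 K))
    (u : ℝ) : ℝ≥0∞ :=
  ∑' I : an_rz_Cls K C, an_rz_W K (u - Real.log (Ideal.absNorm (I.1 : Ideal (𝓞 K))))

/-- The Riesz asymptotic, uniform in the ideal class: `R_C(u) = A e^u + O(e^{(1-1/n)u})`. -/
def an_rz_RieszBounds (K : Type*) [Field K] [NumberField K] : Prop :=
  ∃ A B : ℝ, 0 < A ∧ 0 ≤ B ∧ ∀ (C : ClassGroup (𝓞 K)) (u : ℝ), 0 ≤ u →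
    an_rz_R K C u ≤
      ENNReal.ofReal (A * Real.exp u + B * Real.exp ((1 - 1 / (finrank ℚ K : ℝ)) * u)) ∧
    ENNReal.ofReal (A * Real.exp u) ≤
      an_rz_R K C u + ENNReal.ofReal (B * Real.exp ((1 - 1 / (finrank ℚ K : ℝ)) * u))

end Fermat.Agent.S14
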