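import Fermat.Agent.S14.AnSvZeta

set_option autoImplicit false

/-!
# S14, work package AN: the characters `exp(2πi j f/q)` of the class group
-/

namespace Fermat.Agent.S14

open nonZeroDivisors NumberField

set_option linter.unusedSectionVars false

variable {K : Type*} [Field K] [NumberField K] {q : ℕ} [Fact q.Prime]

/-- The character `χ_j = exp(2πi j f / q)` on ideals. -/
noncomputable def an_chi (f : Ideal (𝓞 K) → ZMod q) (j : ZMod q) (I : Ideal (𝓞 K)) : ℂ :=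
  ZMod.stdAddChar (j * f I)

theorem an_chi_norm (f : Ideal (𝓞 K) → ZMod q) (j : ZMod q) (I : Ideal (𝓞 K)) :
    ‖an_chi f j I‖ = 1 := AddChar.norm_apply _ _

theorem an_f_top (f : Ideal (𝓞 K) → ZMod q)
    (hspan : ∀ x : 𝓞 K, x ≠ 0 → f (Ideal.span {x}) = 0) : f ⊤ = 0 := by
  have := hspan 1 one_ne_zero
  rwa [Ideal.span_singleton_one] at this

theorem an_chi_top (f : Ideal (𝓞 K) → ZMod q)
    (hspan : ∀ x : 𝓞 K, x ≠ 0 → f (Ideal.span {x}) = 0) (j : ZMod q) : an_chi f j ⊤ = 1 := by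
  simp [an_chi, an_f_top f hspan]

theorem an_chi_mul (f : Ideal (𝓞 K) → ZMod q)
    (hmul : ∀ I J : Ideal (𝓞 K), I ≠ ⊥ → J ≠ ⊥ → f (I * J) = f I + f J) (j : ZMod q)
    (I J : Ideal (𝓞 K)) (hI : I ≠ ⊥) (hJ : J ≠ ⊥) :
    an_chi f j (I * J) = an_chi f j I * an_chi f j J := by
  simp only [an_chi, hmul I J hI hJ, mul_add, AddChar.map_add_eq_mul]

theorem an_chi_zero (f : Ideal (𝓞 K) → ZMod q) (I : Ideal (𝓞 K)) : an_chi f 0 I = 1 := by
  simp [an_chi]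

theorem an_sum_chi (f : Ideal (𝓞 K) → ZMod q) (I : Ideal (𝓞 K)) :
    ∑ j : ZMod q, an_chi f j I = if f I = 0 then (q : ℂ) else 0 := by
  unfold an_chi
  rw [AddChar.sum_mulShift (f I) (ZMod.isPrimitive_stdAddChar q)]
  simp [ZMod.card]

theorem an_sum_chi_re (f : Ideal (𝓞 K) → ZMod q) (I : Ideal (𝓞 K)) :
    ∑ j : ZMod q, (an_chi f j I).re = if f I = 0 then (q : ℝ) else 0 := by
  have h := congrArg Complex.re (an_sum_chi f I)
  rw [Complex.re_sum] at h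
  rw [h]
  split_ifs <;> simp

/-- `f` is a class function. -/
theorem an_f_class (f : Ideal (𝓞 K) → ZMod q)
    (hmul : ∀ I J : Ideal (𝓞 K), I ≠ ⊥ → J ≠ ⊥ → f (I * J) = f I + f J)
    (hspan : ∀ x : 𝓞 K, x ≠ 0 → f (Ideal.span {x}) = 0)
    (I J : (Ideal (𝓞 K))⁰) (h : ClassGroup.mk0 I = ClassGroup.mk0 J) :
    f (I : Ideal (𝓞 K)) = f (J : Ideal (𝓞 K)) := by
  obtain ⟨x, y, hx, hy, hxy⟩ := ClassGroup.mk0_eq_mk0_iff.mp h
  have h1 := hmul (Ideal.span {x}) I (by simpa using hx) (an_ne_bot I)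
  have h2 := hmul (Ideal.span {y}) J (by simpa using hy) (an_ne_bot J)
  rw [hspan x hx, zero_add] at h1
  rw [hspan y hy, zero_add] at h2
  rw [← h1, ← h2, hxy]

/-- A representative of an ideal class. -/
noncomputable def an_rep (C : ClassGroup (𝓞 K)) : (Ideal (𝓞 K))⁰ :=
  (ClassGroup.mk0_surjective C).choose

theorem an_rep_spec (C : ClassGroup (𝓞 K)) : ClassGroup.mk0 (an_rep C) = C :=
  (ClassGroup.mk0_surjective C).choose_spec

/-- The character `χ_j` on the class group. -/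
noncomputable def an_psi (f : Ideal (𝓞 K) → ZMod q) (j : ZMod q) (C : ClassGroup (𝓞 K)) : ℂ :=
  an_chi f j (an_rep C : Ideal (𝓞 K))

theorem an_chi_eq_psi (f : Ideal (𝓞 K) → ZMod q)
    (hmul : ∀ I J : Ideal (𝓞 K), I ≠ ⊥ → J ≠ ⊥ → f (I * J) = f I + f J)
    (hspan : ∀ x : 𝓞 K, x ≠ 0 → f (Ideal.span {x}) = 0) (j : ZMod q) (I : (Ideal (𝓞 K))⁰) :
    an_chi f j I = an_psi f j (ClassGroup.mk0 I) := by
  unfold an_psi an_chi
  rw [an_f_class f hmul hspan I (an_rep (ClassGroup.mk0 I)) (an_rep_spec _).symm]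

theorem an_psi_norm (f : Ideal (𝓞 K) → ZMod q) (j : ZMod q) (C : ClassGroup (𝓞 K)) :
    ‖an_psi f j C‖ = 1 := an_chi_norm f j _

theorem an_psi_mul (f : Ideal (𝓞 K) → ZMod q)
    (hmul : ∀ I J : Ideal (𝓞 K), I ≠ ⊥ → J ≠ ⊥ → f (I * J) = f I + f J)
    (hspan : ∀ x : 𝓞 K, x ≠ 0 → f (Ideal.span {x}) = 0) (j : ZMod q)
    (C C' : ClassGroup (𝓞 K)) : an_psi f j (C * C') = an_psi f j C * an_psi f j C' := by
  have h : ClassGroup.mk0 (an_rep (C * C')) = ClassGroup.mk0 (an_rep C * an_rep C') := by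
    rw [map_mul, an_rep_spec, an_rep_spec, an_rep_spec]
  have h2 : f ((an_rep (C * C') : (Ideal (𝓞 K))⁰) : Ideal (𝓞 K)) =
      f ((an_rep C : Ideal (𝓞 K)) * (an_rep C' : Ideal (𝓞 K))) :=
    an_f_class f hmul hspan _ _ h
  unfold an_psi
  rw [← an_chi_mul f hmul j _ _ (an_ne_bot _) (an_ne_bot _)]
  unfold an_chi
  rw [h2]

theorem an_sum_psi (f : Ideal (𝓞 K) → ZMod q)
    (hmul : ∀ I J : Ideal (𝓞 K), I ≠ ⊥ → J ≠ ⊥ → f (I * J) = f I + f J)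
    (hspan : ∀ x : 𝓞 K, x ≠ 0 → f (Ideal.span {x}) = 0)
    (hne : ∃ I : Ideal (𝓞 K), I ≠ ⊥ ∧ f I ≠ 0) (j : ZMod q) (hj : j ≠ 0) :
    ∑ C : ClassGroup (𝓞 K), an_psi f j C = 0 := by
  obtain ⟨I, hI0, hI⟩ := hne
  set I' : (Ideal (𝓞 K))⁰ := ⟨I, an_mem_nzd.mpr hI0⟩ with hI'
  set C₀ := ClassGroup.mk0 I' with hC₀
  have h1 : an_psi f j C₀ ≠ 1 := by
    rw [hC₀, ← an_chi_eq_psi f hmul hspan j I']
    unfold an_chi
    intro h
    rw [← AddChar.map_zero_eq_one (ZMod.stdAddChar (N := q))] at h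
    have h' := ZMod.injective_stdAddChar h
    exact hI ((mul_eq_zero.mp h').resolve_left hj)
  have h2 : ∑ C, an_psi f j C = an_psi f j C₀ * ∑ C, an_psi f j C := by
    rw [Finset.mul_sum, ← Equiv.sum_comp (Equiv.mulLeft C₀)]
    exact Finset.sum_congr rfl (fun C _ => an_psi_mul f hmul hspan j C₀ C)
  have h3 : (1 - an_psi f j C₀) * ∑ C, an_psi f j C = 0 := by linear_combination h2
  exact (mul_eq_zero.mp h3).resolve_left (sub_ne_zero.mpr (Ne.symm h1))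

/-- The partial zeta function of an ideal class. -/
noncomputable def an_zC (K : Type*) [Field K] [NumberField K] (C : ClassGroup (𝓞 K)) (s : ℝ) :
    ℝ :=
  ∑' I : {I : (Ideal (𝓞 K))⁰ // ClassGroup.mk0 I = C},
    ((Ideal.absNorm (I.1 : Ideal (𝓞 K)) : ℝ)) ^ (-s)

theorem an_L_eq (f : Ideal (𝓞 K) → ZMod q)
    (hmul : ∀ I J : Ideal (𝓞 K), I ≠ ⊥ → J ≠ ⊥ → f (I * J) = f I + f J)
    (hspan : ∀ x : 𝓞 K, x ≠ 0 → f (Ideal.span {x}) = 0) (j : ZMod q) (s : ℝ) (hs : 1 < s) :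
    ∑' I : (Ideal (𝓞 K))⁰, an_chi f j I * (an_x K s I : ℂ) =
      ∑ C : ClassGroup (𝓞 K), an_psi f j C * (an_zC K C s : ℂ) := by
  set F : (Ideal (𝓞 K))⁰ → ℂ := fun I => an_chi f j I * (an_x K s I : ℂ) with hF
  have hFn : ∀ I : (Ideal (𝓞 K))⁰, ‖F I‖ = an_x K s I := by
    intro I
    simp only [hF, norm_mul, an_chi_norm, one_mul, Complex.norm_real, Real.norm_eq_abs]
    exact abs_of_nonneg (an_x_nonneg s _)
  have hFs : Summable F :=
    Summable.of_norm ((an_summable K s hs).congr (fun I => (hFn I).symm))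
  let ν : (Ideal (𝓞 K))⁰ → ClassGroup (𝓞 K) := fun I => ClassGroup.mk0 I
  have hσ : Summable (fun p : (Σ C : ClassGroup (𝓞 K), {I : (Ideal (𝓞 K))⁰ // ν I = C}) =>
      F p.2.1) := (Equiv.sigmaFiberEquiv ν).summable_iff.mpr hFs
  have h1 : ∑' I : (Ideal (𝓞 K))⁰, F I =
      ∑' p : (Σ C : ClassGroup (𝓞 K), {I : (Ideal (𝓞 K))⁰ // ν I = C}), F p.2.1 :=
    ((Equiv.sigmaFiberEquiv ν).tsum_eq F).symm
  have hinner : ∀ C : ClassGroup (𝓞 K),
      Summable (fun c : {I : (Ideal (𝓞 K))⁰ // ν I = C} => F c.1) :=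
    fun C => hFs.subtype _
  rw [h1, hσ.tsum_sigma' hinner, tsum_fintype]
  refine Finset.sum_congr rfl (fun C _ => ?_)
  have h2 : ∀ c : {I : (Ideal (𝓞 K))⁰ // ν I = C},
      F c.1 = an_psi f j C * ((an_x K s (c.1 : Ideal (𝓞 K)) : ℝ) : ℂ) := by
    intro c
    simp only [hF]
    have hc : ClassGroup.mk0 c.1 = C := c.2
    rw [an_chi_eq_psi f hmul hspan j c.1, hc]
  rw [tsum_congr h2, tsum_mul_left, an_zC, Complex.ofReal_tsum]
  rfl

theorem an_L_bound (f : Ideal (𝓞 K) → ZMod q)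
    (hmul : ∀ I J : Ideal (𝓞 K), I ≠ ⊥ → J ≠ ⊥ → f (I * J) = f I + f J)
    (hspan : ∀ x : 𝓞 K, x ≠ 0 → f (Ideal.span {x}) = 0)
    (hne : ∃ I : Ideal (𝓞 K), I ≠ ⊥ ∧ f I ≠ 0) (j : ZMod q) (hj : j ≠ 0)
    (s : ℝ) (hs : 1 < s) (B : ℝ)
    (hB : ∀ C C' : ClassGroup (𝓞 K), |an_zC K C s - an_zC K C' s| ≤ B) :
    ‖∑' I : (Ideal (𝓞 K))⁰, an_chi f j I * (an_x K s I : ℂ)‖ ≤
      Fintype.card (ClassGroup (𝓞 K)) * B := by
  rw [an_L_eq f hmul hspan j s hs]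
  have h0 := an_sum_psi f hmul hspan hne j hj
  have h1 : ∑ C : ClassGroup (𝓞 K), an_psi f j C * (an_zC K C s : ℂ) =
      ∑ C : ClassGroup (𝓞 K), an_psi f j C * ((an_zC K C s - an_zC K 1 s : ℝ) : ℂ) := by
    have h2 : ∑ C : ClassGroup (𝓞 K), an_psi f j C * ((an_zC K C s - an_zC K 1 s : ℝ) : ℂ) =
        ∑ C : ClassGroup (𝓞 K), an_psi f j C * (an_zC K C s : ℂ) -
          (∑ C : ClassGroup (𝓞 K), an_psi f j C) * (an_zC K 1 s : ℂ) := by
      rw [Finset.sum_mul, ← Finset.sum_sub_distrib]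
      refine Finset.sum_congr rfl (fun C _ => ?_)
      push_cast
      ring
    rw [h2, h0, zero_mul, sub_zero]
  rw [h1]
  refine le_trans (norm_sum_le _ _) ?_
  have h3 : ∀ C ∈ (Finset.univ : Finset (ClassGroup (𝓞 K))),
      ‖an_psi f j C * ((an_zC K C s - an_zC K 1 s : ℝ) : ℂ)‖ ≤ B := by
    intro C _
    rw [norm_mul, an_psi_norm, one_mul, Complex.norm_real, Real.norm_eq_abs]
    exact hB C 1
  refine le_trans (Finset.sum_le_sum h3) ?_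
  rw [Finset.sum_const, Finset.card_univ, nsmul_eq_mul]

end Fermat.Agent.S14
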