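import Fermat.Agent.S14.AnSvSieve

set_option autoImplicit false

/-!
# S14, work package AN: primes of degree at least two contribute `O(1)`
-/

namespace Fermat.Agent.S14

open nonZeroDivisors NumberField

variable {K : Type*} [Field K] [NumberField K]

/-- The norm of a nonzero prime is a prime power `p ^ k`, `k ≠ 0`, and `p` lies in the prime. -/
theorem an_absNorm_prime_pow (𝔮 : Ideal (𝓞 K)) (h𝔮 : 𝔮.IsPrime) (h0 : 𝔮 ≠ ⊥) :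
    ∃ p k : ℕ, p.Prime ∧ k ≠ 0 ∧ Ideal.absNorm 𝔮 = p ^ k ∧ (p : 𝓞 K) ∈ 𝔮 := by
  have hmax : 𝔮.IsMaximal := h𝔮.isMaximal h0
  let _ := Ideal.Quotient.field 𝔮
  have hcard : Ideal.absNorm 𝔮 = Nat.card (𝓞 K ⧸ 𝔮) := by
    rw [Ideal.absNorm_apply, Submodule.cardQuot_apply]
  have hne : Ideal.absNorm 𝔮 ≠ 0 := fun h => h0 (Ideal.absNorm_eq_zero_iff.mp h)
  have hfin : Finite (𝓞 K ⧸ 𝔮) := Nat.finite_of_card_ne_zero (hcard ▸ hne)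
  let _ : Fintype (𝓞 K ⧸ 𝔮) := Fintype.ofFinite _
  obtain ⟨p, -, n, hp, hpn⟩ := FiniteField.card' (𝓞 K ⧸ 𝔮)
  have hN : Ideal.absNorm 𝔮 = p ^ (n : ℕ) := by
    rw [hcard, Nat.card_eq_fintype_card, hpn]
  refine ⟨p, n, hp, n.ne_zero, hN, ?_⟩
  have hmem := Ideal.absNorm_mem 𝔮
  rw [hN] at hmem
  push_cast at hmem
  exact h𝔮.mem_of_pow_mem _ hmem

/-- The rank of `𝓞 K` (as the cardinality of the index set of a basis). -/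
noncomputable def an_deg (K : Type*) [Field K] [NumberField K] : ℕ :=
  Fintype.card (Module.Free.ChooseBasisIndex ℤ (𝓞 K))

theorem an_card_le (p : ℕ) (hp : p.Prime) (F : Finset (Ideal (𝓞 K)))
    (hF : ∀ 𝔮 ∈ F, 𝔮.IsPrime ∧ 𝔮 ≠ ⊥ ∧ (p : 𝓞 K) ∈ 𝔮 ∧ p ^ 2 ≤ Ideal.absNorm 𝔮) :
    F.card ≤ an_deg K := by
  have hdvd : ∏ 𝔮 ∈ F, 𝔮 ∣ Ideal.span {(p : 𝓞 K)} := by
    refine Finset.prod_primes_dvd _ (fun 𝔮 h𝔮 => ?_) (fun 𝔮 h𝔮 => ?_)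
    · exact Ideal.prime_of_isPrime (hF 𝔮 h𝔮).2.1 (hF 𝔮 h𝔮).1
    · rw [Ideal.dvd_iff_le, Ideal.span_singleton_le_iff_mem]
      exact (hF 𝔮 h𝔮).2.2.1
  have hN : Ideal.absNorm (Ideal.span {(p : 𝓞 K)}) = p ^ an_deg K := by
    rw [Ideal.absNorm_span_singleton]
    have h1 : ((p : 𝓞 K)) = algebraMap ℤ (𝓞 K) (p : ℤ) := by simp
    rw [h1, Algebra.norm_algebraMap_of_basis (RingOfIntegers.basis K), an_deg]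
    simp [Int.natAbs_pow]
  have h2 : Ideal.absNorm (∏ 𝔮 ∈ F, 𝔮) ∣ p ^ an_deg K := by
    rw [← hN]
    exact Ideal.absNorm_dvd_absNorm_of_le (Ideal.dvd_iff_le.mp hdvd)
  rw [map_prod] at h2
  have h3 : (p ^ 2) ^ F.card ≤ ∏ 𝔮 ∈ F, Ideal.absNorm 𝔮 :=
    Finset.pow_card_le_prod F _ _ (fun 𝔮 h𝔮 => (hF 𝔮 h𝔮).2.2.2)
  have h4 : ∏ 𝔮 ∈ F, Ideal.absNorm 𝔮 ≤ p ^ an_deg K :=
    Nat.le_of_dvd (pow_pos hp.pos _) h2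
  have h5 : p ^ (2 * F.card) ≤ p ^ an_deg K := by
    rw [pow_mul]
    exact le_trans h3 h4
  have h6 := (Nat.pow_le_pow_iff_right hp.one_lt).mp h5
  omega

theorem an_deg_bound (K : Type*) [Field K] [NumberField K] :
    ∃ C₃ : ℝ, ∀ (s : ℝ), 1 ≤ s → ∀ S : Finset (Ideal (𝓞 K)),
      (∀ 𝔮 ∈ S, 𝔮.IsPrime ∧ 𝔮 ≠ ⊥ ∧ ¬ (Ideal.absNorm 𝔮).Prime) →
      ∑ 𝔮 ∈ S, an_x K s 𝔮 ≤ C₃ := by
  classical
  have hsum : Summable (fun m : ℕ => 1 / (m : ℝ) ^ 2) :=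
    Real.summable_one_div_nat_pow.mpr (by norm_num)
  refine ⟨an_deg K * ∑' m : ℕ, 1 / (m : ℝ) ^ 2, fun s hs S hS => ?_⟩
  set ℓ : Ideal (𝓞 K) → ℕ := fun 𝔮 => (Ideal.absNorm 𝔮).minFac with hℓ
  -- pointwise data
  have hdata : ∀ 𝔮 ∈ S, (ℓ 𝔮).Prime ∧ ((ℓ 𝔮 : ℕ) : 𝓞 K) ∈ 𝔮 ∧ (ℓ 𝔮) ^ 2 ≤ Ideal.absNorm 𝔮 := by
    intro 𝔮 h𝔮
    obtain ⟨p, k, hp, hk, hN, hmem⟩ := an_absNorm_prime_pow 𝔮 (hS 𝔮 h𝔮).1 (hS 𝔮 h𝔮).2.1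
    have hℓp : ℓ 𝔮 = p := by
      simp only [hℓ, hN]
      exact hp.pow_minFac hk
    have hk2 : 2 ≤ k := by
      by_contra hcon
      have hk1 : k = 1 := by omega
      apply (hS 𝔮 h𝔮).2.2
      rw [hN, hk1, pow_one]
      exact hp
    rw [hℓp]
    exact ⟨hp, hmem, hN ▸ Nat.pow_le_pow_right hp.pos hk2⟩
  have hx : ∀ 𝔮 ∈ S, an_x K s 𝔮 ≤ 1 / ((ℓ 𝔮 : ℕ) : ℝ) ^ 2 := by
    intro 𝔮 h𝔮
    obtain ⟨hp, -, hle⟩ := hdata 𝔮 h𝔮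
    have h1 := an_x_le_of_le s (by linarith) 𝔮 ((ℓ 𝔮) ^ 2) (pow_pos hp.pos 2) hle
    refine le_trans h1 ?_
    have hbase : (1 : ℝ) ≤ (((ℓ 𝔮) ^ 2 : ℕ) : ℝ) := by
      exact_mod_cast Nat.one_le_pow _ _ hp.pos
    have h2 : ((((ℓ 𝔮) ^ 2 : ℕ) : ℝ)) ^ (-s) ≤ ((((ℓ 𝔮) ^ 2 : ℕ) : ℝ)) ^ (-1 : ℝ) :=
      Real.rpow_le_rpow_of_exponent_le hbase (by linarith)
    refine le_trans h2 (le_of_eq ?_)
    rw [Real.rpow_neg_one]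
    push_cast
    rw [one_div]
  calc ∑ 𝔮 ∈ S, an_x K s 𝔮 ≤ ∑ 𝔮 ∈ S, 1 / ((ℓ 𝔮 : ℕ) : ℝ) ^ 2 := Finset.sum_le_sum hx
    _ = ∑ m ∈ S.image ℓ, (S.filter (fun 𝔮 => ℓ 𝔮 = m)).card • (1 / (m : ℝ) ^ 2) :=
        Finset.sum_comp (fun m : ℕ => 1 / (m : ℝ) ^ 2) ℓ
    _ ≤ ∑ m ∈ S.image ℓ, (an_deg K : ℝ) * (1 / (m : ℝ) ^ 2) := by
        refine Finset.sum_le_sum (fun m hm => ?_)
        rw [nsmul_eq_mul]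
        refine mul_le_mul_of_nonneg_right ?_ (by positivity)
        obtain ⟨𝔮₀, h𝔮₀, hm0⟩ := Finset.mem_image.mp hm
        have hmp : m.Prime := hm0 ▸ (hdata 𝔮₀ h𝔮₀).1
        have hcard := an_card_le m hmp (S.filter (fun 𝔮 => ℓ 𝔮 = m)) (fun 𝔮 h𝔮 => by
          obtain ⟨h𝔮S, h𝔮m⟩ := Finset.mem_filter.mp h𝔮
          obtain ⟨-, hmem, hle⟩ := hdata 𝔮 h𝔮S
          rw [h𝔮m] at hmem hle
          exact ⟨(hS 𝔮 h𝔮S).1, (hS 𝔮 h𝔮S).2.1, hmem, hle⟩)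
        exact_mod_cast hcard
    _ = (an_deg K : ℝ) * ∑ m ∈ S.image ℓ, 1 / (m : ℝ) ^ 2 := by rw [Finset.mul_sum]
    _ ≤ (an_deg K : ℝ) * ∑' m : ℕ, 1 / (m : ℝ) ^ 2 := by
        refine mul_le_mul_of_nonneg_left ?_ (Nat.cast_nonneg _)
        exact hsum.sum_le_tsum _ (fun m _ => by positivity)

end Fermat.Agent.S14
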