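import Fermat.Agent.S14.AnSvSieve

set_option autoImplicit false

/-!
# S14, work package AN: consequences of the sieve identity for sums over primes
-/

namespace Fermat.Agent.S14

open nonZeroDivisors NumberField

variable {K : Type*} [Field K] [NumberField K]

theorem an_norm_summable (s : ℝ)
    (hZ : Summable (fun I : (Ideal (𝓞 K))⁰ => an_x K s I)) :
    Summable (fun I : (Ideal (𝓞 K))⁰ => ‖an_x K s I‖) := by
  refine hZ.congr (fun I => ?_)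
  rw [Real.norm_of_nonneg (an_x_nonneg s _)]

theorem an_one_le_Z (s : ℝ) (hZ : Summable (fun I : (Ideal (𝓞 K))⁰ => an_x K s I)) :
    1 ≤ ∑' I : (Ideal (𝓞 K))⁰, an_x K s I := by
  have := hZ.le_tsum (an_one K) (fun J _ => an_x_nonneg s _)
  have h1 : ((an_one K : (Ideal (𝓞 K))⁰) : Ideal (𝓞 K)) = ⊤ := rfl
  simpa [h1, an_x_top] using this

/-- Lower Euler bound: `∑_{𝔮 ∈ S} N𝔮^{-s} ≤ log ζ_K(s)`. -/
theorem an_sum_primes_le_log (s : ℝ) (hs : 1 ≤ s)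
    (hZ : Summable (fun I : (Ideal (𝓞 K))⁰ => an_x K s I))
    (S : Finset (Ideal (𝓞 K))) (hS : ∀ 𝔮 ∈ S, 𝔮.IsPrime ∧ 𝔮 ≠ ⊥) :
    ∑ 𝔮 ∈ S, an_x K s 𝔮 ≤ Real.log (∑' I : (Ideal (𝓞 K))⁰, an_x K s I) := by
  classical
  have hU := an_U_eq (𝕜 := ℝ) (an_x K s) (fun I J _ _ => an_x_mul s I J)
    (an_norm_summable s hZ) S hS
  have hU1 : 1 ≤ an_U (an_x K s) S := by
    unfold an_U
    have hsa : Summable (fun I : (Ideal (𝓞 K))⁰ =>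
        if an_cop S (I : Ideal (𝓞 K)) then an_x K s I else 0) :=
      Summable.of_nonneg_of_le (fun I => by split_ifs <;> simp [an_x_nonneg])
        (fun I => by split_ifs <;> simp [an_x_nonneg]) hZ
    have := hsa.le_tsum (an_one K) (fun J _ => by split_ifs <;> simp [an_x_nonneg])
    have hcoptop : an_cop S (⊤ : Ideal (𝓞 K)) :=
      fun 𝔮 h𝔮 h => (hS 𝔮 h𝔮).1.ne_top (top_le_iff.mp h)
    have h1 : ((an_one K : (Ideal (𝓞 K))⁰) : Ideal (𝓞 K)) = ⊤ := rfl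
    simpa [h1, hcoptop, an_x_top] using this
  set Z := ∑' I : (Ideal (𝓞 K))⁰, an_x K s I with hZdef
  have hZpos : 0 < Z := lt_of_lt_of_le one_pos (an_one_le_Z s hZ)
  have hprod : ∏ 𝔮 ∈ S, (1 - an_x K s 𝔮) ≤ Real.exp (-∑ 𝔮 ∈ S, an_x K s 𝔮) := by
    rw [← Finset.sum_neg_distrib, Real.exp_sum]
    refine Finset.prod_le_prod (fun 𝔮 h𝔮 => ?_) (fun 𝔮 h𝔮 => ?_)
    · have := an_x_le_half s hs 𝔮 (hS 𝔮 h𝔮).1 (hS 𝔮 h𝔮).2
      linarith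
    · have := Real.add_one_le_exp (-an_x K s 𝔮)
      linarith
  have h2 : 1 ≤ Real.exp (-∑ 𝔮 ∈ S, an_x K s 𝔮) * Z := by
    calc 1 ≤ an_U (an_x K s) S := hU1
      _ = (∏ 𝔮 ∈ S, (1 - an_x K s 𝔮)) * Z := hU
      _ ≤ _ := mul_le_mul_of_nonneg_right hprod hZpos.le
  rw [Real.le_log_iff_exp_le hZpos]
  have h3 : Real.exp (∑ 𝔮 ∈ S, an_x K s 𝔮) * Real.exp (-∑ 𝔮 ∈ S, an_x K s 𝔮) = 1 := by
    rw [← Real.exp_add]
    simp
  calc Real.exp (∑ 𝔮 ∈ S, an_x K s 𝔮) = Real.exp (∑ 𝔮 ∈ S, an_x K s 𝔮) * 1 := by ring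
    _ ≤ Real.exp (∑ 𝔮 ∈ S, an_x K s 𝔮) * (Real.exp (-∑ 𝔮 ∈ S, an_x K s 𝔮) * Z) :=
        mul_le_mul_of_nonneg_left h2 (Real.exp_pos _).le
    _ = Z := by rw [← mul_assoc, h3, one_mul]

/-- Upper Euler bound: `log ζ_K(s) ≤ log 2 + ∑_{𝔮 ∈ S} (x_𝔮 + 2 x_𝔮²)` for a suitable `S`. -/
theorem an_log_le_sum_primes (s : ℝ) (hs : 1 ≤ s)
    (hZ : Summable (fun I : (Ideal (𝓞 K))⁰ => an_x K s I)) :
    ∃ S : Finset (Ideal (𝓞 K)), (∀ 𝔮 ∈ S, 𝔮.IsPrime ∧ 𝔮 ≠ ⊥) ∧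
      Real.log (∑' I : (Ideal (𝓞 K))⁰, an_x K s I) ≤
        Real.log 2 + ∑ 𝔮 ∈ S, (an_x K s 𝔮 + 2 * an_x K s 𝔮 ^ 2) := by
  classical
  obtain ⟨Y, hY⟩ := an_exists_tail_le (fun I : (Ideal (𝓞 K))⁰ => an_x K s I) hZ
    (fun I => an_x_nonneg s _) 1 one_pos
  refine ⟨an_primesLE K Y, fun 𝔮 h𝔮 => ((an_mem_primesLE Y 𝔮).mp h𝔮).2, ?_⟩
  have hS : ∀ 𝔮 ∈ an_primesLE K Y, 𝔮.IsPrime ∧ 𝔮 ≠ ⊥ :=
    fun 𝔮 h𝔮 => ((an_mem_primesLE Y 𝔮).mp h𝔮).2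
  have hU := an_U_eq (𝕜 := ℝ) (an_x K s) (fun I J _ _ => an_x_mul s I J)
    (an_norm_summable s hZ) (an_primesLE K Y) hS
  have htail := an_U_sub_one_norm_le (𝕜 := ℝ) (an_x K s) (an_x_top s) (an_norm_summable s hZ)
    (an_primesLE K Y) (fun 𝔮 h𝔮 => (hS 𝔮 h𝔮).1) Y
    (fun 𝔭 h𝔭 h0 hle => (an_mem_primesLE Y 𝔭).mpr ⟨hle, h𝔭, h0⟩)
  have htail' : ‖an_U (an_x K s) (an_primesLE K Y) - 1‖ ≤ 1 := by
    refine le_trans htail (le_trans (le_of_eq ?_) hY)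
    refine tsum_congr fun I => ?_
    rw [Real.norm_of_nonneg (an_x_nonneg s _)]
  have hU2 : an_U (an_x K s) (an_primesLE K Y) ≤ 2 := by
    have := (abs_le.mp (by simpa [Real.norm_eq_abs] using htail')).2
    linarith
  set Z := ∑' I : (Ideal (𝓞 K))⁰, an_x K s I with hZdef
  have hZpos : 0 < Z := lt_of_lt_of_le one_pos (an_one_le_Z s hZ)
  set E := ∑ 𝔮 ∈ an_primesLE K Y, (an_x K s 𝔮 + 2 * an_x K s 𝔮 ^ 2) with hEdef
  have hprod : Real.exp (-E) ≤ ∏ 𝔮 ∈ an_primesLE K Y, (1 - an_x K s 𝔮) := by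
    rw [hEdef, ← Finset.sum_neg_distrib, Real.exp_sum]
    refine Finset.prod_le_prod (fun 𝔮 _ => (Real.exp_pos _).le) (fun 𝔮 h𝔮 => ?_)
    have hx := an_x_le_half s hs 𝔮 (hS 𝔮 h𝔮).1 (hS 𝔮 h𝔮).2
    have hx0 := an_x_nonneg s 𝔮
    set x := an_x K s 𝔮
    have h1 : 1 + (x + 2 * x ^ 2) ≤ Real.exp (x + 2 * x ^ 2) := by
      have := Real.add_one_le_exp (x + 2 * x ^ 2)
      linarith
    have h2 : Real.exp (-(x + 2 * x ^ 2)) * Real.exp (x + 2 * x ^ 2) = 1 := by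
      rw [← Real.exp_add]
      simp
    have h3 : 1 ≤ (1 - x) * (1 + (x + 2 * x ^ 2)) := by nlinarith
    have h4 : 1 ≤ (1 - x) * Real.exp (x + 2 * x ^ 2) :=
      le_trans h3 (mul_le_mul_of_nonneg_left h1 (by linarith))
    calc Real.exp (-(x + 2 * x ^ 2)) = Real.exp (-(x + 2 * x ^ 2)) * 1 := by ring
      _ ≤ Real.exp (-(x + 2 * x ^ 2)) * ((1 - x) * Real.exp (x + 2 * x ^ 2)) :=
          mul_le_mul_of_nonneg_left h4 (Real.exp_pos _).le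
      _ = (1 - x) * (Real.exp (-(x + 2 * x ^ 2)) * Real.exp (x + 2 * x ^ 2)) := by ring
      _ = 1 - x := by rw [h2, mul_one]
  have h5 : Real.exp (-E) * Z ≤ 2 := by
    calc Real.exp (-E) * Z ≤ (∏ 𝔮 ∈ an_primesLE K Y, (1 - an_x K s 𝔮)) * Z :=
          mul_le_mul_of_nonneg_right hprod hZpos.le
      _ = an_U (an_x K s) (an_primesLE K Y) := hU.symm
      _ ≤ 2 := hU2
  have h6 : Real.exp E * Real.exp (-E) = 1 := by
    rw [← Real.exp_add]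
    simp
  have h7 : Z ≤ 2 * Real.exp E := by
    calc Z = Real.exp E * (Real.exp (-E) * Z) := by rw [← mul_assoc, h6, one_mul]
      _ ≤ Real.exp E * 2 := mul_le_mul_of_nonneg_left h5 (Real.exp_pos _).le
      _ = 2 * Real.exp E := by ring
  calc Real.log Z ≤ Real.log (2 * Real.exp E) := Real.log_le_log hZpos h7
    _ = Real.log 2 + E := by
        rw [Real.log_mul (by norm_num) (Real.exp_pos _).ne', Real.log_exp]

theorem an_norm_one_sub_le (z : ℂ) (hz : ‖z‖ = 1) (x : ℝ) :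
    ‖1 - z * (x : ℂ)‖ ≤ Real.exp (-(z.re * x) + x ^ 2 / 2) := by
  have h1 : ‖1 - z * (x : ℂ)‖ ^ 2 = 1 - 2 * (z.re * x) + x ^ 2 := by
    rw [← Complex.normSq_eq_norm_sq, Complex.normSq_apply]
    have h2 : z.re * z.re + z.im * z.im = 1 := by
      rw [← Complex.normSq_apply, Complex.normSq_eq_norm_sq, hz]
      norm_num
    simp only [Complex.sub_re, Complex.one_re, Complex.mul_re, Complex.ofReal_re,
      Complex.ofReal_im, mul_zero, sub_zero, Complex.sub_im, Complex.one_im, Complex.mul_im,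
      zero_sub, zero_add]
    nlinarith
  have h3 : 1 - 2 * (z.re * x) + x ^ 2 ≤ Real.exp (-(z.re * x) + x ^ 2 / 2) ^ 2 := by
    rw [← Real.exp_nat_mul]
    have := Real.add_one_le_exp (((2 : ℕ) : ℝ) * (-(z.re * x) + x ^ 2 / 2))
    push_cast at this ⊢
    linarith
  by_contra hcon
  push Not at hcon
  have h4 : Real.exp (-(z.re * x) + x ^ 2 / 2) ^ 2 < ‖1 - z * (x : ℂ)‖ ^ 2 :=
    pow_lt_pow_left₀ hcon (Real.exp_pos _).le (by norm_num)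
  linarith

/-- Character Euler bound: for a unimodular completely multiplicative `χ`,
`Re ∑_{𝔮 ∈ S} χ(𝔮) N𝔮^{-s} ≤ log (2 |L(s,χ)|) + ∑_{𝔮 ∈ S} x_𝔮²/2` for all large `S`. -/
theorem an_re_sum_primes_le (s : ℝ)
    (hZ : Summable (fun I : (Ideal (𝓞 K))⁰ => an_x K s I)) (χ : Ideal (𝓞 K) → ℂ)
    (hχmul : ∀ I J : Ideal (𝓞 K), I ≠ ⊥ → J ≠ ⊥ → χ (I * J) = χ I * χ J) (hχ1 : χ ⊤ = 1)
    (hχn : ∀ I, ‖χ I‖ = 1) :
    0 < ‖∑' I : (Ideal (𝓞 K))⁰, χ I * (an_x K s I : ℂ)‖ ∧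
    ∃ S₀ : Finset (Ideal (𝓞 K)), (∀ 𝔮 ∈ S₀, 𝔮.IsPrime ∧ 𝔮 ≠ ⊥) ∧
      ∀ S : Finset (Ideal (𝓞 K)), S₀ ⊆ S →
      (∀ 𝔮 ∈ S, 𝔮.IsPrime ∧ 𝔮 ≠ ⊥) →
      ∑ 𝔮 ∈ S, (χ 𝔮).re * an_x K s 𝔮 ≤
        Real.log (2 * ‖∑' I : (Ideal (𝓞 K))⁰, χ I * (an_x K s I : ℂ)‖)
          + ∑ 𝔮 ∈ S, an_x K s 𝔮 ^ 2 / 2 := by
  classical
  set g : Ideal (𝓞 K) → ℂ := fun I => χ I * (an_x K s I : ℂ) with hg
  have hgn : ∀ I, ‖g I‖ = an_x K s I := by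
    intro I
    simp only [hg, norm_mul, hχn, one_mul, Complex.norm_real, Real.norm_eq_abs]
    exact abs_of_nonneg (an_x_nonneg s I)
  have hgsum : Summable (fun I : (Ideal (𝓞 K))⁰ => ‖g I‖) := hZ.congr (fun I => (hgn I).symm)
  have hgmul : ∀ I J : Ideal (𝓞 K), I ≠ ⊥ → J ≠ ⊥ → g (I * J) = g I * g J := by
    intro I J hI hJ
    simp only [hg, hχmul I J hI hJ, an_x_mul]
    push_cast
    ring
  have hg1 : g ⊤ = 1 := by simp [hg, hχ1, an_x_top]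
  obtain ⟨Y, hY⟩ := an_exists_tail_le (fun I : (Ideal (𝓞 K))⁰ => an_x K s I) hZ
    (fun I => an_x_nonneg s _) (1 / 2) (by norm_num)
  set L := ∑' I : (Ideal (𝓞 K))⁰, g I with hL
  have key : ∀ S : Finset (Ideal (𝓞 K)), an_primesLE K Y ⊆ S →
      (∀ 𝔮 ∈ S, 𝔮.IsPrime ∧ 𝔮 ≠ ⊥) →
      1 / 2 ≤ Real.exp (∑ 𝔮 ∈ S, (-((χ 𝔮).re * an_x K s 𝔮) + an_x K s 𝔮 ^ 2 / 2)) * ‖L‖ := by
    intro S hsub hS
    have hU := an_U_eq g hgmul hgsum S hS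
    have htail := an_U_sub_one_norm_le g hg1 hgsum S (fun 𝔮 h𝔮 => (hS 𝔮 h𝔮).1) Y
      (fun 𝔭 h𝔭 h0 hle => hsub ((an_mem_primesLE Y 𝔭).mpr ⟨hle, h𝔭, h0⟩))
    have htail' : ‖an_U g S - 1‖ ≤ 1 / 2 := by
      refine le_trans htail (le_trans (le_of_eq ?_) hY)
      refine tsum_congr fun I => ?_
      rw [hgn]
    have hUn : 1 / 2 ≤ ‖an_U g S‖ := by
      have h1 : ‖(1 : ℂ)‖ ≤ ‖an_U g S‖ + ‖an_U g S - 1‖ := by
        have := norm_sub_le (an_U g S) (an_U g S - 1)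
        simpa using this
      rw [norm_one] at h1
      linarith
    rw [hU, norm_mul, norm_prod] at hUn
    refine le_trans hUn (mul_le_mul_of_nonneg_right ?_ (norm_nonneg _))
    rw [Real.exp_sum]
    refine Finset.prod_le_prod (fun 𝔮 _ => norm_nonneg _) (fun 𝔮 _ => ?_)
    exact an_norm_one_sub_le (χ 𝔮) (hχn 𝔮) (an_x K s 𝔮)
  have hLpos : 0 < ‖L‖ := by
    have h1 := key (an_primesLE K Y) (Finset.Subset.refl _)
      (fun 𝔮 h𝔮 => ((an_mem_primesLE Y 𝔮).mp h𝔮).2)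
    by_contra hcon
    have h0 : ‖L‖ = 0 := le_antisymm (not_lt.mp hcon) (norm_nonneg _)
    rw [h0, mul_zero] at h1
    norm_num at h1
  refine ⟨hLpos, an_primesLE K Y, fun 𝔮 h𝔮 => ((an_mem_primesLE Y 𝔮).mp h𝔮).2,
    fun S hsub hS => ?_⟩
  have h1 := key S hsub hS
  set A := ∑ 𝔮 ∈ S, (χ 𝔮).re * an_x K s 𝔮 with hA
  set B := ∑ 𝔮 ∈ S, an_x K s 𝔮 ^ 2 / 2 with hB
  have h2 : ∑ 𝔮 ∈ S, (-((χ 𝔮).re * an_x K s 𝔮) + an_x K s 𝔮 ^ 2 / 2) = -(A - B) := by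
    rw [hA, hB, Finset.sum_add_distrib, Finset.sum_neg_distrib]
    ring
  rw [h2] at h1
  have h3 : Real.exp (A - B) * Real.exp (-(A - B)) = 1 := by
    rw [← Real.exp_add]
    simp
  have h4 : Real.exp (A - B) ≤ 2 * ‖L‖ := by
    calc Real.exp (A - B) = 2 * (Real.exp (A - B) * (1 / 2)) := by ring
      _ ≤ 2 * (Real.exp (A - B) * (Real.exp (-(A - B)) * ‖L‖)) :=
          mul_le_mul_of_nonneg_left (mul_le_mul_of_nonneg_left h1 (Real.exp_pos _).le)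
            (by norm_num)
      _ = 2 * ((Real.exp (A - B) * Real.exp (-(A - B))) * ‖L‖) := by ring
      _ = 2 * ‖L‖ := by rw [h3, one_mul]
  have h5 : A - B ≤ Real.log (2 * ‖L‖) := by
    rw [Real.le_log_iff_exp_le (by positivity)]
    exact h4
  linarith

end Fermat.Agent.S14
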