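import Fermat.Agent.S14.AnSvEuler
import Fermat.Agent.S14.AnSvChar
import Fermat.Agent.S14.AnSvDeg

set_option autoImplicit false

/-!
# S14, work package AN: a class character cannot be supported on split primes
-/

namespace Fermat.Agent.S14

open nonZeroDivisors NumberField

theorem an_x_sq_le {K : Type*} [Field K] [NumberField K] (s : ℝ) (hs : 1 ≤ s)
    (𝔮 : Ideal (𝓞 K)) (h𝔮 : 𝔮.IsPrime) (h0 : 𝔮 ≠ ⊥) : an_x K s 𝔮 ^ 2 ≤ an_x K 2 𝔮 := by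
  unfold an_x
  have hN : (1 : ℝ) ≤ (Ideal.absNorm 𝔮 : ℝ) := by
    have := an_two_le_absNorm 𝔮 h𝔮 h0
    exact_mod_cast (by omega : 1 ≤ Ideal.absNorm 𝔮)
  have h1 : ((Ideal.absNorm 𝔮 : ℝ) ^ (-s)) ^ 2 = (Ideal.absNorm 𝔮 : ℝ) ^ (-s * 2) := by
    rw [Real.rpow_mul (by linarith), Real.rpow_two]
  rw [h1]
  exact Real.rpow_le_rpow_of_exponent_le hN (by linarith)

/-- Lower bound for the primes with `f ≠ 0`. -/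
theorem an_lower {K : Type*} [Field K] [NumberField K] {q : ℕ} [Fact q.Prime]
    (f : Ideal (𝓞 K) → ZMod q)
    (hmul : ∀ I J : Ideal (𝓞 K), I ≠ ⊥ → J ≠ ⊥ → f (I * J) = f I + f J)
    (hspan : ∀ x : 𝓞 K, x ≠ 0 → f (Ideal.span {x}) = 0)
    (s : ℝ) (hs1 : 1 < s) (B₁ : ℝ) (hB₁ : 1 ≤ B₁)
    (hL : ∀ j : ZMod q, j ≠ 0 →
      ‖∑' I : (Ideal (𝓞 K))⁰, an_chi f j I * (an_x K s I : ℂ)‖ ≤ B₁) :
    ∃ S : Finset (Ideal (𝓞 K)), (∀ 𝔮 ∈ S, 𝔮.IsPrime ∧ 𝔮 ≠ ⊥) ∧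
      (1 - 1 / (q : ℝ)) * (Real.log (∑' I : (Ideal (𝓞 K))⁰, an_x K s I) - Real.log 2
          - 2 * Real.log (∑' I : (Ideal (𝓞 K))⁰, an_x K 2 I))
        - (Real.log (2 * B₁) + Real.log (∑' I : (Ideal (𝓞 K))⁰, an_x K 2 I) / 2)
      ≤ ∑ 𝔮 ∈ S.filter (fun 𝔮 => f 𝔮 ≠ 0), an_x K s 𝔮 := by
  classical
  have hZ := an_summable K s hs1
  have hZ2 := an_summable K 2 (by norm_num)
  set Z := ∑' I : (Ideal (𝓞 K))⁰, an_x K s I with hZdef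
  set C₁ := Real.log (∑' I : (Ideal (𝓞 K))⁰, an_x K 2 I) with hC₁
  have hC₁0 : 0 ≤ C₁ := Real.log_nonneg (an_one_le_Z 2 hZ2)
  obtain ⟨S₁, hS₁, ha⟩ := an_log_le_sum_primes s hs1.le hZ
  have hb := fun j : ZMod q => an_re_sum_primes_le s hZ (an_chi f j) (an_chi_mul f hmul j)
    (an_chi_top f hspan j) (an_chi_norm f j)
  choose hLpos S₀ hS₀p hS₀ using hb
  set S := S₁ ∪ Finset.univ.biUnion S₀ with hSdef
  have hS : ∀ 𝔮 ∈ S, 𝔮.IsPrime ∧ 𝔮 ≠ ⊥ := by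
    intro 𝔮 h𝔮
    rcases Finset.mem_union.mp h𝔮 with h | h
    · exact hS₁ 𝔮 h
    · obtain ⟨j, -, hj⟩ := Finset.mem_biUnion.mp h
      exact hS₀p j 𝔮 hj
  refine ⟨S, hS, ?_⟩
  have hQ : ∀ S' : Finset (Ideal (𝓞 K)), (∀ 𝔮 ∈ S', 𝔮.IsPrime ∧ 𝔮 ≠ ⊥) →
      ∑ 𝔮 ∈ S', an_x K s 𝔮 ^ 2 ≤ C₁ := fun S' hS' =>
    le_trans (Finset.sum_le_sum (fun 𝔮 h𝔮 => an_x_sq_le s hs1.le 𝔮 (hS' 𝔮 h𝔮).1 (hS' 𝔮 h𝔮).2))
      (an_sum_primes_le_log 2 (by norm_num) hZ2 S' hS')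
  set D := Real.log (2 * B₁) + C₁ / 2 with hD
  have hD0 : 0 ≤ D := by
    have : 0 ≤ Real.log (2 * B₁) := Real.log_nonneg (by linarith)
    linarith
  have hj : ∀ j : ZMod q, j ≠ 0 → ∑ 𝔮 ∈ S, (an_chi f j 𝔮).re * an_x K s 𝔮 ≤ D := by
    intro j hj0
    have hsub : S₀ j ⊆ S := fun 𝔮 h𝔮 =>
      Finset.mem_union_right _ (Finset.mem_biUnion.mpr ⟨j, Finset.mem_univ _, h𝔮⟩)
    have h1 := hS₀ j S hsub hS
    have h2 : Real.log (2 * ‖∑' I : (Ideal (𝓞 K))⁰, an_chi f j I * (an_x K s I : ℂ)‖) ≤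
        Real.log (2 * B₁) :=
      Real.log_le_log (by have := hLpos j; positivity) (by linarith [hL j hj0])
    have h3 : ∑ 𝔮 ∈ S, an_x K s 𝔮 ^ 2 / 2 ≤ C₁ / 2 := by
      rw [← Finset.sum_div]
      linarith [hQ S hS]
    linarith
  set A := ∑ 𝔮 ∈ S, an_x K s 𝔮 with hA
  set A₀ := ∑ 𝔮 ∈ S.filter (fun 𝔮 => f 𝔮 = 0), an_x K s 𝔮 with hA₀
  set A₁ := ∑ 𝔮 ∈ S.filter (fun 𝔮 => f 𝔮 ≠ 0), an_x K s 𝔮 with hA₁
  have hAA : A₀ + A₁ = A := Finset.sum_filter_add_sum_filter_not S (fun 𝔮 => f 𝔮 = 0) _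
  have hsumj : ∑ j : ZMod q, ∑ 𝔮 ∈ S, (an_chi f j 𝔮).re * an_x K s 𝔮 = (q : ℝ) * A₀ := by
    rw [Finset.sum_comm, hA₀, Finset.mul_sum, Finset.sum_filter]
    refine Finset.sum_congr rfl (fun 𝔮 _ => ?_)
    rw [← Finset.sum_mul, an_sum_chi_re]
    split_ifs <;> simp
  have hj0 : ∑ 𝔮 ∈ S, (an_chi f 0 𝔮).re * an_x K s 𝔮 = A := by
    simp [an_chi_zero, hA]
  have hcard : (Finset.univ.erase (0 : ZMod q)).card = q - 1 := by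
    rw [Finset.card_erase_of_mem (Finset.mem_univ _), Finset.card_univ, ZMod.card]
  have hq1 : 1 ≤ q := (Fact.out : q.Prime).one_le
  have hrest : ∑ j ∈ Finset.univ.erase (0 : ZMod q),
      ∑ 𝔮 ∈ S, (an_chi f j 𝔮).re * an_x K s 𝔮 ≤ ((q : ℝ) - 1) * D := by
    refine le_trans (Finset.sum_le_sum (fun j hj' => hj j (Finset.ne_of_mem_erase hj'))) ?_
    rw [Finset.sum_const, hcard, nsmul_eq_mul, Nat.cast_sub hq1, Nat.cast_one]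
  have hmain : (q : ℝ) * A₀ ≤ A + ((q : ℝ) - 1) * D := by
    rw [← hsumj, ← Finset.add_sum_erase _ _ (Finset.mem_univ (0 : ZMod q)), hj0]
    linarith
  have hAW : Real.log Z - Real.log 2 - 2 * C₁ ≤ A := by
    have h1 : ∑ 𝔮 ∈ S₁, (an_x K s 𝔮 + 2 * an_x K s 𝔮 ^ 2) =
        ∑ 𝔮 ∈ S₁, an_x K s 𝔮 + 2 * ∑ 𝔮 ∈ S₁, an_x K s 𝔮 ^ 2 := by
      rw [Finset.sum_add_distrib, Finset.mul_sum]
    have h2 : ∑ 𝔮 ∈ S₁, an_x K s 𝔮 ≤ A :=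
      Finset.sum_le_sum_of_subset_of_nonneg Finset.subset_union_left
        (fun 𝔮 _ _ => an_x_nonneg s 𝔮)
    have h3 := hQ S₁ hS₁
    rw [h1] at ha
    linarith
  have hqpos : (0 : ℝ) < q := by exact_mod_cast (Fact.out : q.Prime).pos
  set r := 1 / (q : ℝ) with hr
  have hrq : r * q = 1 := by rw [hr]; field_simp
  have hr0 : 0 < r := by rw [hr]; positivity
  have hr1 : r ≤ 1 := by
    rw [hr, div_le_one hqpos]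
    exact_mod_cast hq1
  have hA₀le : A₀ ≤ r * A + (1 - r) * D := by
    have h1 : r * ((q : ℝ) * A₀) ≤ r * (A + ((q : ℝ) - 1) * D) :=
      mul_le_mul_of_nonneg_left hmain hr0.le
    have h2 : r * ((q : ℝ) * A₀) = A₀ := by rw [← mul_assoc, hrq, one_mul]
    have h3 : r * (A + ((q : ℝ) - 1) * D) = r * A + (1 - r) * D := by
      have : r * ((q : ℝ) - 1) = 1 - r := by rw [mul_sub, hrq, mul_one]
      rw [mul_add, ← mul_assoc, this]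
    linarith
  have h5 : (1 - r) * D ≤ D := by nlinarith
  have h6 : (1 - r) * (Real.log Z - Real.log 2 - 2 * C₁) ≤ (1 - r) * A :=
    mul_le_mul_of_nonneg_left hAW (by linarith)
  have h7 : A₁ = A - A₀ := by linarith
  rw [h7]
  nlinarith

/-- Upper bound for the primes with `f ≠ 0`, from the splitting hypothesis. -/
theorem an_upper {K₀ : Type} [Field K₀] [NumberField K₀] (q : ℕ) [Fact q.Prime]
    (f : Ideal (𝓞 K₀) → ZMod q)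
    (K' : Type) [Field K'] [NumberField K'] [Algebra K₀ K']
    (T : Set (Ideal (𝓞 K₀))) (hT : T.Finite)
    (hsplit : ∀ 𝔩 : Ideal (𝓞 K₀), 𝔩.IsPrime → (Ideal.absNorm 𝔩).Prime → 𝔩 ∉ T → f 𝔩 ≠ 0 →
      ∃ S : Finset (Ideal (𝓞 K')), S.card = q ∧ ∀ 𝔏 ∈ S, 𝔏.IsPrime ∧
        𝔏.comap (algebraMap (𝓞 K₀) (𝓞 K')) = 𝔩 ∧ Ideal.absNorm 𝔏 = Ideal.absNorm 𝔩)
    (s : ℝ) (hs1 : 1 < s) (C₃ : ℝ)
    (hC₃ : ∀ S : Finset (Ideal (𝓞 K₀)),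
      (∀ 𝔮 ∈ S, 𝔮.IsPrime ∧ 𝔮 ≠ ⊥ ∧ ¬ (Ideal.absNorm 𝔮).Prime) → ∑ 𝔮 ∈ S, an_x K₀ s 𝔮 ≤ C₃)
    (S : Finset (Ideal (𝓞 K₀))) (hS : ∀ 𝔮 ∈ S, 𝔮.IsPrime ∧ 𝔮 ≠ ⊥) :
    ∑ 𝔮 ∈ S.filter (fun 𝔮 => f 𝔮 ≠ 0), an_x K₀ s 𝔮 ≤
      (1 / (q : ℝ)) * Real.log (∑' I : (Ideal (𝓞 K'))⁰, an_x K' s I) + C₃ +
        hT.toFinset.card := by
  classical
  set Sp := S.filter (fun 𝔮 => f 𝔮 ≠ 0) with hSp
  have hSpS : ∀ 𝔮 ∈ Sp, 𝔮 ∈ S ∧ f 𝔮 ≠ 0 := fun 𝔮 h𝔮 => Finset.mem_filter.mp h𝔮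
  set G := Sp.filter (fun 𝔮 => (Ideal.absNorm 𝔮).Prime ∧ 𝔮 ∉ T) with hG
  set R := Sp.filter (fun 𝔮 => ¬ ((Ideal.absNorm 𝔮).Prime ∧ 𝔮 ∉ T)) with hR
  set R₁ := Sp.filter (fun 𝔮 => ¬ (Ideal.absNorm 𝔮).Prime) with hR₁
  set R₂ := Sp.filter (fun 𝔮 => 𝔮 ∈ T) with hR₂
  have hsplit2 : ∑ 𝔮 ∈ G, an_x K₀ s 𝔮 + ∑ 𝔮 ∈ R, an_x K₀ s 𝔮 = ∑ 𝔮 ∈ Sp, an_x K₀ s 𝔮 :=
    Finset.sum_filter_add_sum_filter_not Sp _ _
  -- the rest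
  have hRsub : R ⊆ R₁ ∪ R₂ := by
    intro 𝔮 h𝔮
    obtain ⟨h1, h2⟩ := Finset.mem_filter.mp h𝔮
    by_cases h3 : (Ideal.absNorm 𝔮).Prime
    · refine Finset.mem_union_right _ (Finset.mem_filter.mpr ⟨h1, ?_⟩)
      by_contra h4
      exact h2 ⟨h3, h4⟩
    · exact Finset.mem_union_left _ (Finset.mem_filter.mpr ⟨h1, h3⟩)
  have hRle : ∑ 𝔮 ∈ R, an_x K₀ s 𝔮 ≤ ∑ 𝔮 ∈ R₁, an_x K₀ s 𝔮 + ∑ 𝔮 ∈ R₂, an_x K₀ s 𝔮 := by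
    refine le_trans (Finset.sum_le_sum_of_subset_of_nonneg hRsub
      (fun 𝔮 _ _ => an_x_nonneg s 𝔮)) ?_
    have h1 := Finset.sum_union_inter (s₁ := R₁) (s₂ := R₂) (f := fun 𝔮 => an_x K₀ s 𝔮)
    have h2 : 0 ≤ ∑ 𝔮 ∈ R₁ ∩ R₂, an_x K₀ s 𝔮 := Finset.sum_nonneg (fun 𝔮 _ => an_x_nonneg s 𝔮)
    linarith
  have hR₁le : ∑ 𝔮 ∈ R₁, an_x K₀ s 𝔮 ≤ C₃ := by
    refine hC₃ R₁ (fun 𝔮 h𝔮 => ?_)
    obtain ⟨h1, h2⟩ := Finset.mem_filter.mp h𝔮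
    exact ⟨(hS 𝔮 (hSpS 𝔮 h1).1).1, (hS 𝔮 (hSpS 𝔮 h1).1).2, h2⟩
  have hR₂le : ∑ 𝔮 ∈ R₂, an_x K₀ s 𝔮 ≤ hT.toFinset.card := by
    have h1 : ∑ 𝔮 ∈ R₂, an_x K₀ s 𝔮 ≤ ∑ 𝔮 ∈ R₂, (1 : ℝ) := by
      refine Finset.sum_le_sum (fun 𝔮 h𝔮 => ?_)
      obtain ⟨h1, -⟩ := Finset.mem_filter.mp h𝔮
      have := an_x_le_half s hs1.le 𝔮 (hS 𝔮 (hSpS 𝔮 h1).1).1 (hS 𝔮 (hSpS 𝔮 h1).1).2
      linarith
    refine le_trans h1 ?_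
    rw [Finset.sum_const, nsmul_eq_mul, mul_one]
    have h2 : R₂ ⊆ hT.toFinset := fun 𝔮 h𝔮 =>
      hT.mem_toFinset.mpr (Finset.mem_filter.mp h𝔮).2
    exact_mod_cast Finset.card_le_card h2
  -- the good primes
  have hex : ∀ 𝔩 ∈ G, ∃ S' : Finset (Ideal (𝓞 K')), S'.card = q ∧ ∀ 𝔏 ∈ S', 𝔏.IsPrime ∧
      𝔏.comap (algebraMap (𝓞 K₀) (𝓞 K')) = 𝔩 ∧ Ideal.absNorm 𝔏 = Ideal.absNorm 𝔩 := by
    intro 𝔩 h𝔩
    obtain ⟨h1, h2, h3⟩ := Finset.mem_filter.mp h𝔩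
    exact hsplit 𝔩 (hS 𝔩 (hSpS 𝔩 h1).1).1 h2 h3 (hSpS 𝔩 h1).2
  choose! Φ hΦcard hΦ using hex
  have hdisj : (G : Set (Ideal (𝓞 K₀))).PairwiseDisjoint Φ := by
    intro 𝔩 h𝔩 𝔩' h𝔩' hne
    refine Finset.disjoint_left.mpr (fun 𝔏 h1 h2 => hne ?_)
    rw [← (hΦ 𝔩 h𝔩 𝔏 h1).2.1, ← (hΦ 𝔩' h𝔩' 𝔏 h2).2.1]
  have hZ' := an_summable K' s hs1
  have hS' : ∀ 𝔏 ∈ G.biUnion Φ, 𝔏.IsPrime ∧ 𝔏 ≠ ⊥ := by
    intro 𝔏 h𝔏
    obtain ⟨𝔩, h𝔩, h𝔏'⟩ := Finset.mem_biUnion.mp h𝔏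
    refine ⟨(hΦ 𝔩 h𝔩 𝔏 h𝔏').1, fun hbot => ?_⟩
    have hN := (hΦ 𝔩 h𝔩 𝔏 h𝔏').2.2
    rw [hbot, Ideal.absNorm_bot] at hN
    have hp : (Ideal.absNorm 𝔩).Prime := (Finset.mem_filter.mp h𝔩).2.1
    rw [← hN] at hp
    exact Nat.not_prime_zero hp
  have hG1 := an_sum_primes_le_log s hs1.le hZ' (G.biUnion Φ) hS'
  rw [Finset.sum_biUnion hdisj] at hG1
  have hG2 : ∑ 𝔩 ∈ G, ∑ 𝔏 ∈ Φ 𝔩, an_x K' s 𝔏 = (q : ℝ) * ∑ 𝔩 ∈ G, an_x K₀ s 𝔩 := by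
    rw [Finset.mul_sum]
    refine Finset.sum_congr rfl (fun 𝔩 h𝔩 => ?_)
    have h1 : ∀ 𝔏 ∈ Φ 𝔩, an_x K' s 𝔏 = an_x K₀ s 𝔩 := by
      intro 𝔏 h𝔏
      unfold an_x
      rw [(hΦ 𝔩 h𝔩 𝔏 h𝔏).2.2]
    rw [Finset.sum_congr rfl h1, Finset.sum_const, hΦcard 𝔩 h𝔩, nsmul_eq_mul]
  rw [hG2] at hG1
  have hqpos : (0 : ℝ) < q := by exact_mod_cast (Fact.out : q.Prime).pos
  have hGle : ∑ 𝔩 ∈ G, an_x K₀ s 𝔩 ≤
      (1 / (q : ℝ)) * Real.log (∑' I : (Ideal (𝓞 K'))⁰, an_x K' s I) := by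
    rw [one_div, ← div_eq_inv_mul, le_div_iff₀ hqpos]
    linarith
  linarith

theorem an_mul_le_abs (r x : ℝ) (hr0 : 0 ≤ r) (hr1 : r ≤ 1) : r * x ≤ |x| :=
  calc r * x ≤ r * |x| := mul_le_mul_of_nonneg_left (le_abs_self x) hr0
    _ ≤ 1 * |x| := mul_le_mul_of_nonneg_right hr1 (abs_nonneg x)
    _ = |x| := one_mul _

theorem an_final_arith (r t W D L' C₃ Tc M : ℝ) (hr0 : 0 < r) (hr3 : r ≤ 1 / 3) (ht0 : 0 ≤ t)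
    (ht1 : 3 * M + 1 ≤ t) (hM : M = |L'| + C₃ + Tc + D + |W|)
    (key : (1 - r) * (W + t) - D ≤ r * (L' + t) + C₃ + Tc) : False := by
  have h_c : r * L' ≤ |L'| := an_mul_le_abs r L' hr0.le (by linarith)
  have h_d : (1 - r) * (-W) ≤ |W| := by
    have := an_mul_le_abs (1 - r) (-W) (by linarith) (by linarith)
    rwa [abs_neg] at this
  have h_e : 1 / 3 * t ≤ (1 - 2 * r) * t := mul_le_mul_of_nonneg_right (by linarith) ht0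
  have e1 : (1 - r) * (W + t) = -((1 - r) * (-W)) + t - r * t := by ring
  have e2 : r * (L' + t) = r * L' + r * t := by ring
  have e3 : (1 - 2 * r) * t = t - 2 * (r * t) := by ring
  rw [e1, e2] at key
  rw [e3] at h_e
  linarith

/-- **AN, main theorem**, modulo the uniform bound on differences of partial zeta functions. -/
theorem an_no_cross_of_bound {K₀ : Type} [Field K₀] [NumberField K₀] (q : ℕ) [Fact q.Prime]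
    (hq : 3 ≤ q) (f : Ideal (𝓞 K₀) → ZMod q)
    (hmul : ∀ I J : Ideal (𝓞 K₀), I ≠ ⊥ → J ≠ ⊥ → f (I * J) = f I + f J)
    (hspan : ∀ x : 𝓞 K₀, x ≠ 0 → f (Ideal.span {x}) = 0)
    (hne : ∃ I : Ideal (𝓞 K₀), I ≠ ⊥ ∧ f I ≠ 0)
    (K' : Type) [Field K'] [NumberField K'] [Algebra K₀ K']
    (T : Set (Ideal (𝓞 K₀))) (hT : T.Finite)
    (hsplit : ∀ 𝔩 : Ideal (𝓞 K₀), 𝔩.IsPrime → (Ideal.absNorm 𝔩).Prime → 𝔩 ∉ T → f 𝔩 ≠ 0 →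
      ∃ S : Finset (Ideal (𝓞 K')), S.card = q ∧ ∀ 𝔏 ∈ S, 𝔏.IsPrime ∧
        𝔏.comap (algebraMap (𝓞 K₀) (𝓞 K')) = 𝔩 ∧ Ideal.absNorm 𝔏 = Ideal.absNorm 𝔩)
    (hbd : ∃ B : ℝ, ∀ (C C' : ClassGroup (𝓞 K₀)) (s : ℝ), 1 < s → s ≤ 2 →
      |an_zC K₀ C s - an_zC K₀ C' s| ≤ B) : False := by
  classical
  obtain ⟨B, hB⟩ := hbd
  obtain ⟨c, C, δ, hc, hC, hδ, hZb⟩ := an_zeta_bounds K₀
  obtain ⟨c', C', δ', hc', hC', hδ', hZb'⟩ := an_zeta_bounds K'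
  obtain ⟨C₃, hC₃⟩ := an_deg_bound K₀
  set B₁ := max ((Fintype.card (ClassGroup (𝓞 K₀)) : ℝ) * B) 1 with hB₁def
  have hB₁ : 1 ≤ B₁ := le_max_right _ _
  set C₁ := Real.log (∑' I : (Ideal (𝓞 K₀))⁰, an_x K₀ 2 I) with hC₁
  set W := Real.log c - Real.log 2 - 2 * C₁ with hW
  set D := Real.log (2 * B₁) + C₁ / 2 with hD
  set M := |Real.log C'| + C₃ + (hT.toFinset.card : ℝ) + D + |W| with hM
  set ε := min (min (δ / 2) (δ' / 2)) (min (1 / 2) (Real.exp (-(3 * M + 1)))) with hε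
  have hε0 : 0 < ε := by
    refine lt_min (lt_min (by linarith) (by linarith)) (lt_min (by norm_num) (Real.exp_pos _))
  have hεδ : ε ≤ δ / 2 := (min_le_left _ _).trans (min_le_left _ _)
  have hεδ' : ε ≤ δ' / 2 := (min_le_left _ _).trans (min_le_right _ _)
  have hεhalf : ε ≤ 1 / 2 := (min_le_right _ _).trans (min_le_left _ _)
  have hεexp : ε ≤ Real.exp (-(3 * M + 1)) := (min_le_right _ _).trans (min_le_right _ _)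
  set s := 1 + ε with hs
  have hs1 : 1 < s := by linarith
  have hs2 : s ≤ 2 := by linarith
  have hsub : s - 1 = ε := by rw [hs]; ring
  have hlogε : Real.log ε ≤ -(3 * M + 1) := by
    calc Real.log ε ≤ Real.log (Real.exp (-(3 * M + 1))) := Real.log_le_log hε0 hεexp
      _ = -(3 * M + 1) := Real.log_exp _
  have hlogε0 : Real.log ε ≤ 0 := Real.log_nonpos hε0.le (by linarith)
  have hL : ∀ j : ZMod q, j ≠ 0 →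
      ‖∑' I : (Ideal (𝓞 K₀))⁰, an_chi f j I * (an_x K₀ s I : ℂ)‖ ≤ B₁ := fun j hj =>
    le_trans (an_L_bound f hmul hspan hne j hj s hs1 B (fun C C' => hB C C' s hs1 hs2))
      (le_max_left _ _)
  obtain ⟨S, hS, hlow⟩ := an_lower f hmul hspan s hs1 B₁ hB₁ hL
  have hup := an_upper q f K' T hT hsplit s hs1 C₃ (hC₃ s hs1.le) S hS
  have hZ1 := (hZb s hs1 (by linarith)).1
  have hZ2 := (hZb' s hs1 (by linarith)).2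
  rw [hsub] at hZ1 hZ2
  set Z := ∑' I : (Ideal (𝓞 K₀))⁰, an_x K₀ s I with hZdef
  set Z' := ∑' I : (Ideal (𝓞 K'))⁰, an_x K' s I with hZ'def
  have hZ'pos : 0 < Z' := lt_of_lt_of_le one_pos (an_one_le_Z s (an_summable K' s hs1))
  have hlogZ : Real.log c - Real.log ε ≤ Real.log Z := by
    rw [← Real.log_div hc.ne' hε0.ne']
    exact Real.log_le_log (by positivity) hZ1
  have hlogZ' : Real.log Z' ≤ Real.log C' - Real.log ε := by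
    rw [← Real.log_div hC'.ne' hε0.ne']
    exact Real.log_le_log hZ'pos hZ2
  have hqpos : (0 : ℝ) < q := by exact_mod_cast (Fact.out : q.Prime).pos
  have hq3 : (3 : ℝ) ≤ q := by exact_mod_cast hq
  set r := 1 / (q : ℝ) with hr
  have hr0 : 0 < r := by rw [hr]; positivity
  have hr3 : r ≤ 1 / 3 := by
    rw [hr]
    exact one_div_le_one_div_of_le (by norm_num) hq3
  set t := -Real.log ε with ht
  have ht0 : 0 ≤ t := by rw [ht]; linarith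
  have ht1 : 3 * M + 1 ≤ t := by rw [ht]; linarith
  have h_a : (1 - r) * (W + t) ≤ (1 - r) * (Real.log Z - Real.log 2 - 2 * C₁) := by
    refine mul_le_mul_of_nonneg_left ?_ (by linarith)
    rw [hW, ht]
    linarith
  have h_b : r * Real.log Z' ≤ r * (Real.log C' + t) := by
    refine mul_le_mul_of_nonneg_left ?_ hr0.le
    rw [ht]
    linarith
  have key : (1 - r) * (W + t) - D ≤ r * (Real.log C' + t) + C₃ + (hT.toFinset.card : ℝ) := by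
    linarith
  exact an_final_arith r t W D (Real.log C') C₃ (hT.toFinset.card : ℝ) M hr0 hr3 ht0 ht1 hM key

/-- **AN, final form**: `no_cross_character` from the bound on differences of partial zeta
functions of ideal classes (the statement `an_if_CZ K₀` of the interface file, spelled out). -/
theorem an_sv_no_cross_of_CZ {K₀ : Type} [Field K₀] [NumberField K₀] (q : ℕ) [Fact q.Prime]
    (hq : 3 ≤ q) (f : Ideal (𝓞 K₀) → ZMod q)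
    (hmul : ∀ I J : Ideal (𝓞 K₀), I ≠ ⊥ → J ≠ ⊥ → f (I * J) = f I + f J)
    (hspan : ∀ x : 𝓞 K₀, x ≠ 0 → f (Ideal.span {x}) = 0)
    (hne : ∃ I : Ideal (𝓞 K₀), I ≠ ⊥ ∧ f I ≠ 0)
    (K' : Type) [Field K'] [NumberField K'] [Algebra K₀ K']
    (T : Set (Ideal (𝓞 K₀))) (hT : T.Finite)
    (hsplit : ∀ 𝔩 : Ideal (𝓞 K₀), 𝔩.IsPrime → (Ideal.absNorm 𝔩).Prime → 𝔩 ∉ T → f 𝔩 ≠ 0 →
      ∃ S : Finset (Ideal (𝓞 K')), S.card = q ∧ ∀ 𝔏 ∈ S, 𝔏.IsPrime ∧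
        𝔏.comap (algebraMap (𝓞 K₀) (𝓞 K')) = 𝔩 ∧ Ideal.absNorm 𝔏 = Ideal.absNorm 𝔩)
    (hcz : ∃ B : ℝ, ∀ (C C' : ClassGroup (𝓞 K₀)) (s : ℝ), 1 < s → s ≤ 2 →
      Summable (fun I : {I : nonZeroDivisors (Ideal (𝓞 K₀)) // ClassGroup.mk0 I = C} =>
        ((Ideal.absNorm (I.1 : Ideal (𝓞 K₀)) : ℝ)) ^ (-s)) ∧
      |(∑' I : {I : nonZeroDivisors (Ideal (𝓞 K₀)) // ClassGroup.mk0 I = C},
          ((Ideal.absNorm (I.1 : Ideal (𝓞 K₀)) : ℝ)) ^ (-s)) -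
        ∑' I : {I : nonZeroDivisors (Ideal (𝓞 K₀)) // ClassGroup.mk0 I = C'},
          ((Ideal.absNorm (I.1 : Ideal (𝓞 K₀)) : ℝ)) ^ (-s)| ≤ B) : False := by
  obtain ⟨B, hB⟩ := hcz
  exact an_no_cross_of_bound q hq f hmul hspan hne K' T hT hsplit
    ⟨B, fun C C' s hs1 hs2 => (hB C C' s hs1 hs2).2⟩

end Fermat.Agent.S14
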