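import Mathlib

set_option autoImplicit false

/-!
# S14, work package AN: the Euler product in sieve form

For a completely multiplicative function `g` on the nonzero ideals of a Dedekind domain with
`∑ ‖g I‖ < ∞`, and a finite set `S` of nonzero primes, the sum `U_S` of `g` over the ideals
coprime to `S` satisfies `U_S = ∏_{𝔮 ∈ S} (1 - g 𝔮) * ∑ g`.
-/

namespace Fermat.Agent.S14

open nonZeroDivisors

section sieve

variable {R : Type*} [CommRing R] [IsDedekindDomain R]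
variable {𝕜 : Type*} [RCLike 𝕜]

/-- `I` is coprime to every prime in `S`. -/
def an_cop (S : Finset (Ideal R)) (I : Ideal R) : Prop := ∀ 𝔮 ∈ S, ¬ I ≤ 𝔮

open Classical in
/-- The sieved sum: the sum of `g` over the nonzero ideals coprime to `S`. -/
noncomputable def an_U (g : Ideal R → 𝕜) (S : Finset (Ideal R)) : 𝕜 :=
  ∑' I : (Ideal R)⁰, if an_cop S (I : Ideal R) then g I else 0

theorem an_mem_nzd {I : Ideal R} : I ∈ (Ideal R)⁰ ↔ I ≠ ⊥ := by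
  rw [mem_nonZeroDivisors_iff_ne_zero, Ne, Ideal.zero_eq_bot]

theorem an_ne_bot (I : (Ideal R)⁰) : (I : Ideal R) ≠ ⊥ := an_mem_nzd.mp I.2

omit [IsDedekindDomain R] in
theorem an_cop_insert (S : Finset (Ideal R)) (𝔭 I : Ideal R) :
    an_cop (insert 𝔭 S) I ↔ ¬ I ≤ 𝔭 ∧ an_cop S I := by
  unfold an_cop
  constructor
  · intro h
    exact ⟨h 𝔭 (Finset.mem_insert_self _ _), fun 𝔮 h𝔮 => h 𝔮 (Finset.mem_insert_of_mem h𝔮)⟩
  · rintro ⟨h1, h2⟩ 𝔮 h𝔮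
    rcases Finset.mem_insert.mp h𝔮 with rfl | h
    · exact h1
    · exact h2 𝔮 h

theorem an_cop_mul (S : Finset (Ideal R)) (hS : ∀ 𝔮 ∈ S, 𝔮.IsPrime)
    (𝔭 : Ideal R) (h𝔭 : 𝔭.IsPrime) (h0 : 𝔭 ≠ ⊥) (hnot : 𝔭 ∉ S) (J : Ideal R) :
    an_cop S (𝔭 * J) ↔ an_cop S J := by
  unfold an_cop
  have hmax : 𝔭.IsMaximal := h𝔭.isMaximal h0
  constructor
  · intro h 𝔮 h𝔮 hJ
    exact h 𝔮 h𝔮 (le_trans Ideal.mul_le_right hJ)
  · intro h 𝔮 h𝔮 hJ
    rcases (hS 𝔮 h𝔮).mul_le.mp hJ with h1 | h1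
    · have : 𝔭 = 𝔮 := hmax.eq_of_le (hS 𝔮 h𝔮).ne_top h1
      exact hnot (this ▸ h𝔮)
    · exact h 𝔮 h𝔮 h1

open Classical in
theorem an_U_insert (g : Ideal R → 𝕜)
    (hmul : ∀ I J : Ideal R, I ≠ ⊥ → J ≠ ⊥ → g (I * J) = g I * g J)
    (hsum : Summable (fun I : (Ideal R)⁰ => ‖g I‖))
    (S : Finset (Ideal R)) (hS : ∀ 𝔮 ∈ S, 𝔮.IsPrime)
    (𝔭 : Ideal R) (h𝔭 : 𝔭.IsPrime) (h0 : 𝔭 ≠ ⊥) (hnot : 𝔭 ∉ S) :
    an_U g (insert 𝔭 S) = (1 - g 𝔭) * an_U g S := by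
  set a : (Ideal R)⁰ → 𝕜 := fun I => if an_cop S (I : Ideal R) then g I else 0 with ha
  set b : (Ideal R)⁰ → 𝕜 := fun I => if an_cop (insert 𝔭 S) (I : Ideal R) then g I else 0 with hb
  set c : (Ideal R)⁰ → 𝕜 :=
    fun I => if ((I : Ideal R) ≤ 𝔭 ∧ an_cop S (I : Ideal R)) then g I else 0 with hc
  have hbound : ∀ (P : Prop) [Decidable P] (I : (Ideal R)⁰),
      ‖(if P then g (I : Ideal R) else 0 : 𝕜)‖ ≤ ‖g (I : Ideal R)‖ := by
    intro P _ I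
    split_ifs
    · exact le_rfl
    · simp
  have hsa : Summable a := Summable.of_norm_bounded hsum (fun I => hbound _ I)
  have hsb : Summable b := Summable.of_norm_bounded hsum (fun I => hbound _ I)
  have hsc : Summable c := Summable.of_norm_bounded hsum (fun I => hbound _ I)
  have habc : ∀ I, a I = b I + c I := by
    intro I
    simp only [ha, hb, hc, an_cop_insert]
    by_cases h1 : an_cop S (I : Ideal R) <;> by_cases h2 : (I : Ideal R) ≤ 𝔭 <;> simp [h1, h2]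
  have h1 : ∑' I, a I = ∑' I, b I + ∑' I, c I := by
    rw [← hsb.tsum_add hsc]
    exact tsum_congr habc
  -- reindex `c`
  let 𝔭' : (Ideal R)⁰ := ⟨𝔭, an_mem_nzd.mpr h0⟩
  let φ : (Ideal R)⁰ → (Ideal R)⁰ := fun J => 𝔭' * J
  have hφ : Function.Injective φ := by
    intro J J' h
    have h' : 𝔭 * (J : Ideal R) = 𝔭 * (J' : Ideal R) := congrArg Subtype.val h
    exact Subtype.ext (mul_left_cancel₀ h0 h')
  have hsupp : Function.support c ⊆ Set.range φ := by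
    intro I hI
    rw [Function.mem_support] at hI
    have hle : (I : Ideal R) ≤ 𝔭 := by
      by_contra hcon
      exact hI (by simp [hc, hcon])
    obtain ⟨J, hJ⟩ := Ideal.dvd_iff_le.mpr hle
    have hJ0 : J ≠ ⊥ := by
      rintro rfl
      exact an_ne_bot I (by simpa using hJ)
    exact ⟨⟨J, an_mem_nzd.mpr hJ0⟩, Subtype.ext hJ.symm⟩
  have h2 : ∑' I, c I = g 𝔭 * ∑' I, a I := by
    rw [← hφ.tsum_eq hsupp, ← tsum_mul_left]
    refine tsum_congr fun J => ?_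
    have hcoe : ((φ J : (Ideal R)⁰) : Ideal R) = 𝔭 * (J : Ideal R) := rfl
    simp only [hc, ha, hcoe, an_cop_mul S hS 𝔭 h𝔭 h0 hnot]
    have hle : 𝔭 * (J : Ideal R) ≤ 𝔭 := Ideal.mul_le_left
    by_cases h3 : an_cop S (J : Ideal R)
    · simp [h3, hle, hmul 𝔭 J h0 (an_ne_bot J)]
    · simp [h3]
  show ∑' I, b I = (1 - g 𝔭) * ∑' I, a I
  rw [h2] at h1
  linear_combination -h1

omit [IsDedekindDomain R] in
open Classical in
theorem an_U_empty (g : Ideal R → 𝕜) : an_U g ∅ = ∑' I : (Ideal R)⁰, g I := by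
  unfold an_U
  refine tsum_congr fun I => ?_
  simp [an_cop]

/-- **Sieve form of the Euler product.** -/
theorem an_U_eq (g : Ideal R → 𝕜)
    (hmul : ∀ I J : Ideal R, I ≠ ⊥ → J ≠ ⊥ → g (I * J) = g I * g J)
    (hsum : Summable (fun I : (Ideal R)⁰ => ‖g I‖))
    (S : Finset (Ideal R)) (hS : ∀ 𝔮 ∈ S, 𝔮.IsPrime ∧ 𝔮 ≠ ⊥) :
    an_U g S = (∏ 𝔮 ∈ S, (1 - g 𝔮)) * ∑' I : (Ideal R)⁰, g I := by
  classical
  induction S using Finset.induction_on with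
  | empty => simp [an_U_empty]
  | insert 𝔭 S hnot ih =>
    have hS' : ∀ 𝔮 ∈ S, 𝔮.IsPrime ∧ 𝔮 ≠ ⊥ := fun 𝔮 h𝔮 => hS 𝔮 (Finset.mem_insert_of_mem h𝔮)
    have h𝔭 := hS 𝔭 (Finset.mem_insert_self _ _)
    rw [an_U_insert g hmul hsum S (fun 𝔮 h𝔮 => (hS' 𝔮 h𝔮).1) 𝔭 h𝔭.1 h𝔭.2 hnot, ih hS',
      Finset.prod_insert hnot]
    ring

end sieve

section numberField

open NumberField

variable {K : Type*} [Field K] [NumberField K]

/-- `N(I)^{-s}`. -/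
noncomputable def an_x (K : Type*) [Field K] [NumberField K] (s : ℝ) (I : Ideal (𝓞 K)) : ℝ :=
  (Ideal.absNorm I : ℝ) ^ (-s)

theorem an_x_nonneg (s : ℝ) (I : Ideal (𝓞 K)) : 0 ≤ an_x K s I :=
  Real.rpow_nonneg (Nat.cast_nonneg _) _

theorem an_x_top (s : ℝ) : an_x K s ⊤ = 1 := by
  simp [an_x]

theorem an_x_mul (s : ℝ) (I J : Ideal (𝓞 K)) : an_x K s (I * J) = an_x K s I * an_x K s J := by
  simp only [an_x, map_mul, Nat.cast_mul]
  exact Real.mul_rpow (Nat.cast_nonneg _) (Nat.cast_nonneg _)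

theorem an_two_le_absNorm (𝔭 : Ideal (𝓞 K)) (h𝔭 : 𝔭.IsPrime) (h0 : 𝔭 ≠ ⊥) :
    2 ≤ Ideal.absNorm 𝔭 := by
  have h1 : Ideal.absNorm 𝔭 ≠ 0 := fun h => h0 (Ideal.absNorm_eq_zero_iff.mp h)
  have h2 : Ideal.absNorm 𝔭 ≠ 1 := fun h => h𝔭.ne_top (Ideal.absNorm_eq_one_iff.mp h)
  omega

theorem an_x_le_of_le (s : ℝ) (hs : 0 ≤ s) (I : Ideal (𝓞 K)) (n : ℕ) (hn : 0 < n)
    (h : n ≤ Ideal.absNorm I) : an_x K s I ≤ (n : ℝ) ^ (-s) := by
  unfold an_x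
  have hn' : (0 : ℝ) < n := by exact_mod_cast hn
  have h' : (n : ℝ) ≤ Ideal.absNorm I := by exact_mod_cast h
  exact Real.rpow_le_rpow_of_nonpos hn' h' (by linarith)

theorem an_x_le_half (s : ℝ) (hs : 1 ≤ s) (𝔭 : Ideal (𝓞 K)) (h𝔭 : 𝔭.IsPrime) (h0 : 𝔭 ≠ ⊥) :
    an_x K s 𝔭 ≤ 1 / 2 := by
  refine le_trans (an_x_le_of_le s (by linarith) 𝔭 2 (by norm_num)
    (an_two_le_absNorm 𝔭 h𝔭 h0)) ?_
  have : ((2 : ℕ) : ℝ) ^ (-s) ≤ ((2 : ℕ) : ℝ) ^ (-1 : ℝ) :=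
    Real.rpow_le_rpow_of_exponent_le (by norm_num) (by linarith)
  refine le_trans this ?_
  norm_num [Real.rpow_neg_one]

/-- The top ideal as a nonzero ideal. -/
def an_one (K : Type*) [Field K] [NumberField K] : (Ideal (𝓞 K))⁰ :=
  ⟨⊤, an_mem_nzd.mpr top_ne_bot⟩

open Classical in
theorem an_U_sub_one_norm_le {𝕜 : Type*} [RCLike 𝕜] (g : Ideal (𝓞 K) → 𝕜) (h1 : g ⊤ = 1)
    (hsum : Summable (fun I : (Ideal (𝓞 K))⁰ => ‖g I‖))
    (S : Finset (Ideal (𝓞 K))) (hS : ∀ 𝔮 ∈ S, 𝔮.IsPrime) (Y : ℕ)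
    (hY : ∀ 𝔭 : Ideal (𝓞 K), 𝔭.IsPrime → 𝔭 ≠ ⊥ → Ideal.absNorm 𝔭 ≤ Y → 𝔭 ∈ S) :
    ‖an_U g S - 1‖ ≤
      ∑' I : (Ideal (𝓞 K))⁰, if Y < Ideal.absNorm (I : Ideal (𝓞 K)) then ‖g I‖ else 0 := by
  set a : (Ideal (𝓞 K))⁰ → 𝕜 := fun I => if an_cop S (I : Ideal (𝓞 K)) then g I else 0 with ha
  set d : (Ideal (𝓞 K))⁰ → 𝕜 :=
    fun I => if (an_cop S (I : Ideal (𝓞 K)) ∧ I ≠ an_one K) then g I else 0 with hd
  set e : (Ideal (𝓞 K))⁰ → 𝕜 := fun I => if I = an_one K then (1 : 𝕜) else 0 with he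
  have hbound : ∀ (P : Prop) [Decidable P] (I : (Ideal (𝓞 K))⁰),
      ‖(if P then g (I : Ideal (𝓞 K)) else 0 : 𝕜)‖ ≤ ‖g (I : Ideal (𝓞 K))‖ := by
    intro P _ I
    split_ifs
    · exact le_rfl
    · simp
  have hsd : Summable d := Summable.of_norm_bounded hsum (fun I => hbound _ I)
  have hse : Summable e := (hasSum_ite_eq (an_one K) (1 : 𝕜)).summable
  have hcoptop : an_cop S (⊤ : Ideal (𝓞 K)) := fun 𝔮 h𝔮 h => (hS 𝔮 h𝔮).ne_top (top_le_iff.mp h)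
  have hade : ∀ I, a I = d I + e I := by
    intro I
    simp only [ha, hd, he]
    by_cases h2 : I = an_one K
    · subst h2
      have : ((an_one K : (Ideal (𝓞 K))⁰) : Ideal (𝓞 K)) = ⊤ := rfl
      simp [this, hcoptop, h1]
    · by_cases h3 : an_cop S (I : Ideal (𝓞 K)) <;> simp [h2, h3]
  have hU : an_U g S - 1 = ∑' I, d I := by
    have h3 : an_U g S = ∑' I, d I + ∑' I, e I := by
      rw [← hsd.tsum_add hse]
      exact tsum_congr hade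
    have h4 : ∑' I, e I = 1 := tsum_ite_eq (an_one K) (fun _ => (1 : 𝕜))
    rw [h3, h4]
    ring
  rw [hU]
  have hsd' : Summable (fun I => ‖d I‖) := Summable.of_nonneg_of_le (fun _ => norm_nonneg _)
    (fun I => hbound _ I) hsum
  have hst : Summable (fun I : (Ideal (𝓞 K))⁰ =>
      if Y < Ideal.absNorm (I : Ideal (𝓞 K)) then ‖g (I : Ideal (𝓞 K))‖ else 0) :=
    Summable.of_nonneg_of_le (fun I => by split_ifs <;> simp)
      (fun I => by split_ifs <;> simp) hsum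
  refine le_trans (norm_tsum_le_tsum_norm hsd') (hsd'.tsum_le_tsum (fun I => ?_) hst)
  simp only [hd]
  by_cases h5 : an_cop S (I : Ideal (𝓞 K)) ∧ I ≠ an_one K
  · have hItop : (I : Ideal (𝓞 K)) ≠ ⊤ := fun h => h5.2 (Subtype.ext h)
    obtain ⟨𝔪, h𝔪, hle⟩ := Ideal.exists_le_maximal _ hItop
    have h𝔪0 : 𝔪 ≠ ⊥ := fun h => an_ne_bot I (le_bot_iff.mp (h ▸ hle))
    have hnotS : 𝔪 ∉ S := fun h => h5.1 𝔪 h hle
    have hlt : Y < Ideal.absNorm 𝔪 := by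
      by_contra hcon
      exact hnotS (hY 𝔪 h𝔪.isPrime h𝔪0 (not_lt.mp hcon))
    have hdvd : Ideal.absNorm 𝔪 ∣ Ideal.absNorm (I : Ideal (𝓞 K)) :=
      Ideal.absNorm_dvd_absNorm_of_le hle
    have hI0 : Ideal.absNorm (I : Ideal (𝓞 K)) ≠ 0 :=
      fun h => an_ne_bot I (Ideal.absNorm_eq_zero_iff.mp h)
    have hlt' : Y < Ideal.absNorm (I : Ideal (𝓞 K)) :=
      lt_of_lt_of_le hlt (Nat.le_of_dvd (Nat.pos_of_ne_zero hI0) hdvd)
    simp [h5, hlt']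
  · rw [if_neg h5]
    split_ifs <;> simp

open Classical in
theorem an_exists_tail_le (u : (Ideal (𝓞 K))⁰ → ℝ) (hu : Summable u) (hu0 : ∀ I, 0 ≤ u I)
    (ε : ℝ) (hε : 0 < ε) :
    ∃ Y : ℕ, (∑' I : (Ideal (𝓞 K))⁰,
      if Y < Ideal.absNorm (I : Ideal (𝓞 K)) then u I else 0) ≤ ε := by
  obtain ⟨t, ht⟩ := (hu.hasSum.eventually (lt_mem_nhds
    (show ∑' I, u I - ε < ∑' I, u I by linarith))).exists
  refine ⟨t.sup (fun I => Ideal.absNorm (I : Ideal (𝓞 K))), ?_⟩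
  set Y := t.sup (fun I => Ideal.absNorm (I : Ideal (𝓞 K))) with hYdef
  have hs1 : Summable (fun I : (Ideal (𝓞 K))⁰ =>
      if Y < Ideal.absNorm (I : Ideal (𝓞 K)) then u I else 0) :=
    Summable.of_nonneg_of_le (fun I => by split_ifs <;> simp [hu0 I])
      (fun I => by split_ifs <;> simp [hu0 I]) hu
  have hs2 : Summable (fun I : (Ideal (𝓞 K))⁰ => if I ∈ t then u I else 0) :=
    Summable.of_nonneg_of_le (fun I => by split_ifs <;> simp [hu0 I])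
      (fun I => by split_ifs <;> simp [hu0 I]) hu
  have h2 : ∑' I : (Ideal (𝓞 K))⁰, (if I ∈ t then u I else 0) = ∑ I ∈ t, u I := by
    rw [tsum_eq_sum (s := t) (fun I hI => by simp [hI])]
    exact Finset.sum_congr rfl (fun I hI => by simp [hI])
  have h3 : (∑' I : (Ideal (𝓞 K))⁰, (if Y < Ideal.absNorm (I : Ideal (𝓞 K)) then u I else 0))
      + ∑' I : (Ideal (𝓞 K))⁰, (if I ∈ t then u I else 0) ≤ ∑' I, u I := by
    rw [← hs1.tsum_add hs2]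
    refine (hs1.add hs2).tsum_le_tsum (fun I => ?_) hu
    by_cases hI : I ∈ t
    · have : ¬ Y < Ideal.absNorm (I : Ideal (𝓞 K)) :=
        not_lt.mpr (Finset.le_sup (f := fun I : (Ideal (𝓞 K))⁰ =>
          Ideal.absNorm (I : Ideal (𝓞 K))) hI)
      simp [hI, this]
    · split_ifs <;> simp [hu0 I]
  rw [h2] at h3
  linarith

/-- The finite set of nonzero primes of norm at most `Y`. -/
noncomputable def an_primesLE (K : Type*) [Field K] [NumberField K] (Y : ℕ) :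
    Finset (Ideal (𝓞 K)) :=
  open Classical in
  (Ideal.finite_setOfPred_absNorm_le (S := 𝓞 K) Y).toFinset.filter
    (fun 𝔭 => 𝔭.IsPrime ∧ 𝔭 ≠ ⊥)

theorem an_mem_primesLE (Y : ℕ) (𝔭 : Ideal (𝓞 K)) :
    𝔭 ∈ an_primesLE K Y ↔ Ideal.absNorm 𝔭 ≤ Y ∧ 𝔭.IsPrime ∧ 𝔭 ≠ ⊥ := by
  simp [an_primesLE]

end numberField

end Fermat.Agent.S14
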