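import Fermat.Agent.S14.AnSvSieve

set_option autoImplicit false

/-!
# S14, work package AN: the Dedekind zeta function as a sum over nonzero ideals
-/

namespace Fermat.Agent.S14

open nonZeroDivisors NumberField Filter Topology

variable (K : Type*) [Field K] [NumberField K]

/-- The number of ideals of norm `n`. -/
noncomputable def an_cnt (n : ℕ) : ℕ := Nat.card {I : Ideal (𝓞 K) // Ideal.absNorm I = n}

theorem an_tendsto_cnt :
    Tendsto (fun n : ℕ => (∑ k ∈ Finset.Icc 1 n, (an_cnt K k : ℝ)) / (n : ℝ)) atTop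
      (𝓝 (dedekindZeta_residue K)) := by
  refine ((Ideal.tendsto_norm_le_div_atTop₀ K).comp tendsto_natCast_atTop_atTop).congr fun n ↦ ?_
  simp only [Function.comp_apply, Nat.cast_le, ← Nat.cast_sum, an_cnt]
  congr
  rw [← add_left_inj 1, ← Ideal.card_norm_le_eq_card_norm_le_add_one,
    show Finset.Icc 1 n = Finset.Ioc 0 n from Finset.Icc_succ_left_eq_Ioc _ _,
    show 1 = Nat.card {I : Ideal (𝓞 K) // Ideal.absNorm I = 0} by simp [Ideal.absNorm_eq_zero_iff],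
    Finset.sum_Ioc_add_eq_sum_Icc (n.zero_le),
    ← Finset.card_preimage_eq_sum_card_image_eq (fun k _ ↦ Ideal.finite_setOfPred_absNorm_eq k)]
  simp [Set.coe_eq_subtype]

theorem an_lseriesSummable (s : ℝ) (hs : 1 < s) :
    LSeriesSummable (fun n => ((an_cnt K n : ℝ) : ℂ)) (s : ℂ) := by
  refine LSeriesSummable_of_sum_norm_bigO_and_nonneg ?_ (fun n => Nat.cast_nonneg _) zero_le_one
    (by simpa using hs)
  exact Asymptotics.isBigO_atTop_natCast_rpow_of_tendsto_div_rpow (by simpa using an_tendsto_cnt K)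

/-- The real term of the Dedekind zeta series. -/
noncomputable def an_term (s : ℝ) (n : ℕ) : ℝ := (an_cnt K n : ℝ) * (n : ℝ) ^ (-s)

theorem an_term_eq (s : ℝ) (hs : 0 < s) (n : ℕ) :
    LSeries.term (fun n => ((an_cnt K n : ℝ) : ℂ)) (s : ℂ) n = ((an_term K s n : ℝ) : ℂ) := by
  rcases Nat.eq_zero_or_pos n with rfl | hn
  · simp [an_term, Real.zero_rpow (by linarith : -s ≠ 0)]
  · rw [LSeries.term_of_ne_zero hn.ne', an_term]
    have h1 : ((n : ℂ)) ^ (s : ℂ) = (((n : ℝ) ^ s : ℝ) : ℂ) := by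
      rw [Complex.ofReal_cpow (Nat.cast_nonneg n)]
      simp
    rw [h1, Real.rpow_neg (Nat.cast_nonneg n)]
    push_cast
    rw [div_eq_mul_inv]

theorem an_term_summable (s : ℝ) (hs : 1 < s) : Summable (an_term K s) := by
  have h := an_lseriesSummable K s hs
  unfold LSeriesSummable at h
  have h2 : Summable (fun n => ((an_term K s n : ℝ) : ℂ)) :=
    h.congr (fun n => an_term_eq K s (by linarith) n)
  exact Complex.summable_ofReal.mp h2

theorem an_dedekindZeta_eq (s : ℝ) (hs : 1 < s) :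
    dedekindZeta K (s : ℂ) = ((∑' n, an_term K s n : ℝ) : ℂ) := by
  unfold dedekindZeta LSeries
  rw [Complex.ofReal_tsum]
  refine tsum_congr (fun n => ?_)
  exact an_term_eq K s (by linarith) n

/-- The fibre of the norm over `n ≠ 0` among nonzero ideals has `an_cnt K n` elements. -/
theorem an_card_fibre (n : ℕ) (hn : n ≠ 0) :
    Nat.card {I : (Ideal (𝓞 K))⁰ // Ideal.absNorm (I : Ideal (𝓞 K)) = n} = an_cnt K n := by
  unfold an_cnt
  refine Nat.card_congr (Equiv.subtypeSubtypeEquivSubtype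
    (p := fun I : Ideal (𝓞 K) => I ∈ (Ideal (𝓞 K))⁰)
    (q := fun I : Ideal (𝓞 K) => Ideal.absNorm I = n) ?_)
  intro I hI
  refine an_mem_nzd.mpr (fun h => hn ?_)
  rw [← hI, h, Ideal.absNorm_bot]

instance an_finite_fibre (n : ℕ) :
    Finite {I : (Ideal (𝓞 K))⁰ // Ideal.absNorm (I : Ideal (𝓞 K)) = n} := by
  have h : Finite {I : Ideal (𝓞 K) // Ideal.absNorm I = n} :=
    (Ideal.finite_setOfPred_absNorm_eq (S := 𝓞 K) n).to_subtype
  refine Finite.of_injective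
    (fun I : {I : (Ideal (𝓞 K))⁰ // Ideal.absNorm (I : Ideal (𝓞 K)) = n} =>
      (⟨(I.1 : Ideal (𝓞 K)), I.2⟩ : {I : Ideal (𝓞 K) // Ideal.absNorm I = n})) ?_
  intro I J h
  have h' : (I.1 : Ideal (𝓞 K)) = (J.1 : Ideal (𝓞 K)) := by
    have h2 := h
    simp only [Subtype.mk.injEq] at h2
    exact h2
  exact Subtype.ext (Subtype.ext h')

theorem an_fibre_sum (s : ℝ) (hs : 0 < s) (n : ℕ) :
    ∑' I : {I : (Ideal (𝓞 K))⁰ // Ideal.absNorm (I : Ideal (𝓞 K)) = n},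
      an_x K s (I.1 : Ideal (𝓞 K)) = an_term K s n := by
  classical
  have : Fintype {I : (Ideal (𝓞 K))⁰ // Ideal.absNorm (I : Ideal (𝓞 K)) = n} :=
    Fintype.ofFinite _
  rw [tsum_fintype]
  have h1 : ∀ I : {I : (Ideal (𝓞 K))⁰ // Ideal.absNorm (I : Ideal (𝓞 K)) = n},
      an_x K s (I.1 : Ideal (𝓞 K)) = (n : ℝ) ^ (-s) := fun I => by
    unfold an_x
    rw [I.2]
  rw [Finset.sum_congr rfl (fun I _ => h1 I), Finset.sum_const, Finset.card_univ, nsmul_eq_mul,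
    an_term, ← Nat.card_eq_fintype_card]
  rcases Nat.eq_zero_or_pos n with rfl | hn
  · have hempty : IsEmpty {I : (Ideal (𝓞 K))⁰ // Ideal.absNorm (I : Ideal (𝓞 K)) = 0} :=
      ⟨fun I => an_ne_bot I.1 (Ideal.absNorm_eq_zero_iff.mp I.2)⟩
    simp [Real.zero_rpow (by linarith : -s ≠ 0)]
  · rw [an_card_fibre K n hn.ne']

theorem an_summable_sigma (s : ℝ) (hs : 1 < s) :
    Summable (fun p : (Σ n : ℕ, {I : (Ideal (𝓞 K))⁰ // Ideal.absNorm (I : Ideal (𝓞 K)) = n}) =>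
      an_x K s ((p.2.1 : (Ideal (𝓞 K))⁰) : Ideal (𝓞 K))) := by
  rw [summable_sigma_of_nonneg (fun _ => an_x_nonneg s _)]
  refine ⟨fun n => Summable.of_finite, ?_⟩
  exact (an_term_summable K s hs).congr (fun n => (an_fibre_sum K s (by linarith) n).symm)

theorem an_summable (s : ℝ) (hs : 1 < s) :
    Summable (fun I : (Ideal (𝓞 K))⁰ => an_x K s I) :=
  (Equiv.sigmaFiberEquiv
    (fun I : (Ideal (𝓞 K))⁰ => Ideal.absNorm (I : Ideal (𝓞 K)))).summable_iff.mp
    (an_summable_sigma K s hs)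

theorem an_tsum_eq (s : ℝ) (hs : 1 < s) :
    ∑' I : (Ideal (𝓞 K))⁰, an_x K s I = ∑' n, an_term K s n := by
  have h1 : ∑' I : (Ideal (𝓞 K))⁰, an_x K s I =
      ∑' p : (Σ n : ℕ, {I : (Ideal (𝓞 K))⁰ // Ideal.absNorm (I : Ideal (𝓞 K)) = n}),
        an_x K s ((p.2.1 : (Ideal (𝓞 K))⁰) : Ideal (𝓞 K)) :=
    ((Equiv.sigmaFiberEquiv (fun I : (Ideal (𝓞 K))⁰ => Ideal.absNorm (I : Ideal (𝓞 K)))).tsum_eq
      (fun I : (Ideal (𝓞 K))⁰ => an_x K s I)).symm
  rw [h1, (an_summable_sigma K s hs).tsum_sigma' (fun n => Summable.of_finite)]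
  exact tsum_congr (fun n => an_fibre_sum K s (by linarith) n)

theorem an_tendsto_Z :
    Tendsto (fun s : ℝ => (s - 1) * ∑' I : (Ideal (𝓞 K))⁰, an_x K s I) (𝓝[>] 1)
      (𝓝 (dedekindZeta_residue K)) := by
  have h := tendsto_sub_one_mul_dedekindZeta_nhdsGT K
  have h2 : Tendsto (fun s : ℝ => (((s - 1) * ∑' I : (Ideal (𝓞 K))⁰, an_x K s I : ℝ) : ℂ))
      (𝓝[>] 1) (𝓝 ((dedekindZeta_residue K : ℝ) : ℂ)) := by
    refine h.congr' ?_
    filter_upwards [self_mem_nhdsWithin] with s hs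
    rw [an_dedekindZeta_eq K s hs, an_tsum_eq K s hs]
    push_cast
    ring
  have h3 : Tendsto (fun s : ℝ =>
      Complex.re (((s - 1) * ∑' I : (Ideal (𝓞 K))⁰, an_x K s I : ℝ) : ℂ)) (𝓝[>] 1)
      (𝓝 (Complex.re ((dedekindZeta_residue K : ℝ) : ℂ))) :=
    (Complex.continuous_re.tendsto _).comp h2
  simpa only [Complex.ofReal_re] using h3

theorem an_zeta_bounds : ∃ c C δ : ℝ, 0 < c ∧ 0 < C ∧ 0 < δ ∧ ∀ s : ℝ, 1 < s → s < 1 + δ →
    c / (s - 1) ≤ ∑' I : (Ideal (𝓞 K))⁰, an_x K s I ∧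
      ∑' I : (Ideal (𝓞 K))⁰, an_x K s I ≤ C / (s - 1) := by
  have hρ := dedekindZeta_residue_pos K
  set ρ := dedekindZeta_residue K with hρdef
  have h := (an_tendsto_Z K).eventually (Ioo_mem_nhds (show ρ / 2 < ρ by linarith)
    (show ρ < 2 * ρ by linarith))
  rw [eventually_nhdsWithin_iff, Metric.eventually_nhds_iff] at h
  obtain ⟨δ, hδ, hδ'⟩ := h
  refine ⟨ρ / 2, 2 * ρ, δ, by linarith, by linarith, hδ, fun s hs1 hs2 => ?_⟩
  have h1 := hδ' (y := s) (by rw [Real.dist_eq, abs_lt]; constructor <;> linarith) hs1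
  have hpos : 0 < s - 1 := by linarith
  constructor
  · rw [div_le_iff₀ hpos]
    linarith [h1.1]
  · rw [le_div_iff₀ hpos]
    linarith [h1.2]

end Fermat.Agent.S14
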