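import Mathlib
import Fermat.Prelude.Def_ExtCitation_AdmissibleExtension_v2

set_option autoImplicit false

/-!
# S14 (ExtVanishingCts): shared definitions and interfaces

Route (class-field-theory free): Kummer theory + Thaine's relation + a density argument.
See the team finding `NEXT-PROJECT-5` for the blueprint.  This file only fixes notation.
-/

namespace Fermat.Agent.S14

open NumberField

instance neZeroOfFactPrime (p : ℕ) [h : Fact p.Prime] : NeZero p := ⟨h.out.ne_zero⟩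

/-- The `p`-th cyclotomic field `ℚ(ζ_p)`. -/
abbrev K (p : ℕ) [Fact p.Prime] : Type := CyclotomicField p ℚ

variable (p : ℕ) [Fact p.Prime]

instance isCyclotomicExtension_K : IsCyclotomicExtension {p} ℚ (K p) :=
  CyclotomicField.isCyclotomicExtension p ℚ

/-- The chosen primitive `p`-th root of unity of `K p`. -/
noncomputable def zeta : K p := IsCyclotomicExtension.zeta p ℚ (K p)

theorem zeta_spec : IsPrimitiveRoot (zeta p) p :=
  IsCyclotomicExtension.zeta_spec p ℚ (K p)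

/-- `ζ` as an algebraic integer. -/
noncomputable def zetaO : 𝓞 (K p) := (zeta_spec p).toInteger

theorem coe_zetaO : ((zetaO p : 𝓞 (K p)) : K p) = zeta p := rfl

/-- The ring automorphism of `𝓞 (K p)` induced by `σ ∈ Gal(K/ℚ)`. -/
noncomputable def sigO (σ : K p ≃ₐ[ℚ] K p) : 𝓞 (K p) ≃ₐ[ℤ] 𝓞 (K p) :=
  galRestrict ℤ ℚ (K p) (𝓞 (K p)) σ

theorem coe_sigO (σ : K p ≃ₐ[ℚ] K p) (x : 𝓞 (K p)) :
    ((sigO p σ x : 𝓞 (K p)) : K p) = σ (x : K p) :=
  algebraMap_galRestrict_apply ℤ σ x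

/-- Exponents `mexp b ≡ b⁻² (mod p)` (for `p ∤ b`, `p ≥ 5`). -/
def mexp (b : ℕ) : ℕ := (b ^ (p - 3)) % p

/-- Thaine's element `η = ∏_{b=1}^{p-1} (1 - ζ^b)^{mexp b}`: the `ω²`-projection of the cyclotomic
`p`-unit `1 - ζ` (an algebraic integer, a unit away from `λ = 1 - ζ`). -/
noncomputable def eta : 𝓞 (K p) := ∏ b ∈ Finset.Ico 1 p, (1 - zetaO p ^ b) ^ mexp p b

/-- **Output of work package T1.** `α ∈ K` is a "singular primary number in the `ω²`-eigenspace":
not a `p`-th power, an `ω²`-eigenvector modulo `p`-th powers, generating the `p`-th power of a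
fractional ideal, and "locally a `p`-th power at `λ`" in the weak form needed for the unit case. -/
structure KummerDatum (α : K p) : Prop where
  ne_zero : α ≠ 0
  not_pow : ¬ ∃ γ : K p, α = γ ^ p
  eigen : ∀ (σ : K p ≃ₐ[ℚ] K p) (a : ℕ), σ (zeta p) = zeta p ^ a →
    ∃ γ : K p, σ α = α ^ (a ^ 2) * γ ^ p
  ideal_pow : ∃ 𝔞 : FractionalIdeal (nonZeroDivisors (𝓞 (K p))) (K p),
    FractionalIdeal.spanSingleton (nonZeroDivisors (𝓞 (K p))) α = 𝔞 ^ p
  local_pow : ∀ (u : (𝓞 (K p))ˣ) (j : ℕ) (γ : K p), ¬ p ∣ j →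
    ((u : 𝓞 (K p)) : K p) = α ^ j * γ ^ p →
    ∃ m : ℤ, ((u : 𝓞 (K p)) - (m : 𝓞 (K p))) ∈ Ideal.span {(1 - zetaO p) ^ 3}

/-- An additive character of the ideal class group of `K p` with values in `ℤ/p`, presented on
nonzero integral ideals, lying in the `ω²`-eigenspace for the Galois action. -/
structure EigenChar where
  f : Ideal (𝓞 (K p)) → ZMod p
  map_mul : ∀ I J : Ideal (𝓞 (K p)), I ≠ ⊥ → J ≠ ⊥ → f (I * J) = f I + f J
  map_span : ∀ x : 𝓞 (K p), x ≠ 0 → f (Ideal.span {x}) = 0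
  eigen : ∀ (σ : K p ≃ₐ[ℚ] K p) (a : ℕ), σ (zeta p) = zeta p ^ a →
    ∀ I : Ideal (𝓞 (K p)), I ≠ ⊥ → f (I.map (sigO p σ)) = (a : ZMod p) ^ 2 * f I

end Fermat.Agent.S14
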