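import Fermat.Agent.S14.Defs

set_option autoImplicit false

/-!
# S14: the `ω²`-eigen-character of the class group attached to a non-principal Kummer datum
-/

namespace Fermat.Agent.S14

open NumberField

section Abstract

theorem eig_exists_dual {Q : Type*} [AddCommGroup Q] (p : ℕ) [hp : Fact p.Prime]
    [Module (ZMod p) Q] (q : Q) (hq : q ≠ 0) : ∃ ψ : Q →+ ZMod p, ψ q ≠ 0 := by
  by_contra hcon
  simp only [not_exists, not_not] at hcon
  refine hq ((Module.forall_dual_apply_eq_zero_iff (ZMod p) q).mp fun ψ => ?_)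
  exact hcon ψ.toAddMonoidHom

/-- Abstract linear algebra: if an endomorphism `T` of a finite abelian group has an eigenvector of
order `p` with eigenvalue `c`, then there is a nonzero `ℤ/p`-valued functional `φ` with
`φ ∘ T = c • φ`. -/
theorem eig_exists_functional {A : Type*} [AddCommGroup A] [Finite A] (p : ℕ) [hp : Fact p.Prime]
    (T : A →+ A) (c : ℕ) (x : A) (hx : x ≠ 0) (hpx : p • x = 0) (hT : T x = c • x) :
    ∃ φ : A →+ ZMod p, (∃ y, φ y ≠ 0) ∧ ∀ y, φ (T y) = (c : ZMod p) * φ y := by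
  classical
  -- `D = T - c`
  let D : A →+ A := T - nsmulAddMonoidHom c
  have hDapp : ∀ y, D y = T y - c • y := fun y => rfl
  have hDx : D x = 0 := by rw [hDapp, hT, sub_self]
  let B : AddSubgroup A := D.range ⊔ (nsmulAddMonoidHom (α := A) p).range
  have hDB : ∀ y, D y ∈ B := fun y => AddSubgroup.mem_sup_left ⟨y, rfl⟩
  have hpB : ∀ y : A, p • y ∈ B := fun y => AddSubgroup.mem_sup_right ⟨y, rfl⟩
  have hB : B ≠ ⊤ := by
    intro htop
    have h1 : ∀ k : ℕ, ∀ y : A, ∃ u v : A, y = D u + p ^ k • v := by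
      intro k
      induction k with
      | zero => intro y; exact ⟨0, y, by simp⟩
      | succ k ih =>
        intro y
        obtain ⟨u, v, rfl⟩ := ih y
        have hv : v ∈ B := htop ▸ AddSubgroup.mem_top v
        obtain ⟨a, ⟨u', rfl⟩, b, ⟨v', rfl⟩, rfl⟩ := AddSubgroup.mem_sup.mp hv
        refine ⟨u + p ^ k • u', v', ?_⟩
        simp only [map_add, map_nsmul, nsmulAddMonoidHom_apply, smul_add, pow_succ, mul_smul]
        abel
    obtain ⟨N, h', hh', hcard⟩ : ∃ N h', ¬ p ∣ h' ∧ Nat.card A = p ^ N * h' :=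
      Nat.exists_eq_pow_mul_and_not_dvd Nat.card_pos.ne' p hp.out.ne_one
    let M : AddSubgroup A := (nsmulAddMonoidHom (α := A) h').range
    have hDM : ∀ m : M, D m ∈ M := by
      rintro ⟨m, y, rfl⟩
      exact ⟨D y, by simp [map_nsmul]⟩
    let Dm : M → M := fun m => ⟨D m, hDM m⟩
    have hsurj : Function.Surjective Dm := by
      rintro ⟨m, y, rfl⟩
      obtain ⟨u, v, rfl⟩ := h1 N y
      refine ⟨⟨h' • u, ⟨u, rfl⟩⟩, ?_⟩
      apply Subtype.ext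
      have hv : h' • p ^ N • v = 0 := by
        rw [← mul_smul, mul_comm, ← hcard]
        exact card_nsmul_eq_zero'
      simp only [Dm, nsmulAddMonoidHom_apply, smul_add, map_nsmul, hv, add_zero]
    have hinj : Function.Injective Dm := Finite.injective_iff_surjective.mpr hsurj
    have hxM : x ∈ M := by
      have hcop : IsCoprime (h' : ℤ) (p : ℤ) :=
        Nat.isCoprime_iff_coprime.mpr ((Nat.Prime.coprime_iff_not_dvd hp.out).mpr hh').symm
      obtain ⟨a, b, hab⟩ := hcop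
      refine ⟨a • x, ?_⟩
      have h3 : ((b * p : ℤ)) • x = 0 := by
        rw [mul_smul]
        have : ((p : ℤ)) • x = 0 := by exact_mod_cast hpx
        rw [this, smul_zero]
      have h2 : (a * h' + b * p) • x = x := by rw [hab, one_smul]
      rw [add_smul, h3, add_zero, mul_comm, mul_smul] at h2
      show h' • (a • x) = x
      rw [← natCast_zsmul]
      exact h2
    have h0 : Dm ⟨x, hxM⟩ = Dm 0 := by
      apply Subtype.ext
      simp [Dm, hDx]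
    exact hx (congrArg Subtype.val (hinj h0))
  -- the quotient `A ⧸ B` is a nonzero `𝔽_p`-vector space
  have hQ : ∀ q : A ⧸ B, p • q = 0 := by
    intro q
    induction q using QuotientAddGroup.induction_on with
    | H y =>
      rw [← QuotientAddGroup.mk_nsmul]
      exact (QuotientAddGroup.eq_zero_iff _).mpr (hpB y)
  obtain ⟨y, hy⟩ : ∃ y : A, y ∉ B := by
    by_contra hcon
    simp only [not_exists, not_not] at hcon
    exact hB (eq_top_iff.mpr fun y _ => hcon y)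
  have hy' : (QuotientAddGroup.mk y : A ⧸ B) ≠ 0 := fun h => hy ((QuotientAddGroup.eq_zero_iff _).mp h)
  obtain ⟨ψ, hψ⟩ : ∃ ψ : (A ⧸ B) →+ ZMod p, ψ (QuotientAddGroup.mk y : A ⧸ B) ≠ 0 :=
    @eig_exists_dual (A ⧸ B) _ p _ (AddCommGroup.zmodModule hQ) _ hy'
  refine ⟨ψ.comp (QuotientAddGroup.mk' B), ⟨y, hψ⟩, ?_⟩
  intro z
  have hz : T z = D z + c • z := by rw [hDapp]; abel
  have hDz : (QuotientAddGroup.mk' B) (D z) = 0 := (QuotientAddGroup.eq_zero_iff _).mpr (hDB z)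
  simp only [AddMonoidHom.comp_apply, hz, map_add, hDz, map_zero, zero_add, map_nsmul,
    nsmul_eq_mul]

end Abstract

section ClassAction

variable (p : ℕ) [Fact p.Prime]

theorem eig_map_ne_bot (σ : K p ≃ₐ[ℚ] K p) {I : Ideal (𝓞 (K p))} (hI : I ≠ ⊥) :
    I.map (sigO p σ) ≠ ⊥ := by
  rw [Ne, Ideal.map_eq_bot_iff_of_injective (sigO p σ).injective]
  exact hI

theorem eig_mem_nzd {I : Ideal (𝓞 (K p))} (hI : I ≠ ⊥) : I ∈ nonZeroDivisors (Ideal (𝓞 (K p))) :=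
  mem_nonZeroDivisors_iff_ne_zero.mpr hI

theorem eig_ne_bot (I : nonZeroDivisors (Ideal (𝓞 (K p)))) : (I : Ideal (𝓞 (K p))) ≠ ⊥ :=
  mem_nonZeroDivisors_iff_ne_zero.mp I.2

/-- The image of a nonzero ideal under `σ`. -/
noncomputable def eig_mapI (σ : K p ≃ₐ[ℚ] K p) (I : nonZeroDivisors (Ideal (𝓞 (K p)))) :
    nonZeroDivisors (Ideal (𝓞 (K p))) :=
  ⟨(I : Ideal (𝓞 (K p))).map (sigO p σ), eig_mem_nzd p (eig_map_ne_bot p σ (eig_ne_bot p I))⟩

theorem eig_mk0_congr (σ : K p ≃ₐ[ℚ] K p) {I J : nonZeroDivisors (Ideal (𝓞 (K p)))}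
    (h : ClassGroup.mk0 I = ClassGroup.mk0 J) :
    ClassGroup.mk0 (eig_mapI p σ I) = ClassGroup.mk0 (eig_mapI p σ J) := by
  rw [ClassGroup.mk0_eq_mk0_iff] at h ⊢
  obtain ⟨x, y, hx, hy, hxy⟩ := h
  refine ⟨sigO p σ x, sigO p σ y, by simpa using hx, by simpa using hy, ?_⟩
  have := congrArg (Ideal.map (sigO p σ)) hxy
  simpa [Ideal.map_mul, Ideal.map_span, eig_mapI] using this

theorem eig_mapI_mul (σ : K p ≃ₐ[ℚ] K p) (I J : nonZeroDivisors (Ideal (𝓞 (K p)))) :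
    eig_mapI p σ (I * J) = eig_mapI p σ I * eig_mapI p σ J := by
  apply Subtype.ext
  simp [eig_mapI, Ideal.map_mul]

theorem eig_mapI_one (σ : K p ≃ₐ[ℚ] K p) : eig_mapI p σ 1 = 1 := by
  apply Subtype.ext
  simp [eig_mapI, Ideal.one_eq_top, Ideal.map_top]

/-- The map induced by `σ` on the class group, as a function. -/
noncomputable def eig_clFun (σ : K p ≃ₐ[ℚ] K p) (x : ClassGroup (𝓞 (K p))) :
    ClassGroup (𝓞 (K p)) :=
  ClassGroup.mk0 (eig_mapI p σ (Function.surjInv ClassGroup.mk0_surjective x))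

theorem eig_clFun_mk0 (σ : K p ≃ₐ[ℚ] K p) (I : nonZeroDivisors (Ideal (𝓞 (K p)))) :
    eig_clFun p σ (ClassGroup.mk0 I) = ClassGroup.mk0 (eig_mapI p σ I) :=
  eig_mk0_congr p σ (Function.surjInv_eq ClassGroup.mk0_surjective _)

/-- The endomorphism of the class group induced by `σ`. -/
noncomputable def eig_clMap (σ : K p ≃ₐ[ℚ] K p) :
    ClassGroup (𝓞 (K p)) →* ClassGroup (𝓞 (K p)) where
  toFun := eig_clFun p σ
  map_one' := by
    have h := eig_clFun_mk0 p σ 1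
    rw [map_one, eig_mapI_one, map_one] at h
    exact h
  map_mul' := by
    intro x y
    obtain ⟨I, rfl⟩ := ClassGroup.mk0_surjective x
    obtain ⟨J, rfl⟩ := ClassGroup.mk0_surjective y
    rw [← map_mul, eig_clFun_mk0, eig_clFun_mk0, eig_clFun_mk0, eig_mapI_mul, map_mul]

theorem eig_clMap_mk0 (σ : K p ≃ₐ[ℚ] K p) (I : nonZeroDivisors (Ideal (𝓞 (K p)))) :
    eig_clMap p σ (ClassGroup.mk0 I) = ClassGroup.mk0 (eig_mapI p σ I) :=
  eig_clFun_mk0 p σ I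

/-- Reduction to an integral ideal. -/
theorem eig_integral (α : K p) (hα0 : α ≠ 0)
    (𝔞 : FractionalIdeal (nonZeroDivisors (𝓞 (K p))) (K p))
    (h𝔞 : FractionalIdeal.spanSingleton (nonZeroDivisors (𝓞 (K p))) α = 𝔞 ^ p)
    (hnp : ¬ ∃ a : K p, 𝔞 = FractionalIdeal.spanSingleton (nonZeroDivisors (𝓞 (K p))) a) :
    ∃ (d β : 𝓞 (K p)) (I : Ideal (𝓞 (K p))), d ≠ 0 ∧ I ≠ ⊥ ∧ ¬ I.IsPrincipal ∧
      (β : K p) = (d : K p) ^ p * α ∧ I ^ p = Ideal.span {β} := by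
  have hp0 : p ≠ 0 := (Fact.out : p.Prime).ne_zero
  obtain ⟨d, I, hd, h𝔞I⟩ := FractionalIdeal.exists_eq_spanSingleton_mul 𝔞
  have hdK : (algebraMap (𝓞 (K p)) (K p) d) ≠ 0 := by
    simpa using hd
  have hI1 : (I : FractionalIdeal (nonZeroDivisors (𝓞 (K p))) (K p)) =
      FractionalIdeal.spanSingleton (nonZeroDivisors (𝓞 (K p))) (algebraMap (𝓞 (K p)) (K p) d) * 𝔞 := by
    rw [h𝔞I, ← mul_assoc, FractionalIdeal.spanSingleton_mul_spanSingleton, mul_inv_cancel₀ hdK,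
      FractionalIdeal.spanSingleton_one, one_mul]
  have hIp : ((I ^ p : Ideal (𝓞 (K p))) : FractionalIdeal (nonZeroDivisors (𝓞 (K p))) (K p)) =
      FractionalIdeal.spanSingleton (nonZeroDivisors (𝓞 (K p)))
        ((algebraMap (𝓞 (K p)) (K p) d) ^ p * α) := by
    rw [FractionalIdeal.coeIdeal_pow, hI1, mul_pow, ← h𝔞, FractionalIdeal.spanSingleton_pow,
      FractionalIdeal.spanSingleton_mul_spanSingleton]
  have hmem : (algebraMap (𝓞 (K p)) (K p) d) ^ p * α ∈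
      ((I ^ p : Ideal (𝓞 (K p))) : FractionalIdeal (nonZeroDivisors (𝓞 (K p))) (K p)) := by
    rw [hIp]
    exact FractionalIdeal.mem_spanSingleton_self _ _
  obtain ⟨β, hβI, hβ⟩ := (FractionalIdeal.mem_coeIdeal _).mp hmem
  have hIpβ : I ^ p = Ideal.span {β} := by
    apply FractionalIdeal.coeIdeal_injective (K := K p)
    show ((I ^ p : Ideal (𝓞 (K p))) : FractionalIdeal (nonZeroDivisors (𝓞 (K p))) (K p)) =
      ((Ideal.span {β} : Ideal (𝓞 (K p))) : FractionalIdeal (nonZeroDivisors (𝓞 (K p))) (K p))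
    rw [hIp, FractionalIdeal.coeIdeal_span_singleton, hβ]
  have hβ0 : β ≠ 0 := by
    rintro rfl
    rw [map_zero] at hβ
    exact (mul_ne_zero (pow_ne_zero p hdK) hα0) hβ.symm
  refine ⟨d, β, I, hd, ?_, ?_, hβ, hIpβ⟩
  · rintro rfl
    rw [Ideal.bot_pow hp0] at hIpβ
    exact hβ0 (Ideal.span_singleton_eq_bot.mp hIpβ.symm)
  · intro hprin
    obtain ⟨y, hy⟩ := hprin.principal
    apply hnp
    refine ⟨(algebraMap (𝓞 (K p)) (K p) d)⁻¹ * algebraMap (𝓞 (K p)) (K p) y, ?_⟩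
    rw [h𝔞I, hy, ← FractionalIdeal.spanSingleton_mul_spanSingleton]
    congr 1
    exact FractionalIdeal.coeIdeal_span_singleton y

/-- The class of `σ I` is the `n`-th power of the class of `I` when `I ^ p = (β)` and
`σ β = β ^ n * γ ^ p`. -/
theorem eig_class_rel (β : 𝓞 (K p)) (hβ : β ≠ 0) (I : Ideal (𝓞 (K p))) (hI : I ≠ ⊥)
    (hIp : I ^ p = Ideal.span {β}) (σ : K p ≃ₐ[ℚ] K p) (n : ℕ) (γ : K p)
    (h : σ (β : K p) = (β : K p) ^ n * γ ^ p) :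
    ClassGroup.mk0 (eig_mapI p σ ⟨I, eig_mem_nzd p hI⟩) =
      ClassGroup.mk0 ⟨I, eig_mem_nzd p hI⟩ ^ n := by
  have hp0 : p ≠ 0 := (Fact.out : p.Prime).ne_zero
  obtain ⟨γ₁, γ₂, hγ₂, hγ⟩ := IsFractionRing.div_surjective (𝓞 (K p)) γ
  have hγ₂0 : γ₂ ≠ 0 := nonZeroDivisors.ne_zero hγ₂
  have hγ₂K : (algebraMap (𝓞 (K p)) (K p) γ₂) ≠ 0 := by simpa using hγ₂0
  have h1 : algebraMap (𝓞 (K p)) (K p) (sigO p σ β) = σ (algebraMap (𝓞 (K p)) (K p) β) :=
    coe_sigO p σ β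
  have h' : σ (algebraMap (𝓞 (K p)) (K p) β) = (algebraMap (𝓞 (K p)) (K p) β) ^ n * γ ^ p := h
  have hrel : γ₂ ^ p * sigO p σ β = β ^ n * γ₁ ^ p := by
    apply FaithfulSMul.algebraMap_injective (𝓞 (K p)) (K p)
    rw [map_mul, map_mul, map_pow, map_pow, map_pow, h1, h', ← hγ, div_pow]
    have hγ₂p : (algebraMap (𝓞 (K p)) (K p) γ₂) ^ p ≠ 0 := pow_ne_zero p hγ₂K
    field_simp
  have hσβ : sigO p σ β ≠ 0 := by simpa using hβ
  have hγ₁0 : γ₁ ≠ 0 := by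
    rintro rfl
    rw [zero_pow hp0, mul_zero] at hrel
    exact (mul_ne_zero (pow_ne_zero p hγ₂0) hσβ) hrel
  have hpow : (Ideal.span {γ₂} * I.map (sigO p σ)) ^ p = (Ideal.span {γ₁} * I ^ n) ^ p := by
    rw [mul_pow, mul_pow, ← Ideal.map_pow, hIp, ← pow_mul, mul_comm n p, pow_mul, hIp,
      Ideal.map_span, Set.image_singleton, Ideal.span_singleton_pow, Ideal.span_singleton_pow,
      Ideal.span_singleton_pow, Ideal.span_singleton_mul_span_singleton,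
      Ideal.span_singleton_mul_span_singleton, hrel, mul_comm]
  have heq : Ideal.span {γ₂} * I.map (sigO p σ) = Ideal.span {γ₁} * I ^ n := by
    apply dvd_antisymm
    · exact (UniqueFactorizationMonoid.pow_dvd_pow_iff_dvd hp0).mp (dvd_of_eq hpow)
    · exact (UniqueFactorizationMonoid.pow_dvd_pow_iff_dvd hp0).mp (dvd_of_eq hpow.symm)
  rw [← map_pow]
  rw [ClassGroup.mk0_eq_mk0_iff]
  exact ⟨γ₂, γ₁, hγ₂0, hγ₁0, by simpa [eig_mapI] using heq⟩

theorem eig_isCyclic : IsCyclic (K p ≃ₐ[ℚ] K p) := by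
  have e := IsCyclotomicExtension.autEquivPow (K p)
    (Polynomial.cyclotomic.irreducible_rat (Fact.out : p.Prime).pos)
  exact isCyclic_of_surjective e.symm e.symm.surjective

theorem eig_zeta_pow_inj {a b : ℕ} (h : zeta p ^ a = zeta p ^ b) : (a : ZMod p) = (b : ZMod p) := by
  have hp : p.Prime := Fact.out
  have h1 := (zeta_spec p).pow_eq_one
  rw [pow_eq_pow_mod a h1, pow_eq_pow_mod b h1] at h
  have := (zeta_spec p).pow_inj (Nat.mod_lt _ hp.pos) (Nat.mod_lt _ hp.pos) h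
  exact (ZMod.natCast_eq_natCast_iff' a b p).mpr this

theorem eig_map_mul (σ τ : K p ≃ₐ[ℚ] K p) (J : Ideal (𝓞 (K p))) :
    J.map (sigO p (σ * τ)) = (J.map (sigO p τ)).map (sigO p σ) := by
  have h : sigO p (σ * τ) = sigO p σ * sigO p τ :=
    map_mul (galRestrict ℤ ℚ (K p) (𝓞 (K p))) σ τ
  rw [h]
  show Ideal.map ((sigO p σ * sigO p τ : 𝓞 (K p) ≃ₐ[ℤ] 𝓞 (K p)) : 𝓞 (K p) →+* 𝓞 (K p)) J =
    Ideal.map ((sigO p σ : 𝓞 (K p) ≃ₐ[ℤ] 𝓞 (K p)) : 𝓞 (K p) →+* 𝓞 (K p))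
      (Ideal.map ((sigO p τ : 𝓞 (K p) ≃ₐ[ℤ] 𝓞 (K p)) : 𝓞 (K p) →+* 𝓞 (K p)) J)
  rw [Ideal.map_map]
  rfl

theorem eig_map_one (J : Ideal (𝓞 (K p))) : J.map (sigO p 1) = J := by
  have h : sigO p 1 = 1 := map_one (galRestrict ℤ ℚ (K p) (𝓞 (K p)))
  rw [h]
  show Ideal.map (RingHom.id (𝓞 (K p))) J = J
  exact Ideal.map_id J

theorem eig_pow_zeta (τ : K p ≃ₐ[ℚ] K p) (g : ℕ) (hg : τ (zeta p) = zeta p ^ g) (i : ℕ) :
    (τ ^ i) (zeta p) = zeta p ^ (g ^ i) := by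
  induction i with
  | zero => simp
  | succ i ih =>
    rw [pow_succ', AlgEquiv.mul_apply, ih, map_pow, hg, ← pow_mul, pow_succ']

/-- **The eigen-character.** If `(α) = 𝔞 ^ p` with `𝔞` not principal and `α` is an
`ω²`-eigenvector modulo `p`-th powers, there is a nonzero `ω²`-eigen-character of the class
group. -/
theorem exists_eigenChar (α : K p) (hα0 : α ≠ 0)
    (heig : ∀ (σ : K p ≃ₐ[ℚ] K p) (a : ℕ), σ (zeta p) = zeta p ^ a →
      ∃ γ : K p, σ α = α ^ (a ^ 2) * γ ^ p)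
    (𝔞 : FractionalIdeal (nonZeroDivisors (𝓞 (K p))) (K p))
    (h𝔞 : FractionalIdeal.spanSingleton (nonZeroDivisors (𝓞 (K p))) α = 𝔞 ^ p)
    (hnp : ¬ ∃ a : K p, 𝔞 = FractionalIdeal.spanSingleton (nonZeroDivisors (𝓞 (K p))) a) :
    ∃ χ : EigenChar p, ∃ I : Ideal (𝓞 (K p)), I ≠ ⊥ ∧ χ.f I ≠ 0 := by
  classical
  have hp0 : p ≠ 0 := (Fact.out : p.Prime).ne_zero
  obtain ⟨d, β, I, hd, hI, hIprin, hβ, hIp⟩ := eig_integral p α hα0 𝔞 h𝔞 hnp
  have hdK : (d : K p) ≠ 0 := by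
    have : (algebraMap (𝓞 (K p)) (K p) d) ≠ 0 := by simpa using hd
    exact this
  have hβ0 : β ≠ 0 := by
    rintro rfl
    have h0 : (0 : K p) = (d : K p) ^ p * α := hβ
    exact (mul_ne_zero (pow_ne_zero p hdK) hα0) h0.symm
  -- eigen relation for `β`
  have hβeig : ∀ (σ : K p ≃ₐ[ℚ] K p) (a : ℕ), σ (zeta p) = zeta p ^ a →
      ∃ γ : K p, σ (β : K p) = (β : K p) ^ (a ^ 2) * γ ^ p := by
    intro σ a hσ
    obtain ⟨γ₀, hγ₀⟩ := heig σ a hσ
    refine ⟨σ (d : K p) * γ₀ * ((d : K p))⁻¹ ^ (a ^ 2), ?_⟩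
    rw [hβ, map_mul, map_pow, hγ₀]
    have h1 : ((d : K p) ^ p) ^ (a ^ 2) * (((d : K p))⁻¹ ^ (a ^ 2)) ^ p = 1 := by
      rw [← pow_mul, ← pow_mul, mul_comm (a ^ 2) p, ← mul_pow, mul_inv_cancel₀ hdK, one_pow]
    calc σ (d : K p) ^ p * (α ^ a ^ 2 * γ₀ ^ p)
        = (σ (d : K p) ^ p * (α ^ a ^ 2 * γ₀ ^ p)) *
          (((d : K p) ^ p) ^ (a ^ 2) * (((d : K p))⁻¹ ^ (a ^ 2)) ^ p) := by rw [h1, mul_one]
      _ = _ := by ring
  -- a generator of the Galois group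
  have := eig_isCyclic p
  obtain ⟨τ, hτ⟩ := IsCyclic.exists_monoid_generator (α := K p ≃ₐ[ℚ] K p)
  obtain ⟨g, -, hg⟩ := (zeta_spec p).eq_pow_of_pow_eq_one (ξ := τ (zeta p))
    (by rw [← map_pow, (zeta_spec p).pow_eq_one, map_one])
  -- the class of `I`
  let x : Additive (ClassGroup (𝓞 (K p))) :=
    Additive.ofMul (ClassGroup.mk0 ⟨I, eig_mem_nzd p hI⟩)
  have hx : x ≠ 0 := by
    intro h
    exact hIprin ((ClassGroup.mk0_eq_one_iff (eig_mem_nzd p hI)).mp h)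
  have hpx : p • x = 0 := by
    show Additive.ofMul ((ClassGroup.mk0 ⟨I, eig_mem_nzd p hI⟩) ^ p) = Additive.ofMul 1
    congr 1
    rw [← map_pow]
    have hmem : (Ideal.span {β} : Ideal (𝓞 (K p))) ∈ nonZeroDivisors (Ideal (𝓞 (K p))) :=
      eig_mem_nzd p (by simpa using hβ0)
    have h1 : (⟨I, eig_mem_nzd p hI⟩ : nonZeroDivisors (Ideal (𝓞 (K p)))) ^ p =
        ⟨Ideal.span {β}, hmem⟩ := Subtype.ext (by simpa using hIp)
    rw [h1, ClassGroup.mk0_eq_one_iff]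
    exact ⟨⟨β, rfl⟩⟩
  obtain ⟨γτ, hγτ⟩ := hβeig τ g hg.symm
  have hTx : (MonoidHom.toAdditive (eig_clMap p τ)) x = (g ^ 2) • x := by
    show Additive.ofMul (eig_clMap p τ (ClassGroup.mk0 ⟨I, eig_mem_nzd p hI⟩)) =
      Additive.ofMul ((ClassGroup.mk0 ⟨I, eig_mem_nzd p hI⟩) ^ (g ^ 2))
    rw [eig_clMap_mk0, eig_class_rel p β hβ0 I hI hIp τ (g ^ 2) γτ hγτ]
  obtain ⟨φ, ⟨y, hy⟩, hφ⟩ :=
    eig_exists_functional p (MonoidHom.toAdditive (eig_clMap p τ)) (g ^ 2) x hx hpx hTx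
  -- the character on ideals
  let f : Ideal (𝓞 (K p)) → ZMod p := fun J =>
    if h : J = ⊥ then 0 else φ (Additive.ofMul (ClassGroup.mk0 ⟨J, eig_mem_nzd p h⟩))
  have hf : ∀ (J : Ideal (𝓞 (K p))) (h : J ≠ ⊥),
      f J = φ (Additive.ofMul (ClassGroup.mk0 ⟨J, eig_mem_nzd p h⟩)) := fun J h => dif_neg h
  have hτf : ∀ J : Ideal (𝓞 (K p)), J ≠ ⊥ →
      f (J.map (sigO p τ)) = ((g : ZMod p) ^ 2) * f J := by
    intro J hJ
    rw [hf _ (eig_map_ne_bot p τ hJ), hf _ hJ]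
    have := hφ (Additive.ofMul (ClassGroup.mk0 ⟨J, eig_mem_nzd p hJ⟩))
    rw [← Nat.cast_pow, ← this]
    congr 1
    show Additive.ofMul _ = Additive.ofMul (eig_clMap p τ (ClassGroup.mk0 ⟨J, eig_mem_nzd p hJ⟩))
    rw [eig_clMap_mk0]
    rfl
  have hpow : ∀ (i : ℕ) (J : Ideal (𝓞 (K p))), J ≠ ⊥ →
      f (J.map (sigO p (τ ^ i))) = ((g : ZMod p) ^ 2) ^ i * f J := by
    intro i
    induction i with
    | zero =>
      intro J hJ
      rw [pow_zero, eig_map_one, pow_zero, one_mul]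
    | succ i ih =>
      intro J hJ
      rw [show τ ^ (i + 1) = τ * τ ^ i from pow_succ' τ i, eig_map_mul,
        hτf _ (eig_map_ne_bot p _ hJ), ih J hJ]
      ring
  refine ⟨⟨f, ?_, ?_, ?_⟩, ?_⟩
  · intro J₁ J₂ h₁ h₂
    have hmul : ClassGroup.mk0 ⟨J₁ * J₂, eig_mem_nzd p (mul_ne_zero h₁ h₂)⟩ =
        ClassGroup.mk0 ⟨J₁, eig_mem_nzd p h₁⟩ * ClassGroup.mk0 ⟨J₂, eig_mem_nzd p h₂⟩ := by
      rw [← map_mul]
      rfl
    rw [hf _ h₁, hf _ h₂, hf _ (mul_ne_zero h₁ h₂), hmul, ofMul_mul, map_add]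
  · intro z hz
    have hne : (Ideal.span {z} : Ideal (𝓞 (K p))) ≠ ⊥ := by simpa using hz
    rw [hf _ hne]
    have h1 : ClassGroup.mk0 ⟨Ideal.span {z}, eig_mem_nzd p hne⟩ = 1 :=
      (ClassGroup.mk0_eq_one_iff _).mpr ⟨⟨z, rfl⟩⟩
    rw [h1]
    exact map_zero φ
  · intro σ a hσ J hJ
    obtain ⟨i, rfl⟩ := (Submonoid.mem_powers_iff _ _).mp (hτ σ)
    rw [hpow i J hJ]
    have h1 := eig_pow_zeta p τ g hg.symm i
    rw [hσ] at h1
    have h2 := eig_zeta_pow_inj p h1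
    rw [h2, Nat.cast_pow, ← pow_mul, ← pow_mul, mul_comm 2 i]
  · obtain ⟨J, rfl⟩ := ClassGroup.mk0_surjective (Additive.toMul y)
    refine ⟨J, eig_ne_bot p J, ?_⟩
    show f (J : Ideal (𝓞 (K p))) ≠ 0
    rw [hf _ (eig_ne_bot p J)]
    exact hy

end ClassAction

end Fermat.Agent.S14
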