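import Fermat.Agent.S14.Defs

set_option autoImplicit false

/-!
# S14, work package B2: splitting of primes in a Kummer extension (general lemma)

`kf_split`: let `K'/K` be an extension of number fields of degree `p`, `ζ ∈ 𝓞 K` a primitive
`p`-th root of unity, `θ ∈ 𝓞 K'` with `θ ^ p = η ∈ 𝓞 K`, and `τ` an `𝓞 K`-algebra endomorphism of
`𝓞 K'` with `τ θ = ζ θ`.  If `𝔩` is a prime of `𝓞 K` of prime norm `ℓ ≠ p`, not containing `η`, and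
`η` is a `p`-th power modulo `𝔩`, then there are `p` distinct primes of `𝓞 K'` over `𝔩`, all of
norm `ℓ`.
-/

namespace Fermat.Agent.S14

open NumberField Polynomial

section general

variable {K K' : Type} [Field K] [NumberField K] [Field K'] [NumberField K'] [Algebra K K']

omit [NumberField K] [NumberField K'] in
/-- The iterates of `τ` on `θ`. -/
theorem kf_iter_apply (ζ : 𝓞 K) (θ : 𝓞 K') (τ : 𝓞 K' →ₐ[𝓞 K] 𝓞 K')
    (hτ : τ θ = algebraMap (𝓞 K) (𝓞 K') ζ * θ) (i : ℕ) :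
    (τ ^ i) θ = algebraMap (𝓞 K) (𝓞 K') ζ ^ i * θ := by
  induction i with
  | zero => simp
  | succ n ih =>
    rw [pow_succ', AlgHom.mul_apply, ih, map_mul, map_pow, AlgHom.commutes, hτ, pow_succ]
    ring

/-- `1 - ζ ^ c` divides `p` for `0 < c < p`. -/
theorem kf_one_sub_pow_dvd {R : Type} [CommRing R] [IsDomain R] {p : ℕ} (hp : p.Prime) {ζ : R}
    (hζ : IsPrimitiveRoot ζ p) {c : ℕ} (hc0 : 0 < c) (hcp : c < p) : (1 - ζ ^ c) ∣ (p : R) := by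
  obtain ⟨n, rfl⟩ : ∃ n, p = n + 1 := ⟨p - 1, (Nat.succ_pred_eq_of_pos hp.pos).symm⟩
  have h := hζ.prod_one_sub_pow_eq_order
  have hmem : c - 1 ∈ Finset.range n := by
    rw [Finset.mem_range]; omega
  have hd := Finset.dvd_prod_of_mem (fun k => (1 - ζ ^ (k + 1))) hmem
  rw [h] at hd
  have hc : c - 1 + 1 = c := by omega
  simp only [hc] at hd
  simpa using hd

/-- A prime of prime norm `ℓ ≠ p` does not contain `p`. -/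
theorem kf_natCast_not_mem {p : ℕ} (hp : p.Prime)
    (𝔩 : Ideal (𝓞 K)) (h𝔩 : 𝔩.IsPrime) (ℓ : ℕ) (hℓ : ℓ.Prime) (hℓp : ℓ ≠ p)
    (hN : Ideal.absNorm 𝔩 = ℓ) : ((p : ℕ) : 𝓞 K) ∉ 𝔩 := by
  have hℓmem : ((ℓ : ℕ) : 𝓞 K) ∈ 𝔩 := by
    have := Ideal.absNorm_mem 𝔩
    rwa [hN] at this
  intro hpm
  have hcop : Nat.Coprime p ℓ := (Nat.coprime_primes hp hℓ).2 (Ne.symm hℓp)
  have h1 : ((1 : ℤ) : 𝓞 K) ∈ 𝔩 := by
    have hb := Nat.Coprime.isCoprime hcop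
    obtain ⟨a, b, hab⟩ := hb
    have : ((a * (p : ℤ) + b * (ℓ : ℤ) : ℤ) : 𝓞 K) ∈ 𝔩 := by
      push_cast
      exact 𝔩.add_mem (𝔩.mul_mem_left _ hpm) (𝔩.mul_mem_left _ hℓmem)
    rwa [hab] at this
  exact h𝔩.ne_top ((Ideal.eq_top_iff_one 𝔩).2 (by simpa using h1))

/-- A prime of prime norm `ℓ ≠ p` does not contain `1 - ζ ^ c` for `0 < c < p`. -/
theorem kf_one_sub_pow_not_mem {p : ℕ} (hp : p.Prime) {ζ : 𝓞 K} (hζ : IsPrimitiveRoot ζ p)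
    (𝔩 : Ideal (𝓞 K)) (h𝔩 : 𝔩.IsPrime) (ℓ : ℕ) (hℓ : ℓ.Prime) (hℓp : ℓ ≠ p)
    (hN : Ideal.absNorm 𝔩 = ℓ) (c : ℕ) (hc0 : 0 < c) (hcp : c < p) : (1 - ζ ^ c) ∉ 𝔩 := by
  intro hmem
  obtain ⟨d, hd⟩ := kf_one_sub_pow_dvd hp hζ hc0 hcp
  exact kf_natCast_not_mem hp 𝔩 h𝔩 ℓ hℓ hℓp hN (hd ▸ 𝔩.mul_mem_right d hmem)

theorem kf_split (p : ℕ) (hp : p.Prime) (hdeg : Module.finrank K K' = p)
    (ζ : 𝓞 K) (hζ : IsPrimitiveRoot ζ p) (η : 𝓞 K)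
    (θ : 𝓞 K') (hθ : θ ^ p = algebraMap (𝓞 K) (𝓞 K') η)
    (τ : 𝓞 K' →ₐ[𝓞 K] 𝓞 K') (hτ : τ θ = algebraMap (𝓞 K) (𝓞 K') ζ * θ)
    (𝔩 : Ideal (𝓞 K)) (h𝔩 : 𝔩.IsPrime) (ℓ : ℕ) (hℓ : ℓ.Prime) (hℓp : ℓ ≠ p)
    (hN : Ideal.absNorm 𝔩 = ℓ) (hη𝔩 : η ∉ 𝔩) (y : 𝓞 K) (hy : y ^ p - η ∈ 𝔩) :
    ∃ S : Finset (Ideal (𝓞 K')), S.card = p ∧ ∀ 𝔏 ∈ S, 𝔏.IsPrime ∧
      𝔏.comap (algebraMap (𝓞 K) (𝓞 K')) = 𝔩 ∧ Ideal.absNorm 𝔏 = ℓ := by
  classical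
  have : NeZero p := ⟨hp.ne_zero⟩
  have hinj : Function.Injective (algebraMap (𝓞 K) (𝓞 K')) :=
    FaithfulSMul.algebraMap_injective (𝓞 K) (𝓞 K')
  -- basic non-membership facts
  have hone_sub : ∀ c : ℕ, 0 < c → c < p → (1 - ζ ^ c) ∉ 𝔩 :=
    kf_one_sub_pow_not_mem hp hζ 𝔩 h𝔩 ℓ hℓ hℓp hN
  have hζunit : ∀ i : ℕ, ζ ^ i ∉ 𝔩 := by
    intro i hmem
    have hu : IsUnit (ζ ^ i) := (hζ.isUnit hp.pos.ne').pow i
    exact h𝔩.ne_top (Ideal.eq_top_of_isUnit_mem 𝔩 hmem hu)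
  have hy𝔩 : y ∉ 𝔩 := by
    intro hmem
    apply hη𝔩
    have h1 : y ^ p ∈ 𝔩 := 𝔩.pow_mem_of_mem hmem p hp.pos
    have : η = y ^ p - (y ^ p - η) := by ring
    rw [this]
    exact 𝔩.sub_mem h1 hy
  -- a prime above `𝔩`
  obtain ⟨𝔏₀, -, h𝔏₀prime, h𝔏₀⟩ := Ideal.exists_ideal_over_prime_of_isIntegral 𝔩 (⊥ : Ideal (𝓞 K'))
    (by
      rw [← RingHom.ker_eq_comap_bot, (RingHom.injective_iff_ker_eq_bot _).1 hinj]
      exact bot_le)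
  -- `θ ≡ ζ ^ j y` modulo `𝔏₀`
  have hζ' : IsPrimitiveRoot (algebraMap (𝓞 K) (𝓞 K') ζ) p := hζ.map_of_injective hinj
  obtain ⟨j, hj⟩ : ∃ j : ℕ, θ - algebraMap (𝓞 K) (𝓞 K') ζ ^ j * algebraMap (𝓞 K) (𝓞 K') y ∈ 𝔏₀ := by
    have hprod := hζ'.pow_sub_pow_eq_prod_sub_mul θ (algebraMap (𝓞 K) (𝓞 K') y) hp.pos
    have hmem : θ ^ p - algebraMap (𝓞 K) (𝓞 K') y ^ p ∈ 𝔏₀ := by
      have h1 : algebraMap (𝓞 K) (𝓞 K') (η - y ^ p) ∈ 𝔏₀ := by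
        have h2 : η - y ^ p ∈ Ideal.comap (algebraMap (𝓞 K) (𝓞 K')) 𝔏₀ := by
          rw [h𝔏₀]
          have : η - y ^ p = -(y ^ p - η) := by ring
          rw [this]
          exact 𝔩.neg_mem hy
        exact h2
      rwa [map_sub, map_pow, ← hθ] at h1
    rw [hprod] at hmem
    obtain ⟨ξ, hξ, hξmem⟩ := (Ideal.IsPrime.prod_mem_iff).1 hmem
    rw [mem_nthRootsFinset hp.pos] at hξ
    obtain ⟨i, -, hi⟩ := hζ'.eq_pow_of_pow_eq_one hξ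
    exact ⟨i, by rw [hi]; exact hξmem⟩
  -- the translated primes
  set 𝔏 : ℕ → Ideal (𝓞 K') := fun i => Ideal.comap (τ ^ i : 𝓞 K' →ₐ[𝓞 K] 𝓞 K') 𝔏₀ with h𝔏def
  have h𝔏prime : ∀ i, (𝔏 i).IsPrime := fun i => Ideal.comap_isPrime _ _
  have h𝔏over : ∀ i, (𝔏 i).comap (algebraMap (𝓞 K) (𝓞 K')) = 𝔩 := by
    intro i
    rw [← h𝔏₀]
    ext x
    simp only [h𝔏def, Ideal.mem_comap, AlgHom.commutes]
  have h𝔏mem : ∀ i, θ - algebraMap (𝓞 K) (𝓞 K') (ζ ^ (i + j) * y) ∈ 𝔏 i := by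
    intro i
    simp only [h𝔏def, Ideal.mem_comap]
    rw [map_sub, AlgHom.commutes, kf_iter_apply ζ θ τ hτ i]
    have : algebraMap (𝓞 K) (𝓞 K') ζ ^ i * θ - algebraMap (𝓞 K) (𝓞 K') (ζ ^ (i + j) * y)
        = algebraMap (𝓞 K) (𝓞 K') ζ ^ i *
          (θ - algebraMap (𝓞 K) (𝓞 K') ζ ^ j * algebraMap (𝓞 K) (𝓞 K') y) := by
      rw [map_mul, map_pow, pow_add]; ring
    rw [this]
    exact 𝔏₀.mul_mem_left _ hj
  have h𝔏inj : ∀ i i' : ℕ, i < i' → i' < p → 𝔏 i ≠ 𝔏 i' := by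
    intro i i' hii' hi'p heq
    have h1 := h𝔏mem i
    have h2 := h𝔏mem i'
    rw [← heq] at h2
    have h3 : algebraMap (𝓞 K) (𝓞 K') (ζ ^ (i + j) * y - ζ ^ (i' + j) * y) ∈ 𝔏 i := by
      have := (𝔏 i).sub_mem h2 h1
      rw [map_sub]
      convert this using 1
      ring
    have h4 : ζ ^ (i + j) * y - ζ ^ (i' + j) * y ∈ 𝔩 := by
      rw [← h𝔏over i]
      exact h3
    have h5 : ζ ^ (i + j) * y - ζ ^ (i' + j) * y = ζ ^ (i + j) * ((1 - ζ ^ (i' - i)) * y) := by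
      have : i' + j = (i + j) + (i' - i) := by omega
      rw [this, pow_add]; ring
    rw [h5] at h4
    rcases h𝔩.mem_or_mem h4 with h | h
    · exact hζunit _ h
    · rcases h𝔩.mem_or_mem h with h | h
      · exact hone_sub (i' - i) (by omega) (by omega) h
      · exact hy𝔩 h
  have h𝔏injOn : Set.InjOn 𝔏 (Finset.range p : Set ℕ) := by
    intro a ha b hb hab
    simp only [Finset.coe_range, Set.mem_Iio] at ha hb
    by_contra hne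
    rcases Nat.lt_or_gt_of_ne hne with h | h
    · exact h𝔏inj a b h hb hab
    · exact h𝔏inj b a h ha hab.symm
  -- the inertia degrees
  have h𝔩max : 𝔩.IsMaximal := by
    apply Ideal.IsPrime.isMaximal h𝔩
    intro hbot
    rw [hbot, Ideal.absNorm_bot] at hN
    exact hℓ.ne_zero hN.symm
  let _ : Fintype (𝔩.primesOver (𝓞 K')) := (IsDedekindDomain.primesOver_finite 𝔩 (𝓞 K')).fintype
  have hsum := Ideal.sum_ramification_inertia_eq_finrank 𝔩 (𝓞 K')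
  rw [← IsFractionRing.finrank_eq (𝓞 K) K (𝓞 K') K', hdeg] at hsum
  have hmemOver : ∀ i, 𝔏 i ∈ 𝔩.primesOver (𝓞 K') := fun i =>
    ⟨h𝔏prime i, (Ideal.liesOver_iff _ _).2 (by rw [Ideal.under_def, h𝔏over i])⟩
  let g : ℕ → 𝔩.primesOver (𝓞 K') := fun i => ⟨𝔏 i, hmemOver i⟩
  have hginj : Set.InjOn g (Finset.range p : Set ℕ) := by
    intro a ha b hb hab
    exact h𝔏injOn ha hb (congrArg Subtype.val hab)
  have hpos : ∀ q : 𝔩.primesOver (𝓞 K'), 1 ≤ q.1.ramificationIdx (𝓞 K) * q.1.inertiaDeg (𝓞 K) := by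
    intro q
    have : q.1.IsPrime := q.2.1
    exact Nat.succ_le_of_lt (Nat.mul_pos (Ideal.ramificationIdx_pos q.1 (𝓞 K))
      (Ideal.inertiaDeg_pos q.1 (𝓞 K)))
  have hle : ∑ i ∈ Finset.range p, (g i).1.ramificationIdx (𝓞 K) * (g i).1.inertiaDeg (𝓞 K) ≤ p := by
    have h1 : ∑ i ∈ Finset.range p, (g i).1.ramificationIdx (𝓞 K) * (g i).1.inertiaDeg (𝓞 K)
        = ∑ q ∈ (Finset.range p).image g, q.1.ramificationIdx (𝓞 K) * q.1.inertiaDeg (𝓞 K) :=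
      (Finset.sum_image (f := fun q : 𝔩.primesOver (𝓞 K') =>
        q.1.ramificationIdx (𝓞 K) * q.1.inertiaDeg (𝓞 K)) hginj).symm
    have h2 : ∑ q ∈ (Finset.range p).image g, q.1.ramificationIdx (𝓞 K) * q.1.inertiaDeg (𝓞 K)
        ≤ ∑ q : 𝔩.primesOver (𝓞 K'), q.1.ramificationIdx (𝓞 K) * q.1.inertiaDeg (𝓞 K) :=
      Finset.sum_le_sum_of_subset (Finset.subset_univ _)
    exact h1.le.trans (h2.trans hsum.le)
  have hone : ∀ i ∈ Finset.range p,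
      (1 : ℕ) = (g i).1.ramificationIdx (𝓞 K) * (g i).1.inertiaDeg (𝓞 K) := by
    refine (Finset.sum_eq_sum_iff_of_le (fun i _ => hpos (g i))).1 ?_
    refine le_antisymm (Finset.sum_le_sum fun i _ => hpos (g i)) ?_
    simpa using hle
  refine ⟨(Finset.range p).image 𝔏, ?_, ?_⟩
  · rw [Finset.card_image_of_injOn h𝔏injOn, Finset.card_range]
  · intro Q hQ
    obtain ⟨i, hi, rfl⟩ := Finset.mem_image.1 hQ
    refine ⟨h𝔏prime i, h𝔏over i, ?_⟩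
    have hf : (𝔏 i).inertiaDeg (𝓞 K) = 1 := by
      have := hone i hi
      exact Nat.eq_one_of_mul_eq_one_left this.symm
    have := h𝔏prime i
    have : (𝔏 i).LiesOver 𝔩 := (hmemOver i).2
    have hnorm := Ideal.absNorm_pow_inertiaDeg 𝔩 (𝔏 i)
    rw [hf, pow_one, hN] at hnorm
    exact hnorm.symm

end general

end Fermat.Agent.S14
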