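import Fermat.Agent.S14.Defs

set_option autoImplicit false

/-!
# S14 / T1: the interface between the two halves of `exists_kummerDatum`

`tb_LData p L` collects what the first half (from a non-split admissible extension `(V, C)` to a
number field) hands to the second half (Kummer theory over `ℚ(ζ_p)`): `L ⊆ ℚ̄` is the field cut
out by the kernel of the Galois action on `V`.
-/

namespace Fermat.Agent.S14

open NumberField

variable (p : ℕ) [Fact p.Prime]

/-- **Interface of T1.** `L` is finite and normal over `ℚ` of degree `p (p - 1)`, contains the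
`p`-th roots of unity, `Gal(L/ℚ(ζ))` is an eigenspace for the conjugation action, the inertia
groups at the primes not above `p` are trivial and the decomposition groups at the primes above
`p` meet `Gal(L/ℚ(ζ))` trivially. -/
structure tb_LData (L : IntermediateField ℚ (AlgebraicClosure ℚ)) : Prop where
  finite : FiniteDimensional ℚ L
  normal : Normal ℚ L
  finrank_eq : Module.finrank ℚ L = p * (p - 1)
  exists_zeta : ∃ ζ : L, IsPrimitiveRoot ζ p
  conj : ∀ (s d : L ≃ₐ[ℚ] L) (ζ : L) (a : ℕ), IsPrimitiveRoot ζ p → s ζ = ζ → d ζ = ζ ^ a →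
    d⁻¹ * s * d = s ^ a
  inertia_triv : ∀ (P : Ideal (𝓞 L)) (ℓ : ℕ), P.IsPrime → ℓ.Prime → ℓ ≠ p → (ℓ : 𝓞 L) ∈ P →
    ∀ σ : L ≃ₐ[ℚ] L, (∀ x y : 𝓞 L, σ (x : L) = (y : L) → y - x ∈ P) → σ = 1
  decomp_triv : ∀ (P : Ideal (𝓞 L)), P.IsPrime → (p : 𝓞 L) ∈ P →
    ∀ (σ : L ≃ₐ[ℚ] L) (ζ : L), IsPrimitiveRoot ζ p → σ ζ = ζ →
      (∀ x y : 𝓞 L, σ (x : L) = (y : L) → x ∈ P → y ∈ P) → σ = 1

end Fermat.Agent.S14
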