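import Fermat.Agent.S14.TAGroup
import Fermat.Agent.S14.TBBase
import Fermat.Agent.S13.Mink

set_option autoImplicit false
set_option linter.unusedSectionVars false

/-!
# S14, work package T1 (TA): the field cut out by a non-split admissible extension

`ta_L V` is the fixed field of the kernel of the Galois action on `V`: finite and normal over `ℚ`,
of degree `p (p - 1)`, containing `ζ_p`, with the conjugation rule `d⁻¹ s d = s ^ a`.
-/

namespace Fermat.Agent.S14

open ExtCitation NumberField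

local notation "Kb" => AlgebraicClosure ℚ
local notation "GQ" => (AlgebraicClosure ℚ ≃ₐ[ℚ] AlgebraicClosure ℚ)

attribute [local instance] S13.isGalois_Kb S13.isAlgClosure_Kb

section general

variable (p : ℕ) [Fact p.Prime]

theorem ta_prim_pow_eq_iff {z : Kb} (hz : IsPrimitiveRoot z p) (a b : ℕ) :
    z ^ a = z ^ b ↔ (a : ZMod p) = (b : ZMod p) := by
  have hfin : IsOfFinOrder z :=
    isOfFinOrder_iff_pow_eq_one.mpr ⟨p, (Fact.out : p.Prime).pos, hz.pow_eq_one⟩
  rw [hfin.pow_eq_pow_iff_modEq, ← hz.eq_orderOf, ZMod.natCast_eq_natCast_iff]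

theorem ta_mem_GK_of_fix {z : Kb} (hz : IsPrimitiveRoot z p) {σ : GQ} (h : σ z = z) :
    σ ∈ (cycloChar p).ker := by
  rw [ta_mem_GK, ← Nat.cast_one (R := ZMod p), ← ta_prim_pow_eq_iff p hz, pow_one,
    ← ta_cyclo_spec p σ z hz.pow_eq_one, h]

theorem ta_chi_eq_of_smul {z : Kb} (hz : IsPrimitiveRoot z p) {σ : GQ} {a : ℕ} (h : σ z = z ^ a) :
    (a : ZMod p) = (cycloExp p σ : ZMod p) := by
  rw [← ta_prim_pow_eq_iff p hz, ← h, ta_cyclo_spec p σ z hz.pow_eq_one]

theorem ta_GK_eq_fixing :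
    (IntermediateField.adjoin ℚ {ta_zeta p}).fixingSubgroup = (cycloChar p).ker := by
  apply le_antisymm
  · intro σ hσ
    rw [ta_mem_GK_iff_fix]
    exact hσ ⟨ta_zeta p, IntermediateField.subset_adjoin ℚ _ rfl⟩
  · have hle : IntermediateField.adjoin ℚ {ta_zeta p} ≤
        IntermediateField.fixedField (cycloChar p).ker := by
      rw [IntermediateField.adjoin_le_iff]
      rintro x rfl
      rw [SetLike.mem_coe, IntermediateField.mem_fixedField_iff]
      intro f hf
      exact (ta_mem_GK_iff_fix p f).mp hf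
    intro σ hσ
    rw [IntermediateField.mem_fixingSubgroup_iff]
    intro x hx
    exact (IntermediateField.mem_fixedField_iff _ x).mp (hle hx) σ hσ

theorem ta_GK_index : (cycloChar p).ker.index = p - 1 := by
  have hp : p.Prime := Fact.out
  rw [← ta_GK_eq_fixing, ← IntermediateField.finrank_eq_fixingSubgroup_index]
  have hint : IsIntegral ℚ (ta_zeta p) := Algebra.IsIntegral.isIntegral _
  rw [IntermediateField.adjoin.finrank hint,
    ← Polynomial.cyclotomic_eq_minpoly_rat (ta_zeta_spec p) hp.pos,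
    Polynomial.natDegree_cyclotomic, Nat.totient_prime hp]

end general

section adm

variable {p : ℕ} [Fact p.Prime]
variable {V : Type} [AddCommGroup V] [Module (ZMod p) V] [DistribMulAction GQ V]
  [SMulCommClass GQ (ZMod p) V] {C : Submodule (ZMod p) V}

variable (V) in
/-- The field cut out by the Galois action on `V`. -/
noncomputable def ta_L : IntermediateField ℚ Kb := IntermediateField.fixedField (ta_ker V)

theorem ta_isOpen (hadm : IsAdmissibleExtensionCts p V C) :
    IsOpen ((ta_ker V : Subgroup GQ) : Set GQ) := hadm.open_kernel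

theorem ta_isClosed (hadm : IsAdmissibleExtensionCts p V C) :
    IsClosed ((ta_ker V : Subgroup GQ) : Set GQ) :=
  Subgroup.isClosed_of_isOpen _ (ta_isOpen hadm)

theorem ta_fixing (hadm : IsAdmissibleExtensionCts p V C) :
    (ta_L V).fixingSubgroup = ta_ker V :=
  InfiniteGalois.fixingSubgroup_fixedField ⟨ta_ker V, ta_isClosed hadm⟩

theorem ta_L_finite (hadm : IsAdmissibleExtensionCts p V C) : FiniteDimensional ℚ (ta_L V) := by
  rw [← InfiniteGalois.isOpen_iff_finite, ta_fixing hadm]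
  exact ta_isOpen hadm

variable (V) in
theorem ta_L_isGalois : IsGalois ℚ (ta_L V) := IsGalois.of_fixedField_normal_subgroup (ta_ker V)

variable (V) in
instance ta_L_normal : Normal ℚ (ta_L V) :=
  have := ta_L_isGalois V
  inferInstance

theorem ta_L_finrank (h3 : 3 ≤ p) (hadm : IsAdmissibleExtensionCts p V C)
    (hns : ¬ SplitsGlobally C) : Module.finrank ℚ (ta_L V) = p * (p - 1) := by
  rw [IntermediateField.finrank_eq_fixingSubgroup_index, ta_fixing hadm,
    ← Subgroup.relIndex_mul_index (ta_ker_le_GK hadm.toIsAdmissibleExtension),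
    ta_relIndex hadm.toIsAdmissibleExtension
      (ta_exists_GK_not_ker h3 hadm.toIsAdmissibleExtension hns), ta_GK_index]

theorem ta_mem_L (x : Kb) : x ∈ ta_L V ↔ ∀ σ ∈ ta_ker V, σ x = x :=
  IntermediateField.mem_fixedField_iff _ x

theorem ta_L_zeta (hadm : IsAdmissibleExtensionCts p V C) : ∃ ζ : ta_L V, IsPrimitiveRoot ζ p := by
  have hmem : ta_zeta p ∈ ta_L V := by
    rw [ta_mem_L]
    intro σ hσ
    exact (ta_mem_GK_iff_fix p σ).mp (ta_ker_le_GK hadm.toIsAdmissibleExtension hσ)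
  refine ⟨⟨ta_zeta p, hmem⟩, ?_⟩
  exact IsPrimitiveRoot.of_map_of_injective (f := algebraMap (ta_L V) Kb) (ta_zeta_spec p)
    (algebraMap (ta_L V) Kb).injective

/-- Lifts of automorphisms of `L` to `ℚ̄`. -/
theorem ta_exists_lift (τ : ta_L V ≃ₐ[ℚ] ta_L V) :
    ∃ σ : GQ, AlgEquiv.restrictNormalHom (ta_L V) σ = τ ∧
      ∀ y : ta_L V, σ (y : Kb) = ((τ y : ta_L V) : Kb) := by
  obtain ⟨σ, hσ⟩ := AlgEquiv.restrictNormalHom_surjective (F := ℚ) (K₁ := ta_L V) Kb τ
  refine ⟨σ, hσ, fun y => ?_⟩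
  rw [← hσ]
  exact (AlgEquiv.restrictNormal_commutes σ (ta_L V) y).symm

theorem ta_L_conj (hadm : IsAdmissibleExtensionCts p V C) (s d : ta_L V ≃ₐ[ℚ] ta_L V)
    (ζ : ta_L V) (a : ℕ) (hζ : IsPrimitiveRoot ζ p) (hs : s ζ = ζ) (hd : d ζ = ζ ^ a) :
    d⁻¹ * s * d = s ^ a := by
  obtain ⟨s', hs', hs'L⟩ := ta_exists_lift s
  obtain ⟨d', hd', hd'L⟩ := ta_exists_lift d
  have hz : IsPrimitiveRoot ((ζ : ta_L V) : Kb) p :=
    hζ.map_of_injective (algebraMap (ta_L V) Kb).injective
  have hs'K : s' ∈ (cycloChar p).ker := by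
    apply ta_mem_GK_of_fix p hz
    rw [hs'L, hs]
  have hd'a : (a : ZMod p) = (cycloExp p d' : ZMod p) := by
    apply ta_chi_eq_of_smul p hz
    rw [hd'L, hd]
    simp
  have hg : (s' ^ a)⁻¹ * (d'⁻¹ * s' * d') ∈ ta_ker V := by
    intro v
    rw [mul_smul, mul_smul, mul_smul, ta_conj_smul hadm.toIsAdmissibleExtension hs'K d' a hd'a v,
      inv_smul_smul]
  have hker : AlgEquiv.restrictNormalHom (ta_L V) ((s' ^ a)⁻¹ * (d'⁻¹ * s' * d')) = 1 := by
    ext y
    have h1 := AlgEquiv.restrictNormal_commutes ((s' ^ a)⁻¹ * (d'⁻¹ * s' * d')) (ta_L V) y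
    have h2 := (ta_mem_L (y : Kb)).mp y.2 _ hg
    exact h1.trans h2
  rw [map_mul, map_inv, map_pow, map_mul, map_mul, map_inv, hs', hd', inv_mul_eq_one] at hker
  exact hker.symm

end adm

end Fermat.Agent.S14
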