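import Fermat.Agent.S14.Defs
import Fermat.Prelude.Def_ExtCitation_KummerBridge
import Fermat.Agent.S13.MinkBasic

set_option autoImplicit false
set_option linter.unusedSectionVars false

/-!
# S14, work package T1 (TA): the group theory of a non-split admissible extension

`V = [[1, b], [0, χ]]`.  `ta_ker V` is the kernel of the Galois action, `G_K = ker χ`.
-/

namespace Fermat.Agent.S14

open ExtCitation

local notation "Kb" => AlgebraicClosure ℚ
local notation "GQ" => (AlgebraicClosure ℚ ≃ₐ[ℚ] AlgebraicClosure ℚ)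

section general

variable (p : ℕ) [Fact p.Prime]

theorem ta_cyclo_spec (σ : GQ) (z : Kb) (hz : z ^ p = 1) : σ z = z ^ cycloExp p σ := by
  have hp0 : p ≠ 0 := (Fact.out : p.Prime).ne_zero
  have hz0 : z ≠ 0 := by
    rintro rfl
    rw [zero_pow hp0] at hz
    exact zero_ne_one hz
  have ht : Units.mk0 z hz0 ∈ rootsOfUnity p Kb := by
    rw [mem_rootsOfUnity]
    ext
    simpa using hz
  exact modularCyclotomicCharacter.spec Kb (card_rootsOfUnity_eq_self p) (σ : Kb ≃+* Kb) ht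

theorem ta_chi_mul (σ τ : GQ) :
    ((cycloExp p (σ * τ) : ℕ) : ZMod p) = (cycloExp p σ : ZMod p) * (cycloExp p τ : ZMod p) := by
  rw [← coe_cycloChar, ← coe_cycloChar, ← coe_cycloChar, map_mul, Units.val_mul]

theorem ta_mem_GK (σ : GQ) : σ ∈ (cycloChar p).ker ↔ ((cycloExp p σ : ℕ) : ZMod p) = 1 := by
  rw [MonoidHom.mem_ker, ← coe_cycloChar, Units.val_eq_one]

/-- A chosen embedding of `K p = ℚ(ζ_p)` into `ℚ̄`. -/
noncomputable def ta_emb : K p →ₐ[ℚ] Kb := IsAlgClosed.lift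

/-- The image of `ζ` in `ℚ̄`. -/
noncomputable def ta_zeta : Kb := ta_emb p (zeta p)

theorem ta_zeta_spec : IsPrimitiveRoot (ta_zeta p) p :=
  (zeta_spec p).map_of_injective (ta_emb p).injective

theorem ta_zeta_pow_eq_iff (a b : ℕ) :
    ta_zeta p ^ a = ta_zeta p ^ b ↔ (a : ZMod p) = (b : ZMod p) := by
  have hfin : IsOfFinOrder (ta_zeta p) :=
    isOfFinOrder_iff_pow_eq_one.mpr ⟨p, (Fact.out : p.Prime).pos, (ta_zeta_spec p).pow_eq_one⟩
  rw [hfin.pow_eq_pow_iff_modEq, ← (ta_zeta_spec p).eq_orderOf, ZMod.natCast_eq_natCast_iff]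

theorem ta_smul_zeta (σ : GQ) : σ (ta_zeta p) = ta_zeta p ^ cycloExp p σ :=
  ta_cyclo_spec p σ _ (ta_zeta_spec p).pow_eq_one

theorem ta_mem_GK_iff_fix (σ : GQ) : σ ∈ (cycloChar p).ker ↔ σ (ta_zeta p) = ta_zeta p := by
  rw [ta_mem_GK, ta_smul_zeta]
  conv_lhs => rw [← Nat.cast_one (R := ZMod p), ← ta_zeta_pow_eq_iff, pow_one]

theorem ta_exists_chi_ne_one (h3 : 3 ≤ p) : ∃ σ : GQ, σ ∉ (cycloChar p).ker := by
  by_contra hcon
  push Not at hcon
  have hfix : ∀ σ : GQ, σ (ta_zeta p) = ta_zeta p := fun σ => (ta_mem_GK_iff_fix p σ).mp (hcon σ)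
  obtain ⟨r, hr⟩ := S13.exists_rat_of_fixed (ta_zeta p) hfix
  have hp : p.Prime := Fact.out
  have hodd : Odd p := hp.odd_of_ne_two (by omega)
  have h1 : r ^ p = 1 := by
    have h2 : algebraMap ℚ Kb (r ^ p) = algebraMap ℚ Kb 1 := by
      rw [map_pow, hr, (ta_zeta_spec p).pow_eq_one, map_one]
    exact (algebraMap ℚ Kb).injective h2
  have h3' : r = 1 := by
    have := hodd.strictMono_pow (R := ℚ)
    apply this.injective
    simpa using h1
  have h4 : ta_zeta p = 1 := by rw [← hr, h3', map_one]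
  exact (ta_zeta_spec p).ne_one hp.one_lt h4

end general

section kernel

variable (V : Type) [AddCommGroup V] [DistribMulAction GQ V]

/-- The kernel of the Galois action on `V`. -/
def ta_ker : Subgroup GQ where
  carrier := {σ | ∀ v : V, σ • v = v}
  mul_mem' := by
    intro a b ha hb v
    rw [mul_smul, hb v, ha v]
  one_mem' := fun v => one_smul _ v
  inv_mem' := by
    intro a ha v
    rw [inv_smul_eq_iff, ha v]

theorem ta_mem_ker (σ : GQ) : σ ∈ ta_ker V ↔ ∀ v : V, σ • v = v := Iff.rfl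

instance ta_ker_normal : (ta_ker V).Normal := ⟨by
  intro n hn g v
  rw [mul_smul, mul_smul, hn, smul_inv_smul]⟩

end kernel

section adm

variable {p : ℕ} [Fact p.Prime]
variable {V : Type} [AddCommGroup V] [Module (ZMod p) V] [DistribMulAction GQ V]
  [SMulCommClass GQ (ZMod p) V] {C : Submodule (ZMod p) V}

omit [SMulCommClass GQ (ZMod p) V] in
theorem ta_exists_not_mem (hadm : IsAdmissibleExtension p V C) : ∃ v₀ : V, v₀ ∉ C := by
  by_contra h
  push Not at h
  have hC : C = ⊤ := eq_top_iff.mpr fun x _ => h x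
  have h1 := hadm.card_sub
  have h2 := hadm.card_total
  rw [hC] at h1
  have h3 : Nat.card (⊤ : Submodule (ZMod p) V) = Nat.card V :=
    Nat.card_congr (Submodule.topEquiv (R := ZMod p) (M := V)).toEquiv
  rw [h3, h2] at h1
  have hp : p.Prime := Fact.out
  have h4 : p ^ 2 = p ^ 1 := by rw [h1, pow_one]
  have := Nat.pow_right_injective hp.two_le h4
  omega

omit [SMulCommClass GQ (ZMod p) V] in
theorem ta_sub_mem (hadm : IsAdmissibleExtension p V C) {σ : GQ} (hσ : σ ∈ (cycloChar p).ker)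
    (v : V) : σ • v - v ∈ C := by
  have h1 := hadm.cyclo_quot σ v
  rw [(ta_mem_GK p σ).mp hσ, one_smul] at h1
  exact h1

theorem ta_ker_le_GK (hadm : IsAdmissibleExtension p V C) : ta_ker V ≤ (cycloChar p).ker := by
  intro σ hσ
  rw [ta_mem_GK]
  obtain ⟨v₀, hv₀⟩ := ta_exists_not_mem hadm
  by_contra hne
  have h1 := hadm.cyclo_quot σ v₀
  rw [hσ v₀] at h1
  have h2 : (1 - (cycloExp p σ : ZMod p)) • v₀ ∈ C := by rwa [sub_smul, one_smul]
  have h3 : (1 - (cycloExp p σ : ZMod p)) ≠ 0 := sub_ne_zero.mpr (Ne.symm hne)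
  have h4 := C.smul_mem (1 - (cycloExp p σ : ZMod p))⁻¹ h2
  rw [smul_smul, inv_mul_cancel₀ h3, one_smul] at h4
  exact hv₀ h4

theorem ta_exists_decomp (hadm : IsAdmissibleExtension p V C) {v₀ : V} (hv₀ : v₀ ∉ C) (v : V) :
    ∃ t : ZMod p, v - t • v₀ ∈ C := by
  have hp : p.Prime := Fact.out
  have hcard : Nat.card (V ⧸ C) = p := by
    have h1 := Submodule.card_eq_card_quotient_mul_card C
    rw [hadm.card_total, hadm.card_sub, pow_two] at h1
    exact (Nat.eq_of_mul_eq_mul_left hp.pos h1).symm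
  have hfin : Finite (V ⧸ C) := Nat.finite_of_card_ne_zero (by rw [hcard]; exact hp.ne_zero)
  let g : ZMod p → V ⧸ C := fun t => Submodule.Quotient.mk (t • v₀)
  have hinj : Function.Injective g := by
    intro t t' htt
    have h1 : (t - t') • v₀ ∈ C := by
      rw [sub_smul]
      exact (Submodule.Quotient.eq C).mp htt
    by_contra hne
    have h3 : t - t' ≠ 0 := sub_ne_zero.mpr hne
    have h4 := C.smul_mem (t - t')⁻¹ h1
    rw [smul_smul, inv_mul_cancel₀ h3, one_smul] at h4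
    exact hv₀ h4
  have hbij : Function.Bijective g :=
    hinj.bijective_of_nat_card_le (by rw [hcard, Nat.card_zmod])
  obtain ⟨t, ht⟩ := hbij.2 (Submodule.Quotient.mk v)
  exact ⟨t, (Submodule.Quotient.eq C).mp ht.symm⟩

theorem ta_mem_ker_of_fix (hadm : IsAdmissibleExtension p V C) {v₀ : V} (hv₀ : v₀ ∉ C) {σ : GQ}
    (h : σ • v₀ = v₀) : σ ∈ ta_ker V := by
  intro v
  obtain ⟨t, ht⟩ := ta_exists_decomp hadm hv₀ v
  have h1 := hadm.fixed_sub σ _ ht
  rw [smul_sub, smul_comm σ t v₀, h] at h1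
  exact sub_left_injective h1

/-- The homomorphism `t ↦ t v₀ - v₀` on `G_K`. -/
noncomputable def ta_bHom (hadm : IsAdmissibleExtension p V C) (v₀ : V) :
    (cycloChar p).ker →* Multiplicative V :=
  MonoidHom.mk' (fun t => Multiplicative.ofAdd ((t : GQ) • v₀ - v₀)) (by
    intro a b
    have hb : (b : GQ) • v₀ - v₀ ∈ C := ta_sub_mem hadm b.2 v₀
    have h1 := hadm.fixed_sub (a : GQ) _ hb
    rw [← ofAdd_add]
    congr 1
    show ((a : GQ) * (b : GQ)) • v₀ - v₀ = ((a : GQ) • v₀ - v₀) + ((b : GQ) • v₀ - v₀)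
    rw [mul_smul, ← h1, smul_sub]
    abel)

theorem ta_bHom_apply (hadm : IsAdmissibleExtension p V C) (v₀ : V) (t : (cycloChar p).ker) :
    ta_bHom hadm v₀ t = Multiplicative.ofAdd ((t : GQ) • v₀ - v₀) := rfl

/-- `[G_K : N] = p`. -/
theorem ta_relIndex (hadm : IsAdmissibleExtension p V C)
    (hex : ∃ s : GQ, s ∈ (cycloChar p).ker ∧ s ∉ ta_ker V) :
    (ta_ker V).relIndex (cycloChar p).ker = p := by
  have hp : p.Prime := Fact.out
  obtain ⟨v₀, hv₀⟩ := ta_exists_not_mem hadm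
  set f := ta_bHom hadm v₀ with hf
  have hker : f.ker = (ta_ker V).subgroupOf (cycloChar p).ker := by
    ext t
    rw [MonoidHom.mem_ker, Subgroup.mem_subgroupOf, hf, ta_bHom_apply]
    constructor
    · intro h
      have h1 : (t : GQ) • v₀ - v₀ = 0 := h
      exact ta_mem_ker_of_fix hadm hv₀ (sub_eq_zero.mp h1)
    · intro h
      have h1 : (t : GQ) • v₀ - v₀ = 0 := sub_eq_zero.mpr (h v₀)
      rw [h1]
      rfl
  rw [Subgroup.relIndex, ← hker, Subgroup.index_ker]
  let CM : Subgroup (Multiplicative V) := C.toAddSubgroup.toSubgroup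
  have hCM : Nat.card CM = p := hadm.card_sub
  have hle : f.range ≤ CM := by
    rintro _ ⟨t, rfl⟩
    exact ta_sub_mem hadm t.2 v₀
  have hdvd : Nat.card f.range ∣ p := by
    have := Subgroup.card_dvd_of_le hle
    rwa [hCM] at this
  rcases (Nat.dvd_prime hp).mp hdvd with h1 | h1
  · exfalso
    obtain ⟨s, hs, hsN⟩ := hex
    have hbot : f.range = ⊥ := Subgroup.card_eq_one.mp h1
    have h2 : f ⟨s, hs⟩ ∈ f.range := ⟨_, rfl⟩
    rw [hbot, Subgroup.mem_bot, hf, ta_bHom_apply] at h2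
    have h3 : s • v₀ - v₀ = 0 := h2
    exact hsN (ta_mem_ker_of_fix hadm hv₀ (sub_eq_zero.mp h3))
  · exact h1

/-- A non-split extension is not trivial on `G_K` (Maschke). -/
theorem ta_exists_GK_not_ker (h3 : 3 ≤ p) (hadm : IsAdmissibleExtension p V C)
    (hns : ¬ SplitsGlobally C) : ∃ s : GQ, s ∈ (cycloChar p).ker ∧ s ∉ ta_ker V := by
  by_contra hcon
  push Not at hcon
  apply hns
  obtain ⟨σ₀, hσ₀⟩ := ta_exists_chi_ne_one p h3
  rw [ta_mem_GK] at hσ₀
  set a₀ : ZMod p := (cycloExp p σ₀ : ZMod p) with ha₀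
  have ha1 : a₀ - 1 ≠ 0 := sub_ne_zero.mpr hσ₀
  let C' : Submodule (ZMod p) V :=
    { carrier := {x | σ₀ • x = a₀ • x}
      add_mem' := by
        intro x y hx hy
        simp only [Set.mem_ofPred_eq] at hx hy ⊢
        rw [smul_add, smul_add, hx, hy]
      zero_mem' := by simp
      smul_mem' := by
        intro c x hx
        simp only [Set.mem_ofPred_eq] at hx ⊢
        rw [smul_comm σ₀ c x, hx, smul_comm] }
  have hC' : ∀ x, x ∈ C' ↔ σ₀ • x = a₀ • x := fun x => Iff.rfl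
  refine ⟨C', ?_, ?_⟩
  · intro τ x hx
    rw [hC'] at hx ⊢
    have hc : (τ * σ₀)⁻¹ * (σ₀ * τ) ∈ (cycloChar p).ker := by
      rw [MonoidHom.mem_ker, map_mul, map_inv, map_mul, map_mul, mul_comm (cycloChar p τ)]
      exact inv_mul_cancel _
    have h1 := hcon _ hc x
    have h2 : (σ₀ * τ) • x = (τ * σ₀) • x := by
      conv_rhs => rw [← h1]
      rw [← mul_smul, mul_inv_cancel_left]
    rw [← mul_smul, h2, mul_smul, hx, smul_comm]
  · refine IsCompl.of_eq ?_ ?_
    · rw [eq_bot_iff]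
      rintro x ⟨hxC, hxC'⟩
      have h1 := hadm.fixed_sub σ₀ x hxC
      have h2 : σ₀ • x = a₀ • x := hxC'
      have h3 : (a₀ - 1) • x = 0 := by
        rw [sub_smul, one_smul, ← h2, h1, sub_self]
      rcases smul_eq_zero.mp h3 with h4 | h4
      · exact absurd h4 ha1
      · exact h4
    · rw [eq_top_iff]
      intro x _
      set y := σ₀ • x - a₀ • x with hy
      have hyC : y ∈ C := hadm.cyclo_quot σ₀ x
      have hσy : σ₀ • y = y := hadm.fixed_sub σ₀ y hyC
      set t : ZMod p := (a₀ - 1)⁻¹ with ht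
      have ht1 : a₀ * t = 1 + t := by
        have : (a₀ - 1) * t = 1 := mul_inv_cancel₀ ha1
        linear_combination this
      have hx' : x + t • y ∈ C' := by
        rw [hC', smul_add, smul_comm σ₀ t y, hσy, smul_add, smul_smul, ht1, add_smul, one_smul]
        have : σ₀ • x = a₀ • x + y := by rw [hy]; abel
        rw [this]
        abel
      rw [Submodule.mem_sup]
      refine ⟨-(t • y), C.neg_mem (C.smul_mem t hyC), x + t • y, hx', ?_⟩
      abel

/-- Conjugation rule on `V`: `δ⁻¹ s δ = s ^ χ(δ)` for `s ∈ G_K`. -/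
theorem ta_conj_smul (hadm : IsAdmissibleExtension p V C) {s : GQ} (hs : s ∈ (cycloChar p).ker)
    (δ : GQ) (a : ℕ) (ha : (a : ZMod p) = (cycloExp p δ : ZMod p)) (v : V) :
    δ⁻¹ • s • δ • v = s ^ a • v := by
  have hc : ∀ w : V, s • w - w ∈ C := fun w => ta_sub_mem hadm hs w
  have hpow : ∀ k : ℕ, s ^ k • v = v + k • (s • v - v) := by
    intro k
    induction k with
    | zero => simp
    | succ k ih =>
      rw [pow_succ', mul_smul, ih, smul_add, smul_comm s k, hadm.fixed_sub s _ (hc v), succ_nsmul]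
      abel
  set y := δ • v - (cycloExp p δ : ZMod p) • v with hy
  have hyC : y ∈ C := hadm.cyclo_quot δ v
  have h1 : δ • v = (cycloExp p δ : ZMod p) • v + y := by rw [hy]; abel
  have h2 : s • δ • v = δ • v + (cycloExp p δ : ZMod p) • (s • v - v) := by
    rw [h1, smul_add, smul_comm s, hadm.fixed_sub s y hyC, smul_sub]
    abel
  have h3 : δ⁻¹ • ((cycloExp p δ : ZMod p) • (s • v - v)) = (cycloExp p δ : ZMod p) • (s • v - v) :=
    hadm.fixed_sub δ⁻¹ _ (C.smul_mem _ (hc v))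
  rw [h2, smul_add, inv_smul_smul, h3, hpow, ← ha, Nat.cast_smul_eq_nsmul]

omit [SMulCommClass GQ (ZMod p) V] in
/-- Inertia at `ℓ ≠ p` acts trivially. -/
theorem ta_inertia_le (hadm : IsAdmissibleExtension p V C) (ℓ : ℕ) (hℓ : ℓ.Prime) (hne : ℓ ≠ p)
    (A : ValuationSubring Kb) (hA : A.LiesOverPrime ℓ) : A.inertiaSubgroupIn ℚ ≤ ta_ker V :=
  fun σ hσ => hadm.unramified_outside ℓ hℓ hne A hA σ hσ

/-- The decomposition group at `p` meets `G_K` inside the kernel (local splitting). -/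
theorem ta_decomp_le (hadm : IsAdmissibleExtension p V C) (A : ValuationSubring Kb)
    (hA : A.LiesOverPrime p) {σ : GQ} (hσ : σ ∈ A.decompositionSubgroup ℚ)
    (hχ : σ ∈ (cycloChar p).ker) : σ ∈ ta_ker V := by
  obtain ⟨C', hst, hcompl⟩ := hadm.locally_split A hA
  intro v
  have hv : v ∈ C ⊔ C' := by rw [hcompl.sup_eq_top]; trivial
  obtain ⟨c, hc, c', hc', rfl⟩ := Submodule.mem_sup.mp hv
  have h1 : σ • c' - c' ∈ C ⊓ C' := ⟨ta_sub_mem hadm hχ c', C'.sub_mem (hst σ hσ c' hc') hc'⟩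
  rw [hcompl.inf_eq_bot, Submodule.mem_bot, sub_eq_zero] at h1
  rw [smul_add, hadm.fixed_sub σ c hc, h1]

theorem ta_inertia_le_decomp (A : ValuationSubring Kb) :
    A.inertiaSubgroupIn ℚ ≤ A.decompositionSubgroup ℚ := by
  rintro σ ⟨x, -, rfl⟩
  exact x.2

end adm

end Fermat.Agent.S14
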