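import Fermat.Agent.S14.TAField

set_option autoImplicit false
set_option linter.unusedSectionVars false

/-!
# S14, work package T1 (TA): inertia and decomposition groups of the field `ta_L V`

* `ta_exists_mul_mem_decomp`: lifting to the decomposition group (analogue of
  `S13.exists_mul_mem_inertia`);
* `ta_inertia_triv`, `ta_decomp_triv`: the last two fields of `tb_LData`;
* `ta_exists_LData`: the TA half of T1.
-/

open scoped Pointwise

namespace Fermat.Agent.S14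

open ExtCitation NumberField

local notation "Kb" => AlgebraicClosure ℚ
local notation "GQ" => (AlgebraicClosure ℚ ≃ₐ[ℚ] AlgebraicClosure ℚ)
local notation "OB" => (integralClosure ℤ (AlgebraicClosure ℚ))

attribute [local instance] S13.isGalois_Kb S13.isAlgClosure_Kb S13.galActionOB S13.topOB
  S13.discreteTopology_OB S13.continuousSMul_OB

section lifting

/-- An automorphism stabilising the prime of `OB` cut out by `A` stabilises `A`. -/
theorem ta_stab_of_primeOB (A : ValuationSubring Kb) (τ : GQ)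
    (hτ : τ • S13.primeOB A = S13.primeOB A) : ∀ x ∈ A, τ x ∈ A := by
  intro x hx
  obtain ⟨b, s, hb, hs, hs1, hxs⟩ := S13.exists_integral_div A x hx
  have hs0 : s ≠ 0 := by
    rintro rfl
    simp at hs1
  have hτs : IsIntegral ℤ (τ s) := map_isIntegral_int τ hs
  have hτb : IsIntegral ℤ (τ b) := map_isIntegral_int τ hb
  have hτs1 : A.valuation (τ s) = 1 := by
    refine le_antisymm (S13.valuation_le_one_of_isIntegral A hτs) (not_lt.mp fun hlt => ?_)
    have h1 : (⟨τ s, hτs⟩ : OB) ∈ τ • S13.primeOB A := by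
      rw [hτ, S13.mem_primeOB]
      exact hlt
    rw [S13.primeOB_smul_mem_iff] at h1
    simp only [AlgEquiv.symm_apply_apply] at h1
    rw [hs1] at h1
    exact lt_irrefl _ h1
  have hx' : x = b / s := by
    rw [← hxs]
    field_simp
  rw [← ValuationSubring.valuation_le_one_iff, hx', map_div₀, map_div₀, hτs1, div_one]
  exact S13.valuation_le_one_of_isIntegral A hτb

/-- **Lifting to the decomposition group.** -/
theorem ta_exists_mul_mem_decomp (A : ValuationSubring Kb) (H : Subgroup GQ) [hn : H.Normal]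
    (hH : IsClosed (H : Set GQ)) (σ₀ : GQ)
    (h₀ : ∀ x : Kb, IsIntegral ℤ x → (∀ h ∈ H, h x = x) →
      (A.valuation (σ₀ x) < 1 ↔ A.valuation x < 1)) :
    ∃ h ∈ H, h * σ₀ ∈ A.decompositionSubgroup ℚ := by
  have : CompactSpace H := isCompact_iff_compactSpace.mp hH.isCompact
  let A' := FixedPoints.subalgebra ℤ OB H
  have : Algebra.IsInvariant A' OB H := ⟨fun b hb => ⟨⟨b, hb⟩, rfl⟩⟩
  let Q := S13.primeOB A
  have hQ : Q.IsPrime := S13.primeOB_isPrime A
  let Q' : Ideal OB := σ₀ • Q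
  have hQ' : Q'.IsPrime := by
    show (σ₀ • Q).IsPrime
    rw [Ideal.pointwise_smul_eq_comap]
    exact Ideal.comap_isPrime _ _
  have hA'fix : ∀ a : A', ∀ g ∈ H, g ((a : OB) : Kb) = ((a : OB) : Kb) := by
    intro a g hg
    have h1 := a.2 ⟨g, hg⟩
    have h2 := congrArg (Subtype.val : OB → Kb) h1
    exact (S13.coe_smul_OB g (a : OB)).symm.trans h2
  have hconj : ∀ (τ : GQ) (x : Kb), (∀ g ∈ H, g x = x) → ∀ g ∈ H, g (τ x) = τ x := by
    intro τ x hx g hg
    have h1 := hx (τ⁻¹ * g * τ) (by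
      have := hn.conj_mem g hg τ⁻¹
      simpa using this)
    have h2 : τ ((τ⁻¹ * g * τ) x) = g (τ x) := by
      simp [AlgEquiv.mul_apply]
    rw [← h2, h1]
  have hPQ : Q'.under A' = Q.under A' := by
    ext a
    rw [Ideal.under_def, Ideal.under_def, Ideal.mem_comap, Ideal.mem_comap]
    show (a : OB) ∈ σ₀ • S13.primeOB A ↔ (a : OB) ∈ S13.primeOB A
    rw [S13.primeOB_smul_mem_iff, S13.mem_primeOB]
    have hx : ∀ g ∈ H, g (σ₀.symm ((a : OB) : Kb)) = σ₀.symm ((a : OB) : Kb) :=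
      hconj σ₀.symm _ (hA'fix a)
    have h1 := h₀ (σ₀.symm ((a : OB) : Kb)) (map_isIntegral_int σ₀.symm (a : OB).2) hx
    rw [AlgEquiv.apply_symm_apply] at h1
    exact h1.symm
  obtain ⟨h₁, hh₁⟩ := Algebra.IsInvariant.exists_smul_of_under_eq_of_profinite (A := A') (G := H)
    Q' Q hPQ
  set σ₁ : GQ := (h₁ : GQ) * σ₀ with hσ₁
  have hstab : σ₁ • Q = Q := by
    rw [hσ₁, mul_smul]
    exact hh₁.symm
  have hstab' : σ₁⁻¹ • Q = Q := by
    rw [inv_smul_eq_iff, hstab]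
  refine ⟨h₁, h₁.2, ?_⟩
  show σ₁ • A = A
  ext x
  rw [ValuationSubring.mem_pointwise_smul_iff_inv_smul_mem]
  constructor
  · intro hx
    have := ta_stab_of_primeOB A σ₁ hstab _ hx
    simpa using this
  · intro hx
    exact ta_stab_of_primeOB A σ₁⁻¹ hstab' x hx

/-- Every maximal ideal of the ring of integers of a subfield of `ℚ̄` is cut out by a valuation
subring. -/
theorem ta_exists_valuationSubring (L : IntermediateField ℚ Kb) (P : Ideal (𝓞 L))
    (hP : P.IsMaximal) : ∃ A : ValuationSubring Kb, S13.primeOL A L = P := by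
  let g : 𝓞 L →+* Kb := (algebraMap L Kb).comp (algebraMap (𝓞 L) L)
  have hginj : Function.Injective g :=
    (algebraMap L Kb).injective.comp NumberField.RingOfIntegers.coe_injective
  let f : 𝓞 L →+* g.range := g.rangeRestrict
  have hfsurj : Function.Surjective f := g.rangeRestrict_surjective
  have hI : P.map f ≠ ⊤ := by
    intro h
    have h1 : (1 : g.range) ∈ P.map f := by rw [h]; trivial
    rw [Ideal.mem_map_iff_of_surjective f hfsurj] at h1
    obtain ⟨x, hxP, hx⟩ := h1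
    have h2 : g x = g 1 := by
      have := congrArg (Subtype.val : g.range → Kb) hx
      simpa [f] using this
    rw [hginj h2] at hxP
    exact hP.ne_top ((Ideal.eq_top_iff_one P).mpr hxP)
  obtain ⟨A, -, hA⟩ := Ideal.image_subset_nonunits_valuationSubring _ hI
  refine ⟨A, ?_⟩
  have hle : P ≤ S13.primeOL A L := by
    intro x hx
    rw [S13.mem_primeOL]
    have h1 : ((f x : g.range) : Kb) ∈ A.nonunits := hA ⟨f x, Ideal.mem_map_of_mem f hx, rfl⟩
    exact A.mem_nonunits_iff.mp h1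
  exact (hP.eq_of_le (S13.primeOL_isPrime A L).ne_top hle).symm

theorem ta_exists_int (L : IntermediateField ℚ Kb) [NumberField L] (x : Kb) (hx : IsIntegral ℤ x) (hxL : x ∈ L) :
    ∃ x' : 𝓞 L, ((x' : L) : Kb) = x := by
  have hxint : IsIntegral ℤ (⟨x, hxL⟩ : L) :=
    (isIntegral_algebraMap_iff (FaithfulSMul.algebraMap_injective L Kb)).mp hx
  refine ⟨IsIntegralClosure.mk' (𝓞 L) (⟨x, hxL⟩ : L) hxint, ?_⟩
  have h1 : algebraMap (𝓞 L) L (IsIntegralClosure.mk' (𝓞 L) (⟨x, hxL⟩ : L) hxint) = ⟨x, hxL⟩ :=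
    IsIntegralClosure.algebraMap_mk' _ _ _
  exact congrArg (Subtype.val : L → Kb) h1

theorem ta_exists_int_apply (L : IntermediateField ℚ Kb) [NumberField L] (σ : L ≃ₐ[ℚ] L) (x : 𝓞 L) :
    ∃ y : 𝓞 L, (y : L) = σ (x : L) := by
  have hint : IsIntegral ℤ (σ (x : L)) :=
    map_isIntegral_int σ (NumberField.RingOfIntegers.isIntegral_coe x)
  exact ⟨IsIntegralClosure.mk' (𝓞 L) (σ (x : L)) hint, IsIntegralClosure.algebraMap_mk' _ _ _⟩

end lifting

section adm

variable {p : ℕ} [Fact p.Prime]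
variable {V : Type} [AddCommGroup V] [Module (ZMod p) V] [DistribMulAction GQ V]
  [SMulCommClass GQ (ZMod p) V] {C : Submodule (ZMod p) V}

/-- An automorphism of `L` whose lift lies in the kernel is trivial. -/
theorem ta_eq_one_of_lift_mem {τ : ta_L V ≃ₐ[ℚ] ta_L V} {σ : GQ}
    (hσ : ∀ y : ta_L V, σ (y : Kb) = ((τ y : ta_L V) : Kb)) (hmem : σ ∈ ta_ker V) : τ = 1 := by
  ext y
  rw [← hσ y]
  exact (ta_mem_L (y : Kb)).mp y.2 σ hmem

theorem ta_isMaximal_of_natCast_mem (hadm : IsAdmissibleExtensionCts p V C)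
    (P : Ideal (𝓞 (ta_L V))) (hP : P.IsPrime) (ℓ : ℕ) (hℓ : ℓ.Prime)
    (hmem : (ℓ : 𝓞 (ta_L V)) ∈ P) : P.IsMaximal := by
  have := ta_L_finite hadm
  have : NumberField (ta_L V) := ⟨⟩
  apply hP.isMaximal
  intro hbot
  rw [hbot, Ideal.mem_bot] at hmem
  exact hℓ.ne_zero (by exact_mod_cast hmem)

theorem ta_liesOver (A : ValuationSubring Kb) (ℓ : ℕ)
    (hmem : (ℓ : 𝓞 (ta_L V)) ∈ S13.primeOL A (ta_L V)) : A.LiesOverPrime ℓ := by
  rw [S13.mem_primeOL] at hmem
  have : ((((ℓ : ℕ) : 𝓞 (ta_L V)) : ta_L V) : Kb) = (ℓ : Kb) := by simp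
  rw [this] at hmem
  exact A.mem_nonunits_iff.mpr hmem

theorem ta_inertia_triv (hadm : IsAdmissibleExtensionCts p V C) (P : Ideal (𝓞 (ta_L V))) (ℓ : ℕ)
    (hP : P.IsPrime) (hℓ : ℓ.Prime) (hℓp : ℓ ≠ p) (hmem : (ℓ : 𝓞 (ta_L V)) ∈ P)
    (σ : ta_L V ≃ₐ[ℚ] ta_L V)
    (hσ : ∀ x y : 𝓞 (ta_L V), σ (x : ta_L V) = (y : ta_L V) → y - x ∈ P) : σ = 1 := by
  have := ta_L_finite hadm
  have : NumberField (ta_L V) := ⟨⟩
  obtain ⟨A, hA⟩ := ta_exists_valuationSubring (ta_L V) P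
    (ta_isMaximal_of_natCast_mem hadm P hP ℓ hℓ hmem)
  have hAℓ : A.LiesOverPrime ℓ := ta_liesOver A ℓ (by rw [hA]; exact hmem)
  obtain ⟨σ₀, -, hσ₀L⟩ := ta_exists_lift σ
  have h₀ : ∀ x : Kb, IsIntegral ℤ x → (∀ h ∈ ta_ker V, h x = x) →
      A.valuation (σ₀ x - x) < 1 := by
    intro x hx hfix
    have hxL : x ∈ ta_L V := (ta_mem_L x).mpr hfix
    obtain ⟨x', hx'⟩ := ta_exists_int (ta_L V) x hx hxL
    obtain ⟨y', hy'⟩ := ta_exists_int_apply (ta_L V) σ x'
    have h1 := hσ x' y' hy'.symm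
    rw [← hA, S13.mem_primeOL] at h1
    have h2 : (((y' - x' : 𝓞 (ta_L V)) : ta_L V) : Kb) = σ₀ x - x := by
      have h3 := hσ₀L (x' : ta_L V)
      rw [hx', ← hy'] at h3
      rw [h3, ← hx']
      simp
    rw [← h2]
    exact h1
  obtain ⟨h, hh, hmemI⟩ := S13.exists_mul_mem_inertia A (ta_ker V) (ta_isClosed hadm) σ₀ h₀
  have h1 : h * σ₀ ∈ ta_ker V :=
    ta_inertia_le hadm.toIsAdmissibleExtension ℓ hℓ hℓp A hAℓ hmemI
  have h2 : σ₀ ∈ ta_ker V := by
    have := (ta_ker V).mul_mem ((ta_ker V).inv_mem hh) h1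
    simpa using this
  exact ta_eq_one_of_lift_mem hσ₀L h2

theorem ta_decomp_triv (hadm : IsAdmissibleExtensionCts p V C) (P : Ideal (𝓞 (ta_L V)))
    (hP : P.IsPrime) (hmem : (p : 𝓞 (ta_L V)) ∈ P) (σ : ta_L V ≃ₐ[ℚ] ta_L V) (ζ : ta_L V)
    (hζ : IsPrimitiveRoot ζ p) (hσζ : σ ζ = ζ)
    (hσ : ∀ x y : 𝓞 (ta_L V), σ (x : ta_L V) = (y : ta_L V) → x ∈ P → y ∈ P) : σ = 1 := by
  have hp : p.Prime := Fact.out
  have := ta_L_finite hadm
  have : NumberField (ta_L V) := ⟨⟩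
  obtain ⟨A, hA⟩ := ta_exists_valuationSubring (ta_L V) P
    (ta_isMaximal_of_natCast_mem hadm P hP p hp hmem)
  have hAp : A.LiesOverPrime p := ta_liesOver A p (by rw [hA]; exact hmem)
  obtain ⟨σ₀, -, hσ₀L⟩ := ta_exists_lift σ
  have hz : IsPrimitiveRoot ((ζ : ta_L V) : Kb) p :=
    hζ.map_of_injective (algebraMap (ta_L V) Kb).injective
  have hσ₀K : σ₀ ∈ (cycloChar p).ker := by
    apply ta_mem_GK_of_fix p hz
    rw [hσ₀L, hσζ]
  -- powers of `σ` preserve `P`
  have hpow : ∀ (k : ℕ) (x y : 𝓞 (ta_L V)), (σ ^ k) (x : ta_L V) = (y : ta_L V) → x ∈ P →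
      y ∈ P := by
    intro k
    induction k with
    | zero =>
      intro x y hxy hx
      have : x = y := NumberField.RingOfIntegers.coe_injective (by simpa using hxy)
      rwa [← this]
    | succ k ih =>
      intro x y hxy hx
      obtain ⟨w, hw⟩ := ta_exists_int_apply (ta_L V) (σ ^ k) x
      have hw' := ih x w hw.symm hx
      apply hσ w y _ hw'
      rw [hw, ← hxy, pow_succ']
      rfl
  have hfin : Finite (ta_L V ≃ₐ[ℚ] ta_L V) := inferInstance
  have hord : 0 < orderOf σ := orderOf_pos σ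
  have h₀ : ∀ x : Kb, IsIntegral ℤ x → (∀ h ∈ ta_ker V, h x = x) →
      (A.valuation (σ₀ x) < 1 ↔ A.valuation x < 1) := by
    intro x hx hfix
    have hxL : x ∈ ta_L V := (ta_mem_L x).mpr hfix
    obtain ⟨x', hx'⟩ := ta_exists_int (ta_L V) x hx hxL
    obtain ⟨y', hy'⟩ := ta_exists_int_apply (ta_L V) σ x'
    have h3 : σ₀ x = ((y' : ta_L V) : Kb) := by
      have h3 := hσ₀L (x' : ta_L V)
      rw [hx', ← hy'] at h3
      exact h3
    rw [h3, ← hx']
    show y' ∈ S13.primeOL A (ta_L V) ↔ x' ∈ S13.primeOL A (ta_L V)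
    rw [hA]
    constructor
    · intro hy'P
      refine hpow (orderOf σ - 1) y' x' ?_ hy'P
      rw [hy', ← AlgEquiv.mul_apply, ← pow_succ, Nat.sub_add_cancel hord, pow_orderOf_eq_one]
      rfl
    · intro hx'P
      exact hσ x' y' hy'.symm hx'P
  obtain ⟨h, hh, hmemD⟩ := ta_exists_mul_mem_decomp A (ta_ker V) (ta_isClosed hadm) σ₀ h₀
  have hhK : h * σ₀ ∈ (cycloChar p).ker :=
    (cycloChar p).ker.mul_mem (ta_ker_le_GK hadm.toIsAdmissibleExtension hh) hσ₀K
  have h1 : h * σ₀ ∈ ta_ker V := ta_decomp_le hadm.toIsAdmissibleExtension A hAp hmemD hhK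
  have h2 : σ₀ ∈ ta_ker V := by
    have := (ta_ker V).mul_mem ((ta_ker V).inv_mem hh) h1
    simpa using this
  exact ta_eq_one_of_lift_mem hσ₀L h2

/-- **The TA half of T1.** -/
theorem ta_exists_LData (h3 : 3 ≤ p) (hadm : IsAdmissibleExtensionCts p V C)
    (hns : ¬ SplitsGlobally C) : ∃ L : IntermediateField ℚ Kb, tb_LData p L :=
  ⟨ta_L V,
    { finite := ta_L_finite hadm
      normal := ta_L_normal V
      finrank_eq := ta_L_finrank h3 hadm hns
      exists_zeta := ta_L_zeta hadm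
      conj := ta_L_conj hadm
      inertia_triv := fun P ℓ hP hℓ hℓp hmem σ hσ => ta_inertia_triv hadm P ℓ hP hℓ hℓp hmem σ hσ
      decomp_triv := fun P hP hmem σ ζ hζ hσζ hσ => ta_decomp_triv hadm P hP hmem σ ζ hζ hσζ hσ }⟩

end adm

end Fermat.Agent.S14
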