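import Mathlib

set_option autoImplicit false

/-!
# S14 / T1, second half: two general facts on fractional ideals of a Dedekind domain

* the adic valuation of a nonzero element is `exp (- count)` of the principal fractional ideal;
* a fractional ideal all of whose multiplicities are divisible by `n` is an `n`-th power.
-/

namespace Fermat.Agent.S14

open IsDedekindDomain WithZero nonZeroDivisors

section

variable {R : Type*} [CommRing R] [IsDedekindDomain R] {F : Type*} [Field F] [Algebra R F]
  [IsFractionRing R F]

theorem tb_valuation_eq_exp_neg_count (v : HeightOneSpectrum R) {x : F} (hx : x ≠ 0) :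
    v.valuation F x =
      exp (-(FractionalIdeal.count F v (FractionalIdeal.spanSingleton R⁰ x))) := by
  obtain ⟨n, d, hd, rfl⟩ := IsFractionRing.div_surjective (A := R) x
  have hd0 : d ≠ 0 := nonZeroDivisors.ne_zero hd
  have hn0 : n ≠ 0 := by
    rintro rfl
    simp at hx
  have hI : FractionalIdeal.spanSingleton R⁰ (algebraMap R F n / algebraMap R F d) ≠ 0 := by
    rw [Ne, FractionalIdeal.spanSingleton_eq_zero_iff]
    exact hx
  have h_aJ : FractionalIdeal.spanSingleton R⁰ (algebraMap R F n / algebraMap R F d) =
      FractionalIdeal.spanSingleton R⁰ ((algebraMap R F) d)⁻¹ *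
        ((Ideal.span {n} : Ideal R) : FractionalIdeal R⁰ F) := by
    rw [FractionalIdeal.coeIdeal_span_singleton, FractionalIdeal.spanSingleton_mul_spanSingleton,
      inv_mul_eq_div]
  rw [FractionalIdeal.count_well_defined F v hI h_aJ, map_div₀,
    HeightOneSpectrum.valuation_of_algebraMap, HeightOneSpectrum.valuation_of_algebraMap,
    v.intValuation_if_neg hn0, v.intValuation_if_neg hd0, ← exp_sub]
  congr 1
  ring

theorem tb_exists_pow_of_dvd_count (I : FractionalIdeal R⁰ F) (hI : I ≠ 0) (n : ℕ)
    (h : ∀ v : HeightOneSpectrum R, (n : ℤ) ∣ FractionalIdeal.count F v I) :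
    ∃ J : FractionalIdeal R⁰ F, I = J ^ n := by
  set c : HeightOneSpectrum R → ℤ := fun v => FractionalIdeal.count F v I / n with hc
  have hcn : ∀ v, c v * n = FractionalIdeal.count F v I := fun v => Int.ediv_mul_cancel (h v)
  refine ⟨∏ᶠ v : HeightOneSpectrum R, (v.asIdeal : FractionalIdeal R⁰ F) ^ (c v), ?_⟩
  have hfin : (Function.mulSupport fun v : HeightOneSpectrum R =>
      (v.asIdeal : FractionalIdeal R⁰ F) ^ (c v)).Finite := by
    have h0 := FractionalIdeal.finite_factors (K := F) I
    rw [Filter.eventually_cofinite] at h0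
    refine h0.subset ?_
    intro v hv hcount
    apply hv
    simp [hc, hcount]
  rw [finprod_pow hfin]
  conv_lhs => rw [← FractionalIdeal.finprod_heightOneSpectrum_factorization' (K := F) hI]
  refine finprod_congr fun v => ?_
  rw [← zpow_natCast, ← zpow_mul, hcn]

end

end Fermat.Agent.S14
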