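import Fermat.Agent.S14.TBRam
import Fermat.Agent.S14.TBVal

set_option autoImplicit false
set_option linter.unusedSectionVars false

/-!
# S14 / T1, second half, part C: the principal ideal `(α)` is a `p`-th power

`L = K(β)`, `β ^ p = α`, and `L / K` is unramified everywhere, so every multiplicity of `(α)` is
divisible by `p`.
-/

namespace Fermat.Agent.S14

open NumberField IsDedekindDomain WithZero nonZeroDivisors

variable {p : ℕ} [Fact p.Prime]

section

variable (L : IntermediateField ℚ (AlgebraicClosure ℚ)) [NumberField L] [Algebra (K p) L]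
  [IsScalarTower ℚ (K p) L] [IsGalois (K p) L]

theorem tb_dvd_count (hL : tb_LData p L) {β : L} {α : K p}
    (hβ : β ^ p = algebraMap (K p) L α) (hα : α ≠ 0) (v : HeightOneSpectrum (𝓞 (K p))) :
    (p : ℤ) ∣ FractionalIdeal.count (K p) v
      (FractionalIdeal.spanSingleton (𝓞 (K p))⁰ α) := by
  obtain ⟨⟨P, hPprime, hPlies⟩⟩ :=
    (inferInstance : Nonempty (Ideal.primesOver v.asIdeal (𝓞 L)))
  have hP0 : P ≠ ⊥ := Ideal.ne_bot_of_liesOver_of_ne_bot v.ne_bot P
  let w : HeightOneSpectrum (𝓞 L) := ⟨P, hPprime, hP0⟩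
  have hlies : w.asIdeal.LiesOver v.asIdeal := hPlies
  have h := HeightOneSpectrum.valuation_liesOver L v w α
  have he : v.asIdeal.ramificationIdx' w.asIdeal = 1 :=
    tb_ramificationIdx_eq_one L hL v.asIdeal v.ne_bot P
  rw [he, pow_one, ← hβ, map_pow, tb_valuation_eq_exp_neg_count v hα] at h
  have h2 := congrArg WithZero.log h
  rw [log_exp, log_pow] at h2
  refine ⟨-(log (w.valuation L β)), ?_⟩
  have h3 : FractionalIdeal.count (K p) v (FractionalIdeal.spanSingleton (𝓞 (K p))⁰ α) =
      -(p • log (w.valuation L β)) := by rw [← h2, neg_neg]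
  rw [h3, nsmul_eq_mul]
  ring

theorem tb_ideal_pow (hL : tb_LData p L) {β : L} {α : K p}
    (hβ : β ^ p = algebraMap (K p) L α) (hα : α ≠ 0) :
    ∃ 𝔞 : FractionalIdeal (nonZeroDivisors (𝓞 (K p))) (K p),
      FractionalIdeal.spanSingleton (nonZeroDivisors (𝓞 (K p))) α = 𝔞 ^ p :=
  tb_exists_pow_of_dvd_count _
    (by rw [Ne, FractionalIdeal.spanSingleton_eq_zero_iff]; exact hα) p
    (fun v => tb_dvd_count L hL hβ hα v)

end

end Fermat.Agent.S14
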