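import Fermat.Agent.S14.TBBase

set_option autoImplicit false
set_option linter.unusedSectionVars false

/-!
# S14 / T1, second half, part A: Kummer theory for `L / ℚ(ζ_p)`

`L` is a number field inside `ℚ̄`, Galois over `ℚ`, of degree `p` over `K p = ℚ(ζ_p)`.  We produce a
Kummer generator `β` (`β ^ p = α ∈ K p`, `β ∉ K p`) and prove the eigenvector property of `α`
modulo `p`-th powers from the conjugation rule in `Gal(L/ℚ)`.
-/

namespace Fermat.Agent.S14

open NumberField Polynomial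

variable {p : ℕ} [Fact p.Prime]

theorem tb_finrank_K : Module.finrank ℚ (K p) = p - 1 := by
  have h := IsCyclotomicExtension.finrank (n := p) (K p)
    (Polynomial.cyclotomic.irreducible_rat (Fact.out : p.Prime).pos)
  rw [h, Nat.totient_prime Fact.out]

section

variable (L : IntermediateField ℚ (AlgebraicClosure ℚ)) [NumberField L] [Algebra (K p) L]
  [IsScalarTower ℚ (K p) L]

theorem tb_finrank_L (hfr : Module.finrank ℚ L = p * (p - 1)) : Module.finrank (K p) L = p := by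
  have h := Module.finrank_mul_finrank ℚ (K p) L
  rw [tb_finrank_K, hfr] at h
  have hp : 0 < p - 1 := Nat.sub_pos_of_lt (Fact.out : p.Prime).one_lt
  have h2 : (p - 1) * Module.finrank (K p) L = (p - 1) * p := by rw [h, mul_comm]
  exact Nat.eq_of_mul_eq_mul_left hp h2

theorem tb_zetaL_prim : IsPrimitiveRoot (algebraMap (K p) L (zeta p)) p :=
  (zeta_spec p).map_of_injective (algebraMap (K p) L).injective

/-- A Kummer generator of `L` over `K p`. -/
theorem tb_exists_beta [IsGalois (K p) L] (hfr : Module.finrank (K p) L = p) :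
    ∃ (β : L) (α : K p), β ^ p = algebraMap (K p) L α ∧
      β ∉ Set.range (algebraMap (K p) L) := by
  have hcard : Nat.card (L ≃ₐ[K p] L) = p := by rw [IsGalois.card_aut_eq_finrank, hfr]
  have : IsCyclic (L ≃ₐ[K p] L) := isCyclic_of_prime_card hcard
  have hK : (primitiveRoots (Module.finrank (K p) L) (K p)).Nonempty := by
    rw [hfr]
    exact ⟨zeta p, (mem_primitiveRoots (Fact.out : p.Prime).pos).2 (zeta_spec p)⟩
  obtain ⟨β, ⟨α, hα⟩, htop⟩ := exists_root_adjoin_eq_top_of_isCyclic (K p) L hK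
  rw [hfr] at hα
  refine ⟨β, α, hα.symm, ?_⟩
  rintro ⟨x, hx⟩
  have hbot : IntermediateField.adjoin (K p) {β} = ⊥ :=
    IntermediateField.adjoin_simple_eq_bot_iff.2 (IntermediateField.mem_bot.2 ⟨x, hx⟩)
  rw [hbot] at htop
  have h1 := IntermediateField.bot_eq_top_iff_finrank_eq_one.1 htop
  rw [hfr] at h1
  exact (Fact.out : p.Prime).one_lt.ne' h1

theorem tb_smul_beta {β : L} {α : K p} (hβ : β ^ p = algebraMap (K p) L α) (hβ0 : β ≠ 0)
    (s : L ≃ₐ[K p] L) : ∃ i : ℕ, s β = algebraMap (K p) L (zeta p) ^ i * β := by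
  have h1 : (s β / β) ^ p = 1 := by
    rw [div_pow, ← map_pow, hβ, s.commutes, div_self]
    rw [← hβ]
    exact pow_ne_zero _ hβ0
  obtain ⟨i, -, hi⟩ := (tb_zetaL_prim L).eq_pow_of_pow_eq_one h1
  refine ⟨i, ?_⟩
  rw [hi, div_mul_cancel₀ _ hβ0]

theorem tb_eigen [IsGalois (K p) L] [Normal ℚ L]
    (hconj : ∀ (s d : L ≃ₐ[ℚ] L) (ζ : L) (a : ℕ), IsPrimitiveRoot ζ p → s ζ = ζ →
      d ζ = ζ ^ a → d⁻¹ * s * d = s ^ a)
    {β : L} {α : K p} (hβ : β ^ p = algebraMap (K p) L α) (hβ0 : β ≠ 0)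
    (σ : K p ≃ₐ[ℚ] K p) (a : ℕ) (hσ : σ (zeta p) = zeta p ^ a) :
    ∃ γ : K p, σ α = α ^ (a ^ 2) * γ ^ p := by
  set ζL : L := algebraMap (K p) L (zeta p) with hζL
  have hζLprim : IsPrimitiveRoot ζL p := tb_zetaL_prim L
  have hζL0 : ζL ≠ 0 := hζLprim.ne_zero (Fact.out : p.Prime).ne_zero
  let d : L ≃ₐ[ℚ] L := σ.liftNormal L
  have hd : ∀ x : K p, d (algebraMap (K p) L x) = algebraMap (K p) L (σ x) :=
    fun x => σ.liftNormal_commutes L x
  have hdζ : d ζL = ζL ^ a := by rw [hζL, hd, hσ, map_pow]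
  have hdβ0 : d β ≠ 0 := by
    intro h
    exact hβ0 ((map_eq_zero_iff d d.injective).1 h)
  have key : ∀ s : L ≃ₐ[K p] L, s (d β / β ^ (a ^ 2)) = d β / β ^ (a ^ 2) := by
    intro s
    obtain ⟨i, hi⟩ := tb_smul_beta L hβ hβ0 s
    let s' : L ≃ₐ[ℚ] L := s.restrictScalars ℚ
    have hs'ζ : s' ζL = ζL := s.commutes (zeta p)
    have hs'β : s' β = ζL ^ i * β := hi
    have hc := hconj s' d ζL a hζLprim hs'ζ hdζ
    have hpow : ∀ n : ℕ, (s' ^ n) β = ζL ^ (i * n) * β := by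
      intro n
      induction n with
      | zero => simp
      | succ n ih =>
        rw [pow_succ', AlgEquiv.mul_apply, ih, map_mul, map_pow, hs'ζ, hs'β]
        ring
    have h1 : s (d β) = d ((s' ^ a) β) := by
      rw [← hc]
      simp only [AlgEquiv.mul_apply]
      show s (d β) = d (d⁻¹ (s' (d β)))
      rw [show d (d⁻¹ (s' (d β))) = (d * d⁻¹) (s' (d β)) from rfl, mul_inv_cancel]
      rfl
    rw [hpow a, map_mul, map_pow, hdζ] at h1
    rw [map_div₀, map_pow, h1, hi]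
    have hβa : β ^ (a ^ 2) ≠ 0 := pow_ne_zero _ hβ0
    rw [div_eq_div_iff (pow_ne_zero _ (mul_ne_zero (pow_ne_zero _ hζL0) hβ0)) hβa]
    ring
  obtain ⟨γ, hγ⟩ := (IsGalois.mem_range_algebraMap_iff_fixed _).2 key
  refine ⟨γ, ?_⟩
  apply (algebraMap (K p) L).injective
  have hβa : β ^ (a ^ 2) ≠ 0 := pow_ne_zero _ hβ0
  rw [← hd, ← hβ, map_pow, map_mul, map_pow, map_pow, ← hβ, hγ, div_pow, ← pow_mul, ← pow_mul,
    mul_comm p (a ^ 2), mul_div_cancel₀ _ (pow_ne_zero _ hβ0)]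

theorem tb_not_pow {β : L} {α : K p} (hβ : β ^ p = algebraMap (K p) L α)
    (hβr : β ∉ Set.range (algebraMap (K p) L)) : ¬ ∃ γ : K p, α = γ ^ p := by
  rintro ⟨γ, rfl⟩
  have hp0 : p ≠ 0 := (Fact.out : p.Prime).ne_zero
  have hβ0 : β ≠ 0 := fun h => hβr ⟨0, by rw [h, map_zero]⟩
  have hγ0 : γ ≠ 0 := by
    rintro rfl
    rw [zero_pow hp0, map_zero] at hβ
    exact hβ0 (pow_eq_zero_iff hp0 |>.1 hβ)
  have hγL : algebraMap (K p) L γ ≠ 0 :=
    (map_ne_zero_iff _ (algebraMap (K p) L).injective).2 hγ0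
  have h1 : (β / algebraMap (K p) L γ) ^ p = 1 := by
    rw [div_pow, hβ, map_pow, div_self (pow_ne_zero _ hγL)]
  obtain ⟨i, -, hi⟩ := (tb_zetaL_prim L).eq_pow_of_pow_eq_one h1
  apply hβr
  refine ⟨zeta p ^ i * γ, ?_⟩
  rw [map_mul, map_pow, hi, div_mul_cancel₀ _ hγL]

theorem tb_alpha_ne_zero {β : L} {α : K p} (hβ : β ^ p = algebraMap (K p) L α)
    (hβr : β ∉ Set.range (algebraMap (K p) L)) : α ≠ 0 := by
  rintro rfl
  rw [map_zero] at hβ
  exact hβr ⟨0, by rw [map_zero, (pow_eq_zero_iff (Fact.out : p.Prime).ne_zero).1 hβ]⟩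

end

end Fermat.Agent.S14
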