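import Fermat.Agent.S14.TBKummer

set_option autoImplicit false
set_option linter.unusedSectionVars false

/-!
# S14 / T1, second half, part B: `L / ℚ(ζ_p)` is unramified everywhere

From the two group-theoretic statements of `tb_LData` (trivial inertia away from `p`, trivial
intersection of the decomposition groups above `p` with `Gal(L/ℚ(ζ))`) we get that every prime of
`𝓞 L` has ramification index one over `𝓞 (K p)`.
-/

namespace Fermat.Agent.S14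

open NumberField

variable {p : ℕ} [Fact p.Prime]

section

variable (L : IntermediateField ℚ (AlgebraicClosure ℚ)) [NumberField L] [Algebra (K p) L]
  [IsScalarTower ℚ (K p) L] [IsGalois (K p) L]

theorem tb_exists_prime_mem (P : Ideal (𝓞 L)) [P.IsPrime] (hP : P ≠ ⊥) :
    ∃ ℓ : ℕ, ℓ.Prime ∧ (ℓ : 𝓞 L) ∈ P := by
  have : Finite (𝓞 L ⧸ P) := Ideal.finiteQuotientOfFreeOfNeBot P hP
  obtain ⟨ℓ, hℓ⟩ := CharP.exists (𝓞 L ⧸ P)
  have hℓ0 : ℓ ≠ 0 := CharP.char_ne_zero_of_finite (𝓞 L ⧸ P) ℓ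
  have hprime : ℓ.Prime := (CharP.char_is_prime_or_zero (𝓞 L ⧸ P) ℓ).resolve_right hℓ0
  refine ⟨ℓ, hprime, ?_⟩
  rw [← Ideal.Quotient.eq_zero_iff_mem, map_natCast]
  exact CharP.cast_eq_zero _ ℓ

theorem tb_inertia_eq_bot (hL : tb_LData p L) (P : Ideal (𝓞 L)) [hPp : P.IsPrime] (hP : P ≠ ⊥) :
    Ideal.inertia (L ≃ₐ[K p] L) P = ⊥ := by
  rw [eq_bot_iff]
  intro σ hσ
  rw [Subgroup.mem_bot]
  have hσ' : ∀ x : 𝓞 L, σ • x - x ∈ P := hσ
  let σ' : L ≃ₐ[ℚ] L := σ.restrictScalars ℚ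
  suffices h : σ' = 1 from
    AlgEquiv.ext fun x => congrArg (fun f : L ≃ₐ[ℚ] L => f x) h
  by_cases hp : (p : 𝓞 L) ∈ P
  · refine hL.decomp_triv P hPp hp σ' _ (tb_zetaL_prim L) (σ.commutes (zeta p)) ?_
    intro x y hxy hx
    have hy : y = σ • x := Subtype.ext hxy.symm
    rw [hy]
    have h2 : σ • x = (σ • x - x) + x := by ring
    rw [h2]
    exact P.add_mem (hσ' x) hx
  · obtain ⟨ℓ, hℓ, hℓP⟩ := tb_exists_prime_mem L P hP
    have hne : ℓ ≠ p := by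
      rintro rfl
      exact hp hℓP
    refine hL.inertia_triv P ℓ hPp hℓ hne hℓP σ' ?_
    intro x y hxy
    have hy : y = σ • x := Subtype.ext hxy.symm
    rw [hy]
    exact hσ' x

theorem tb_ramificationIdx_eq_one (hL : tb_LData p L) (𝔮 : Ideal (𝓞 (K p))) [𝔮.IsPrime]
    (h𝔮 : 𝔮 ≠ ⊥) (P : Ideal (𝓞 L)) [P.IsPrime] [P.LiesOver 𝔮] : 𝔮.ramificationIdx' P = 1 := by
  have hP : P ≠ ⊥ := Ideal.ne_bot_of_liesOver_of_ne_bot h𝔮 P
  have h1 := Ideal.card_inertia_eq_ramificationIdxIn (G := L ≃ₐ[K p] L) 𝔮 P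
  rw [tb_inertia_eq_bot L hL P hP, Subgroup.card_bot] at h1
  rw [Ideal.ramificationIdx'_eq_ramificationIdx 𝔮 P h𝔮,
    ← Ideal.ramificationIdxIn_eq_ramificationIdx 𝔮 P (L ≃ₐ[K p] L), ← h1]

end

end Fermat.Agent.S14
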