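import Fermat.Agent.S14.ThBase

set_option autoImplicit false

/-!
# S14 / B1 (Thaine), part P1: the Galois group of `F/K` and Hilbert 90

`F = K(ζ_ℓ)`; `Gal(F/K)` is cyclic; the cyclotomic unit `1 - ζ_p ζ_ℓ` has relative norm `1`
(when `ℓ ≡ 1 mod p`); Hilbert 90 gives `β ∈ 𝓞 F`, `β ≠ 0`, with `τ β = (1 - ζ_p ζ_ℓ) β`.
-/

namespace Fermat.Agent.S14

open NumberField

variable (p : ℕ) [Fact p.Prime] (ℓ : ℕ) [NeZero ℓ]

noncomputable instance th1_isScalarTowerO :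
    IsScalarTower (𝓞 (K p)) (𝓞 (thF p ℓ)) (thF p ℓ) :=
  IsScalarTower.of_algebraMap_eq' rfl

/-- The chosen primitive `ℓ`-th root of unity of `F`. -/
noncomputable def th1_zetaL : thF p ℓ := IsCyclotomicExtension.zeta ℓ (K p) (thF p ℓ)

theorem th1_zetaL_spec : IsPrimitiveRoot (th1_zetaL p ℓ) ℓ :=
  IsCyclotomicExtension.zeta_spec ℓ (K p) (thF p ℓ)

theorem th1_isCyclic (hℓ : ℓ.Prime) : IsCyclic (thF p ℓ ≃ₐ[K p] thF p ℓ) := by
  have : Fact ℓ.Prime := ⟨hℓ⟩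
  exact isCyclic_of_injective (IsPrimitiveRoot.autToPow (K p) (th1_zetaL_spec p ℓ))
    (IsPrimitiveRoot.autToPow_injective (K p) (th1_zetaL_spec p ℓ))

theorem th1_apply_zetaL_injective :
    Function.Injective (fun σ : thF p ℓ ≃ₐ[K p] thF p ℓ => σ (th1_zetaL p ℓ)) := by
  intro σ σ' h
  refine IsCyclotomicExtension.algEquiv_eq_of_apply_eq (S := {ℓ}) (A := K p) (B := thF p ℓ) ?_
  intro n hn _
  rw [Set.mem_singleton_iff] at hn
  subst hn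
  exact ⟨th1_zetaL p n, th1_zetaL_spec p n, h⟩

theorem th1_card_aut (hℓ : ℓ.Prime) (hpl : Nat.Coprime p ℓ) :
    Fintype.card (thF p ℓ ≃ₐ[K p] thF p ℓ) = ℓ - 1 := by
  rw [← Nat.card_eq_fintype_card, IsGalois.card_aut_eq_finrank, th_finrank p ℓ hpl,
    Nat.totient_prime hℓ]

open Polynomial in
theorem th1_prod_aut (hℓ : ℓ.Prime) (hpl : Nat.Coprime p ℓ) (a : thF p ℓ) :
    (1 - a) * ∏ σ : thF p ℓ ≃ₐ[K p] thF p ℓ, (1 - σ (th1_zetaL p ℓ) * a) = 1 - a ^ ℓ := by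
  classical
  have hζ := th1_zetaL_spec p ℓ
  have hmem : (1 : thF p ℓ) ∈ nthRootsFinset ℓ (1 : thF p ℓ) := by
    rw [mem_nthRootsFinset hℓ.pos, one_pow]
  have himage : Finset.univ.image (fun σ : thF p ℓ ≃ₐ[K p] thF p ℓ => σ (th1_zetaL p ℓ)) =
      (nthRootsFinset ℓ (1 : thF p ℓ)).erase 1 := by
    apply Finset.eq_of_subset_of_card_le
    · intro μ hμ
      rw [Finset.mem_image] at hμ
      obtain ⟨σ, -, rfl⟩ := hμ
      rw [Finset.mem_erase, mem_nthRootsFinset hℓ.pos]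
      refine ⟨?_, ?_⟩
      · intro h1
        have : σ (th1_zetaL p ℓ) = σ 1 := by rw [h1, map_one]
        exact hζ.ne_one hℓ.one_lt (σ.injective this)
      · rw [← map_pow, hζ.pow_eq_one, map_one]
    · rw [Finset.card_image_of_injective _ (th1_apply_zetaL_injective p ℓ), Finset.card_univ,
        th1_card_aut p ℓ hℓ hpl, Finset.card_erase_of_mem hmem, hζ.card_nthRootsFinset]
  have h1 := hζ.pow_sub_pow_eq_prod_sub_mul 1 a hℓ.pos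
  rw [one_pow] at h1
  rw [h1, ← Finset.mul_prod_erase _ _ hmem, one_mul, ← himage,
    Finset.prod_image (fun x _ y _ h => th1_apply_zetaL_injective p ℓ h)]

/-- `ζ_p` inside `F`. -/
noncomputable def th1_zetaP : thF p ℓ := algebraMap (K p) (thF p ℓ) (zeta p)

theorem th1_zetaP_spec : IsPrimitiveRoot (th1_zetaP p ℓ) p :=
  (zeta_spec p).map_of_injective (algebraMap (K p) (thF p ℓ)).injective

theorem th1_norm_eq_one (hℓ : ℓ.Prime) (hℓp : ℓ ≠ p) (hpl : p ∣ ℓ - 1) :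
    Algebra.norm (K p) (1 - th1_zetaP p ℓ * th1_zetaL p ℓ) = 1 := by
  have hp : p.Prime := Fact.out
  have hcop : Nat.Coprime p ℓ := (Nat.coprime_primes hp hℓ).mpr (Ne.symm hℓp)
  apply (algebraMap (K p) (thF p ℓ)).injective
  rw [Algebra.norm_eq_prod_automorphisms, map_one]
  have hprod := th1_prod_aut p ℓ hℓ hcop (th1_zetaP p ℓ)
  have hpow : th1_zetaP p ℓ ^ ℓ = th1_zetaP p ℓ := by
    obtain ⟨k, hk⟩ := hpl
    have hℓ' : ℓ = p * k + 1 := by have := hℓ.one_lt; omega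
    calc th1_zetaP p ℓ ^ ℓ = th1_zetaP p ℓ ^ (p * k + 1) := by rw [← hℓ']
      _ = th1_zetaP p ℓ := by
        rw [pow_succ, pow_mul, (th1_zetaP_spec p ℓ).pow_eq_one, one_pow, one_mul]
  rw [hpow] at hprod
  have hne : (1 : thF p ℓ) - th1_zetaP p ℓ ≠ 0 := by
    intro h
    exact (th1_zetaP_spec p ℓ).ne_one hp.one_lt (sub_eq_zero.mp h).symm
  have h2 : ∏ σ : thF p ℓ ≃ₐ[K p] thF p ℓ, (1 - σ (th1_zetaL p ℓ) * th1_zetaP p ℓ) = 1 :=
    mul_left_cancel₀ hne (by rw [hprod, mul_one])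
  refine Eq.trans (Finset.prod_congr rfl (fun σ _ => ?_)) h2
  rw [map_sub, map_one, map_mul, th1_zetaP, σ.commutes, mul_comm]

/-- **P1 of Thaine's relation.** The Galois group of `F = K(ζ_ℓ)` over `K` is cyclic, generated
by some `τ`, and Hilbert 90 applied to the cyclotomic unit `1 - ζ_p ζ_ℓ` (of relative norm `1`)
gives a nonzero algebraic integer `β` with `τ β = (1 - ζ_p ζ_ℓ) β`. -/
theorem th_hilbert90 (hp5 : 5 ≤ p) (ℓ : ℕ) [NeZero ℓ] (hℓ : ℓ.Prime) (hℓp : ℓ ≠ p)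
    (hpl : p ∣ ℓ - 1) :
    ∃ (g : ℕ) (τ : thF p ℓ ≃ₐ[K p] thF p ℓ) (ζℓ : thF p ℓ) (β : 𝓞 (thF p ℓ)),
      IsPrimitiveRoot ζℓ ℓ ∧ τ ζℓ = ζℓ ^ g ∧
      (∀ σ : thF p ℓ ≃ₐ[K p] thF p ℓ, σ ∈ Subgroup.zpowers τ) ∧ β ≠ 0 ∧
      τ (β : thF p ℓ) = (1 - algebraMap (K p) (thF p ℓ) (zeta p) * ζℓ) * (β : thF p ℓ) := by
  have hcyc := th1_isCyclic p ℓ hℓ
  obtain ⟨τ₀, hτ₀⟩ := IsCyclic.exists_generator (α := thF p ℓ ≃ₐ[K p] thF p ℓ)
  have hζ := th1_zetaL_spec p ℓ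
  -- the cyclotomic unit as an algebraic integer
  let η : 𝓞 (thF p ℓ) := 1 - algebraMap (𝓞 (K p)) (𝓞 (thF p ℓ)) (zetaO p) * hζ.toInteger
  have hηcoe : algebraMap (𝓞 (thF p ℓ)) (thF p ℓ) η = 1 - th1_zetaP p ℓ * th1_zetaL p ℓ := rfl
  have hη : Algebra.norm (K p) (algebraMap (𝓞 (thF p ℓ)) (thF p ℓ) η) = 1 := by
    rw [hηcoe]
    exact th1_norm_eq_one p ℓ hℓ hℓp hpl
  obtain ⟨β, hβ0, hβ⟩ := groupCohomology.exists_mul_galRestrict_of_norm_eq_one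
    (A := 𝓞 (K p)) (K := K p) (L := thF p ℓ) (B := 𝓞 (thF p ℓ)) hτ₀ hη
  have hβ' : (1 - th1_zetaP p ℓ * th1_zetaL p ℓ) * τ₀ (β : thF p ℓ) = (β : thF p ℓ) := by
    have := congrArg (algebraMap (𝓞 (thF p ℓ)) (thF p ℓ)) hβ
    rw [map_mul, algebraMap_galRestrict_apply, hηcoe] at this
    exact this
  obtain ⟨τ, hτdef⟩ : ∃ τ : thF p ℓ ≃ₐ[K p] thF p ℓ, τ = τ₀⁻¹ := ⟨_, rfl⟩
  have hττ₀ : ∀ x : thF p ℓ, τ (τ₀ x) = x := by
    intro x
    rw [hτdef]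
    exact τ₀.symm_apply_apply x
  refine ⟨((IsPrimitiveRoot.autToPow (K p) hζ τ : (ZMod ℓ)ˣ) : ZMod ℓ).val, τ,
    τ (th1_zetaL p ℓ), β, hζ.map_of_injective τ.injective, ?_, ?_, hβ0, ?_⟩
  · rw [← map_pow, IsPrimitiveRoot.autToPow_spec (K p) hζ τ]
  · intro σ
    rw [hτdef, Subgroup.zpowers_inv]
    exact hτ₀ σ
  · have h := congrArg τ hβ'
    rw [map_mul, hττ₀, map_sub, map_one, map_mul] at h
    have h3 : τ (th1_zetaP p ℓ) = algebraMap (K p) (thF p ℓ) (zeta p) := τ.commutes _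
    rw [h3] at h
    exact h.symm

end Fermat.Agent.S14
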