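import Fermat.Agent.S14.Th2c

set_option autoImplicit false

/-!
# S14 / B1 (Thaine), part 2d: local analysis at the primes above `ℓ`
-/

namespace Fermat.Agent.S14

open NumberField UniqueFactorizationMonoid Polynomial

/-- If `z ^ ℓ = 1` and `ℓ ∈ P` (`P` prime), then `z ≡ 1 mod P`. -/
theorem th_sub_one_mem {S : Type*} [CommRing S] (P : Ideal S) [hP : P.IsPrime] {ℓ : ℕ}
    (hℓ : ℓ.Prime) (hℓP : (ℓ : S) ∈ P) {z : S} (hz : z ^ ℓ = 1) : z - 1 ∈ P := by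
  have : Fact ℓ.Prime := ⟨hℓ⟩
  obtain ⟨r, hr⟩ := exists_add_pow_prime_eq hℓ (z - 1) 1
  rw [sub_add_cancel, hz, one_pow] at hr
  have h1 : (z - 1) ^ ℓ = -((ℓ : S) * ((z - 1) * 1 * r)) := by linear_combination -hr
  have h2 : (z - 1) ^ ℓ ∈ P := by
    rw [h1]
    exact P.neg_mem (P.mul_mem_right _ hℓP)
  exact hP.mem_of_pow_mem ℓ h2

/-- `(1 - ζ)^(ℓ-1)` divides `ℓ` for a primitive `ℓ`-th root of unity `ζ`. -/
theorem th_one_sub_pow_dvd {S : Type*} [CommRing S] [IsDomain S] {ℓ : ℕ} (hℓ : ℓ.Prime) {z : S}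
    (hz : IsPrimitiveRoot z ℓ) : (1 - z) ^ (ℓ - 1) ∣ (ℓ : S) := by
  have : Fact ℓ.Prime := ⟨hℓ⟩
  have h1 : (ℓ : S) = ∏ μ ∈ primitiveRoots ℓ S, (1 - μ) := by
    have h := congrArg (Polynomial.eval 1) (Polynomial.cyclotomic_eq_prod_X_sub_primitiveRoots hz)
    rw [Polynomial.eval_one_cyclotomic_prime, Polynomial.eval_prod] at h
    rw [h]
    exact Finset.prod_congr rfl fun μ _ => by simp
  have h2 : ∏ _μ ∈ primitiveRoots ℓ S, (1 - z) ∣ ∏ μ ∈ primitiveRoots ℓ S, (1 - μ) := by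
    apply Finset.prod_dvd_prod_of_dvd
    intro μ hμ
    have hμ' : μ ^ ℓ = 1 := ((mem_primitiveRoots hℓ.pos).mp hμ).pow_eq_one
    have : NeZero ℓ := ⟨hℓ.ne_zero⟩
    obtain ⟨i, -, rfl⟩ := hz.eq_pow_of_pow_eq_one hμ'
    simpa using sub_dvd_pow_sub_pow (1 : S) z i
  rw [Finset.prod_const, hz.card_primitiveRoots, Nat.totient_prime hℓ] at h2
  rw [h1]
  exact h2

/-- A nonzero prime containing the rational prime `ℓ` lies over `(ℓ)`. -/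
theorem th_liesOver_of_mem {R : Type*} [CommRing R] [IsDomain R] [Algebra.IsIntegral ℤ R]
    (P : Ideal R) [hP : P.IsPrime] (hP0 : P ≠ ⊥) {ℓ : ℕ} (hℓ : ℓ.Prime) (h : (ℓ : R) ∈ P) :
    P.LiesOver (Ideal.span {(ℓ : ℤ)}) := by
  have : NeZero P := ⟨hP0⟩
  have hrp : (Ideal.absNorm (Ideal.under ℤ P)).Prime := Nat.absNorm_under_prime P
  have h1 := Int.cast_mem_ideal_iff (I := P) (d := (ℓ : ℤ))
  rw [Int.cast_natCast, Int.natCast_dvd_natCast, Nat.prime_dvd_prime_iff_eq hrp hℓ] at h1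
  have h2 := Int.liesOver_span_absNorm P
  rwa [h1.mp h] at h2

end Fermat.Agent.S14

namespace Fermat.Agent.S14

open NumberField UniqueFactorizationMonoid Polynomial

variable {p : ℕ} [Fact p.Prime] {ℓ : ℕ} [NeZero ℓ]

/-- The exponent of a prime `P ∣ ℓ` of `F` in `(ℓ)` is `ℓ - 1`. -/
theorem th_count_natCast (hℓ : ℓ.Prime) (hℓp : ℓ ≠ p) (P : Ideal (𝓞 (thF p ℓ))) [hP : P.IsPrime]
    (hP0 : P ≠ ⊥) (hℓP : (ℓ : 𝓞 (thF p ℓ)) ∈ P) :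
    Multiset.count P (normalizedFactors (Ideal.span {(ℓ : 𝓞 (thF p ℓ))})) = ℓ - 1 := by
  have hp : p.Prime := Fact.out
  have hcop : Nat.Coprime p ℓ := (Nat.coprime_primes hp hℓ).mpr (Ne.symm hℓp)
  have : Fact ℓ.Prime := ⟨hℓ⟩
  have hcyc : IsCyclotomicExtension {p * ℓ} ℚ (thF p ℓ) := th_isCyclo_mul p ℓ hcop
  have hPℓ : P.LiesOver (Ideal.span {(ℓ : ℤ)}) := th_liesOver_of_mem P hP0 hℓ hℓP
  have h2 : P.ramificationIdx ℤ = ℓ ^ 0 * (ℓ - 1) :=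
    IsCyclotomicExtension.Rat.ramificationIdx_eq (p * ℓ) (m := p) (p := ℓ) (k := 0) (thF p ℓ) P
      (by ring) (fun h => hℓp ((Nat.prime_dvd_prime_iff_eq hℓ hp).mp h))
  have hmap : (Ideal.span {(ℓ : ℤ)}).map (algebraMap ℤ (𝓞 (thF p ℓ))) =
      Ideal.span {(ℓ : 𝓞 (thF p ℓ))} := by
    rw [Ideal.map_span, Set.image_singleton, map_natCast]
  have hne : (Ideal.span {(ℓ : ℤ)}).map (algebraMap ℤ (𝓞 (thF p ℓ))) ≠ ⊥ := by
    rw [hmap]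
    simpa using hℓ.ne_zero
  rw [← hmap, ← Ideal.IsDedekindDomain.ramificationIdx_eq_normalizedFactors_count _ P hne, h2,
    pow_zero, one_mul]

/-- A prime `P ∣ ℓ` of `F` has norm `ℓ` (when `ℓ ≡ 1 mod p`). -/
theorem th_absNorm (hℓ : ℓ.Prime) (hℓp : ℓ ≠ p) (hpl : p ∣ ℓ - 1) (P : Ideal (𝓞 (thF p ℓ)))
    [hP : P.IsPrime] (hP0 : P ≠ ⊥) (hℓP : (ℓ : 𝓞 (thF p ℓ)) ∈ P) : Ideal.absNorm P = ℓ := by
  have hp : p.Prime := Fact.out
  have hcop : Nat.Coprime p ℓ := (Nat.coprime_primes hp hℓ).mpr (Ne.symm hℓp)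
  have : Fact ℓ.Prime := ⟨hℓ⟩
  have hcyc : IsCyclotomicExtension {p * ℓ} ℚ (thF p ℓ) := th_isCyclo_mul p ℓ hcop
  have hPℓ : P.LiesOver (Ideal.span {(ℓ : ℤ)}) := th_liesOver_of_mem P hP0 hℓ hℓP
  have h2 : P.inertiaDeg ℤ = orderOf ((ℓ : ℕ) : ZMod p) :=
    IsCyclotomicExtension.Rat.inertiaDeg_eq (p * ℓ) (m := p) (p := ℓ) (k := 0) (thF p ℓ) P
      (by ring) (fun h => hℓp ((Nat.prime_dvd_prime_iff_eq hℓ hp).mp h))
  have h3 : ((ℓ : ℕ) : ZMod p) = 1 := by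
    have h4 : ((ℓ - 1 : ℕ) : ZMod p) = 0 := (ZMod.natCast_eq_zero_iff _ _).mpr hpl
    have h5 : ℓ = (ℓ - 1) + 1 := (Nat.sub_add_cancel hℓ.one_le).symm
    rw [h5, Nat.cast_add, h4, zero_add, Nat.cast_one]
  rw [h3, orderOf_one] at h2
  have h6 := Ideal.pow_inertiaDeg ℓ P
  rw [h2, pow_one] at h6
  exact h6.symm

end Fermat.Agent.S14

namespace Fermat.Agent.S14

open NumberField UniqueFactorizationMonoid Polynomial

/-- Stability of the powers of an ideal under an automorphism stabilising it. -/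
theorem th_smul_mem_pow {G S : Type*} [Group G] [CommRing S] [MulSemiringAction G S] (σ : G)
    (P : Ideal S) (h : ∀ x ∈ P, σ • x ∈ P) (n : ℕ) : ∀ x ∈ P ^ n, σ • x ∈ P ^ n := by
  induction n with
  | zero => intro x _; simp
  | succ n ih =>
    intro x hx
    rw [pow_succ] at hx ⊢
    refine Submodule.mul_induction_on hx (fun a ha b hb => ?_) (fun a b ha hb => ?_)
    · rw [smul_mul']
      exact Ideal.mul_mem_mul (ih a ha) (h b hb)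
    · rw [smul_add]
      exact Ideal.add_mem _ ha hb

variable {p : ℕ} [Fact p.Prime] {ℓ : ℕ} [NeZero ℓ]

/-- **Local congruence at a prime above `ℓ`.** -/
theorem th_local_congr (hℓ : ℓ.Prime) (hℓp : ℓ ≠ p) (hpl : p ∣ ℓ - 1)
    (q : Ideal (𝓞 (K p))) [hq : q.IsPrime] (hq0 : q ≠ ⊥) (hℓq : (ℓ : 𝓞 (K p)) ∈ q)
    (P : Ideal (𝓞 (thF p ℓ))) [hP : P.IsPrime] [hPq : P.LiesOver q]
    (g : ℕ) (τ : thF p ℓ ≃ₐ[K p] thF p ℓ) (ζℓ : thF p ℓ) (β : 𝓞 (thF p ℓ))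
    (hζℓ : IsPrimitiveRoot ζℓ ℓ) (hτζ : τ ζℓ = ζℓ ^ g) (hβ0 : β ≠ 0)
    (hτβ : τ (β : thF p ℓ) = (1 - algebraMap (K p) (thF p ℓ) (zeta p) * ζℓ) * (β : thF p ℓ)) :
    (g : 𝓞 (K p)) ^ Multiset.count P (normalizedFactors (Ideal.span {β})) - (1 - zetaO p) ∈ q := by
  have hℓP : (ℓ : 𝓞 (thF p ℓ)) ∈ P := by
    have h1 : (ℓ : 𝓞 (K p)) ∈ P.under (𝓞 (K p)) := by rw [← hPq.over]; exact hℓq
    have h2 : algebraMap (𝓞 (K p)) (𝓞 (thF p ℓ)) (ℓ : 𝓞 (K p)) ∈ P := h1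
    rwa [map_natCast] at h2
  have hP0 : P ≠ ⊥ := by
    rintro rfl
    exact hℓ.ne_zero (by simpa using hℓP)
  set z : 𝓞 (thF p ℓ) := hζℓ.toInteger with hz
  have hzprim : IsPrimitiveRoot z ℓ := hζℓ.toInteger_isPrimitiveRoot
  have hzcoe : (z : thF p ℓ) = ζℓ := rfl
  have hz1 : z - 1 ∈ P := th_sub_one_mem P hℓ hℓP hzprim.pow_eq_one
  set π : 𝓞 (thF p ℓ) := 1 - z with hπ
  have hπP : π ∈ P := by
    have h := P.neg_mem hz1
    rwa [neg_sub] at h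
  have hπ0 : π ≠ 0 := fun h => hzprim.ne_one hℓ.one_lt (sub_eq_zero.mp h).symm
  have hcountπ : Multiset.count P (normalizedFactors (Ideal.span {π})) = 1 := by
    apply le_antisymm
    · by_contra hlt
      push Not at hlt
      have h2 : π ∈ P ^ 2 := (th_mem_pow_iff P hP0 hπ0 2).mpr hlt
      have h3 : π ^ (ℓ - 1) ∈ P ^ (2 * (ℓ - 1)) := by
        rw [pow_mul]
        exact Ideal.pow_mem_pow h2 _
      obtain ⟨w, hw⟩ := th_one_sub_pow_dvd hℓ hzprim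
      have h4 : (ℓ : 𝓞 (thF p ℓ)) ∈ P ^ (2 * (ℓ - 1)) := by
        rw [hw]
        exact Ideal.mul_mem_right _ _ h3
      have h5 := (th_mem_pow_iff P hP0 (Nat.cast_ne_zero.mpr hℓ.ne_zero) _).mp h4
      rw [th_count_natCast hℓ hℓp P hP0 hℓP] at h5
      have := hℓ.one_lt
      omega
    · exact (th_mem_pow_iff P hP0 hπ0 1).mp (by simpa using hπP)
  set c := Multiset.count P (normalizedFactors (Ideal.span {β})) with hc
  have hβc : β ∈ P ^ c := (th_mem_pow_iff P hP0 hβ0 c).mpr le_rfl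
  have hβc' : β ∉ P ^ (c + 1) := fun h => by
    have := (th_mem_pow_iff P hP0 hβ0 (c + 1)).mp h
    omega
  have hπc : π ^ c ∈ P ^ c := Ideal.pow_mem_pow hπP c
  have hπc' : π ^ c ∉ P ^ (c + 1) := by
    intro h
    have h1 := (th_mem_pow_iff P hP0 (pow_ne_zero c hπ0) (c + 1)).mp h
    rw [← Ideal.span_singleton_pow, normalizedFactors_pow, Multiset.count_nsmul, hcountπ] at h1
    omega
  obtain ⟨d, e, he, hde⟩ := Ideal.exists_mul_add_mem_pow_succ hP0 (π ^ c) β hπc hπc' hβc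
  obtain ⟨n, hn⟩ := th_exists_int_sub_mem P hℓ (th_absNorm hℓ hℓp hpl P hP0 hℓP) d
  have h1 : β - π ^ c * (n : 𝓞 (thF p ℓ)) ∈ P ^ (c + 1) := by
    have h : β - π ^ c * (n : 𝓞 (thF p ℓ)) = π ^ c * (d - n) + e := by rw [← hde]; ring
    rw [h, pow_succ]
    exact Ideal.add_mem _ (Ideal.mul_mem_mul hπc hn) (by rwa [← pow_succ])
  have hstab : ∀ x ∈ P, τ • x ∈ P := fun x hx => th_smul_mem hℓ hℓp q hq0 hℓq P τ hx
  have hstab' := th_smul_mem_pow τ P hstab (c + 1)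
  have hτz : τ • z = z ^ g := by
    apply RingOfIntegers.ext
    show τ (z : thF p ℓ) = ((z ^ g : 𝓞 (thF p ℓ)) : thF p ℓ)
    rw [show ((z ^ g : 𝓞 (thF p ℓ)) : thF p ℓ) = (z : thF p ℓ) ^ g from
      map_pow (algebraMap (𝓞 (thF p ℓ)) (thF p ℓ)) z g]
    exact hτζ
  set θ : 𝓞 (thF p ℓ) := ∑ i ∈ Finset.range g, z ^ i with hθdef
  have hτπ : τ • π = π * θ := by
    rw [hπ, smul_sub, smul_one, hτz]
    exact (mul_neg_geom_sum z g).symm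
  set ε : 𝓞 (thF p ℓ) := 1 - algebraMap (𝓞 (K p)) (𝓞 (thF p ℓ)) (zetaO p) * z with hε
  have hτβ' : τ • β = ε * β := by
    apply RingOfIntegers.ext
    show τ (β : thF p ℓ) = ((ε * β : 𝓞 (thF p ℓ)) : thF p ℓ)
    rw [hτβ]
    rfl
  have hθ : θ - (g : 𝓞 (thF p ℓ)) ∈ P := by
    have hzq : Ideal.Quotient.mk P z = 1 := by
      rw [← map_one (Ideal.Quotient.mk P), Ideal.Quotient.eq]
      exact hz1
    rw [← Ideal.Quotient.eq, hθdef, map_sum]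
    simp [hzq]
  have hτn : τ • (n : 𝓞 (thF p ℓ)) = n :=
    map_intCast (MulSemiringAction.toRingHom (thF p ℓ ≃ₐ[K p] thF p ℓ) (𝓞 (thF p ℓ)) τ) n
  have h2 : ε * β - (π * θ) ^ c * (n : 𝓞 (thF p ℓ)) ∈ P ^ (c + 1) := by
    have h := hstab' _ h1
    rwa [smul_sub, smul_mul', smul_pow', hτβ', hτπ, hτn] at h
  have h5 : ε * β - ε * (π ^ c * (n : 𝓞 (thF p ℓ))) ∈ P ^ (c + 1) := by
    rw [← mul_sub]
    exact Ideal.mul_mem_left _ _ h1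
  have h6 : π ^ c * (n : 𝓞 (thF p ℓ)) * (ε - θ ^ c) ∈ P ^ (c + 1) := by
    have h := Ideal.sub_mem _ h2 h5
    have e1 : π ^ c * (n : 𝓞 (thF p ℓ)) * (ε - θ ^ c) =
        ε * β - (π * θ) ^ c * (n : 𝓞 (thF p ℓ)) - (ε * β - ε * (π ^ c * (n : 𝓞 (thF p ℓ)))) := by
      ring_nf
    rw [e1]
    exact h
  set X : 𝓞 (thF p ℓ) :=
    algebraMap (𝓞 (K p)) (𝓞 (thF p ℓ)) ((1 - zetaO p) - (g : 𝓞 (K p)) ^ c) with hX
  have h7 : (ε - θ ^ c) - X ∈ P := by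
    have hb : θ ^ c - (g : 𝓞 (thF p ℓ)) ^ c ∈ P := by
      obtain ⟨w, hw⟩ := sub_dvd_pow_sub_pow θ (g : 𝓞 (thF p ℓ)) c
      rw [hw]
      exact Ideal.mul_mem_right _ _ hθ
    have e1 : (ε - θ ^ c) - X = algebraMap (𝓞 (K p)) (𝓞 (thF p ℓ)) (zetaO p) * π -
        (θ ^ c - (g : 𝓞 (thF p ℓ)) ^ c) := by
      simp only [hX, hε, hπ, map_sub, map_one, map_pow, map_natCast]
      ring
    rw [e1]
    exact Ideal.sub_mem _ (Ideal.mul_mem_left _ _ hπP) hb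
  have h8 : X * (π ^ c * (n : 𝓞 (thF p ℓ))) ∈ P ^ (c + 1) := by
    have h : π ^ c * (n : 𝓞 (thF p ℓ)) * ((ε - θ ^ c) - X) ∈ P ^ c * P :=
      Ideal.mul_mem_mul (Ideal.mul_mem_right _ _ hπc) h7
    rw [← pow_succ] at h
    have h' := Ideal.sub_mem _ h6 h
    have e1 : X * (π ^ c * (n : 𝓞 (thF p ℓ))) =
        π ^ c * (n : 𝓞 (thF p ℓ)) * (ε - θ ^ c) -
          π ^ c * (n : 𝓞 (thF p ℓ)) * ((ε - θ ^ c) - X) := by ring
    rw [e1]
    exact h'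
  rcases Ideal.IsPrime.mul_mem_pow P h8 with h9 | h9
  · have h10 : (1 - zetaO p) - (g : 𝓞 (K p)) ^ c ∈ q := by
      rw [hPq.over]
      exact h9
    have h11 := q.neg_mem h10
    rwa [neg_sub] at h11
  · exact absurd (by simpa using Ideal.add_mem _ h1 h9) hβc'

end Fermat.Agent.S14
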