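import Fermat.Agent.S14.Th1
import Fermat.Agent.S14.Th2d

set_option autoImplicit false

/-!
# S14 / B1 (Thaine), part 2: the element `γ = N_{F/K}(β)` and its prime factorization
-/

namespace Fermat.Agent.S14

open NumberField UniqueFactorizationMonoid

variable (p : ℕ) [Fact p.Prime]

/-- **P2 of Thaine's relation.** For a prime `ℓ ≡ 1 mod p` there are `g` and `γ ∈ 𝓞 K`, `γ ≠ 0`,
whose exponents at the primes not above `ℓ` are divisible by `p`, and whose exponent `c` at a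
prime `q` above `ℓ` satisfies `g ^ c ≡ 1 - ζ mod q`. -/
theorem th_exists_gamma (hp5 : 5 ≤ p) (ℓ : ℕ) (hℓ : ℓ.Prime) (hℓp : ℓ ≠ p) (hpl : p ∣ ℓ - 1) :
    ∃ (g : ℕ) (γ : 𝓞 (K p)), γ ≠ 0 ∧
      (∀ q : Ideal (𝓞 (K p)), q.IsPrime → q ≠ ⊥ → (ℓ : 𝓞 (K p)) ∉ q →
        p ∣ Multiset.count q (normalizedFactors (Ideal.span {γ}))) ∧
      (∀ q : Ideal (𝓞 (K p)), q.IsPrime → (ℓ : 𝓞 (K p)) ∈ q → Ideal.absNorm q = ℓ →
        (g : 𝓞 (K p)) ^ Multiset.count q (normalizedFactors (Ideal.span {γ})) -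
          (1 - zetaO p) ∈ q) := by
  have : NeZero ℓ := ⟨hℓ.ne_zero⟩
  have hp : p.Prime := Fact.out
  have hcop : Nat.Coprime p ℓ := (Nat.coprime_primes hp hℓ).mpr (Ne.symm hℓp)
  obtain ⟨g, τ, ζℓ, β, hζℓ, hτζ, hgen, hβ0, hτβ⟩ := th_hilbert90 p hp5 ℓ hℓ hℓp hpl
  set ε : 𝓞 (thF p ℓ) :=
    1 - algebraMap (𝓞 (K p)) (𝓞 (thF p ℓ)) (zetaO p) * hζℓ.toInteger with hε
  have hτβ' : τ • β = ε * β := by
    apply RingOfIntegers.ext
    show τ (β : thF p ℓ) = ((ε * β : 𝓞 (thF p ℓ)) : thF p ℓ)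
    rw [hτβ]
    rfl
  have hεu : IsUnit ε := th_isUnit_of_smul_eq τ ε β hβ0 hτβ'
  have hunit := th_smul_eq_unit_mul τ ε β hgen hεu hτβ'
  have hspan := th_span_norm β hunit
  rw [th_finrank p ℓ hcop, Nat.totient_prime hℓ] at hspan
  have hγ0 : RingOfIntegers.norm (K p) β ≠ 0 := by
    intro h
    have h3 : Algebra.norm (K p) (β : thF p ℓ) = 0 := by
      rw [← RingOfIntegers.coe_norm, h]; rfl
    rw [Algebra.norm_eq_zero_iff] at h3
    exact hβ0 (RingOfIntegers.ext h3)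
  have hγ0' : Ideal.span {RingOfIntegers.norm (K p) β} ≠ ⊥ := by simpa using hγ0
  have hpos : 0 < ℓ - 1 := Nat.sub_pos_of_lt hℓ.one_lt
  refine ⟨g, RingOfIntegers.norm (K p) β, hγ0, ?_, ?_⟩
  · intro q hq hq0 hℓq
    have hqm : q.IsMaximal := hq.isMaximal hq0
    obtain ⟨P, hPmax, hPq⟩ :=
      Ideal.exists_maximal_ideal_liesOver_of_isIntegral (S := 𝓞 (thF p ℓ)) q
    have hPprime : P.IsPrime := hPmax.isPrime
    have hcount := th_count_map q hq0 P (Ideal.span {RingOfIntegers.norm (K p) β}) hγ0'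
    rw [hspan, normalizedFactors_pow, Multiset.count_nsmul,
      (th_ramificationIdx hℓ hℓp q hq0 P).2 hℓq, one_mul] at hcount
    rw [← hcount]
    exact Dvd.dvd.mul_right hpl _
  · intro q hq hℓq _
    have hq0 : q ≠ ⊥ := by
      rintro rfl
      exact hℓ.ne_zero (by simpa using hℓq)
    have hqm : q.IsMaximal := hq.isMaximal hq0
    obtain ⟨P, hPmax, hPq⟩ :=
      Ideal.exists_maximal_ideal_liesOver_of_isIntegral (S := 𝓞 (thF p ℓ)) q
    have hPprime : P.IsPrime := hPmax.isPrime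
    have hcount := th_count_map q hq0 P (Ideal.span {RingOfIntegers.norm (K p) β}) hγ0'
    rw [hspan, normalizedFactors_pow, Multiset.count_nsmul,
      (th_ramificationIdx hℓ hℓp q hq0 P).1 hℓq] at hcount
    have hc : Multiset.count P (normalizedFactors (Ideal.span {β})) =
        Multiset.count q (normalizedFactors (Ideal.span {RingOfIntegers.norm (K p) β})) :=
      Nat.eq_of_mul_eq_mul_left hpos hcount
    rw [← hc]
    exact th_local_congr hℓ hℓp hpl q hq0 hℓq P g τ ζℓ β hζℓ hτζ hβ0 hτβ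

end Fermat.Agent.S14
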