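import Fermat.Agent.S14.ThBase

set_option autoImplicit false

/-!
# S14 / B1 (Thaine), part 2a: general Dedekind-domain lemmas
-/

namespace Fermat.Agent.S14

open NumberField UniqueFactorizationMonoid

/-- Membership in a power of a prime in terms of the exponent of the prime in the factorization. -/
theorem th_mem_pow_iff {S : Type*} [CommRing S] [IsDedekindDomain S] (P : Ideal S) [hP : P.IsPrime]
    (hP0 : P ≠ ⊥) {x : S} (hx : x ≠ 0) (n : ℕ) :
    x ∈ P ^ n ↔ n ≤ Multiset.count P (normalizedFactors (Ideal.span {x})) := by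
  have hirr : Irreducible P := (Ideal.prime_of_isPrime hP0 hP).irreducible
  have hx' : Ideal.span {x} ≠ ⊥ := by simpa using hx
  rw [← Ideal.span_singleton_le_iff_mem, ← Ideal.dvd_iff_le, pow_dvd_iff_le_emultiplicity,
    emultiplicity_eq_count_normalizedFactors hirr hx', normalize_eq, Nat.cast_le]

/-- The exponent of `P` in an extended ideal. -/
theorem th_count_map {R S : Type*} [CommRing R] [IsDedekindDomain R] [CommRing S]
    [IsDedekindDomain S] [Algebra R S] [Module.IsTorsionFree R S]
    (q : Ideal R) [hq : q.IsPrime] (hq0 : q ≠ ⊥) (P : Ideal S) [hP : P.IsPrime] [hPq : P.LiesOver q]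
    (I : Ideal R) (hI : I ≠ ⊥) :
    Multiset.count P (normalizedFactors (I.map (algebraMap R S))) =
      P.ramificationIdx R * Multiset.count q (normalizedFactors I) := by
  have hqm : q.IsMaximal := hq.isMaximal hq0
  obtain ⟨J, hJ, hIJ⟩ := Ideal.eq_prime_pow_mul_coprime hI q
  set v := Multiset.count q (normalizedFactors I) with hv
  have hJ0 : J ≠ ⊥ := by
    rintro rfl
    rw [Ideal.mul_bot] at hIJ
    exact hI hIJ
  have hmq : q.map (algebraMap R S) ≠ ⊥ := Ideal.map_ne_bot_of_ne_bot hq0
  have hmJ : J.map (algebraMap R S) ≠ ⊥ := Ideal.map_ne_bot_of_ne_bot hJ0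
  have h1 : I.map (algebraMap R S) = (q.map (algebraMap R S)) ^ v * J.map (algebraMap R S) := by
    conv_lhs => rw [hIJ]
    rw [Ideal.map_mul, Ideal.map_pow]
  have h2 : Multiset.count P (normalizedFactors (J.map (algebraMap R S))) = 0 := by
    rw [Multiset.count_eq_zero]
    intro hmem
    have hdvd : P ∣ J.map (algebraMap R S) := dvd_of_mem_normalizedFactors hmem
    have hle : J.map (algebraMap R S) ≤ P := Ideal.dvd_iff_le.mp hdvd
    have hle' : J ≤ q := by
      rw [hPq.over]
      exact Ideal.map_le_iff_le_comap.mp hle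
    have : q ⊔ J = q := sup_eq_left.mpr hle'
    rw [this] at hJ
    exact hq.ne_top hJ
  rw [h1, normalizedFactors_mul (pow_ne_zero _ hmq) hmJ, Multiset.count_add, h2, add_zero,
    normalizedFactors_pow, Multiset.count_nsmul,
    ← Ideal.IsDedekindDomain.ramificationIdx_eq_normalizedFactors_count q P hmq, mul_comm]

/-- Modulo an ideal of prime norm every element is congruent to a rational integer. -/
theorem th_exists_int_sub_mem {S : Type*} [CommRing S] [IsDedekindDomain S] [Module.Free ℤ S]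
    (P : Ideal S) {ℓ : ℕ} (hℓ : ℓ.Prime) (hP : Ideal.absNorm P = ℓ) (x : S) :
    ∃ n : ℤ, x - (n : S) ∈ P := by
  have : Fact ℓ.Prime := ⟨hℓ⟩
  have hcard : Nat.card (S ⧸ P) = ℓ := by
    rw [← hP, Ideal.absNorm_apply, Submodule.cardQuot_apply]
  have h1 : (Ideal.Quotient.mk P 1 : S ⧸ P) ≠ 0 := by
    intro h
    rw [Ideal.Quotient.eq_zero_iff_mem, ← Ideal.eq_top_iff_one] at h
    rw [h, Ideal.absNorm_top] at hP
    exact hℓ.one_lt.ne hP
  have hmem : (Ideal.Quotient.mk P x : S ⧸ P) ∈ AddSubgroup.zmultiples (Ideal.Quotient.mk P 1) :=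
    mem_zmultiples_of_prime_card hcard h1
  obtain ⟨n, hn⟩ := AddSubgroup.mem_zmultiples_iff.mp hmem
  refine ⟨n, ?_⟩
  rw [← Ideal.Quotient.eq_zero_iff_mem, map_sub, ← hn]
  simp

end Fermat.Agent.S14
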