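import Fermat.Agent.S14.Th2a

set_option autoImplicit false

/-!
# S14 / B1 (Thaine), part 2b: the norm of the Hilbert-90 element, ramification in `K(ζ_ℓ)/K`
-/

namespace Fermat.Agent.S14

open NumberField UniqueFactorizationMonoid

variable {p : ℕ} [Fact p.Prime] {ℓ : ℕ} [NeZero ℓ]

/-- If `τ β = ε β` with `β ≠ 0`, then `ε` has norm one, hence is a unit. -/
theorem th_isUnit_of_smul_eq (τ : thF p ℓ ≃ₐ[K p] thF p ℓ) (ε β : 𝓞 (thF p ℓ)) (hβ0 : β ≠ 0)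
    (hτβ : τ • β = ε * β) : IsUnit ε := by
  have h1 : RingOfIntegers.norm (K p) (τ • β) = RingOfIntegers.norm (K p) β := by
    apply RingOfIntegers.ext
    rw [RingOfIntegers.coe_norm, RingOfIntegers.coe_norm]
    exact Algebra.norm_eq_of_algEquiv τ (β : thF p ℓ)
  rw [hτβ, map_mul] at h1
  have h2 : RingOfIntegers.norm (K p) β ≠ 0 := by
    intro h
    have h3 : Algebra.norm (K p) (β : thF p ℓ) = 0 := by
      rw [← RingOfIntegers.coe_norm, h]; rfl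
    rw [Algebra.norm_eq_zero_iff] at h3
    exact hβ0 (RingOfIntegers.ext h3)
  have h4 : RingOfIntegers.norm (K p) ε = 1 := by
    have := mul_right_cancel₀ h2 (h1.trans (one_mul _).symm)
    exact this
  rw [← RingOfIntegers.isUnit_norm_of_isGalois (K p), h4]
  exact isUnit_one

/-- All Galois conjugates of `β` are unit multiples of `β`. -/
theorem th_smul_eq_unit_mul (τ : thF p ℓ ≃ₐ[K p] thF p ℓ) (ε β : 𝓞 (thF p ℓ))
    (hgen : ∀ σ : thF p ℓ ≃ₐ[K p] thF p ℓ, σ ∈ Subgroup.zpowers τ) (hε : IsUnit ε)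
    (hτβ : τ • β = ε * β) (σ : thF p ℓ ≃ₐ[K p] thF p ℓ) :
    ∃ u : (𝓞 (thF p ℓ))ˣ, σ • β = u * β := by
  have hpow : ∀ n : ℕ, ∃ u : (𝓞 (thF p ℓ))ˣ, (τ ^ n) • β = u * β := by
    intro n
    induction n with
    | zero => exact ⟨1, by simp⟩
    | succ n ih =>
      obtain ⟨u, hu⟩ := ih
      have hε' : IsUnit ((τ ^ n) • ε) :=
        hε.map (MulSemiringAction.toRingHom (thF p ℓ ≃ₐ[K p] thF p ℓ) (𝓞 (thF p ℓ)) (τ ^ n))
      obtain ⟨e, he⟩ := hε'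
      refine ⟨e * u, ?_⟩
      rw [pow_succ, mul_smul, hτβ, smul_mul', hu, ← he]
      push_cast
      ring
  have hσ := hgen σ
  rw [← mem_powers_iff_mem_zpowers] at hσ
  obtain ⟨n, rfl⟩ := hσ
  exact hpow n

/-- The extension of `(N β)` to `𝓞 F` is `(β)^[F:K]`. -/
theorem th_span_norm (β : 𝓞 (thF p ℓ))
    (hunit : ∀ σ : thF p ℓ ≃ₐ[K p] thF p ℓ, ∃ u : (𝓞 (thF p ℓ))ˣ, σ • β = u * β) :
    (Ideal.span {RingOfIntegers.norm (K p) β}).map (algebraMap (𝓞 (K p)) (𝓞 (thF p ℓ))) =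
      Ideal.span {β} ^ Module.finrank (K p) (thF p ℓ) := by
  classical
  choose u hu using hunit
  have h1 : algebraMap (𝓞 (K p)) (𝓞 (thF p ℓ)) (RingOfIntegers.norm (K p) β) =
      ∏ σ : thF p ℓ ≃ₐ[K p] thF p ℓ, σ • β := by
    apply RingOfIntegers.ext
    rw [RingOfIntegers.coe_algebraMap_norm, Algebra.norm_eq_prod_automorphisms]
    rw [show ((∏ σ : thF p ℓ ≃ₐ[K p] thF p ℓ, σ • β : 𝓞 (thF p ℓ)) : thF p ℓ) =
      algebraMap (𝓞 (thF p ℓ)) (thF p ℓ) (∏ σ : thF p ℓ ≃ₐ[K p] thF p ℓ, σ • β) from rfl, map_prod]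
    rfl
  have h2 : ∏ σ : thF p ℓ ≃ₐ[K p] thF p ℓ, σ • β =
      ((∏ σ : thF p ℓ ≃ₐ[K p] thF p ℓ, u σ : (𝓞 (thF p ℓ))ˣ) : 𝓞 (thF p ℓ)) *
        β ^ Module.finrank (K p) (thF p ℓ) := by
    rw [← IsGalois.card_aut_eq_finrank, Nat.card_eq_fintype_card, ← Finset.card_univ,
      ← Finset.prod_const, Units.coe_prod, ← Finset.prod_mul_distrib]
    exact Finset.prod_congr rfl fun σ _ => hu σ
  rw [Ideal.map_span, Set.image_singleton, h1, h2, Ideal.span_singleton_mul_left_unit (Units.isUnit _),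
    Ideal.span_singleton_pow]

end Fermat.Agent.S14
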