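import Fermat.Agent.S14.Th2b

set_option autoImplicit false

/-!
# S14 / B1 (Thaine), part 2c: ramification in `F = K(ζ_ℓ) = ℚ(ζ_{pℓ})` over `K = ℚ(ζ_p)`
-/

namespace Fermat.Agent.S14

open NumberField UniqueFactorizationMonoid

variable {p : ℕ} [Fact p.Prime] {ℓ : ℕ} [NeZero ℓ]

/-- The ramification index of a prime of `F` over `K`: `ℓ - 1` above `ℓ`, and `1` elsewhere. -/
theorem th_ramificationIdx (hℓ : ℓ.Prime) (hℓp : ℓ ≠ p) (q : Ideal (𝓞 (K p))) [hq : q.IsPrime]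
    (hq0 : q ≠ ⊥) (P : Ideal (𝓞 (thF p ℓ))) [hP : P.IsPrime] [hPq : P.LiesOver q] :
    ((ℓ : 𝓞 (K p)) ∈ q → P.ramificationIdx (𝓞 (K p)) = ℓ - 1) ∧
      ((ℓ : 𝓞 (K p)) ∉ q → P.ramificationIdx (𝓞 (K p)) = 1) := by
  have hp : p.Prime := Fact.out
  have hcop : Nat.Coprime p ℓ := (Nat.coprime_primes hp hℓ).mpr (Ne.symm hℓp)
  have : Fact ℓ.Prime := ⟨hℓ⟩
  have hcyc : IsCyclotomicExtension {p * ℓ} ℚ (thF p ℓ) := th_isCyclo_mul p ℓ hcop
  have : NeZero (p * ℓ) := ⟨mul_ne_zero hp.ne_zero hℓ.ne_zero⟩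
  have : NeZero q := ⟨hq0⟩
  set r := Ideal.absNorm (Ideal.under ℤ q) with hr
  have hrp : r.Prime := Nat.absNorm_under_prime q
  have : Fact r.Prime := ⟨hrp⟩
  have hqr : q.LiesOver (Ideal.span {(r : ℤ)}) := Int.liesOver_span_absNorm q
  have hPr : P.LiesOver (Ideal.span {(r : ℤ)}) := Ideal.LiesOver.trans P q _
  have htower : P.ramificationIdx ℤ = q.ramificationIdx ℤ * P.ramificationIdx (𝓞 (K p)) :=
    Ideal.ramificationIdx_tower q P
  have hmem : (ℓ : 𝓞 (K p)) ∈ q ↔ r = ℓ := by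
    have h := Int.cast_mem_ideal_iff (I := q) (d := (ℓ : ℤ))
    rw [Int.cast_natCast, Int.natCast_dvd_natCast] at h
    rw [h, Nat.prime_dvd_prime_iff_eq hrp hℓ]
  refine ⟨fun hℓq => ?_, fun hℓq => ?_⟩
  · have hrℓ : r = ℓ := hmem.mp hℓq
    have hqℓ : q.LiesOver (Ideal.span {((ℓ : ℕ) : ℤ)}) := by have h := hqr; rwa [hrℓ] at h
    have hPℓ : P.LiesOver (Ideal.span {((ℓ : ℕ) : ℤ)}) := by have h := hPr; rwa [hrℓ] at h
    have h1 : q.ramificationIdx ℤ = 1 :=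
      IsCyclotomicExtension.Rat.ramificationIdx_eq_of_not_dvd (m := p) ℓ (K p) q
        (fun h => hℓp ((Nat.prime_dvd_prime_iff_eq hℓ hp).mp h))
    have h2 : P.ramificationIdx ℤ = ℓ ^ 0 * (ℓ - 1) :=
      IsCyclotomicExtension.Rat.ramificationIdx_eq (p * ℓ) (m := p) (p := ℓ) (k := 0) (thF p ℓ) P
        (by ring) (fun h => hℓp ((Nat.prime_dvd_prime_iff_eq hℓ hp).mp h))
    rw [h1, h2] at htower
    simpa using htower.symm
  · have hrℓ : r ≠ ℓ := fun h => hℓq (hmem.mpr h)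
    by_cases hrp' : r = p
    · have hqp : q.LiesOver (Ideal.span {((p : ℕ) : ℤ)}) := by have h := hqr; rwa [hrp'] at h
      have hPp : P.LiesOver (Ideal.span {((p : ℕ) : ℤ)}) := by have h := hPr; rwa [hrp'] at h
      have h1 : q.ramificationIdx ℤ = p - 1 :=
        IsCyclotomicExtension.Rat.ramificationIdx_eq_of_prime p (K p) q
      have h2 : P.ramificationIdx ℤ = p ^ 0 * (p - 1) :=
        IsCyclotomicExtension.Rat.ramificationIdx_eq (p * ℓ) (m := ℓ) (p := p) (k := 0) (thF p ℓ) P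
          (by ring) (fun h => hℓp ((Nat.prime_dvd_prime_iff_eq hp hℓ).mp h).symm)
      rw [h1, h2, pow_zero, one_mul] at htower
      have hpos : 0 < p - 1 := Nat.sub_pos_of_lt hp.one_lt
      exact (Nat.eq_of_mul_eq_mul_left hpos (by rw [mul_one]; exact htower)).symm
    · have h2 : P.ramificationIdx ℤ = 1 :=
        IsCyclotomicExtension.Rat.ramificationIdx_eq_of_not_dvd (m := p * ℓ) r (thF p ℓ) P
          (fun h => by
            rcases (Nat.Prime.dvd_mul hrp).mp h with h | h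
            · exact hrp' ((Nat.prime_dvd_prime_iff_eq hrp hp).mp h)
            · exact hrℓ ((Nat.prime_dvd_prime_iff_eq hrp hℓ).mp h))
      rw [h2] at htower
      exact Nat.eq_one_of_mul_eq_one_left htower.symm

end Fermat.Agent.S14

namespace Fermat.Agent.S14

open NumberField UniqueFactorizationMonoid

open scoped Pointwise

variable {p : ℕ} [Fact p.Prime] {ℓ : ℕ} [NeZero ℓ]

/-- A prime of `F` above `ℓ` is stable under `Gal(F/K)` (total ramification). -/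
theorem th_smul_mem (hℓ : ℓ.Prime) (hℓp : ℓ ≠ p) (q : Ideal (𝓞 (K p))) [hq : q.IsPrime]
    (hq0 : q ≠ ⊥) (hℓq : (ℓ : 𝓞 (K p)) ∈ q) (P : Ideal (𝓞 (thF p ℓ))) [hP : P.IsPrime]
    [hPq : P.LiesOver q] (σ : thF p ℓ ≃ₐ[K p] thF p ℓ) {x : 𝓞 (thF p ℓ)} (hx : x ∈ P) :
    σ • x ∈ P := by
  have hp : p.Prime := Fact.out
  have hcop : Nat.Coprime p ℓ := (Nat.coprime_primes hp hℓ).mpr (Ne.symm hℓp)
  have he : P.ramificationIdx (𝓞 (K p)) = ℓ - 1 := (th_ramificationIdx hℓ hℓp q hq0 P).1 hℓq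
  have hfund := Ideal.ncard_primesOver_mul_ramificationIdxIn_mul_inertiaDegIn q (𝓞 (thF p ℓ))
    (thF p ℓ ≃ₐ[K p] thF p ℓ)
  rw [Ideal.ramificationIdxIn_eq_ramificationIdx q P (thF p ℓ ≃ₐ[K p] thF p ℓ), he,
    IsGalois.card_aut_eq_finrank, th_finrank p ℓ hcop, Nat.totient_prime hℓ] at hfund
  have hpos : 0 < ℓ - 1 := Nat.sub_pos_of_lt hℓ.one_lt
  have h1 : (q.primesOver (𝓞 (thF p ℓ))).ncard * q.inertiaDegIn (𝓞 (thF p ℓ)) = 1 := by
    have h2 : (ℓ - 1) * ((q.primesOver (𝓞 (thF p ℓ))).ncard * q.inertiaDegIn (𝓞 (thF p ℓ))) =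
        (ℓ - 1) * 1 := by
      rw [mul_one]
      calc _ = (q.primesOver (𝓞 (thF p ℓ))).ncard * ((ℓ - 1) * q.inertiaDegIn (𝓞 (thF p ℓ))) := by
            ring
        _ = ℓ - 1 := hfund
    exact Nat.eq_of_mul_eq_mul_left hpos h2
  have h3 : (q.primesOver (𝓞 (thF p ℓ))).ncard = 1 := Nat.eq_one_of_mul_eq_one_right h1
  obtain ⟨a, ha⟩ := Set.ncard_eq_one.mp h3
  have hPmem : P ∈ q.primesOver (𝓞 (thF p ℓ)) := ⟨hP, hPq⟩
  have hσPmem : σ • P ∈ q.primesOver (𝓞 (thF p ℓ)) := ⟨inferInstance, inferInstance⟩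
  rw [ha, Set.mem_singleton_iff] at hPmem hσPmem
  have hσP : σ • P = P := hσPmem.trans hPmem.symm
  have := Ideal.smul_mem_pointwise_smul σ x P hx
  rwa [hσP] at this

end Fermat.Agent.S14
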