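import Fermat.Agent.S14.Defs
import Fermat.Agent.S14.KfSplit

set_option autoImplicit false

/-!
# S14 / B1 (Thaine), part P3a: the primes of `K = ℚ(ζ_p)` above a rational prime `ℓ` that has a
prime of norm `ℓ`

For `1 ≤ b < p` let `τ_b` be the automorphism `ζ ↦ ζ^b` and `𝔮_b = τ_b⁻¹(𝔩)`.  These are pairwise
distinct primes of norm `ℓ`, and every prime containing `ℓ` is one of them.
-/

namespace Fermat.Agent.S14

open NumberField Polynomial Finset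

variable (p : ℕ) [Fact p.Prime]

theorem th3_zetaO_prim : IsPrimitiveRoot (zetaO p) p :=
  (zeta_spec p).toInteger_isPrimitiveRoot

/-- automorphisms of `K` are determined by the image of `ζ` -/
theorem th3_aut_ext (σ σ' : K p ≃ₐ[ℚ] K p) (h : σ (zeta p) = σ' (zeta p)) : σ = σ' := by
  have hpb := (zeta_spec p).powerBasis_gen ℚ
  apply AlgEquiv.coe_toAlgHom_injective
  apply ((zeta_spec p).powerBasis ℚ).algHom_ext
  rw [hpb]; exact h

theorem th3_coprime {b : ℕ} (hb : b ∈ Ico 1 p) : b.Coprime p := by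
  have hp : p.Prime := Fact.out
  rw [Finset.mem_Ico] at hb
  exact Nat.Coprime.symm ((Nat.Prime.coprime_iff_not_dvd hp).mpr
    (Nat.not_dvd_of_pos_of_lt (by omega) hb.2))

/-- the automorphism `ζ ↦ ζ^b` -/
noncomputable def th3_tau (b : ℕ) : K p ≃ₐ[ℚ] K p :=
  if h : b.Coprime p then
    IsCyclotomicExtension.fromZetaAut ((zeta_spec p).pow_of_coprime b h)
      (Polynomial.cyclotomic.irreducible_rat (Fact.out : p.Prime).pos)
  else 1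

theorem th3_tau_zeta {b : ℕ} (hb : b ∈ Ico 1 p) : th3_tau p b (zeta p) = zeta p ^ b := by
  rw [th3_tau, dif_pos (th3_coprime p hb)]
  exact IsCyclotomicExtension.fromZetaAut_spec _ _

theorem th3_sigO_zetaO (σ : K p ≃ₐ[ℚ] K p) (b : ℕ) (h : σ (zeta p) = zeta p ^ b) :
    sigO p σ (zetaO p) = zetaO p ^ b := by
  apply RingOfIntegers.coe_injective
  rw [map_pow]
  show ((sigO p σ (zetaO p) : 𝓞 (K p)) : K p) = _
  rw [coe_sigO]
  exact h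

/-- every automorphism sends `ζ` to `ζ^b` for some `1 ≤ b < p` -/
theorem th3_exists_exp (σ : K p ≃ₐ[ℚ] K p) : ∃ b ∈ Ico 1 p, σ (zeta p) = zeta p ^ b := by
  have hp : p.Prime := Fact.out
  have h1 : (σ (zeta p)) ^ p = 1 := by rw [← map_pow, (zeta_spec p).pow_eq_one, map_one]
  obtain ⟨i, hi, hi'⟩ := (zeta_spec p).eq_pow_of_pow_eq_one h1
  refine ⟨i, Finset.mem_Ico.mpr ⟨?_, hi⟩, hi'.symm⟩
  rcases Nat.eq_zero_or_pos i with h0 | h0
  · exfalso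
    rw [h0, pow_zero] at hi'
    have : σ (zeta p) = σ 1 := by rw [map_one]; exact hi'.symm
    exact (zeta_spec p).ne_one hp.one_lt (σ.injective this)
  · exact h0

theorem th3_eq_tau (σ : K p ≃ₐ[ℚ] K p) {b : ℕ} (hb : b ∈ Ico 1 p)
    (h : σ (zeta p) = zeta p ^ b) : σ = th3_tau p b :=
  th3_aut_ext p _ _ (by rw [h, th3_tau_zeta p hb])

/-! ### Quotients of prime cardinality -/

theorem th3_exists_int {R : Type*} [CommRing R] (q : Ideal R) {ℓ : ℕ} (hℓ : ℓ.Prime)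
    (hcard : Nat.card (R ⧸ q) = ℓ) (x : R) : ∃ n : ℤ, x - (n : R) ∈ q := by
  have : Fact (Nat.card (R ⧸ q)).Prime := ⟨hcard ▸ hℓ⟩
  have hfin : Finite (R ⧸ q) := Nat.finite_of_card_ne_zero (hcard ▸ hℓ.ne_zero)
  have hnt : Nontrivial (R ⧸ q) := by
    rw [← Finite.one_lt_card_iff_nontrivial, hcard]; exact hℓ.one_lt
  rcases (Int.castAddHom (R ⧸ q)).range.eq_bot_or_eq_top_of_prime_card with h | h
  · exfalso
    have h1 : (1 : R ⧸ q) ∈ (Int.castAddHom (R ⧸ q)).range := ⟨1, by simp⟩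
    rw [h, AddSubgroup.mem_bot] at h1
    exact one_ne_zero h1
  · have hx : Ideal.Quotient.mk q x ∈ (Int.castAddHom (R ⧸ q)).range := by rw [h]; trivial
    obtain ⟨n, hn⟩ := hx
    refine ⟨n, ?_⟩
    rw [← Ideal.Quotient.eq]
    rw [← hn]; simp

variable {p}

theorem th3_card_quot (𝔩 : Ideal (𝓞 (K p))) : Nat.card (𝓞 (K p) ⧸ 𝔩) = Ideal.absNorm 𝔩 := by
  rw [Ideal.absNorm_apply, Submodule.cardQuot_apply]

/-- the prime `𝔮_b = τ_b⁻¹(𝔩)` -/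
noncomputable def th3_q (𝔩 : Ideal (𝓞 (K p))) (b : ℕ) : Ideal (𝓞 (K p)) :=
  𝔩.comap (sigO p (th3_tau p b))

theorem th3_mem_q (𝔩 : Ideal (𝓞 (K p))) (b : ℕ) (x : 𝓞 (K p)) :
    x ∈ th3_q 𝔩 b ↔ sigO p (th3_tau p b) x ∈ 𝔩 := Iff.rfl

theorem th3_q_isPrime (𝔩 : Ideal (𝓞 (K p))) (h𝔩 : 𝔩.IsPrime) (b : ℕ) : (th3_q 𝔩 b).IsPrime :=
  Ideal.IsPrime.comap _

theorem th3_map_q (𝔩 : Ideal (𝓞 (K p))) (b : ℕ) :
    (th3_q 𝔩 b).map (sigO p (th3_tau p b)) = 𝔩 :=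
  Ideal.map_comap_of_surjective _ (sigO p (th3_tau p b)).surjective 𝔩

theorem th3_absNorm_q (𝔩 : Ideal (𝓞 (K p))) (b : ℕ) :
    Ideal.absNorm (th3_q 𝔩 b) = Ideal.absNorm 𝔩 := by
  rw [← th3_card_quot, ← th3_card_quot]
  exact Nat.card_congr (Ideal.quotientEquiv (th3_q 𝔩 b) 𝔩
    ((sigO p (th3_tau p b) : 𝓞 (K p) ≃ₐ[ℤ] 𝓞 (K p)) : 𝓞 (K p) ≃+* 𝓞 (K p))
    (th3_map_q 𝔩 b).symm).toEquiv

theorem th3_natCast_mem_q (𝔩 : Ideal (𝓞 (K p))) (b : ℕ) {n : ℕ} (h : (n : 𝓞 (K p)) ∈ 𝔩) :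
    (n : 𝓞 (K p)) ∈ th3_q 𝔩 b := by
  rw [th3_mem_q, map_natCast]; exact h

end Fermat.Agent.S14
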