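import Fermat.Agent.S14.Defs

set_option autoImplicit false

/-!
# S14 / B1 (Thaine): the auxiliary field `F = K(ζ_ℓ) = ℚ(ζ_{pℓ})`
-/

namespace Fermat.Agent.S14

open NumberField

variable (p : ℕ) [Fact p.Prime]

/-- `F = K(ζ_ℓ) = ℚ(ζ_{pℓ})`. -/
abbrev thF (ℓ : ℕ) [NeZero ℓ] : Type := CyclotomicField ℓ (K p)

variable (ℓ : ℕ) [NeZero ℓ]

instance th_isScalarTower : IsScalarTower ℚ (K p) (thF p ℓ) :=
  IsScalarTower.of_algebraMap_eq' (Subsingleton.elim _ _)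

instance th_isGalois : IsGalois (K p) (thF p ℓ) :=
  IsCyclotomicExtension.isGalois {ℓ} (K p) (thF p ℓ)

instance th_isScalarTower' : IsScalarTower (𝓞 (K p)) (𝓞 (thF p ℓ)) (thF p ℓ) :=
  IsScalarTower.of_algebraMap_eq' rfl

theorem th_isCyclo_mul (hpl : Nat.Coprime p ℓ) :
    IsCyclotomicExtension {p * ℓ} ℚ (thF p ℓ) := by
  have h1 : IsCyclotomicExtension ({p} ∪ {ℓ}) ℚ (thF p ℓ) :=
    IsCyclotomicExtension.trans {p} {ℓ} ℚ (K p) (thF p ℓ) (algebraMap (K p) (thF p ℓ)).injective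
  obtain ⟨ζp, hζp⟩ := h1.exists_isPrimitiveRoot (n := p) (by simp) (NeZero.ne p)
  obtain ⟨ζl, hζl⟩ := h1.exists_isPrimitiveRoot (n := ℓ) (by simp) (NeZero.ne ℓ)
  have hζ := hζp.pow_mul_pow_lcm hζl (NeZero.ne p) (NeZero.ne ℓ)
  rw [hpl.lcm_eq_mul] at hζ
  have h2 : IsCyclotomicExtension ({p} ∪ {ℓ} ∪ {p * ℓ}) ℚ (thF p ℓ) :=
    IsCyclotomicExtension.union_of_isPrimitiveRoot _ _ _ hζ
  have hne : p * ℓ ≠ 0 := mul_ne_zero (NeZero.ne p) (NeZero.ne ℓ)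
  have h3 : IsCyclotomicExtension ({p * ℓ} ∪ {p} ∪ {ℓ}) ℚ (thF p ℓ) := by
    convert h2 using 1
    ext x; simp; tauto
  have h4 : IsCyclotomicExtension ({p * ℓ} ∪ {p}) ℚ (thF p ℓ) :=
    (IsCyclotomicExtension.iff_union_of_dvd ℚ (thF p ℓ)
      ⟨p * ℓ, by simp, hne, dvd_mul_left ℓ p⟩).mpr h3
  exact (IsCyclotomicExtension.iff_union_of_dvd ℚ (thF p ℓ)
      ⟨p * ℓ, by simp, hne, dvd_mul_right p ℓ⟩).mpr h4

theorem th_finrank (hpl : Nat.Coprime p ℓ) :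
    Module.finrank (K p) (thF p ℓ) = ℓ.totient := by
  have := th_isCyclo_mul p ℓ hpl
  have : NeZero (p * ℓ) := ⟨mul_ne_zero (NeZero.ne p) (NeZero.ne ℓ)⟩
  have h1 : Module.finrank ℚ (thF p ℓ) = (p * ℓ).totient :=
    IsCyclotomicExtension.Rat.finrank (p * ℓ) (thF p ℓ)
  have h2 : Module.finrank ℚ (K p) = p.totient := IsCyclotomicExtension.Rat.finrank p (K p)
  have h3 := Module.finrank_mul_finrank ℚ (K p) (thF p ℓ)
  rw [h1, h2, Nat.totient_mul hpl] at h3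
  exact Nat.eq_of_mul_eq_mul_left (Nat.totient_pos.mpr (NeZero.pos p)) h3

end Fermat.Agent.S14
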