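import Mathlib

set_option autoImplicit false

/-!
# S14, work package B4 (`unit_eigen`), part A: abstract linear algebra

* `un_trace_eq`: if real vectors `v_j` (linearly independent, coordinate sum zero, `r` of them in
  `ℝ^ι` with `#ι = r + 1`) are permuted by `π : ι → ι` according to an integer matrix `A`, then
  `tr A + 1 = #Fix π`.
* `un_eigen_line`: a matrix `B` over `𝔽_p` with `B^m = 1`, `tr (B^i) = -1` for `0 < i < m`,
  of size `m - 1 < p`, has one-dimensional eigenspaces for the eigenvalues `c ≠ 1`, `c^m = 1`.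
-/

namespace Fermat.Agent.S14

open Matrix Module

theorem un_trace_eq {ι : Type*} [Fintype ι] [DecidableEq ι] {r : ℕ}
    (hcard : Fintype.card ι = r + 1) (π : ι → ι) (v : Fin r → ι → ℝ)
    (hv : LinearIndependent ℝ v) (hsum : ∀ j, ∑ w, v j w = 0)
    (A : Matrix (Fin r) (Fin r) ℤ)
    (hA : ∀ j, (fun w => v j (π w)) = ∑ k, (A k j : ℝ) • v k) :
    ((A.trace : ℤ) : ℝ) + 1 = ((Finset.univ.filter (fun w => π w = w)).card : ℝ) := by
  classical
  set AR : Matrix (Fin r) (Fin r) ℝ := A.map (Int.cast : ℤ → ℝ) with hAR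
  set Ψ : ((Fin r → ℝ) × ℝ) →ₗ[ℝ] (ι → ℝ) :=
    (Fintype.linearCombination ℝ v).coprod (LinearMap.toSpanSingleton ℝ (ι → ℝ) (fun _ => 1))
    with hΨ
  have hΨ_apply : ∀ (c : Fin r → ℝ) (t : ℝ), Ψ (c, t) = ∑ j, c j • v j + t • (fun _ => (1 : ℝ)) := by
    intro c t
    simp [hΨ, Fintype.linearCombination_apply, LinearMap.toSpanSingleton_apply]
  have hinj : Function.Injective Ψ := by
    rw [← LinearMap.ker_eq_bot, LinearMap.ker_eq_bot']
    rintro ⟨c, t⟩ h
    rw [hΨ_apply] at h
    have hs : ∑ w, ((∑ j, c j • v j + t • (fun _ => (1 : ℝ)) : ι → ℝ)) w = 0 := by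
      rw [h]; simp
    have ht : t = 0 := by
      simp only [Pi.add_apply, Finset.sum_apply, Pi.smul_apply, smul_eq_mul, mul_one,
        Finset.sum_add_distrib, Finset.sum_const, Finset.card_univ, nsmul_eq_mul] at hs
      rw [Finset.sum_comm] at hs
      simp only [← Finset.mul_sum, hsum, mul_zero, Finset.sum_const_zero, zero_add] at hs
      rw [hcard] at hs
      have : ((r + 1 : ℕ) : ℝ) ≠ 0 := by positivity
      rcases mul_eq_zero.mp hs with h1 | h1
      · exact absurd h1 this
      · exact h1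
    subst ht
    simp only [zero_smul, add_zero] at h
    have hc := Fintype.linearIndependent_iff.mp hv c h
    ext j
    · simpa using hc j
    · rfl
  have hfin : finrank ℝ ((Fin r → ℝ) × ℝ) = finrank ℝ (ι → ℝ) := by
    rw [Module.finrank_prod, Module.finrank_fintype_fun_eq_card, Module.finrank_self,
      Module.finrank_fintype_fun_eq_card, Fintype.card_fin, hcard]
  set e : ((Fin r → ℝ) × ℝ) ≃ₗ[ℝ] (ι → ℝ) := LinearEquiv.ofInjectiveOfFinrankEq Ψ hinj hfin with he
  have he_apply : ∀ x, e x = Ψ x := fun x => rfl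
  set P : (ι → ℝ) →ₗ[ℝ] (ι → ℝ) := LinearMap.funLeft ℝ ℝ π with hP
  set F : ((Fin r → ℝ) × ℝ) →ₗ[ℝ] ((Fin r → ℝ) × ℝ) :=
    (Matrix.toLin' AR).prodMap LinearMap.id with hF
  have hint : ∀ x, P (Ψ x) = Ψ (F x) := by
    rintro ⟨c, t⟩
    have hF1 : F (c, t) = (AR *ᵥ c, t) := by simp [hF]
    rw [hF1, hΨ_apply, hΨ_apply]
    ext w
    simp only [hP, LinearMap.funLeft_apply, Pi.add_apply, Finset.sum_apply, Pi.smul_apply,
      smul_eq_mul, mul_one]
    congr 1
    have h1 : ∀ j, v j (π w) = ∑ k, (A k j : ℝ) * v k w := by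
      intro j
      have := congrFun (hA j) w
      simpa using this
    simp only [h1, Matrix.mulVec, dotProduct, hAR, Matrix.map_apply, Finset.mul_sum,
      Finset.sum_mul]
    rw [Finset.sum_comm]
    refine Finset.sum_congr rfl fun k _ => Finset.sum_congr rfl fun j _ => ?_
    ring
  have hconj : e.conj F = P := by
    apply LinearMap.ext
    intro f
    obtain ⟨x, rfl⟩ := e.surjective f
    rw [LinearEquiv.conj_apply]
    simp only [LinearMap.comp_apply, LinearEquiv.coe_coe, LinearEquiv.symm_apply_apply]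
    rw [he_apply, he_apply, hint]
  have htr1 : LinearMap.trace ℝ (ι → ℝ) P = AR.trace + 1 := by
    rw [← hconj, LinearMap.trace_conj', hF, LinearMap.trace_prodMap', Matrix.trace_toLin'_eq,
      LinearMap.trace_id, Module.finrank_self, Nat.cast_one]
  have hPM : P = Matrix.toLin' (Matrix.of fun w w' => if π w = w' then (1 : ℝ) else 0) := by
    apply LinearMap.ext
    intro f
    ext w
    simp [hP, Matrix.toLin'_apply, Matrix.mulVec, dotProduct]
  have htr2 : LinearMap.trace ℝ (ι → ℝ) P = ((Finset.univ.filter (fun w => π w = w)).card : ℝ) := by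
    rw [hPM, Matrix.trace_toLin'_eq]
    simp [Matrix.trace]
  have hcast : ((A.trace : ℤ) : ℝ) = AR.trace := by
    simpa using AddMonoidHom.map_trace (Int.castAddHom ℝ) A
  rw [hcast, ← htr1, htr2]

theorem un_pow_rel {ι : Type*} {r : ℕ} (π : ι → ι) (v : Fin r → ι → ℝ)
    (A : Matrix (Fin r) (Fin r) ℤ)
    (hA : ∀ j, (fun w => v j (π w)) = ∑ k, (A k j : ℝ) • v k) (i : ℕ) :
    ∀ j, (fun w => v j (π^[i] w)) = ∑ k, ((A ^ i) k j : ℝ) • v k := by
  induction i with
  | zero =>
    intro j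
    ext w
    rw [Finset.sum_apply, Finset.sum_eq_single j]
    · simp
    · intro b _ hb
      simp [hb]
    · simp
  | succ i ih =>
    intro j
    ext w
    have h1 : v j (π^[i + 1] w) = ∑ k, ((A ^ i) k j : ℝ) * v k (π w) := by
      have := congrFun (ih j) (π w)
      simpa [Function.iterate_succ_apply] using this
    have h2 : ∀ k, v k (π w) = ∑ l, (A l k : ℝ) * v l w := by
      intro k
      have := congrFun (hA k) w
      simpa using this
    rw [h1]
    simp only [h2, Finset.sum_apply, Pi.smul_apply, smul_eq_mul, pow_succ', Matrix.mul_apply,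
      Int.cast_sum, Int.cast_mul, Finset.mul_sum, Finset.sum_mul]
    rw [Finset.sum_comm]
    refine Finset.sum_congr rfl fun l _ => Finset.sum_congr rfl fun k _ => ?_
    ring

theorem un_pow_eq_one {ι : Type*} {r : ℕ} (π : ι → ι) (v : Fin r → ι → ℝ)
    (hv : LinearIndependent ℝ v) (A : Matrix (Fin r) (Fin r) ℤ)
    (hA : ∀ j, (fun w => v j (π w)) = ∑ k, (A k j : ℝ) • v k) (m : ℕ)
    (hm : ∀ w, π^[m] w = w) : A ^ m = 1 := by
  classical
  have h := un_pow_rel π v A hA m
  ext k j
  have h1 : ∑ l, (((A ^ m) l j : ℝ) - ((1 : Matrix (Fin r) (Fin r) ℤ) l j : ℝ)) • v l = 0 := by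
    simp only [sub_smul, Finset.sum_sub_distrib]
    rw [← h j]
    have : (fun w => v j (π^[m] w)) = v j := by ext w; rw [hm]
    rw [this, sub_eq_zero]
    simp [Matrix.one_apply]
  have h2 := Fintype.linearIndependent_iff.mp hv _ h1 k
  have h3 : ((A ^ m) k j : ℝ) = ((1 : Matrix (Fin r) (Fin r) ℤ) k j : ℝ) := sub_eq_zero.mp h2
  exact_mod_cast h3

theorem un_eigen_line {r m p : ℕ} [Fact p.Prime] (hm : m = r + 1) (hmp : m < p)
    (B : Matrix (Fin r) (Fin r) (ZMod p)) (hBm : B ^ m = 1)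
    (htr : ∀ i, 0 < i → i < m → (B ^ i).trace = -1)
    (c : ZMod p) (hc : c ^ m = 1) (hc1 : c ≠ 1)
    (x y : Fin r → ZMod p) (hx : B *ᵥ x = c • x) (hy : B *ᵥ y = c • y) (hy0 : y ≠ 0) :
    ∃ k : ZMod p, x = k • y := by
  classical
  have hp : p.Prime := Fact.out
  have hm0 : (m : ZMod p) ≠ 0 := by
    intro h0
    rw [ZMod.natCast_eq_zero_iff] at h0
    have := Nat.le_of_dvd (by omega) h0
    omega
  have hc0 : c ≠ 0 := by
    rintro rfl
    rw [zero_pow (by omega)] at hc
    exact zero_ne_one hc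
  set d : ZMod p := c⁻¹ with hd
  have hdc : d * c = 1 := inv_mul_cancel₀ hc0
  have hdm : d ^ m = 1 := by rw [hd, inv_pow, hc, inv_one]
  have hd1 : d ≠ 1 := by
    intro h1
    apply hc1
    rw [h1, one_mul] at hdc
    exact hdc
  have hgeom : ∑ i ∈ Finset.range m, d ^ i = 0 := by
    have h1 := mul_geom_sum d m
    rw [hdm, sub_self] at h1
    rcases mul_eq_zero.mp h1 with h2 | h2
    · exact absurd (sub_eq_zero.mp h2) hd1
    · exact h2
  set Q : Matrix (Fin r) (Fin r) (ZMod p) := ∑ i ∈ Finset.range m, d ^ i • B ^ i with hQ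
  -- (1) `B * Q = c • Q`
  have hBQ : B * Q = c • Q := by
    have hstep : ∀ i, B * (d ^ i • B ^ i) = c • (d ^ (i + 1) • B ^ (i + 1)) := by
      intro i
      rw [Matrix.mul_smul, ← pow_succ', smul_smul]
      congr 1
      rw [pow_succ, mul_comm c, mul_assoc, hdc, mul_one]
    rw [hQ, Finset.mul_sum]
    simp only [hstep]
    rw [← Finset.smul_sum]
    congr 1
    have h1 := Finset.sum_range_succ (fun i => d ^ i • B ^ i) m
    have h2 := Finset.sum_range_succ' (fun i => d ^ i • B ^ i) m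
    simp only [hdm, hBm, pow_zero, one_smul] at h1 h2
    rw [h1] at h2
    exact add_right_cancel h2.symm
  -- (2) `Q` acts by `m` on eigenvectors
  have hpow : ∀ z : Fin r → ZMod p, B *ᵥ z = c • z → ∀ i, (B ^ i) *ᵥ z = c ^ i • z := by
    intro z hz i
    induction i with
    | zero => simp
    | succ i ih =>
      rw [pow_succ, ← Matrix.mulVec_mulVec, hz, Matrix.mulVec_smul, ih, smul_smul, pow_succ,
        mul_comm]
  have hQz : ∀ z : Fin r → ZMod p, B *ᵥ z = c • z → Q *ᵥ z = (m : ZMod p) • z := by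
    intro z hz
    rw [hQ, Matrix.sum_mulVec]
    have : ∀ i ∈ Finset.range m, (d ^ i • B ^ i) *ᵥ z = z := by
      intro i _
      rw [Matrix.smul_mulVec, hpow z hz i, smul_smul, ← mul_pow, hdc, one_pow, one_smul]
    rw [Finset.sum_congr rfl this, Finset.sum_const, Finset.card_range, ← Nat.cast_smul_eq_nsmul (ZMod p)]
  -- (3) trace
  have htrQ : Q.trace = (m : ZMod p) := by
    rw [hQ, Matrix.trace_sum]
    have h1 : ∀ i ∈ Finset.range m, (d ^ i • B ^ i).trace =
        (if i = 0 then ((r : ZMod p) + 1) else 0) - d ^ i := by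
      intro i hi
      rw [Matrix.trace_smul]
      by_cases h0 : i = 0
      · subst h0
        simp
      · rw [htr i (Nat.pos_of_ne_zero h0) (Finset.mem_range.mp hi), if_neg h0]
        simp
    rw [Finset.sum_congr rfl h1, Finset.sum_sub_distrib, hgeom, sub_zero,
      Finset.sum_ite_eq' (Finset.range m) 0, if_pos (Finset.mem_range.mpr (by omega)), hm]
    push_cast
    ring
  -- (4) the projector
  set E : Matrix (Fin r) (Fin r) (ZMod p) := (m : ZMod p)⁻¹ • Q with hE
  set W : Submodule (ZMod p) (Fin r → ZMod p) :=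
    LinearMap.ker (Matrix.toLin' B - c • LinearMap.id) with hW
  have hmemW : ∀ z : Fin r → ZMod p, z ∈ W ↔ B *ᵥ z = c • z := by
    intro z
    rw [hW, LinearMap.mem_ker, LinearMap.sub_apply, LinearMap.smul_apply, LinearMap.id_apply,
      Matrix.toLin'_apply, sub_eq_zero]
  have hproj : LinearMap.IsProj W (Matrix.toLin' E) := by
    refine ⟨fun z => ?_, fun z hz => ?_⟩
    · rw [hmemW, Matrix.toLin'_apply, Matrix.mulVec_mulVec, hE, Matrix.mul_smul, hBQ, smul_comm,
        Matrix.smul_mulVec]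
    · rw [Matrix.toLin'_apply, hE, Matrix.smul_mulVec, hQz z ((hmemW z).mp hz), smul_smul,
        inv_mul_cancel₀ hm0, one_smul]
  have htrE : LinearMap.trace (ZMod p) _ (Matrix.toLin' E) = 1 := by
    rw [Matrix.trace_toLin'_eq, hE, Matrix.trace_smul, htrQ, smul_eq_mul, inv_mul_cancel₀ hm0]
  have hfr : ((finrank (ZMod p) W : ℕ) : ZMod p) = 1 := by
    rw [← hproj.trace, htrE]
  have hle : finrank (ZMod p) W ≤ r := by
    have := Submodule.finrank_le W
    rwa [Module.finrank_fintype_fun_eq_card, Fintype.card_fin] at this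
  have hfr1 : finrank (ZMod p) W = 1 := by
    have h1 : ((finrank (ZMod p) W : ℕ) : ZMod p) = ((1 : ℕ) : ZMod p) := by
      rw [hfr, Nat.cast_one]
    rw [ZMod.natCast_eq_natCast_iff'] at h1
    rw [Nat.mod_eq_of_lt (by omega), Nat.mod_eq_of_lt hp.one_lt] at h1
    exact h1
  have hyW : y ∈ W := (hmemW y).mpr hy
  have hxW : x ∈ W := (hmemW x).mpr hx
  have hy0' : (⟨y, hyW⟩ : W) ≠ 0 := by
    intro h
    apply hy0
    exact congrArg Subtype.val h
  obtain ⟨k, hk⟩ := (finrank_eq_one_iff_of_nonzero' (⟨y, hyW⟩ : W) hy0').mp hfr1 ⟨x, hxW⟩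
  refine ⟨k, ?_⟩
  have := congrArg Subtype.val hk
  simpa using this.symm

end Fermat.Agent.S14
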