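import Mathlib

set_option autoImplicit false
set_option maxSynthPendingDepth 3
set_option linter.unusedSectionVars false

/-!
# S14, work package B4 (`unit_eigen`), part B: exponent and logarithm vectors of units

For a number field `F` and `σ ∈ Gal(F/ℚ)`: the exponent vector `un_expv` of a unit with respect
to Mathlib's fundamental system, the real vector `un_logv` of logarithms at the infinite places,
and the integer matrix `un_mat σ` of `σ` acting on units modulo torsion.
-/

namespace Fermat.Agent.S14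

open NumberField NumberField.Units NumberField.InfinitePlace Module

variable (F : Type*) [Field F] [NumberField F]

/-- Exponent vector of a unit with respect to `fundSystem`. -/
noncomputable def un_expv (x : (𝓞 F)ˣ) : Fin (Units.rank F) → ℤ :=
  ⇑((basisModTorsion F).repr (Additive.ofMul (QuotientGroup.mk x : (𝓞 F)ˣ ⧸ torsion F)))

theorem un_expv_mul (x y : (𝓞 F)ˣ) : un_expv F (x * y) = un_expv F x + un_expv F y := by
  unfold un_expv
  rw [QuotientGroup.mk_mul, ofMul_mul, map_add, Finsupp.coe_add]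

theorem un_expv_one : un_expv F 1 = 0 := by
  unfold un_expv
  rw [QuotientGroup.mk_one, ofMul_one, map_zero, Finsupp.coe_zero]

theorem un_expv_inv (x : (𝓞 F)ˣ) : un_expv F x⁻¹ = - un_expv F x := by
  have h := un_expv_mul F x x⁻¹
  rw [mul_inv_cancel, un_expv_one] at h
  exact eq_neg_of_add_eq_zero_right h.symm

theorem un_expv_pow (x : (𝓞 F)ˣ) (n : ℕ) : un_expv F (x ^ n) = n • un_expv F x := by
  induction n with
  | zero => simp [un_expv_one]
  | succ n ih => rw [pow_succ, un_expv_mul, ih, succ_nsmul]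

theorem un_expv_zpow (x : (𝓞 F)ˣ) (n : ℤ) : un_expv F (x ^ n) = n • un_expv F x := by
  cases n with
  | ofNat n => simp [un_expv_pow]
  | negSucc n =>
    rw [zpow_negSucc, un_expv_inv, un_expv_pow, negSucc_zsmul]

theorem un_expv_prod {ι : Type*} (s : Finset ι) (f : ι → (𝓞 F)ˣ) :
    un_expv F (∏ i ∈ s, f i) = ∑ i ∈ s, un_expv F (f i) := by
  classical
  induction s using Finset.induction_on with
  | empty => simp [un_expv_one]
  | insert a s ha ih => rw [Finset.prod_insert ha, Finset.sum_insert ha, un_expv_mul, ih]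

theorem un_expv_eq_zero_iff (x : (𝓞 F)ˣ) : un_expv F x = 0 ↔ x ∈ torsion F := by
  unfold un_expv
  rw [← Finsupp.coe_zero, DFunLike.coe_fn_eq, map_eq_zero_iff _ (basisModTorsion F).repr.injective,
    ofMul_eq_zero, QuotientGroup.eq_one_iff]

theorem un_exists_decomp (x : (𝓞 F)ˣ) :
    ∃ ζ ∈ torsion F, x = ζ * ∏ i, fundSystem F i ^ (un_expv F x i) := by
  obtain ⟨⟨ζ, e⟩, h, -⟩ := exist_unique_eq_mul_prod F x
  have he := fun_eq_repr F ζ.2 h
  refine ⟨ζ, ζ.2, ?_⟩
  simp only at h he
  subst he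
  exact h

theorem un_expv_fundSystem (j : Fin (Units.rank F)) :
    un_expv F (fundSystem F j) = Pi.single j 1 := by
  unfold un_expv
  rw [fundSystem_mk, Basis.repr_self]
  ext i
  simp [Finsupp.single_apply, Pi.single_apply, eq_comm]

/-- Vector of logarithms of the absolute values of a unit at the infinite places. -/
noncomputable def un_logv (x : (𝓞 F)ˣ) : InfinitePlace F → ℝ :=
  fun w => Real.log (w (algebraMap (𝓞 F) F x))

theorem un_logv_mul (x y : (𝓞 F)ˣ) : un_logv F (x * y) = un_logv F x + un_logv F y := by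
  ext w
  simp only [un_logv, Units.val_mul, map_mul, Pi.add_apply]
  rw [Real.log_mul]
  · exact (map_ne_zero w).mpr ((map_ne_zero_iff _ (RingOfIntegers.coe_injective)).mpr x.ne_zero)
  · exact (map_ne_zero w).mpr ((map_ne_zero_iff _ (RingOfIntegers.coe_injective)).mpr y.ne_zero)

theorem un_logv_one : un_logv F 1 = 0 := by
  ext w
  simp [un_logv]

theorem un_logv_inv (x : (𝓞 F)ˣ) : un_logv F x⁻¹ = - un_logv F x := by
  have h := un_logv_mul F x x⁻¹
  rw [mul_inv_cancel, un_logv_one] at h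
  exact eq_neg_of_add_eq_zero_right h.symm

theorem un_logv_pow (x : (𝓞 F)ˣ) (n : ℕ) : un_logv F (x ^ n) = (n : ℝ) • un_logv F x := by
  induction n with
  | zero => simp [un_logv_one]
  | succ n ih => rw [pow_succ, un_logv_mul, ih, Nat.cast_succ, add_smul, one_smul]

theorem un_logv_zpow (x : (𝓞 F)ˣ) (n : ℤ) : un_logv F (x ^ n) = (n : ℝ) • un_logv F x := by
  cases n with
  | ofNat n => simp [un_logv_pow]
  | negSucc n =>
    rw [zpow_negSucc, un_logv_inv, un_logv_pow, Int.cast_negSucc, neg_smul]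

theorem un_logv_prod {ι : Type*} (s : Finset ι) (f : ι → (𝓞 F)ˣ) :
    un_logv F (∏ i ∈ s, f i) = ∑ i ∈ s, un_logv F (f i) := by
  classical
  induction s using Finset.induction_on with
  | empty => simp [un_logv_one]
  | insert a s ha ih => rw [Finset.prod_insert ha, Finset.sum_insert ha, un_logv_mul, ih]

theorem un_logv_torsion {x : (𝓞 F)ˣ} (hx : x ∈ torsion F) : un_logv F x = 0 := by
  ext w
  simp [un_logv, (mem_torsion F).mp hx w]

theorem un_logv_eq_sum (x : (𝓞 F)ˣ) :
    un_logv F x = ∑ i, (un_expv F x i : ℝ) • un_logv F (fundSystem F i) := by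
  obtain ⟨ζ, hζ, h⟩ := un_exists_decomp F x
  conv_lhs => rw [h]
  rw [un_logv_mul, un_logv_torsion F hζ, zero_add, un_logv_prod]
  refine Finset.sum_congr rfl fun i _ => ?_
  rw [un_logv_zpow]

theorem un_sum_mult_logv (x : (𝓞 F)ˣ) : ∑ w, (mult w : ℝ) * un_logv F x w = 0 :=
  sum_mult_mul_log x

theorem un_logv_linearIndependent :
    LinearIndependent ℝ (fun i => un_logv F (fundSystem F i)) := by
  classical
  set b := Basis.ofZLatticeBasis ℝ (unitLattice F) (basisUnitLattice F) with hb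
  set R : (InfinitePlace F → ℝ) →ₗ[ℝ] (dirichletUnitTheorem.logSpace F) :=
    { toFun := fun f w => (mult w.1 : ℝ) * f w.1
      map_add' := fun f g => by ext w; simp [mul_add]
      map_smul' := fun c f => by ext w; simp; ring } with hR
  apply LinearIndependent.of_comp R
  have : (R ∘ fun i => un_logv F (fundSystem F i)) = b := by
    ext i w
    rw [hb, Basis.ofZLatticeBasis_apply, ← logEmbedding_fundSystem,
      dirichletUnitTheorem.logEmbedding_component]
    rfl
  rw [this]
  exact b.linearIndependent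

/-- The action of `σ ∈ Gal(F/ℚ)` on units. -/
noncomputable def un_unitMap (σ : F ≃ₐ[ℚ] F) : (𝓞 F)ˣ →* (𝓞 F)ˣ :=
  Units.map ((galRestrict ℤ ℚ F (𝓞 F) σ : 𝓞 F ≃ₐ[ℤ] 𝓞 F) : 𝓞 F →* 𝓞 F)

theorem un_coe_unitMap (σ : F ≃ₐ[ℚ] F) (x : (𝓞 F)ˣ) :
    algebraMap (𝓞 F) F (un_unitMap F σ x : (𝓞 F)ˣ) = σ (algebraMap (𝓞 F) F x) :=
  algebraMap_galRestrict_apply ℤ σ (x : 𝓞 F)

theorem un_logv_unitMap (σ : F ≃ₐ[ℚ] F) (x : (𝓞 F)ˣ) (w : InfinitePlace F) :
    un_logv F (un_unitMap F σ x) w = un_logv F x (σ⁻¹ • w) := by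
  simp only [un_logv]
  rw [un_coe_unitMap, InfinitePlace.smul_apply]
  rfl

theorem un_unitMap_torsion (σ : F ≃ₐ[ℚ] F) {x : (𝓞 F)ˣ} (hx : x ∈ torsion F) :
    un_unitMap F σ x ∈ torsion F := by
  rw [mem_torsion] at hx ⊢
  intro w
  have := hx (σ⁻¹ • w)
  rw [InfinitePlace.smul_apply] at this
  rw [un_coe_unitMap]
  exact this

/-- The integer matrix of `σ` acting on units modulo torsion, in the basis `fundSystem`. -/
noncomputable def un_mat (σ : F ≃ₐ[ℚ] F) : Matrix (Fin (Units.rank F)) (Fin (Units.rank F)) ℤ :=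
  Matrix.of fun i j => un_expv F (un_unitMap F σ (fundSystem F j)) i

theorem un_mat_apply (σ : F ≃ₐ[ℚ] F) (i j : Fin (Units.rank F)) :
    un_mat F σ i j = un_expv F (un_unitMap F σ (fundSystem F j)) i := rfl

theorem un_expv_unitMap (σ : F ≃ₐ[ℚ] F) (x : (𝓞 F)ˣ) :
    un_expv F (un_unitMap F σ x) = (un_mat F σ).mulVec (un_expv F x) := by
  obtain ⟨ζ, hζ, h⟩ := un_exists_decomp F x
  conv_lhs => rw [h]
  rw [map_mul, map_prod, un_expv_mul,
    (un_expv_eq_zero_iff F _).mpr (un_unitMap_torsion F σ hζ), zero_add, un_expv_prod]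
  ext k
  simp only [map_zpow, un_expv_zpow, Finset.sum_apply, Pi.smul_apply, smul_eq_mul,
    Matrix.mulVec, dotProduct, un_mat_apply]
  refine Finset.sum_congr rfl fun i _ => ?_
  ring

theorem un_mat_rel (σ : F ≃ₐ[ℚ] F) (j : Fin (Units.rank F)) :
    (fun w => un_logv F (fundSystem F j) (σ⁻¹ • w)) =
      ∑ k, ((un_mat F σ) k j : ℝ) • un_logv F (fundSystem F k) := by
  have h := un_logv_eq_sum F (un_unitMap F σ (fundSystem F j))
  simp only [un_mat_apply]
  rw [← h]
  ext w
  rw [un_logv_unitMap]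

end Fermat.Agent.S14
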