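import Fermat.Agent.S14.UnA
import Fermat.Agent.S14.UnB
import Fermat.Agent.S14.Defs

set_option autoImplicit false
set_option maxSynthPendingDepth 3
set_option linter.unusedSectionVars false

/-!
# S14, work package B4 (`unit_eigen`), part C: the Galois action on the units of `ℚ(ζ_p)`

For a primitive root `g` mod `p` and `τ = σ_g`, the integer matrix `A` of `τ` on units modulo
torsion satisfies `A ^ m = 1` and `tr (A ^ i) = -1` for `0 < i < m`, where `m = (p - 1) / 2`.
-/

namespace Fermat.Agent.S14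

open NumberField NumberField.Units NumberField.InfinitePlace Finset

variable (p : ℕ) [Fact p.Prime]

/-- existence of a primitive root mod `p`, as a natural number -/
theorem un_exists_primroot : ∃ g : ℕ, orderOf (g : ZMod p) = p - 1 ∧ g.Coprime p := by
  obtain ⟨g₀, hg₀⟩ := IsCyclic.exists_generator (α := (ZMod p)ˣ)
  refine ⟨(g₀ : ZMod p).val, ?_, ?_⟩
  · rw [ZMod.natCast_zmod_val, orderOf_units, orderOf_eq_card_of_forall_mem_zpowers hg₀,
      Nat.card_eq_fintype_card, ZMod.card_units]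
  · exact ZMod.val_coe_unit_coprime g₀

theorem un_exists_tau (g : ℕ) (hg : g.Coprime p) :
    ∃ τ : K p ≃ₐ[ℚ] K p, τ (zeta p) = zeta p ^ g :=
  ⟨IsCyclotomicExtension.fromZetaAut ((zeta_spec p).pow_of_coprime g hg)
      (Polynomial.cyclotomic.irreducible_rat (Fact.out : p.Prime).pos),
    IsCyclotomicExtension.fromZetaAut_spec _ _⟩

variable {p}

theorem un_tau_pow {g : ℕ} {τ : K p ≃ₐ[ℚ] K p} (hτ : τ (zeta p) = zeta p ^ g) (i : ℕ) :
    (τ ^ i) (zeta p) = zeta p ^ (g ^ i) := by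
  induction i with
  | zero => simp
  | succ i ih =>
    rw [pow_succ', AlgEquiv.mul_apply, ih, map_pow, hτ, ← pow_mul, ← pow_succ']

theorem un_zeta_pow_eq_iff (a b : ℕ) :
    zeta p ^ a = zeta p ^ b ↔ (a : ZMod p) = (b : ZMod p) := by
  rw [((zeta_spec p).isOfFinOrder (Fact.out : p.Prime).ne_zero).pow_eq_pow_iff_modEq,
    ← (zeta_spec p).eq_orderOf, ZMod.natCast_eq_natCast_iff]

theorem un_tau_pow_eq_one {g : ℕ} {τ : K p ≃ₐ[ℚ] K p} (hτ : τ (zeta p) = zeta p ^ g)
    (hg : orderOf (g : ZMod p) = p - 1) (i : ℕ) (h : τ ^ i = 1) : (p - 1) ∣ i := by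
  have h1 := un_tau_pow hτ i
  rw [h, AlgEquiv.one_apply] at h1
  have h2 : zeta p ^ (g ^ i) = zeta p ^ 1 := by rw [← h1, pow_one]
  rw [un_zeta_pow_eq_iff] at h2
  rw [← hg, orderOf_dvd_iff_pow_eq_one]
  simpa using h2

/-- the number of infinite places of `ℚ(ζ_p)` -/
theorem un_card_places (hp5 : 5 ≤ p) :
    Fintype.card (InfinitePlace (K p)) = (p - 1) / 2 := by
  rw [card_eq_nrRealPlaces_add_nrComplexPlaces,
    IsCyclotomicExtension.Rat.nrRealPlaces_eq_zero (n := p) (K p) (by omega), zero_add,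
    IsCyclotomicExtension.Rat.nrComplexPlaces_eq_totient_div_two p (K p),
    Nat.totient_prime (Fact.out : p.Prime)]

theorem un_card_places_rank : Fintype.card (InfinitePlace (K p)) = Units.rank (K p) + 1 := by
  have := Fintype.card_pos (α := InfinitePlace (K p))
  unfold Units.rank
  omega

theorem un_sum_logv (hp5 : 5 ≤ p) (x : (𝓞 (K p))ˣ) : ∑ w, un_logv (K p) x w = 0 := by
  have h := un_sum_mult_logv (K p) x
  have hc : IsTotallyComplex (K p) :=
    IsCyclotomicExtension.Rat.isTotallyComplex (n := p) (K p) (by omega)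
  have h2 : ∀ w : InfinitePlace (K p), (mult w : ℝ) = 2 := by
    intro w
    have hw : ¬ IsReal w := not_isReal_iff_isComplex.mpr (hc.isComplex w)
    simp [mult, hw]
  simp only [h2, ← Finset.mul_sum] at h
  linarith

/-- iterating the action of `τ⁻¹` on the places -/
theorem un_iterate_smul (τ : K p ≃ₐ[ℚ] K p) (i : ℕ) (w : InfinitePlace (K p)) :
    (fun w : InfinitePlace (K p) => τ⁻¹ • w)^[i] w = (τ ^ i)⁻¹ • w := by
  induction i with
  | zero => simp
  | succ i ih =>
    rw [Function.iterate_succ_apply', ih, ← mul_smul, pow_succ, mul_inv_rev]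

theorem un_no_fixed {g : ℕ} {τ : K p ≃ₐ[ℚ] K p} (hτ : τ (zeta p) = zeta p ^ g)
    (hg : orderOf (g : ZMod p) = p - 1) (i : ℕ) (hi0 : 0 < i) (hi : i < (p - 1) / 2)
    (w : InfinitePlace (K p)) : (τ ^ i)⁻¹ • w ≠ w := by
  intro h
  have hmem : (τ ^ i)⁻¹ ∈ MulAction.stabilizer (K p ≃ₐ[ℚ] K p) w :=
    MulAction.mem_stabilizer_iff.mpr h
  have hsq : ((τ ^ i)⁻¹) ^ 2 = 1 := by
    have hc := nat_card_stabilizer_eq_one_or_two ℚ w
    have h1 : (⟨(τ ^ i)⁻¹, hmem⟩ : MulAction.stabilizer (K p ≃ₐ[ℚ] K p) w) ^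
        Nat.card (MulAction.stabilizer (K p ≃ₐ[ℚ] K p) w) = 1 := pow_card_eq_one'
    have h2 : (⟨(τ ^ i)⁻¹, hmem⟩ : MulAction.stabilizer (K p ≃ₐ[ℚ] K p) w) ^ 2 = 1 := by
      rcases hc with hc | hc
      · rw [hc, pow_one] at h1
        rw [h1, one_pow]
      · rw [hc] at h1
        exact h1
    exact congrArg Subtype.val h2
  have h3 : τ ^ (2 * i) = 1 := by
    rw [inv_pow, inv_eq_one, ← pow_mul] at hsq
    rw [mul_comm]
    exact hsq
  have h4 := un_tau_pow_eq_one hτ hg _ h3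
  have := Nat.le_of_dvd (by omega) h4
  omega

theorem un_primroot_pow_half {g : ℕ} (hp5 : 5 ≤ p) (hg : orderOf (g : ZMod p) = p - 1) :
    (g : ZMod p) ^ ((p - 1) / 2) = -1 := by
  have hp : p.Prime := Fact.out
  have hodd : p % 2 = 1 := by
    rcases hp.eq_two_or_odd with h | h
    · omega
    · exact h
  have h2 : ((g : ZMod p) ^ ((p - 1) / 2)) ^ 2 = 1 := by
    rw [← pow_mul, show (p - 1) / 2 * 2 = p - 1 by omega, ← hg, pow_orderOf_eq_one]
  rcases sq_eq_one_iff.mp h2 with h | h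
  · exfalso
    have hd := orderOf_dvd_of_pow_eq_one h
    rw [hg] at hd
    have := Nat.le_of_dvd (by omega) hd
    omega
  · exact h

theorem un_conj_smul {g : ℕ} {τ : K p ≃ₐ[ℚ] K p} (hp5 : 5 ≤ p) (hτ : τ (zeta p) = zeta p ^ g)
    (hg : orderOf (g : ZMod p) = p - 1) (w : InfinitePlace (K p)) :
    (τ ^ ((p - 1) / 2))⁻¹ • w = w := by
  have hp : p.Prime := Fact.out
  set σ := τ ^ ((p - 1) / 2) with hσ
  have hσζ : σ (zeta p) * zeta p = 1 := by
    rw [hσ, un_tau_pow hτ, ← pow_succ]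
    have h0 : zeta p ^ (g ^ ((p - 1) / 2) + 1) = zeta p ^ 0 := by
      rw [un_zeta_pow_eq_iff]
      push_cast
      rw [un_primroot_pow_half hp5 hg]
      ring
    rw [h0, pow_zero]
  have key : ∀ (φ : K p →+* ℂ) (x : K p), φ (σ x) = (starRingEnd ℂ) (φ x) := by
    intro φ
    have h1 : (φ.comp (σ : K p →+* K p)).toRatAlgHom = ((starRingEnd ℂ).comp φ).toRatAlgHom := by
      apply ((zeta_spec p).powerBasis ℚ).algHom_ext
      rw [IsPrimitiveRoot.powerBasis_gen]
      show φ (σ (zeta p)) = (starRingEnd ℂ) (φ (zeta p))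
      have hz1 : φ (zeta p) ^ p = 1 := by rw [← map_pow, (zeta_spec p).pow_eq_one, map_one]
      have hnorm : ‖φ (zeta p)‖ = 1 := Complex.norm_eq_one_of_pow_eq_one hz1 hp.ne_zero
      have hne : φ (zeta p) ≠ 0 := by
        intro h0
        rw [h0, norm_zero] at hnorm
        exact zero_ne_one hnorm
      have ha : φ (σ (zeta p)) * φ (zeta p) = 1 := by rw [← map_mul, hσζ, map_one]
      have hb : (starRingEnd ℂ) (φ (zeta p)) * φ (zeta p) = 1 := by
        rw [mul_comm, Complex.mul_conj, Complex.normSq_eq_norm_sq, hnorm]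
        simp
      exact mul_right_cancel₀ hne (ha.trans hb.symm)
    intro x
    exact congrArg (fun f : K p →ₐ[ℚ] ℂ => f x) h1
  ext x
  rw [InfinitePlace.smul_apply]
  show w (σ x) = w x
  rw [← mk_embedding w, InfinitePlace.apply, InfinitePlace.apply, key, RCLike.norm_conj]

variable (p) in
/-- the integer matrix of `τ` acting on the units modulo torsion -/
theorem un_mat_facts {g : ℕ} {τ : K p ≃ₐ[ℚ] K p} (hp5 : 5 ≤ p) (hτ : τ (zeta p) = zeta p ^ g)
    (hg : orderOf (g : ZMod p) = p - 1) :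
    (un_mat (K p) τ) ^ ((p - 1) / 2) = 1 ∧
    ∀ i, 0 < i → i < (p - 1) / 2 → ((un_mat (K p) τ) ^ i).trace = -1 := by
  classical
  have hA := un_mat_rel (K p) τ
  have hv := un_logv_linearIndependent (K p)
  refine ⟨?_, ?_⟩
  · refine un_pow_eq_one (fun w : InfinitePlace (K p) => τ⁻¹ • w)
      (fun j => un_logv (K p) (fundSystem (K p) j)) hv _ hA _ ?_
    intro w
    rw [un_iterate_smul]
    exact un_conj_smul hp5 hτ hg w
  · intro i hi0 hi
    have h1 := un_trace_eq (un_card_places_rank (p := p))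
      ((fun w : InfinitePlace (K p) => τ⁻¹ • w)^[i])
      (fun j => un_logv (K p) (fundSystem (K p) j)) hv
      (fun j => un_sum_logv hp5 _) ((un_mat (K p) τ) ^ i)
      (un_pow_rel _ _ _ hA i)
    have h2 : (Finset.univ.filter (fun w : InfinitePlace (K p) =>
        (fun w : InfinitePlace (K p) => τ⁻¹ • w)^[i] w = w)) = ∅ := by
      apply Finset.filter_eq_empty_iff.mpr
      intro w _
      rw [un_iterate_smul]
      exact un_no_fixed hτ hg i hi0 hi w
    rw [h2, Finset.card_empty, Nat.cast_zero] at h1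
    have h3 : (((un_mat (K p) τ ^ i).trace : ℤ) : ℝ) = ((-1 : ℤ) : ℝ) := by
      push_cast
      linarith
    exact_mod_cast h3

end Fermat.Agent.S14
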